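import Fermat.Agent.MCurve.RiemannRoch.Spaces
import Fermat.Agent.Galois.Places
import Fermat.Prelude.Def_ModularCurve_ArithmeticGalois
import Fermat.Prelude.Def_GaloisRep_Flat

/-!
Interfaces of the finite flat models of the torsion of `J₀(N)` at a good prime: the reduction of a
function field along a valuation ring of the constants, and integral coordinates on a finite Galois
module.
-/

set_option autoImplicit false

noncomputable section

namespace Fermat.Agent.MCurve.Flat

open AlgebraicCurve IsLocalRing
open Fermat.Agent.Galois (GQ)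

/-- A valuation ring `V` of `F` over the valuation ring `A` of the constants, with residue map `ρ`
into a function field `F'` over `k`, and the map `r` of the places. -/
structure RedModel (K F k F' : Type) [Field K] [Field F] [Algebra K F] [Field k] [Field F']
    [Algebra k F'] (A : ValuationSubring K) where
  /-- Residues of constants. -/
  π : A →+* k
  π_surjective : Function.Surjective π
  π_eq_zero : ∀ a : A, π a = 0 ↔ a ∈ maximalIdeal A
  /-- The valuation ring. -/
  V : ValuationSubring F
  const_mem : ∀ a : A, algebraMap K F a ∈ V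
  /-- The reduction. -/
  ρ : V →+* F'
  ρ_const : ∀ a : A, ρ ⟨algebraMap K F a, const_mem a⟩ = algebraMap k F' (π a)
  /-- Every function is a constant times a primitive one. -/
  scale : ∀ f : F, f ≠ 0 → ∃ (c : K) (u : V), ρ u ≠ 0 ∧ f = algebraMap K F c * (u : F)
  /-- Finitely many functions lie in the span of primitive ones with independent reductions. -/
  exists_orth : ∀ s : Finset F, ∃ (d : ℕ) (w : Fin d → V), LinearIndependent k (fun i => ρ (w i)) ∧
    (s : Set F) ⊆ Submodule.span K (Set.range fun i => ((w i : V) : F))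
  /-- The reduction of places. -/
  r : Place K F → Place k F'
  ord_ρ : ∀ u : V, ρ u ≠ 0 → ∀ D : Divisor K F, (∀ P, D P = P.ord (u : F)) →
    ∀ Q, Finsupp.mapDomain r D Q = Q.ord (ρ u)

/-- A place fixed by an open subgroup and by the decomposition elements acting trivially on the
roots of unity of order `ℓ ^ f - 1`. -/
def IsUnramPlace {F : Type} [Field F] [Algebra (AlgebraicClosure ℚ) F]
    [MulAction GQ (Place (AlgebraicClosure ℚ) F)] (A : ValuationSubring (AlgebraicClosure ℚ))
    (ℓ f : ℕ) (P : Place (AlgebraicClosure ℚ) F) : Prop :=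
  (∃ L : IntermediateField ℚ (AlgebraicClosure ℚ), FiniteDimensional ℚ L ∧
    ∀ σ : GQ, (∀ x ∈ L, σ x = x) → σ • P = P) ∧
  ∀ σ : GQ, σ ∈ A.decompositionSubgroup ℚ →
    (∀ ζ : AlgebraicClosure ℚ, ζ ^ (ℓ ^ f - 1) = 1 → σ ζ = ζ) → σ • P = P

instance instPlaceGalois (N : ℕ) :
    MulAction GQ (Place (AlgebraicClosure ℚ) (ModularCurve.modularFunctionFieldBar N)) :=
  MulAction.compHom _ (ModularCurve.arithmeticGalois (ModularCurve.modularFunctionFieldFull N))

/-- Integral coordinates on a finite Galois module: a finite family of functions with values in `A`,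
separating the points, equivariant for the decomposition elements trivial on the roots of unity of
order `ℓ ^ f - 1`, such that the coordinates of `-(x + y)` are integral polynomials in those of `x`
and `y`. -/
structure IntCoords (M : Type) [AddCommGroup M] [DistribMulAction GQ M]
    (A : ValuationSubring (AlgebraicClosure ℚ)) (ℓ : ℕ) where
  /-- The indices. -/
  ι : Type
  fintype_ι : Fintype ι
  /-- The coordinates. -/
  φ : ι → M → A
  sep : Function.Injective fun x i => φ i x
  /-- The residue degree. -/
  f : ℕ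
  f_pos : 0 < f
  equiv : ∀ σ : GQ, σ ∈ A.decompositionSubgroup ℚ →
    (∀ ζ : AlgebraicClosure ℚ, ζ ^ (ℓ ^ f - 1) = 1 → σ ζ = ζ) →
    ∀ i x, (φ i (σ • x) : AlgebraicClosure ℚ) = σ (φ i x)
  isOpen_stab : ∃ L : IntermediateField ℚ (AlgebraicClosure ℚ), FiniteDimensional ℚ L ∧
    ∀ σ : GQ, (∀ x ∈ L, σ x = x) → ∀ x : M, σ • x = x
  flip : ∀ i, (fun p : M × M => φ i (-(p.1 + p.2))) ∈ Algebra.adjoin A
    (Set.range (fun j => fun p : M × M => φ j p.1) ∪ Set.range fun j => fun p : M × M => φ j p.2)

/-- A good model of `X₀(N)` at the place `A` over `ℓ`: a reduction preserving the genus, with enough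
places fixed by the inertia group. -/
structure GoodModel (N ℓ : ℕ) [NeZero N] (A : ValuationSubring (AlgebraicClosure ℚ))
    (k F' : Type) [Field k] [Field F'] [Algebra k F'] extends
    RedModel (AlgebraicClosure ℚ) (ModularCurve.modularFunctionFieldBar N) k F' A where
  exists_finOver : ∃ x : F', IsFinOver k x
  genus_eq : ∀ g c g' c' : ℕ,
    RR.IsRiemann (AlgebraicClosure ℚ) (ModularCurve.modularFunctionFieldBar N) g c →
      RR.IsRiemann k F' g' c' → g = g'
  exists_unram : ∀ s : Finset (Place k F'),
    ∃ (P : Place (AlgebraicClosure ℚ) (ModularCurve.modularFunctionFieldBar N)) (f : ℕ),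
      0 < f ∧ r P ∉ s ∧ IsUnramPlace A ℓ f P

/-- `M` is the group of points of a finite flat cocommutative Hopf algebra over `ℤ_(ℓ)`. -/
def HasFlatModel (M : Type) [AddCommGroup M] [DistribMulAction GQ M] (ℓ : ℕ) : Prop :=
  ∃ (H : Type) (_ : CommRing H) (_ : HopfAlgebra (GaloisRep.ratLocalizedAt ℓ) H),
    Module.Finite (GaloisRep.ratLocalizedAt ℓ) H ∧ Module.Flat (GaloisRep.ratLocalizedAt ℓ) H ∧
    Coalgebra.IsCocomm (GaloisRep.ratLocalizedAt ℓ) H ∧
    ∃ e : WithConv (H →ₐ[GaloisRep.ratLocalizedAt ℓ] AlgebraicClosure ℚ) ≃ M,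
      (∀ f g, e (f * g) = e f + e g) ∧
      ∀ (σ : GQ) (f g : WithConv (H →ₐ[GaloisRep.ratLocalizedAt ℓ] AlgebraicClosure ℚ)),
        (∀ h : H, g h = σ (f h)) → e g = σ • e f

end Fermat.Agent.MCurve.Flat
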