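/-
An algebraic integer fixed by an open subgroup containing the decomposition group of a place, equal
to one at the place and zero at the other conjugates of the place.
-/
import Fermat.Agent.Galois.Places
import Fermat.Agent.GalRep.Model.BaseField

set_option autoImplicit false
set_option linter.style.haveILetI false

noncomputable section

namespace Fermat.Agent.MCurve.Flat

open Fermat.Agent.Galois
open scoped Pointwise

local notation "ℚb" => AlgebraicClosure ℚ

variable {A : ValuationSubring ℚb} {ℓ : ℕ}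

/-- A power of `ℓ` clears the pole of an algebraic number. -/
theorem exists_pow_mul_mem_place (hℓ : ℓ.Prime) (hA : A.LiesOverPrime ℓ) (z : ℚb) :
    ∃ N : ℕ, (ℓ : ℚb) ^ N * z ∈ A := by
  obtain ⟨y, hy0, hy⟩ := ((IsFractionRing.isAlgebraic_iff ℤ ℚ ℚb).mpr
    (Algebra.IsAlgebraic.isAlgebraic (R := ℚ) z)).exists_integral_multiple
  rw [zsmul_eq_mul] at hy
  obtain ⟨k, hk⟩ := GalRep.Model.exists_pow_le_val A hℓ hA
    (_root_.isIntegral_algebraMap (R := ℤ) (A := ℚb) (x := y)) (by simpa using hy0)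
  refine ⟨k, (A.valuation_le_one_iff _).mp ?_⟩
  rw [map_mul, map_pow]
  refine le_trans (mul_le_mul_left hk _) ?_
  rw [eq_intCast, ← map_mul]
  exact (A.valuation_le_one_iff _).mpr (integralClosure_le A ⟨_, hy⟩)

theorem pow_mul_mem_mono (z : ℚb) {N N' : ℕ} (h : N ≤ N') (hz : (ℓ : ℚb) ^ N * z ∈ A) :
    (ℓ : ℚb) ^ N' * z ∈ A := by
  obtain ⟨d, rfl⟩ := Nat.exists_eq_add_of_le h
  rw [pow_add, mul_right_comm]
  exact mul_mem hz (pow_mem (by simp) _)

/-- One power of `ℓ` clears the poles of finitely many algebraic numbers. -/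
theorem exists_pow_mul_mem_finite (hℓ : ℓ.Prime) (hA : A.LiesOverPrime ℓ) {ι : Type*} [Finite ι]
    (z : ι → ℚb) : ∃ N : ℕ, ∀ i, (ℓ : ℚb) ^ N * z i ∈ A := by
  choose N hN using fun i => exists_pow_mul_mem_place hℓ hA (z i)
  obtain ⟨B, hB⟩ := Finite.exists_le N
  exact ⟨B, fun i => pow_mul_mem_mono _ (hB i) (hN i)⟩

/-- An algebraic integer in the centre has a power divisible by `ℓ`. -/
theorem exists_pow_dvd_of_mem_center (hℓ : ℓ.Prime) {x : ZBar} (hx : x ∈ placeCenter A) :
    ∃ K : ℕ, ∃ a ∈ A, (x : ℚb) ^ K = (ℓ : ℚb) * a := by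
  let S : Subalgebra ℤ ZBar := Algebra.adjoin ℤ {x}
  haveI : Module.Finite ℤ S := Module.Finite.iff_fg.mpr
    (IsIntegral.fg_adjoin_singleton (Algebra.IsIntegral.isIntegral x))
  let I : Ideal S := Ideal.span {(ℓ : S)}
  haveI : Finite (S ⧸ I) := by
    haveI : Module.Finite ℤ (S ⧸ I) :=
      Module.Finite.of_surjective (Ideal.Quotient.mkₐ ℤ I).toLinearMap Ideal.Quotient.mk_surjective
    refine Module.finite_of_fg_torsion _ fun q => ⟨⟨ℓ, ?_⟩, ?_⟩
    · exact mem_nonZeroDivisors_of_ne_zero (Int.natCast_ne_zero.mpr hℓ.ne_zero)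
    · obtain ⟨s, rfl⟩ := Ideal.Quotient.mk_surjective q
      show (ℓ : ℤ) • Ideal.Quotient.mk I s = 0
      rw [zsmul_eq_mul, Int.cast_natCast]
      have h0 : Ideal.Quotient.mk I (ℓ : S) = 0 :=
        Ideal.Quotient.eq_zero_iff_mem.mpr (Ideal.subset_span rfl)
      rw [map_natCast] at h0
      rw [h0, zero_mul]
  let xS : S := ⟨x, Algebra.subset_adjoin rfl⟩
  obtain ⟨i, j, hne, hij⟩ := Finite.exists_ne_map_eq_of_infinite
    fun k : ℕ => Ideal.Quotient.mk I (xS ^ k)
  wlog h : i < j generalizing i j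
  · exact this j i hne.symm hij.symm (lt_of_le_of_ne (not_lt.mp h) hne.symm)
  obtain ⟨d, rfl⟩ := Nat.exists_eq_add_of_le h.le
  rw [Ideal.Quotient.eq, Ideal.mem_span_singleton] at hij
  obtain ⟨c, hc⟩ := hij
  have hc' : (x : ℚb) ^ i - (x : ℚb) ^ (i + d) = (ℓ : ℚb) * ((c : ZBar) : ℚb) := by
    simpa [xS] using congrArg (fun z : S => ((z : ZBar) : ℚb)) hc
  have hxA : A.valuation (x : ℚb) < 1 :=
    A.mem_nonunits_iff.mp ((mem_placeCenter_iff A x).mp hx)
  have hu : A.valuation (1 - (x : ℚb) ^ d) = 1 := by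
    refine Valuation.map_one_sub_of_lt _ ?_
    rw [map_pow]
    exact pow_lt_one₀ zero_le hxA (by omega)
  refine ⟨i, ((c : ZBar) : ℚb) * (1 - (x : ℚb) ^ d)⁻¹, mul_mem (integralClosure_le A _)
    ((A.valuation_le_one_iff _).mp (by rw [map_inv₀, hu, inv_one])), ?_⟩
  have h0 : (1 - (x : ℚb) ^ d) ≠ 0 := fun h0 => by rw [h0, map_zero] at hu; exact zero_ne_one hu
  rw [← mul_assoc, eq_mul_inv_iff_mul_eq₀ h0, ← hc', pow_add]
  ring

/-- An algebraic integer fixed by `S`, one at the place, zero at the conjugates outside `S`. -/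
theorem exists_separating (hℓ : ℓ.Prime) (hA : A.LiesOverPrime ℓ) (S : Subgroup GQ)
    (hSo : IsOpen (S : Set GQ)) (hDS : A.decompositionSubgroup ℚ ≤ S) :
    ∃ e : ZBar, (∀ s ∈ S, s • e = e) ∧ e - 1 ∈ placeCenter A ∧
      ∀ g ∉ S, g • e ∈ placeCenter A := by
  classical
  letI : TopologicalSpace ZBar := ⊥
  haveI : DiscreteTopology ZBar := ⟨rfl⟩
  haveI : ContinuousSMul GQ ZBar := by
    refine ContinuousSMul.mk (continuous_prod_of_discrete_right.mpr fun b => ?_)
    refine (IsLocallyConstant.iff_exists_open _).mpr (fun σ => ?_) |>.continuous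
    refine ⟨σ • (MulAction.stabilizer GQ (b : ℚb) : Set GQ),
      (stabilizer_isOpen_of_isIntegral _).leftCoset σ, ⟨1, one_mem _, mul_one σ⟩, ?_⟩
    rintro _ ⟨τ, hτ, rfl⟩
    apply Subtype.ext
    simp only [SetLike.mem_coe, MulAction.mem_stabilizer_iff] at hτ
    simp [mul_smul, hτ]
  haveI : CompactSpace S :=
    isCompact_iff_compactSpace.mp (Subgroup.isClosed_of_isOpen S hSo).isCompact
  haveI : Finite (GQ ⧸ S) := Subgroup.quotient_finite_of_isOpen S hSo
  let R := FixedPoints.subalgebra ℤ ZBar S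
  haveI : Algebra.IsIntegral ℤ R :=
    ⟨fun r => (isIntegral_algHom_iff R.val Subtype.val_injective).mp
      (Algebra.IsIntegral.isIntegral (r : ZBar))⟩
  haveI : SMulCommClass S R ZBar := ⟨fun s r b => by
    show s • ((r : ZBar) * b) = (r : ZBar) * s • b
    rw [smul_mul', r.2 s]⟩
  haveI : Algebra.IsInvariant R ZBar S := ⟨fun b hb => ⟨⟨b, hb⟩, rfl⟩⟩
  let f : GQ → R →+* ZBar := fun g =>
    (MulSemiringAction.toRingHom GQ ZBar g).comp R.val.toRingHom
  let Q : GQ → Ideal R := fun g => (placeCenter A).comap (f g)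
  have hmem : ∀ g (r : R), r ∈ Q g ↔ g • (r : ZBar) ∈ placeCenter A := fun g r => Iff.rfl
  have hmax : ∀ g, (Q g).IsMaximal := fun g => by
    haveI : (Q g).IsPrime := Ideal.IsPrime.comap _
    refine Ideal.isMaximal_of_isIntegral_of_isMaximal_comap (R := ℤ) (Q g) ?_
    rw [show Ideal.comap (algebraMap ℤ R) (Q g) = Ideal.span {(ℓ : ℤ)} from Ideal.ext fun n => by
      rw [Ideal.mem_comap, hmem, Ideal.mem_span_singleton, ← intCast_mem_placeCenter hℓ hA n,
        eq_intCast]
      show MulSemiringAction.toRingHom GQ ZBar g (((n : R) : ZBar)) ∈ _ ↔ _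
      simp]
    exact PrincipalIdealRing.isMaximal_of_irreducible (Nat.prime_iff_prime_int.mp hℓ).irreducible
  have hne : ∀ g ∉ S, Q g ≠ Q 1 := by
    intro g hg heq
    haveI : ((placeCenter A).comap (MulSemiringAction.toRingHom GQ ZBar g)).IsPrime :=
      Ideal.IsPrime.comap _
    obtain ⟨s, hs⟩ := Algebra.IsInvariant.exists_smul_of_under_eq_of_profinite (A := R) (G := S)
      (placeCenter A) ((placeCenter A).comap (MulSemiringAction.toRingHom GQ ZBar g)) (by
        ext r
        have := SetLike.ext_iff.mp heq.symm r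
        rw [hmem, hmem, one_smul] at this
        exact this)
    have hd : g * (s : GQ) ∈ A.decompositionSubgroup ℚ := by
      refine smul_place_eq_of_center hℓ hA _ fun b => ?_
      have h1 : (s : GQ) • b ∈ (placeCenter A).comap (MulSemiringAction.toRingHom GQ ZBar g) ↔
          b ∈ placeCenter A := by
        rw [hs]
        exact Ideal.smul_mem_pointwise_smul_iff (a := s)
      rw [mul_smul]
      exact h1
    exact hg ((mul_mem_cancel_right s.2).mp (hDS hd))
  -- the Chinese remainder theorem over the cosets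
  let J : {q : GQ ⧸ S // q.out ∉ S} → Ideal R := fun q => Q q.1.out
  have hcop : Q 1 ⊔ ⨅ q : {q : GQ ⧸ S // q.out ∉ S}, J q = ⊤ := by
    haveI := Fintype.ofFinite (GQ ⧸ S)
    have := Ideal.sup_iInf_eq_top (I := Q 1) (J := J) (s := (Finset.univ : Finset _)) fun q _ =>
      ((hmax 1).coprime_of_ne (hmax _) (hne _ (fun h => q.2 (by simpa using h))).symm)
    simpa using this
  obtain ⟨a, ha, e, he, hae⟩ := Submodule.mem_sup.mp
    (hcop ▸ Submodule.mem_top : (1 : R) ∈ Q 1 ⊔ ⨅ q, J q)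
  refine ⟨(e : ZBar), fun s hs => e.2 ⟨s, hs⟩, ?_, fun g hg => ?_⟩
  · have h1 : e - 1 = -a := by rw [← hae]; ring
    have h2 := (hmem 1 (e - 1)).mp (h1 ▸ (Q 1).neg_mem ha)
    rw [one_smul] at h2
    exact h2
  · obtain ⟨s, hs⟩ := QuotientGroup.mk_out_eq_mul S g
    have hq : (QuotientGroup.mk g : GQ ⧸ S).out ∉ S := fun h => hg (by
      rw [hs, mul_mem_cancel_right s.2] at h
      exact h)
    have h1 := (hmem _ e).mp ((Submodule.mem_iInf J).mp he ⟨_, hq⟩)
    rw [hs, mul_smul, show (s : GQ) • (e : ZBar) = e from e.2 s] at h1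
    exact h1

end Fermat.Agent.MCurve.Flat
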