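/-
The algebra generated by the conjugates of integral coordinates under the decomposition group is
spanned by its equivariant elements.
-/
import Fermat.Agent.MCurve.Flat.Setup
import Fermat.Agent.MCurve.Flat.Separate

set_option autoImplicit false
set_option linter.style.haveILetI false
set_option linter.unusedSectionVars false

noncomputable section

namespace Fermat.Agent.MCurve.Flat

open Fermat.Agent.Galois
open scoped Pointwise

local notation "ℚb" => AlgebraicClosure ℚ

variable {M : Type} [AddCommGroup M] [DistribMulAction GQ M]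

/-- `σ` transported to functions on `M`. -/
def conjF (σ : GQ) : (M → ℚb) →+* (M → ℚb) :=
  RingHom.pi fun x => σ.toAlgHom.toRingHom.comp (Pi.evalRingHom (fun _ => ℚb) (σ⁻¹ • x))

@[simp] theorem conjF_apply (σ : GQ) (φ : M → ℚb) (x : M) : conjF σ φ x = σ (φ (σ⁻¹ • x)) := rfl

theorem conjF_mul (σ τ : GQ) (φ : M → ℚb) : conjF (σ * τ) φ = conjF σ (conjF τ φ) :=
  funext fun x => by simp [mul_smul]

theorem conjF_one (φ : M → ℚb) : conjF 1 φ = φ := funext fun x => by simp

theorem conjF_smul (σ : GQ) (c : ℚb) (φ : M → ℚb) : conjF σ (c • φ) = σ c • conjF σ φ :=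
  funext fun x => by simp

theorem conjF_single [DecidableEq M] (σ : GQ) (y : M) :
    conjF σ (Pi.single y (1 : ℚb)) = Pi.single (σ • y) 1 := funext fun x => by
  rcases eq_or_ne x (σ • y) with rfl | h
  · simp
  · rw [conjF_apply, Pi.single_eq_of_ne h, Pi.single_eq_of_ne, map_zero]
    exact fun he => h (by rw [← he, smul_inv_smul])

/-- Equivariant functions. -/
def IsEquiv (φ : M → ℚb) : Prop := ∀ σ : GQ, conjF σ φ = φ

theorem IsEquiv.apply {φ : M → ℚb} (h : IsEquiv φ) (σ : GQ) (x : M) : φ (σ • x) = σ (φ x) := by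
  conv_lhs => rw [← h σ]
  simp

/-- The stabiliser of a function. -/
def stabF (φ : M → ℚb) : Subgroup GQ where
  carrier := {σ | conjF σ φ = φ}
  one_mem' := conjF_one φ
  mul_mem' {σ τ} hσ hτ := by
    show conjF (σ * τ) φ = φ
    rw [conjF_mul, hτ, hσ]
  inv_mem' {σ} hσ := by
    show conjF σ⁻¹ φ = φ
    conv_lhs => rw [← (hσ : conjF σ φ = φ)]
    rw [← conjF_mul, inv_mul_cancel, conjF_one]

theorem mem_stabF {φ : M → ℚb} {σ : GQ} : σ ∈ stabF φ ↔ conjF σ φ = φ := Iff.rfl

variable {A : ValuationSubring ℚb} {ℓ : ℕ}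

theorem map_mem_place {σ : GQ} (hσ : σ ∈ A.decompositionSubgroup ℚ) {a : ℚb} (ha : a ∈ A) :
    σ a ∈ A := by
  have h : σ • A = A := hσ
  rw [← h, ValuationSubring.mem_pointwise_smul_iff_inv_smul_mem]
  simpa using ha

variable (C : IntCoords M A ℓ)

/-- A coordinate. -/
def coordQ (i : C.ι) : M → ℚb := fun x => (C.φ i x : ℚb)

/-- The conjugate coordinates. -/
def coordSet : Set (M → ℚb) :=
  {ψ | ∃ σ ∈ A.decompositionSubgroup ℚ, ∃ i, ψ = conjF σ (coordQ C i)}

/-- The algebra of the conjugate coordinates. -/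
def coordAlg : Subalgebra A (M → ℚb) := Algebra.adjoin A (coordSet C)

theorem coordQ_mem (i : C.ι) : coordQ C i ∈ coordAlg C :=
  Algebra.subset_adjoin ⟨1, one_mem _, i, (conjF_one _).symm⟩

theorem algebraMap_fun (a : A) : algebraMap A (M → ℚb) a = fun _ => (a : ℚb) := rfl

theorem conjF_mem_coordAlg {σ : GQ} (hσ : σ ∈ A.decompositionSubgroup ℚ) {b : M → ℚb}
    (hb : b ∈ coordAlg C) : conjF σ b ∈ coordAlg C := by
  induction hb using Algebra.adjoin_induction with
  | mem x hx =>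
    obtain ⟨τ, hτ, i, rfl⟩ := hx
    exact Algebra.subset_adjoin ⟨σ * τ, mul_mem hσ hτ, i, (conjF_mul _ _ _).symm⟩
  | algebraMap a =>
    have : conjF σ (algebraMap A (M → ℚb) a) =
        algebraMap A (M → ℚb) ⟨σ a, map_mem_place hσ a.2⟩ := funext fun x => rfl
    rw [this]
    exact Subalgebra.algebraMap_mem _ _
  | add x y _ _ hx hy => rw [map_add]; exact add_mem hx hy
  | mul x y _ _ hx hy => rw [map_mul]; exact mul_mem hx hy

theorem apply_mem_of_mem {b : M → ℚb} (hb : b ∈ coordAlg C) (x : M) : b x ∈ A := by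
  induction hb using Algebra.adjoin_induction generalizing x with
  | mem ψ hψ =>
    obtain ⟨σ, hσ, i, rfl⟩ := hψ
    exact map_mem_place hσ (C.φ i _).2
  | algebraMap a => exact a.2
  | add b c _ _ hb hc => exact add_mem (hb x) (hc x)
  | mul b c _ _ hb hc => exact mul_mem (hb x) (hc x)

/-- Fixed by the decomposition elements fixing the roots of unity of order `ℓ ^ f - 1`. -/
def IsNice (b : M → ℚb) : Prop :=
  ∀ τ ∈ A.decompositionSubgroup ℚ,
    (∀ ζ : ℚb, ζ ^ (ℓ ^ C.f - 1) = 1 → τ ζ = ζ) → conjF τ b = b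

theorem isNice_of_mem_closure {b : M → ℚb} (hb : b ∈ Submonoid.closure (coordSet C)) :
    IsNice C b := by
  induction hb using Submonoid.closure_induction with
  | mem ψ hψ =>
    obtain ⟨σ, hσ, i, rfl⟩ := hψ
    intro τ hτ hζ
    have hfix : conjF (σ⁻¹ * τ * σ) (coordQ C i) = coordQ C i := by
      have hd : σ⁻¹ * τ * σ ∈ A.decompositionSubgroup ℚ := mul_mem (mul_mem (inv_mem hσ) hτ) hσ
      have hz : ∀ ζ : ℚb, ζ ^ (ℓ ^ C.f - 1) = 1 → (σ⁻¹ * τ * σ) ζ = ζ := fun ζ h => by
        rw [AlgEquiv.mul_apply, AlgEquiv.mul_apply, hζ (σ ζ) (by rw [← map_pow, h, map_one])]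
        exact σ.symm_apply_apply ζ
      funext x
      rw [conjF_apply]
      have := C.equiv _ hd hz i ((σ⁻¹ * τ * σ)⁻¹ • x)
      rw [smul_inv_smul] at this
      exact this.symm
    calc conjF τ (conjF σ (coordQ C i)) = conjF σ (conjF (σ⁻¹ * τ * σ) (coordQ C i)) := by
          rw [← conjF_mul, ← conjF_mul, ← mul_assoc, ← mul_assoc, mul_inv_cancel, one_mul]
      _ = conjF σ (coordQ C i) := by rw [hfix]
  | one => intro τ _ _; rw [map_one]
  | mul x y _ _ hx hy => intro τ hτ hζ; rw [map_mul, hx τ hτ hζ, hy τ hτ hζ]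

include C in
/-- Every function has an open stabiliser. -/
theorem isOpen_stabF [Finite M] (φ : M → ℚb) : IsOpen (stabF φ : Set GQ) := by
  obtain ⟨L, hL, hfix⟩ := C.isOpen_stab
  haveI := hL
  haveI : FiniteDimensional ℚ (IntermediateField.adjoin ℚ (Set.range φ)) :=
    IntermediateField.finiteDimensional_adjoin fun x _ => Algebra.IsIntegral.isIntegral x
  haveI : FiniteDimensional ℚ ↥(L ⊔ IntermediateField.adjoin ℚ (Set.range φ)) :=
    IntermediateField.finiteDimensional_sup _ _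
  refine Subgroup.isOpen_mono (fun σ hσ => ?_)
    (IntermediateField.fixingSubgroup_isOpen (L ⊔ IntermediateField.adjoin ℚ (Set.range φ)))
  rw [IntermediateField.mem_fixingSubgroup_iff] at hσ
  rw [mem_stabF]
  funext x
  have hx : σ⁻¹ • x = x := by
    rw [inv_smul_eq_iff]
    exact (hfix σ (fun z hz => hσ z (SetLike.le_def.mp le_sup_left hz)) x).symm
  rw [conjF_apply, hx]
  exact hσ _ (SetLike.le_def.mp le_sup_right (IntermediateField.subset_adjoin ℚ _ ⟨x, rfl⟩))

section Span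

variable [Finite M]

/-- The indicator of a point, scaled. -/
def pointFun (N : ℕ) (x : M) : M → ℚb := by
  classical exact (ℓ : ℚb) ^ N • Pi.single x 1

theorem exists_pointFun_mem (hℓ : ℓ.Prime) (hA : A.LiesOverPrime ℓ) :
    ∃ N : ℕ, ∀ x : M, pointFun (ℓ := ℓ) N x ∈ coordAlg C := by
  classical
  haveI := Fintype.ofFinite M
  have hsep : ∀ x y : M, y ≠ x → ∃ i, C.φ i y ≠ C.φ i x := fun x y h =>
    Function.ne_iff.mp (C.sep.ne h)
  choose i hi using hsep
  let c : M → ℚb := fun x => ∏ y ∈ (Finset.univ.erase x).attach,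
    ((C.φ (i x y.1 (Finset.ne_of_mem_erase y.2)) x : ℚb) -
      (C.φ (i x y.1 (Finset.ne_of_mem_erase y.2)) y.1 : ℚb))
  have hc : ∀ x, c x ≠ 0 := fun x => Finset.prod_ne_zero_iff.mpr fun y _ =>
    sub_ne_zero.mpr fun h => hi x y.1 (Finset.ne_of_mem_erase y.2) (Subtype.ext h.symm)
  have hmem : ∀ x, c x • Pi.single x (1 : ℚb) ∈ coordAlg C := fun x => by
    have he : c x • Pi.single x (1 : ℚb) = ∏ y ∈ (Finset.univ.erase x).attach,
        (coordQ C (i x y.1 (Finset.ne_of_mem_erase y.2)) -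
          algebraMap A (M → ℚb) (C.φ (i x y.1 (Finset.ne_of_mem_erase y.2)) y.1)) := by
      funext z
      rw [Finset.prod_apply, Pi.smul_apply, smul_eq_mul]
      rcases eq_or_ne z x with rfl | hz
      · rw [Pi.single_eq_same, mul_one]
        rfl
      · rw [Pi.single_eq_of_ne hz, mul_zero, eq_comm,
          Finset.prod_eq_zero (Finset.mem_attach _ ⟨z, Finset.mem_erase.mpr ⟨hz, Finset.mem_univ z⟩⟩)]
        exact sub_self _
    rw [he]
    exact Subalgebra.prod_mem _ fun y _ => sub_mem (coordQ_mem C _) (Subalgebra.algebraMap_mem _ _)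
  obtain ⟨N, hN⟩ := exists_pow_mul_mem_finite hℓ hA fun x => (c x)⁻¹
  refine ⟨N, fun x => ?_⟩
  have he : pointFun (ℓ := ℓ) N x = (⟨_, hN x⟩ : A) • (c x • Pi.single x (1 : ℚb)) := by
    funext z
    show ((ℓ : ℚb) ^ N • Pi.single x (1 : ℚb)) z = ((ℓ : ℚb) ^ N * (c x)⁻¹) *
      (c x * Pi.single (M := fun _ : M => ℚb) x (1 : ℚb) z)
    rw [Pi.smul_apply, smul_eq_mul, mul_assoc, inv_mul_cancel_left₀ (hc x)]
  rw [he]
  exact Subalgebra.smul_mem _ (hmem x) _

/-- Functions with values divisible by `ℓ ^ (N + 1)` lie in `ℓ` times the scaled indicators. -/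
theorem mem_smul_span_pointFun {N : ℕ} {ψ : M → ℚb}
    (h : ∀ x, ∃ a ∈ A, ψ x = (ℓ : ℚb) ^ (N + 1) * a) :
    ψ ∈ Ideal.span {(ℓ : A)} • Submodule.span A (Set.range (pointFun (ℓ := ℓ) (M := M) N)) := by
  classical
  haveI := Fintype.ofFinite M
  choose a ha hψ using h
  have he : ψ = ∑ x, (ℓ : A) • ((⟨a x, ha x⟩ : A) • pointFun (ℓ := ℓ) N x) := by
    funext z
    rw [Finset.sum_apply, hψ, Finset.sum_eq_single z]
    · show _ = (ℓ : ℚb) * (a z * ((ℓ : ℚb) ^ N * Pi.single (M := fun _ : M => ℚb) z 1 z))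
      rw [Pi.single_eq_same]
      ring
    · intro x _ hx
      show (ℓ : ℚb) * (a x * ((ℓ : ℚb) ^ N * Pi.single (M := fun _ : M => ℚb) x 1 z)) = 0
      rw [Pi.single_eq_of_ne hx.symm]
      ring
    · simp
  rw [he]
  exact sum_mem fun x _ => Submodule.smul_mem_smul (Ideal.mem_span_singleton_self _)
    (Submodule.smul_mem _ _ (Submodule.subset_span ⟨x, rfl⟩))

/-- The equivariant elements of the coordinate algebra. -/
def equivSet : Set (M → ℚb) := {h | h ∈ coordAlg C ∧ IsEquiv h}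

/-- An element fixed by the decomposition group is congruent to the span of the equivariant ones. -/
theorem mem_sup_of_fixed (hℓ : ℓ.Prime) (hA : A.LiesOverPrime ℓ) {N : ℕ}
    (hN : ∀ x : M, pointFun (ℓ := ℓ) N x ∈ coordAlg C) {t : M → ℚb} (ht : t ∈ coordAlg C)
    (hD : ∀ σ ∈ A.decompositionSubgroup ℚ, conjF σ t = t) :
    t ∈ Submodule.span A (equivSet C) ⊔
      Ideal.span {(ℓ : A)} • Submodule.span A (Set.range (pointFun (ℓ := ℓ) (M := M) N)) := by
  classical
  set S := stabF t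
  have hSo := isOpen_stabF C t
  obtain ⟨e, heS, he1, heg⟩ := exists_separating hℓ hA S hSo hD
  haveI : Finite (GQ ⧸ S) := Subgroup.quotient_finite_of_isOpen S hSo
  haveI := Fintype.ofFinite (GQ ⧸ S)
  let q1 : GQ ⧸ S := QuotientGroup.mk 1
  obtain ⟨Nt, hNt⟩ := exists_pow_mul_mem_finite hℓ hA
    fun z : (GQ ⧸ S) × M => conjF z.1.out t z.2
  choose K hK using fun q : {q : GQ ⧸ S // q ≠ q1} =>
    exists_pow_dvd_of_mem_center (A := A) hℓ (heg q.1.out fun h => q.2 (by
      show q.1 = QuotientGroup.mk 1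
      rw [← QuotientGroup.out_eq' q.1, QuotientGroup.eq, mul_one]
      exact inv_mem h))
  obtain ⟨Kb, hKb⟩ := Finite.exists_le K
  set m := (Kb + 1) * (N + 1 + Nt)
  set u : ℚb := (e : ℚb) ^ m with hu
  have hsmall : ∀ q : GQ ⧸ S, q ≠ q1 → ∃ a ∈ A, q.out u = (ℓ : ℚb) ^ (N + 1 + Nt) * a := by
    intro q hq
    obtain ⟨a, ha, hea⟩ := hK ⟨q, hq⟩
    have hK1 : K ⟨q, hq⟩ ≤ Kb + 1 := le_trans (hKb _) (Nat.le_succ _)
    have hge : q.out (e : ℚb) ∈ A := integralClosure_le A (q.out • e)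
    refine ⟨a ^ (N + 1 + Nt) * (q.out (e : ℚb)) ^ ((Kb + 1 - K ⟨q, hq⟩) * (N + 1 + Nt)),
      mul_mem (pow_mem ha _) (pow_mem hge _), ?_⟩
    rw [hu, map_pow, ← mul_assoc, ← mul_pow, ← hea]
    show (q.out (e : ℚb)) ^ m = ((q.out (e : ℚb)) ^ K ⟨q, hq⟩) ^ (N + 1 + Nt) * _
    rw [← pow_mul, ← pow_add, ← add_mul,
      Nat.add_sub_cancel' hK1]
  have hu1 : A.valuation u = 1 := by
    have hlt : A.valuation ((e : ℚb) - 1) < 1 :=
      A.mem_nonunits_iff.mp ((mem_placeCenter_iff A (e - 1)).mp he1)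
    have h1 := Valuation.map_one_add_of_lt A.valuation hlt
    rw [add_sub_cancel] at h1
    rw [hu, map_pow, h1, one_pow]
  have huA : u ∈ A := pow_mem (integralClosure_le A e) _
  have huinv : u⁻¹ ∈ A := (A.valuation_le_one_iff _).mp (by rw [map_inv₀, hu1, inv_one])
  have hus : ∀ s ∈ S, conjF s (u • t) = u • t := fun s hs => by
    rw [conjF_smul, hu, map_pow, show s (e : ℚb) = e from congrArg Subtype.val (heS s hs),
      show conjF s t = t from hs]
  let h : M → ℚb := ∑ q : GQ ⧸ S, conjF q.out (u • t)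
  have hh : IsEquiv h := fun σ => by
    show conjF σ (∑ q : GQ ⧸ S, conjF q.out (u • t)) = _
    rw [map_sum]
    refine Fintype.sum_equiv (MulAction.toPerm σ) _ _ fun q => ?_
    obtain ⟨s, hs⟩ := QuotientGroup.mk_out_eq_mul S (σ * q.out)
    have : (MulAction.toPerm σ q).out = σ * q.out * s := by
      rw [← hs]
      show (σ • q).out = _
      congr 1
      conv_lhs => rw [← QuotientGroup.out_eq' q]
      rfl
    rw [this, conjF_mul (σ * q.out) s, hus _ s.2, conjF_mul]
  have hrest : ∀ q : GQ ⧸ S, q ≠ q1 → conjF q.out (u • t) ∈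
      Ideal.span {(ℓ : A)} • Submodule.span A (Set.range (pointFun (ℓ := ℓ) (M := M) N)) := by
    intro q hq
    refine mem_smul_span_pointFun fun x => ?_
    obtain ⟨a, ha, hua⟩ := hsmall q hq
    refine ⟨a * ((ℓ : ℚb) ^ Nt * conjF q.out t x), mul_mem ha (hNt (q, x)), ?_⟩
    rw [conjF_smul, Pi.smul_apply, smul_eq_mul, hua, pow_add]
    ring
  have hq1 : conjF q1.out (u • t) = u • t := by
    obtain ⟨s, hs⟩ := QuotientGroup.mk_out_eq_mul S 1
    rw [show q1.out = (s : GQ) by rw [hs, one_mul]]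
    exact hus _ s.2
  set rest := ∑ q ∈ Finset.univ.erase q1, conjF q.out (u • t) with hrestdef
  have hsum : h = u • t + rest := by
    show (∑ q : GQ ⧸ S, conjF q.out (u • t)) = _
    rw [← Finset.add_sum_erase _ _ (Finset.mem_univ q1), hq1]
  have hrest' : rest ∈ Ideal.span {(ℓ : A)} •
      Submodule.span A (Set.range (pointFun (ℓ := ℓ) (M := M) N)) :=
    sum_mem fun q hq => hrest q (Finset.ne_of_mem_erase hq)
  have hle : Ideal.span {(ℓ : A)} • Submodule.span A (Set.range (pointFun (ℓ := ℓ) (M := M) N)) ≤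
      Subalgebra.toSubmodule (coordAlg C) :=
    Submodule.smul_le_right.trans (Submodule.span_le.mpr (by rintro _ ⟨x, rfl⟩; exact hN x))
  have hhmem : h ∈ coordAlg C := by
    rw [hsum]
    exact add_mem (Subalgebra.smul_mem _ ht (⟨u, huA⟩ : A)) (hle hrest')
  have ht' : t = (⟨u⁻¹, huinv⟩ : A) • h - (⟨u⁻¹, huinv⟩ : A) • rest := by
    rw [hsum, smul_add, add_sub_cancel_right]
    funext x
    show t x = u⁻¹ * (u * t x)
    rw [inv_mul_cancel_left₀ (fun h0 => by rw [h0, map_zero] at hu1; exact zero_ne_one hu1)]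
  rw [ht']
  exact sub_mem (Submodule.mem_sup_left (Submodule.smul_mem _ _ (Submodule.subset_span ⟨hhmem, hh⟩)))
    (Submodule.mem_sup_right (Submodule.smul_mem _ _ hrest'))

/-- The coordinate algebra is spanned by its equivariant elements. -/
theorem coordAlg_le_span (hℓ : ℓ.Prime) (hA : A.LiesOverPrime ℓ) :
    Subalgebra.toSubmodule (coordAlg C) ≤ Submodule.span A (equivSet C) := by
  classical
  obtain ⟨N, hN⟩ := exists_pointFun_mem C hℓ hA
  set Y := Submodule.span A (Set.range (pointFun (ℓ := ℓ) (M := M) N))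
  set n := ℓ ^ C.f - 1 with hn
  have hlA : (ℓ : ℚb) ∈ A.nonunits := hA
  have hn1 : 1 ≤ ℓ ^ C.f := Nat.one_le_pow _ _ hℓ.pos
  have hn0 : 0 < n := Nat.sub_pos_of_lt (Nat.one_lt_pow C.f_pos.ne' hℓ.one_lt)
  haveI : NeZero n := ⟨hn0.ne'⟩
  have hnv : A.valuation (n : ℚb) = 1 := by
    have h1 : (n : ℚb) = -(1 - (ℓ : ℚb) ^ C.f) := by
      rw [hn, Nat.cast_sub hn1, Nat.cast_pow, Nat.cast_one, neg_sub]
    rw [h1, Valuation.map_neg]
    refine Valuation.map_one_sub_of_lt _ ?_
    rw [map_pow]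
    exact pow_lt_one₀ zero_le (A.mem_nonunits_iff.mp hlA) C.f_pos.ne'
  have hninv : (n : ℚb)⁻¹ ∈ A := (A.valuation_le_one_iff _).mp (by rw [map_inv₀, hnv, inv_one])
  obtain ⟨ζ, hζ⟩ := HasEnoughRootsOfUnity.exists_primitiveRoot ℚb n
  have key : Subalgebra.toSubmodule (coordAlg C) ≤
      Submodule.span A (equivSet C) ⊔ Ideal.span {(ℓ : A)} • Y := by
    rw [coordAlg, Algebra.adjoin_eq_span, Submodule.span_le]
    intro b hb
    have hbB : b ∈ coordAlg C := by
      have h1 : b ∈ Subalgebra.toSubmodule (Algebra.adjoin A (coordSet C)) := by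
        rw [Algebra.adjoin_eq_span]
        exact Submodule.subset_span hb
      exact h1
    have hnice := isNice_of_mem_closure C hb
    -- conjugates at the roots of unity
    let Z : Set ℚb := (fun σ : GQ => σ ζ) '' (A.decompositionSubgroup ℚ : Set GQ)
    have hZsub : Z ⊆ {z : ℚb | z ^ n = 1} := by
      rintro _ ⟨σ, -, rfl⟩
      show σ ζ ^ n = 1
      rw [← map_pow, hζ.pow_eq_one, map_one]
    haveI : Finite Z := Set.Finite.to_subtype ((Polynomial.nthRootsFinset n (1 : ℚb)).finite_toSet.subset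
      fun z hz => (Polynomial.mem_nthRootsFinset hn0 1).mpr (hZsub hz))
    haveI := Fintype.ofFinite Z
    choose s hsD hsz using fun z : Z => z.2
    have hsame : ∀ σ ∈ A.decompositionSubgroup ℚ, ∀ σ' ∈ A.decompositionSubgroup ℚ,
        σ ζ = σ' ζ → conjF σ b = conjF σ' b := by
      intro σ hσ σ' hσ' he
      have h1 : conjF (σ⁻¹ * σ') b = b := hnice _ (mul_mem (inv_mem hσ) hσ') fun z hz => by
        obtain ⟨i, -, rfl⟩ := hζ.eq_pow_of_pow_eq_one hz
        rw [map_pow, AlgEquiv.mul_apply, ← he]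
        exact congrArg (· ^ i) (σ.symm_apply_apply ζ)
      calc conjF σ b = conjF σ (conjF (σ⁻¹ * σ') b) := by rw [h1]
        _ = conjF σ' b := by rw [← conjF_mul, mul_inv_cancel_left]
    have hzA : ∀ z : Z, (z : ℚb) ∈ A := fun z =>
      integralClosure_le A ⟨z, IsIntegral.of_pow hn0 (by
        rw [hZsub z.2]; exact isIntegral_one)⟩
    let T : ℕ → (M → ℚb) := fun i => ∑ z : Z, (z : ℚb) ^ i • conjF (s z) b
    have hT : ∀ i, T i ∈ Submodule.span A (equivSet C) ⊔ Ideal.span {(ℓ : A)} • Y := by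
      intro i
      refine mem_sup_of_fixed C hℓ hA hN (sum_mem fun z _ => ?_) fun σ hσ => ?_
      · exact Subalgebra.smul_mem _ (conjF_mem_coordAlg C (hsD z) hbB)
          (⟨(z : ℚb) ^ i, pow_mem (hzA z) i⟩ : A)
      · show conjF σ (∑ z : Z, (z : ℚb) ^ i • conjF (s z) b) = _
        rw [map_sum]
        have hmap : ∀ z : Z, σ (z : ℚb) ∈ Z := fun z =>
          ⟨σ * s z, mul_mem hσ (hsD z), congrArg σ (hsz z)⟩
        let e : Z ≃ Z := Equiv.ofBijective (fun z => ⟨σ z, hmap z⟩)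
          (Finite.injective_iff_bijective.mp fun z z' h =>
            Subtype.ext (σ.injective (congrArg Subtype.val h)))
        refine Fintype.sum_equiv e _ _ fun z => ?_
        rw [conjF_smul, map_pow, ← conjF_mul]
        show σ (z : ℚb) ^ i • conjF (σ * s z) b = σ (z : ℚb) ^ i • conjF (s (e z)) b
        rw [hsame _ (mul_mem hσ (hsD z)) _ (hsD _) ((congrArg σ (hsz z)).trans (hsz (e z)).symm)]
    have hζZ : ζ ∈ Z := ⟨1, one_mem _, rfl⟩
    have hfour : b = ∑ i ∈ Finset.range n, ((n : ℚb)⁻¹ * ζ⁻¹ ^ i) • T i := by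
      simp only [T, Finset.smul_sum, smul_smul, mul_assoc, ← mul_pow]
      rw [Finset.sum_comm]
      simp only [← Finset.sum_smul, ← Finset.mul_sum]
      rw [Finset.sum_eq_single (⟨ζ, hζZ⟩ : Z)]
      · rw [inv_mul_cancel₀ (hζ.ne_zero hn0.ne')]
        simp only [one_pow, Finset.sum_const, Finset.card_range, nsmul_eq_mul, mul_one]
        rw [inv_mul_cancel₀ (Nat.cast_ne_zero.mpr hn0.ne'), one_smul,
          hsame _ (hsD _) 1 (one_mem _) (hsz _), conjF_one]
      · intro z _ hz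
        have h1 : (ζ⁻¹ * (z : ℚb)) ^ n = 1 := by
          rw [mul_pow, inv_pow, hζ.pow_eq_one, hZsub z.2, inv_one, one_mul]
        rw [geom_sum_eq (fun h => hz (Subtype.ext (by
          simpa [inv_mul_eq_one₀ (hζ.ne_zero hn0.ne'), eq_comm] using h))), h1, sub_self, zero_div,
          mul_zero, zero_smul]
      · simp
    rw [SetLike.mem_coe, hfour]
    refine sum_mem fun i _ => Submodule.smul_mem _ (⟨_, mul_mem hninv (pow_mem ?_ i)⟩ : A) (hT i)
    exact integralClosure_le A ⟨ζ⁻¹, IsIntegral.of_pow hn0 (by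
      rw [inv_pow, hζ.pow_eq_one, inv_one]; exact isIntegral_one)⟩
  have hY : Y ≤ Subalgebra.toSubmodule (coordAlg C) :=
    Submodule.span_le.mpr (by rintro _ ⟨x, rfl⟩; exact hN x)
  have hY' : Y ≤ Submodule.span A (equivSet C) := by
    refine Submodule.le_of_le_smul_of_le_jacobson_bot (Submodule.fg_span (Set.finite_range _)) ?_
      (hY.trans key)
    rw [IsLocalRing.jacobson_eq_maximalIdeal ⊥ bot_ne_top, Ideal.span_le,
      Set.singleton_subset_iff, SetLike.mem_coe, ← A.coe_mem_nonunits_iff]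
    simpa using hlA
  exact key.trans (sup_le le_rfl (Submodule.smul_le_right.trans hY'))

end Span

end Fermat.Agent.MCurve.Flat
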