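/-
The `ℤ_(ℓ)`-algebra of equivariant elements of the coordinate algebra: finite, free, with a basis
which is a basis of all functions over `ℚ̄`.
-/
import Fermat.Agent.MCurve.Flat.Descent
import Fermat.Agent.MCurve.IgusaIntegral
import Fermat.Agent.MCurve.RedLift
import Mathlib.LinearAlgebra.TensorProduct.Basis

set_option autoImplicit false
set_option linter.style.haveILetI false
set_option linter.unusedSectionVars false

noncomputable section

namespace Fermat.Agent.MCurve.Flat

open Fermat.Agent.Galois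
open scoped TensorProduct

local notation "ℚb" => AlgebraicClosure ℚ

/-- `ℤ_(ℓ)`. -/
abbrev Rl (ℓ : ℕ) : Subring ℚ := GaloisRep.ratLocalizedAt ℓ

variable {ℓ : ℕ} {A : ValuationSubring ℚb}

theorem algebraMap_Rl_apply (r : Rl ℓ) :
    algebraMap (Rl ℓ) ℚb r = algebraMap ℚ ℚb (r : ℚ) := rfl

theorem algebraMap_Rl_injective : Function.Injective (algebraMap (Rl ℓ) ℚb) :=
  fun r r' h => Subtype.ext ((algebraMap ℚ ℚb).injective h)

theorem map_algebraMap_Rl (σ : GQ) (r : Rl ℓ) :
    σ (algebraMap (Rl ℓ) ℚb r) = algebraMap (Rl ℓ) ℚb r :=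
  σ.commutes (r : ℚ)

/-- A number in `A` fixed by the Galois group lies in `ℤ_(ℓ)`. -/
theorem exists_Rl_of_fixed (hℓ : ℓ.Prime) (hA : A.LiesOverPrime ℓ) {z : ℚb} (hz : z ∈ A)
    (hfix : ∀ σ : GQ, σ z = z) : ∃ r : Rl ℓ, algebraMap (Rl ℓ) ℚb r = z := by
  obtain ⟨q, rfl⟩ := (InfiniteGalois.mem_range_algebraMap_iff_fixed z).mpr hfix
  refine ⟨⟨q, ?_⟩, rfl⟩
  show q.den.Coprime ℓ
  rw [Nat.coprime_comm, hℓ.coprime_iff_not_dvd]
  intro hd
  have hnum : ((q.num : ℤ) : ZBar) ∈ placeCenter A := by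
    rw [mem_placeCenter_iff, ValuationSubring.mem_nonunits_iff]
    have h1 : (((q.num : ℤ) : ZBar) : ℚb) = algebraMap ℚ ℚb q * (q.den : ℚb) := by
      rw [← map_natCast (algebraMap ℚ ℚb), ← map_mul, Rat.mul_den_eq_num]
      simp
    rw [h1, map_mul]
    refine lt_of_le_of_lt (mul_le_of_le_one_left' ((A.valuation_le_one_iff _).mpr hz)) ?_
    have hden : ((q.den : ℤ) : ZBar) ∈ placeCenter A :=
      (intCast_mem_placeCenter hℓ hA _).mpr (Int.natCast_dvd_natCast.mpr hd)
    rw [mem_placeCenter_iff, ValuationSubring.mem_nonunits_iff] at hden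
    simpa using hden
  rw [intCast_mem_placeCenter hℓ hA, Int.natCast_dvd] at hnum
  exact hℓ.ne_one (Nat.eq_one_of_dvd_coprimes q.reduced hnum hd)

variable {M : Type} [AddCommGroup M] [DistribMulAction GQ M]
variable [Fact ℓ.Prime] (hA : A.LiesOverPrime ℓ) (C : IntCoords M A ℓ)

theorem isEquiv_algebraMap (r : Rl ℓ) : IsEquiv (algebraMap (Rl ℓ) (M → ℚb) r) := fun σ =>
  funext fun x => map_algebraMap_Rl σ r

/-- The equivariant elements of the coordinate algebra. -/
def equivAlg : Subalgebra (Rl ℓ) (M → ℚb) where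
  carrier := equivSet C
  one_mem' := ⟨one_mem _, fun σ => map_one _⟩
  mul_mem' {a b} ha hb := ⟨mul_mem ha.1 hb.1, fun σ => by rw [map_mul, ha.2, hb.2]⟩
  zero_mem' := ⟨zero_mem _, fun σ => map_zero _⟩
  add_mem' {a b} ha hb := ⟨add_mem ha.1 hb.1, fun σ => by rw [map_add, ha.2, hb.2]⟩
  algebraMap_mem' r := by
    refine ⟨?_, isEquiv_algebraMap r⟩
    exact Subalgebra.algebraMap_mem (coordAlg C)
      (⟨algebraMap ℚ ℚb (r : ℚ), algebraMap_mem_place A hA r⟩ : A)

theorem mem_equivAlg {h : M → ℚb} : h ∈ equivAlg hA C ↔ h ∈ coordAlg C ∧ IsEquiv h := Iff.rfl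

variable [Finite M]

include hA in
/-- The equivariant elements span all functions. -/
theorem span_equivSet : Submodule.span ℚb (equivSet C) = ⊤ := by
  classical
  haveI := Fintype.ofFinite M
  have hℓ : ℓ.Prime := Fact.out
  obtain ⟨N, hN⟩ := exists_pointFun_mem C hℓ hA
  have hl : (ℓ : ℚb) ^ N ≠ 0 := pow_ne_zero _ (Nat.cast_ne_zero.mpr hℓ.ne_zero)
  have hsingle : ∀ x : M, Pi.single x (1 : ℚb) ∈ Submodule.span ℚb (equivSet C) := fun x => by
    have h1 : pointFun (ℓ := ℓ) N x ∈ Submodule.span ℚb (equivSet C) :=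
      Submodule.span_le_restrictScalars A ℚb _ (coordAlg_le_span C hℓ hA (hN x))
    have h2 := Submodule.smul_mem _ ((ℓ : ℚb) ^ N)⁻¹ h1
    unfold pointFun at h2
    rwa [smul_smul, inv_mul_cancel₀ hl, one_smul] at h2
  refine eq_top_iff.mpr fun φ _ => ?_
  rw [pi_eq_sum_univ' φ]
  exact sum_mem fun x _ => Submodule.smul_mem _ _ (by
    convert hsingle x using 1)

/-- Coordinates of the equivariant elements, with values in a free module of rank the order. -/
theorem exists_coeff : ∃ (ι : Type) (_ : Fintype ι) (Φ : equivAlg hA C →ₗ[Rl ℓ] (ι → Rl ℓ)),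
    Fintype.card ι = Module.finrank ℚb (M → ℚb) ∧ Function.Injective Φ := by
  classical
  have hℓ : ℓ.Prime := Fact.out
  haveI := Fintype.ofFinite M
  obtain ⟨b, hbsub, hbspan, hbind⟩ := exists_linearIndependent ℚb (equivSet C)
  haveI : Finite b := hbind.finite
  haveI := Fintype.ofFinite b
  let B : Module.Basis b ℚb (M → ℚb) := Module.Basis.mk hbind (by
    rw [Subtype.range_coe, hbspan, span_equivSet hA C])
  obtain ⟨N, hN⟩ := exists_pow_mul_mem_finite hℓ hA
    fun z : M × b => B.repr (Pi.single z.1 1) z.2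
  have hfix : ∀ (h : equivAlg hA C) (σ : GQ) (j : b),
      σ (B.repr (h : M → ℚb) j) = B.repr (h : M → ℚb) j := by
    intro h σ j
    have h1 : (∑ i, σ (B.repr (h : M → ℚb) i) • B i) = (h : M → ℚb) := by
      have hB : ∀ i, conjF σ (B i) = B i := fun i => by
        rw [Module.Basis.mk_apply]
        exact (hbsub i.2).2 σ
      calc (∑ i, σ (B.repr (h : M → ℚb) i) • B i)
          = conjF σ (∑ i, B.repr (h : M → ℚb) i • B i) := by
            rw [map_sum]
            exact Finset.sum_congr rfl fun i _ => by rw [conjF_smul, hB]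
        _ = _ := by rw [B.sum_repr]; exact h.2.2 σ
    have h2 := congrArg (fun φ => B.repr φ j) h1
    simpa [Finsupp.single_apply] using h2
  have hint : ∀ (h : equivAlg hA C) (j : b), (ℓ : ℚb) ^ N * B.repr (h : M → ℚb) j ∈ A := by
    intro h j
    have h1 : (h : M → ℚb) = ∑ x, (h : M → ℚb) x • Pi.single x (1 : ℚb) := by
      funext y
      simp [Finset.sum_apply, Pi.single_apply]
    rw [h1, map_sum, Finsupp.finsetSum_apply, Finset.mul_sum]
    refine sum_mem fun x _ => ?_
    rw [map_smul, Finsupp.smul_apply, smul_eq_mul, mul_left_comm]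
    exact mul_mem (apply_mem_of_mem C h.2.1 x) (hN (x, j))
  choose c hc using fun (h : equivAlg hA C) (j : b) =>
    exists_Rl_of_fixed hℓ hA (hint h j) fun σ => by rw [map_mul, map_pow, map_natCast, hfix]
  refine ⟨b, inferInstance,
    { toFun := fun h j => c h j
      map_add' := fun h h' => funext fun j => algebraMap_Rl_injective (by
        rw [Pi.add_apply, map_add, hc, hc, hc, AddMemClass.coe_add, map_add, Finsupp.add_apply,
          mul_add])
      map_smul' := fun r h => funext fun j => algebraMap_Rl_injective (by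
        rw [RingHom.id_apply, Pi.smul_apply, smul_eq_mul, map_mul, hc, hc, SetLike.val_smul,
          ← IsScalarTower.algebraMap_smul ℚb r (h : M → ℚb), map_smul, Finsupp.smul_apply,
          smul_eq_mul, mul_left_comm]) }, (Module.finrank_eq_card_basis B).symm, fun h h' he => ?_⟩
  refine Subtype.ext (B.repr.injective (Finsupp.ext fun j => ?_))
  have h1 := congrArg (algebraMap (Rl ℓ) ℚb) (congrFun he j)
  change algebraMap (Rl ℓ) ℚb (c h j) = algebraMap (Rl ℓ) ℚb (c h' j) at h1
  rw [hc, hc] at h1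
  exact mul_left_cancel₀ (pow_ne_zero _ (Nat.cast_ne_zero.mpr hℓ.ne_zero)) h1

theorem finite_equivAlg : Module.Finite (Rl ℓ) (equivAlg hA C) := by
  obtain ⟨ι, _, Φ, -, hΦ⟩ := exists_coeff hA C
  exact Module.Finite.of_injective Φ hΦ

theorem free_equivAlg : Module.Free (Rl ℓ) (equivAlg hA C) := by
  obtain ⟨ι, _, Φ, -, hΦ⟩ := exists_coeff hA C
  exact Module.Free.of_equiv (LinearEquiv.ofInjective Φ hΦ).symm

theorem flat_equivAlg : Module.Flat (Rl ℓ) (equivAlg hA C) := by
  haveI := free_equivAlg hA C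
  exact Module.Flat.of_free

/-- A basis of the equivariant elements which is a basis of all functions. -/
theorem exists_basis : ∃ (ι : Type) (_ : Fintype ι) (k : Module.Basis ι (Rl ℓ) (equivAlg hA C))
    (B : Module.Basis ι ℚb (M → ℚb)), ∀ i, B i = (k i : M → ℚb) := by
  classical
  haveI := Fintype.ofFinite M
  haveI := finite_equivAlg hA C
  haveI := free_equivAlg hA C
  obtain ⟨ι', _, Φ, hcard, hΦ⟩ := exists_coeff hA C
  let k := Module.Free.chooseBasis (Rl ℓ) (equivAlg hA C)
  have hle : Fintype.card (Module.Free.ChooseBasisIndex (Rl ℓ) (equivAlg hA C)) ≤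
      Module.finrank ℚb (M → ℚb) := by
    rw [← Module.finrank_eq_card_chooseBasisIndex, ← hcard,
      ← Module.finrank_fintype_fun_eq_card (Rl ℓ) (η := ι')]
    exact LinearMap.finrank_le_finrank_of_injective hΦ
  have hspan : ⊤ ≤ Submodule.span ℚb (Set.range fun i => (k i : M → ℚb)) := by
    rw [← span_equivSet hA C, Submodule.span_le]
    intro h hh
    have h1 := congrArg (Subtype.val : equivAlg hA C → M → ℚb) (k.sum_repr ⟨h, hh⟩)
    rw [SetLike.mem_coe, ← show _ = h from h1, AddSubmonoidClass.coe_finsetSum]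
    refine sum_mem fun i _ => ?_
    rw [SetLike.val_smul, ← IsScalarTower.algebraMap_smul ℚb]
    exact Submodule.smul_mem _ _ (Submodule.subset_span ⟨i, rfl⟩)
  exact ⟨_, inferInstance, k,
    Module.Basis.mk (linearIndependent_of_top_le_span_of_card_le_finrank hspan hle) hspan,
    fun i => Module.Basis.mk_apply _ _ i⟩

end Fermat.Agent.MCurve.Flat
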