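/-
Tensor products of modules of functions inside functions on products, and the characters of an
algebra of functions with a basis of all functions.
-/
import Mathlib

set_option autoImplicit false
set_option linter.style.haveILetI false
set_option linter.unusedSectionVars false

noncomputable section

namespace Fermat.Agent.MCurve.Flat

open scoped TensorProduct

section Product

variable {R K : Type*} [CommRing R] [Field K] [Algebra R K]

theorem linearIndependent_prod {X Y ι κ : Type*} [Fintype ι] [Fintype κ] {φ : ι → X → K}
    {ψ : κ → Y → K} (hφ : LinearIndependent K φ) (hψ : LinearIndependent K ψ) :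
    LinearIndependent K fun p : ι × κ => fun z : X × Y => φ p.1 z.1 * ψ p.2 z.2 := by
  refine Fintype.linearIndependent_iff.mpr fun c hc => ?_
  have h1 : ∀ y i, ∑ j, c (i, j) * ψ j y = 0 := fun y =>
    Fintype.linearIndependent_iff.mp hφ (fun i => ∑ j, c (i, j) * ψ j y) (funext fun x => by
      have := congrFun hc (x, y)
      simp only [Finset.sum_apply, Pi.smul_apply, smul_eq_mul, Pi.zero_apply,
        Fintype.sum_prod_type] at this ⊢
      rw [← this]
      refine Finset.sum_congr rfl fun i _ => ?_
      rw [Finset.sum_mul]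
      exact Finset.sum_congr rfl fun j _ => by ring)
  intro p
  refine Fintype.linearIndependent_iff.mp hψ (fun j => c (p.1, j)) (funext fun y => ?_) p.2
  simpa [Finset.sum_apply] using h1 y p.1

/-- A linear map from a tensor product which is the product of the evaluations is injective. -/
theorem injective_evalT {P Q ι κ X Y : Type*} [AddCommGroup P] [Module R P] [AddCommGroup Q]
    [Module R Q] [Fintype ι] [Fintype κ] (hRK : Function.Injective (algebraMap R K))
    (bP : Module.Basis ι R P) (bQ : Module.Basis κ R Q) (εP : P → X → K) (εQ : Q → Y → K)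
    (hP : LinearIndependent K fun i => εP (bP i)) (hQ : LinearIndependent K fun j => εQ (bQ j))
    (v : P ⊗[R] Q →ₗ[R] (X × Y → K)) (hv : ∀ p q z, v (p ⊗ₜ q) z = εP p z.1 * εQ q z.2) :
    LinearIndependent K (fun p => v (bP.tensorProduct bQ p)) ∧ Function.Injective v := by
  have he : (fun p => v (bP.tensorProduct bQ p)) =
      fun p : ι × κ => fun z => εP (bP p.1) z.1 * εQ (bQ p.2) z.2 := funext fun p => funext fun z => by
    rw [Module.Basis.tensorProduct_apply', hv]
  have hli : LinearIndependent K (fun p => v (bP.tensorProduct bQ p)) := by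
    rw [he]
    exact linearIndependent_prod (φ := fun i => εP (bP i)) (ψ := fun j => εQ (bQ j)) hP hQ
  refine ⟨hli, LinearMap.ker_eq_bot.mp ((Submodule.eq_bot_iff _).mpr fun t ht => ?_)⟩
  have hR : LinearIndependent R (fun p => v (bP.tensorProduct bQ p)) :=
    hli.restrict_scalars (by
      intro r r' h
      apply hRK
      simpa [Algebra.smul_def] using h)
  rw [← (bP.tensorProduct bQ).sum_repr t] at ht ⊢
  rw [LinearMap.mem_ker, map_sum] at ht
  simp only [map_smul] at ht
  have := Fintype.linearIndependent_iff.mp hR _ ht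
  exact Finset.sum_eq_zero fun p _ => by rw [this p, zero_smul]

/-- A linear map from a triple tensor product which is the product of the evaluations is injective. -/
theorem injective_evalT₃ {P ι X : Type*} [AddCommGroup P] [Module R P] [Fintype ι]
    (hRK : Function.Injective (algebraMap R K)) (bP : Module.Basis ι R P) (ε : P → X → K)
    (hP : LinearIndependent K fun i => ε (bP i))
    (v₂ : P ⊗[R] P →ₗ[R] (X × X → K)) (h₂ : ∀ p q z, v₂ (p ⊗ₜ q) z = ε p z.1 * ε q z.2)
    (v₃ : P ⊗[R] (P ⊗[R] P) →ₗ[R] (X × (X × X) → K))
    (h₃ : ∀ p s z, v₃ (p ⊗ₜ s) z = ε p z.1 * v₂ s z.2) : Function.Injective v₃ :=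
  (injective_evalT hRK bP (bP.tensorProduct bP) ε v₂ hP
    (injective_evalT hRK bP bP ε ε hP hP v₂ h₂).1 v₃ h₃).2

end Product

section Characters

variable {R K M : Type*} [CommRing R] [Field K] [Algebra R K] [Fintype M]

/-- A character of an algebra of functions with a basis of all functions is an evaluation. -/
theorem exists_eval_eq {H : Subalgebra R (M → K)} {ι : Type*} [Fintype ι]
    (k : Module.Basis ι R H) (B : Module.Basis ι K (M → K)) (hB : ∀ i, B i = (k i : M → K))
    (f : H →ₐ[R] K) : ∃ x : M, ∀ h : H, f h = (h : M → K) x := by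
  classical
  let F : (M → K) →ₗ[K] K := B.constr K fun i => f (k i)
  have hF : ∀ h : H, F (h : M → K) = f h := fun h => by
    conv_rhs => rw [← k.sum_repr h]
    conv_lhs => rw [← k.sum_repr h]
    rw [AddSubmonoidClass.coe_finsetSum, map_sum, map_sum]
    refine Finset.sum_congr rfl fun i _ => ?_
    rw [SetLike.val_smul, ← hB, ← IsScalarTower.algebraMap_smul K, map_smul, map_smul,
      Module.Basis.constr_basis, smul_eq_mul, Algebra.smul_def]
  have h1 : F 1 = 1 := by rw [← OneMemClass.coe_one H, hF, map_one]
  have hmul : ∀ φ ψ, F (φ * ψ) = F φ * F ψ := by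
    have hk : ∀ i ψ, F (B i * ψ) = F (B i) * F ψ := fun i ψ => by
      have : F ∘ₗ LinearMap.mulLeft K (B i) = F (B i) • F := B.ext fun j => by
        show F (B i * B j) = F (B i) * F (B j)
        rw [hB, hB, ← MulMemClass.coe_mul, hF, hF, hF, map_mul]
      exact LinearMap.congr_fun this ψ
    intro φ ψ
    have : F ∘ₗ LinearMap.mulRight K ψ = F ψ • F := B.ext fun i => by
      show F (B i * ψ) = F ψ * F (B i)
      rw [hk, mul_comm]
    exact (LinearMap.congr_fun this φ).trans (mul_comm _ _)
  let δ : M → M → K := fun x => Pi.single x 1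
  have hsum : ∑ x, F (δ x) = 1 := by
    rw [← map_sum, ← h1]
    congr 1
    funext y
    simp [δ, Pi.single_apply]
  obtain ⟨x, hx⟩ : ∃ x, F (δ x) ≠ 0 := by
    by_contra h
    push Not at h
    simp [h] at hsum
  refine ⟨x, fun h => ?_⟩
  have hidem : F (δ x) * F (δ x) = F (δ x) := by
    rw [← hmul]
    congr 1
    funext y
    simp [δ, Pi.single_apply]
  have hx1 : F (δ x) = 1 := (mul_eq_left₀ hx).mp hidem
  have hprod : (h : M → K) * δ x = (h : M → K) x • δ x := funext fun y => by
    rcases eq_or_ne y x with rfl | hy <;> simp [δ, *]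
  have := hmul (h : M → K) (δ x)
  rw [hprod, map_smul, hx1, smul_eq_mul, mul_one, hF, mul_one] at this
  exact this.symm

end Characters

end Fermat.Agent.MCurve.Flat
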