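/-
Integral coordinates on a finite Galois module give a finite flat Hopf algebra over `ℤ_(ℓ)` with
this module of points.
-/
import Fermat.Agent.MCurve.Flat.EquivAlg
import Fermat.Agent.MCurve.Flat.Eval

set_option autoImplicit false
set_option linter.style.haveILetI false
set_option linter.unusedSectionVars false

noncomputable section

namespace Fermat.Agent.MCurve.Flat

open Fermat.Agent.Galois
open scoped TensorProduct

local notation "ℚb" => AlgebraicClosure ℚ

variable {ℓ : ℕ} [Fact ℓ.Prime] {A : ValuationSubring (AlgebraicClosure ℚ)} {M : Type}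
  [AddCommGroup M] [DistribMulAction GQ M] (hA : A.LiesOverPrime ℓ) (C : IntCoords M A ℓ)

/-! ## Products of equivariant elements -/

/-- The product on `M × M` of two functions on `M`. -/
def boxF (a b : M → ℚb) : M × M → ℚb := fun z => a z.1 * b z.2

/-- The span of the products of equivariant elements. -/
def boxSpan : Submodule A (M × M → ℚb) :=
  Submodule.span A {F | ∃ a ∈ equivSet C, ∃ b ∈ equivSet C, F = boxF a b}

theorem one_mem_equivSet : (1 : M → ℚb) ∈ equivSet C := ⟨one_mem _, fun _ => map_one _⟩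

theorem one_mem_boxSpan : (1 : M × M → ℚb) ∈ boxSpan C :=
  Submodule.subset_span ⟨1, one_mem_equivSet C, 1, one_mem_equivSet C,
    funext fun z => (mul_one _).symm⟩

theorem mul_mem_boxSpan {F G : M × M → ℚb} (hF : F ∈ boxSpan C) (hG : G ∈ boxSpan C) :
    F * G ∈ boxSpan C := by
  induction hF using Submodule.span_induction with
  | mem F hF =>
    induction hG using Submodule.span_induction with
    | mem G hG =>
      obtain ⟨a, ha, b, hb, rfl⟩ := hF
      obtain ⟨a', ha', b', hb', rfl⟩ := hG
      refine Submodule.subset_span ⟨a * a', ⟨mul_mem ha.1 ha'.1, fun σ => by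
        rw [map_mul, ha.2, ha'.2]⟩, b * b', ⟨mul_mem hb.1 hb'.1, fun σ => by
        rw [map_mul, hb.2, hb'.2]⟩, funext fun z => ?_⟩
      simp [boxF, mul_mul_mul_comm]
    | zero => rw [mul_zero]; exact zero_mem _
    | add G G' _ _ h h' => rw [mul_add]; exact add_mem h h'
    | smul r G _ h => rw [mul_smul_comm]; exact Submodule.smul_mem _ r h
  | zero => rw [zero_mul]; exact zero_mem _
  | add F F' _ _ h h' => rw [add_mul]; exact add_mem h h'
  | smul r F _ h => rw [smul_mul_assoc]; exact Submodule.smul_mem _ r h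

/-- The span of the products, as an algebra. -/
def boxAlg : Subalgebra A (M × M → ℚb) :=
  (boxSpan C).toSubalgebra (one_mem_boxSpan C) fun _ _ => mul_mem_boxSpan C

/-- The span of the products is stable under the decomposition group. -/
theorem conjF_mem_boxAlg {σ : GQ} (hσ : σ ∈ A.decompositionSubgroup ℚ) {F : M × M → ℚb}
    (hF : F ∈ boxAlg C) : (fun z : M × M => σ (F (σ⁻¹ • z.1, σ⁻¹ • z.2))) ∈ boxAlg C := by
  change _ ∈ boxSpan C
  change F ∈ boxSpan C at hF
  induction hF using Submodule.span_induction with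
  | mem F hF =>
    obtain ⟨a, ha, b, hb, rfl⟩ := hF
    refine Submodule.subset_span ⟨a, ha, b, hb, funext fun z => ?_⟩
    show σ (a (σ⁻¹ • z.1) * b (σ⁻¹ • z.2)) = a z.1 * b z.2
    rw [map_mul, ← conjF_apply, ← conjF_apply, ha.2, hb.2]
  | zero =>
    convert (boxSpan C).zero_mem using 1
    funext z
    simp
  | add F G _ _ h h' =>
    convert add_mem h h' using 1
    funext z
    simp
  | smul r F _ h =>
    convert (boxSpan C).smul_mem (⟨σ r, map_mem_place hσ r.2⟩ : A) h using 1
    funext z
    show σ ((r : ℚb) * F _) = σ (r : ℚb) * σ (F _)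
    rw [map_mul]

variable [Finite M]

include hA in
theorem pullback_mem_boxAlg {b : M → ℚb} (hb : b ∈ coordAlg C) :
    (fun z : M × M => b z.1) ∈ boxAlg C ∧ (fun z : M × M => b z.2) ∈ boxAlg C := by
  change _ ∈ boxSpan C ∧ _ ∈ boxSpan C
  have h := coordAlg_le_span C (Fact.out : ℓ.Prime) hA hb
  clear hb
  induction h using Submodule.span_induction with
  | mem h hh =>
    exact ⟨Submodule.subset_span ⟨h, hh, 1, one_mem_equivSet C, funext fun z => (mul_one _).symm⟩,
      Submodule.subset_span ⟨1, one_mem_equivSet C, h, hh, funext fun z => (one_mul _).symm⟩⟩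
  | zero => exact ⟨(boxSpan C).zero_mem, (boxSpan C).zero_mem⟩
  | add x y _ _ hx hy => exact ⟨add_mem hx.1 hy.1, add_mem hx.2 hy.2⟩
  | smul r x _ hx => exact ⟨(boxSpan C).smul_mem r hx.1, (boxSpan C).smul_mem r hx.2⟩

include hA in
theorem flip_mem_boxAlg {σ : GQ} (hσ : σ ∈ A.decompositionSubgroup ℚ) (i : C.ι) :
    (fun z : M × M => conjF σ (coordQ C i) (-(z.1 + z.2))) ∈ boxAlg C := by
  let ev : (M × M → A) →ₐ[A] (M × M → ℚb) :=
    { toFun := fun F z => (F z : ℚb)
      map_one' := rfl
      map_mul' := fun _ _ => rfl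
      map_zero' := rfl
      map_add' := fun _ _ => rfl
      commutes' := fun _ => rfl }
  have h0 : ev (fun p : M × M => C.φ i (-(p.1 + p.2))) ∈ boxAlg C := by
    suffices ∀ F ∈ Algebra.adjoin A (Set.range (fun j => fun p : M × M => C.φ j p.1) ∪
        Set.range fun j => fun p : M × M => C.φ j p.2), ev F ∈ boxAlg C from this _ (C.flip i)
    intro F h
    induction h using Algebra.adjoin_induction with
    | mem x hx =>
      rcases hx with ⟨j, rfl⟩ | ⟨j, rfl⟩
      · exact (pullback_mem_boxAlg hA C (coordQ_mem C j)).1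
      · exact (pullback_mem_boxAlg hA C (coordQ_mem C j)).2
    | algebraMap a => rw [AlgHom.commutes]; exact Subalgebra.algebraMap_mem _ _
    | add x y _ _ hx hy => rw [map_add]; exact add_mem hx hy
    | mul x y _ _ hx hy => rw [map_mul]; exact mul_mem hx hy
  convert conjF_mem_boxAlg C hσ h0 using 1
  funext z
  show σ (coordQ C i (σ⁻¹ • -(z.1 + z.2))) = σ (coordQ C i (-(σ⁻¹ • z.1 + σ⁻¹ • z.2)))
  rw [smul_neg, smul_add]

include hA in
/-- Negatives. -/
theorem neg_mem_coordAlg {b : M → ℚb} (hb : b ∈ coordAlg C) :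
    (fun x => b (-x)) ∈ coordAlg C := by
  induction hb using Algebra.adjoin_induction with
  | mem x hx =>
    obtain ⟨σ, hσ, i, rfl⟩ := hx
    have hres : ∀ F ∈ boxSpan C, (fun y : M => F (y, (0 : M))) ∈ coordAlg C := by
      intro F hF
      induction hF using Submodule.span_induction with
      | mem F hF =>
        obtain ⟨a, ha, b, hb, rfl⟩ := hF
        convert (coordAlg C).smul_mem ha.1 (⟨b 0, apply_mem_of_mem C hb.1 0⟩ : A) using 1
        funext y
        exact mul_comm _ _
      | zero => exact (coordAlg C).zero_mem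
      | add F G _ _ h h' => exact add_mem h h'
      | smul r F _ h => exact (coordAlg C).smul_mem h r
    simpa using hres _ (flip_mem_boxAlg hA C hσ i)
  | algebraMap a => exact Subalgebra.algebraMap_mem _ a
  | add x y _ _ hx hy => exact add_mem hx hy
  | mul x y _ _ hx hy => exact mul_mem hx hy

include hA in
theorem flipAll_mem_boxAlg {b : M → ℚb} (hb : b ∈ coordAlg C) :
    (fun z : M × M => b (-(z.1 + z.2))) ∈ boxAlg C := by
  induction hb using Algebra.adjoin_induction with
  | mem x hx =>
    obtain ⟨σ, hσ, i, rfl⟩ := hx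
    exact flip_mem_boxAlg hA C hσ i
  | algebraMap a => exact Subalgebra.algebraMap_mem _ a
  | add x y _ _ hx hy => exact add_mem hx hy
  | mul x y _ _ hx hy => exact mul_mem hx hy

/-! ## The maps -/

/-- Composition with negation. -/
def antipodeAlg : equivAlg hA C →ₐ[Rl ℓ] equivAlg hA C :=
  (((AlgHom.pi fun x : M => Pi.evalAlgHom (Rl ℓ) (fun _ : M => ℚb) (-x)).comp
    (equivAlg hA C).val)).codRestrict (equivAlg hA C) fun h =>
      ⟨neg_mem_coordAlg hA C h.2.1, fun σ => funext fun x => by
        show σ ((h : M → ℚb) (-(σ⁻¹ • x))) = (h : M → ℚb) (-x)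
        rw [← smul_neg, ← conjF_apply, h.2.2]⟩

theorem antipodeAlg_apply (h : equivAlg hA C) (x : M) :
    (antipodeAlg hA C h : M → ℚb) x = (h : M → ℚb) (-x) := rfl

/-- `a ⊗ b ↦ ((x, y) ↦ a x * b y)`. -/
def tensorEval : equivAlg hA C ⊗[Rl ℓ] equivAlg hA C →ₐ[Rl ℓ] (M × M → ℚb) :=
  Algebra.TensorProduct.lift
    ((AlgHom.pi fun z : M × M => Pi.evalAlgHom (Rl ℓ) (fun _ : M => ℚb) z.1).comp (equivAlg hA C).val)
    ((AlgHom.pi fun z : M × M => Pi.evalAlgHom (Rl ℓ) (fun _ : M => ℚb) z.2).comp (equivAlg hA C).val)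
    fun _ _ => Commute.all _ _

theorem tensorEval_tmul (a b : equivAlg hA C) (z : M × M) :
    tensorEval hA C (a ⊗ₜ b) z = (a : M → ℚb) z.1 * (b : M → ℚb) z.2 := by
  rw [tensorEval, Algebra.TensorProduct.lift_tmul]
  rfl

theorem injective_tensorEval : Function.Injective (tensorEval hA C) := by
  obtain ⟨ι, _, k, B, hB⟩ := exists_basis hA C
  have hli : LinearIndependent ℚb fun i => (k i : M → ℚb) := by
    simpa only [← hB] using B.linearIndependent
  exact (injective_evalT algebraMap_Rl_injective k k (fun a : equivAlg hA C => (a : M → ℚb))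
    (fun a : equivAlg hA C => (a : M → ℚb)) hli hli (tensorEval hA C).toLinearMap
    fun p q z => tensorEval_tmul hA C p q z).2

/-- The sum of two points, on functions. -/
def addEval : equivAlg hA C →ₐ[Rl ℓ] (M × M → ℚb) :=
  (AlgHom.pi fun z : M × M => Pi.evalAlgHom (Rl ℓ) (fun _ : M => ℚb) (z.1 + z.2)).comp
    (equivAlg hA C).val

theorem addEval_mem (h : equivAlg hA C) : addEval hA C h ∈ (tensorEval hA C).range := by
  classical
  obtain ⟨ι, _, k, B, hB⟩ := exists_basis hA C
  have h1 : addEval hA C h ∈ boxSpan C := by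
    have := flipAll_mem_boxAlg hA C (antipodeAlg hA C h).2.1
    change (fun z : M × M => (antipodeAlg hA C h : M → ℚb) (-(z.1 + z.2))) ∈ boxSpan C at this
    show (fun z : M × M => (h : M → ℚb) (z.1 + z.2)) ∈ boxSpan C
    simpa only [antipodeAlg_apply, neg_neg] using this
  let f : ι × ι → (M × M → ℚb) := fun p => boxF (k p.1 : M → ℚb) (k p.2 : M → ℚb)
  have hle : boxSpan C ≤ Submodule.span A (Set.range f) := by
    refine Submodule.span_le.mpr ?_
    rintro _ ⟨a, ha, b, hb, rfl⟩
    have ea := congrArg (fun u : equivAlg hA C => (u : M → ℚb)) (k.sum_repr ⟨a, ha⟩)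
    have eb := congrArg (fun u : equivAlg hA C => (u : M → ℚb)) (k.sum_repr ⟨b, hb⟩)
    simp only [AddSubmonoidClass.coe_finsetSum] at ea eb
    have hab : boxF a b = ∑ p : ι × ι,
        ((⟨algebraMap (Rl ℓ) ℚb (k.repr ⟨a, ha⟩ p.1 * k.repr ⟨b, hb⟩ p.2),
          by rw [algebraMap_Rl_apply]; exact algebraMap_mem_place A hA _⟩ : A)) • f p := by
      funext z
      rw [boxF, ← congrFun ea z.1, ← congrFun eb z.2, Finset.sum_apply, Finset.sum_apply,
        Finset.sum_mul_sum, Finset.sum_apply, Fintype.sum_prod_type]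
      refine Finset.sum_congr rfl fun i _ => Finset.sum_congr rfl fun j _ => ?_
      rw [SetLike.val_smul, SetLike.val_smul, Pi.smul_apply, Pi.smul_apply, Algebra.smul_def,
        Algebra.smul_def]
      show algebraMap (Rl ℓ) ℚb _ * (k i : M → ℚb) z.1 *
        (algebraMap (Rl ℓ) ℚb _ * (k j : M → ℚb) z.2) =
        algebraMap (Rl ℓ) ℚb _ * ((k i : M → ℚb) z.1 * (k j : M → ℚb) z.2)
      rw [map_mul]
      ring
    rw [SetLike.mem_coe, hab]
    exact sum_mem fun p _ => Submodule.smul_mem _ _ (Submodule.subset_span ⟨p, rfl⟩)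
  obtain ⟨c, hc⟩ := (Submodule.mem_span_range_iff_exists_fun A).mp (hle h1)
  have hli : LinearIndependent ℚb f :=
    linearIndependent_prod (φ := fun i => (k i : M → ℚb)) (ψ := fun i => (k i : M → ℚb))
      (by simpa only [← hB] using B.linearIndependent) (by simpa only [← hB] using B.linearIndependent)
  have hc' : ∀ z, (h : M → ℚb) (z.1 + z.2) = ∑ p, (c p : ℚb) * f p z := fun z => by
    have := congrFun hc z
    rw [Finset.sum_apply] at this
    exact this.symm
  have hfix : ∀ (σ : GQ) p, σ (c p : ℚb) = c p := by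
    intro σ p
    have hz : ∀ z : M × M, ∑ q, (σ (c q : ℚb) - c q) * f q z = 0 := fun z => by
      have h1 := congrArg σ (hc' (σ⁻¹ • z.1, σ⁻¹ • z.2))
      rw [map_sum] at h1
      simp only [map_mul] at h1
      rw [← smul_add, ← conjF_apply, h.2.2, hc' z] at h1
      simp only [sub_mul, Finset.sum_sub_distrib, sub_eq_zero]
      rw [h1]
      refine Finset.sum_congr rfl fun q _ => ?_
      show σ (c q : ℚb) * _ = σ (c q : ℚb) *
        σ ((k q.1 : M → ℚb) (σ⁻¹ • z.1) * (k q.2 : M → ℚb) (σ⁻¹ • z.2))
      rw [map_mul, ← conjF_apply, ← conjF_apply, (k q.1).2.2, (k q.2).2.2]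
      rfl
    exact sub_eq_zero.mp (Fintype.linearIndependent_iff.mp hli (fun q => σ (c q : ℚb) - c q)
      (funext fun z => by simpa [Finset.sum_apply] using hz z) p)
  choose r hr using fun p => exists_Rl_of_fixed Fact.out hA (c p).2 fun σ => hfix σ p
  refine ⟨∑ p, r p • (k p.1 ⊗ₜ[Rl ℓ] k p.2), funext fun z => ?_⟩
  show tensorEval hA C (∑ p, r p • (k p.1 ⊗ₜ[Rl ℓ] k p.2)) z = (h : M → ℚb) (z.1 + z.2)
  rw [map_sum, Finset.sum_apply]
  rw [hc' z]
  refine Finset.sum_congr rfl fun p _ => ?_
  rw [map_smul, Pi.smul_apply, tensorEval_tmul, Algebra.smul_def, hr]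
  rfl

/-- The comultiplication. -/
def comulAlg : equivAlg hA C →ₐ[Rl ℓ] equivAlg hA C ⊗[Rl ℓ] equivAlg hA C :=
  (AlgEquiv.ofInjective (tensorEval hA C) (injective_tensorEval hA C)).symm.toAlgHom.comp
    ((addEval hA C).codRestrict (tensorEval hA C).range (addEval_mem hA C))

theorem tensorEval_comulAlg (h : equivAlg hA C) (z : M × M) :
    tensorEval hA C (comulAlg hA C h) z = (h : M → ℚb) (z.1 + z.2) := by
  have h1 := (AlgEquiv.ofInjective (tensorEval hA C) (injective_tensorEval hA C)).apply_symm_apply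
    ((addEval hA C).codRestrict (tensorEval hA C).range (addEval_mem hA C) h)
  have h2 : tensorEval hA C (comulAlg hA C h) = addEval hA C h := congrArg Subtype.val h1
  rw [h2]
  rfl

theorem eval_zero_mem (h : equivAlg hA C) :
    Pi.evalAlgHom (Rl ℓ) (fun _ : M => ℚb) 0 (h : M → ℚb) ∈ (Algebra.ofId (Rl ℓ) ℚb).range := by
  obtain ⟨r, hr⟩ := exists_Rl_of_fixed Fact.out hA (apply_mem_of_mem C h.2.1 0) fun σ => by
    rw [← h.2.2.apply σ 0, smul_zero]
  exact ⟨r, hr⟩

/-- The counit. -/
def counitAlg : equivAlg hA C →ₐ[Rl ℓ] Rl ℓ :=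
  (AlgEquiv.ofInjective (Algebra.ofId (Rl ℓ) ℚb) algebraMap_Rl_injective).symm.toAlgHom.comp
    (((Pi.evalAlgHom (Rl ℓ) (fun _ : M => ℚb) 0).comp (equivAlg hA C).val).codRestrict
      (Algebra.ofId (Rl ℓ) ℚb).range (eval_zero_mem hA C))

theorem algebraMap_counitAlg (h : equivAlg hA C) :
    algebraMap (Rl ℓ) ℚb (counitAlg hA C h) = (h : M → ℚb) 0 :=
  congrArg Subtype.val
    ((AlgEquiv.ofInjective (Algebra.ofId (Rl ℓ) ℚb) algebraMap_Rl_injective).apply_symm_apply
      (((Pi.evalAlgHom (Rl ℓ) (fun _ : M => ℚb) 0).comp (equivAlg hA C).val).codRestrict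
        (Algebra.ofId (Rl ℓ) ℚb).range (eval_zero_mem hA C) h))

theorem coe_injective : Function.Injective fun a : equivAlg hA C => (a : M → ℚb) :=
  Subtype.val_injective

/-- `a ⊗ (b ⊗ c) ↦ ((x, (y, z)) ↦ a x * b y * c z)`. -/
def tensorEval₃ : equivAlg hA C ⊗[Rl ℓ] (equivAlg hA C ⊗[Rl ℓ] equivAlg hA C) →ₐ[Rl ℓ]
    (M × (M × M) → ℚb) :=
  Algebra.TensorProduct.lift
    ((AlgHom.pi fun z : M × (M × M) => Pi.evalAlgHom (Rl ℓ) (fun _ : M => ℚb) z.1).comp
      (equivAlg hA C).val)
    ((AlgHom.pi fun z : M × (M × M) => Pi.evalAlgHom (Rl ℓ) (fun _ : M × M => ℚb) z.2).comp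
      (tensorEval hA C))
    fun _ _ => Commute.all _ _

theorem tensorEval₃_tmul (a : equivAlg hA C) (s : equivAlg hA C ⊗[Rl ℓ] equivAlg hA C)
    (z : M × (M × M)) :
    tensorEval₃ hA C (a ⊗ₜ s) z = (a : M → ℚb) z.1 * tensorEval hA C s z.2 := by
  rw [tensorEval₃, Algebra.TensorProduct.lift_tmul]
  rfl

set_option maxHeartbeats 1600000 in
theorem injective_tensorEval₃ : Function.Injective (tensorEval₃ hA C) := by
  obtain ⟨ι, _, k, B, hB⟩ := exists_basis hA C
  have hli : LinearIndependent ℚb fun i => (k i : M → ℚb) := by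
    simpa only [← hB] using B.linearIndependent
  exact injective_evalT₃ algebraMap_Rl_injective k (fun a : equivAlg hA C => (a : M → ℚb)) hli
    (tensorEval hA C).toLinearMap (fun p q z => tensorEval_tmul hA C p q z)
    (tensorEval₃ hA C).toLinearMap (fun p s z => tensorEval₃_tmul hA C p s z)

theorem tensorEval₃_assoc (s : equivAlg hA C ⊗[Rl ℓ] equivAlg hA C) (b : equivAlg hA C)
    (z : M × (M × M)) :
    tensorEval₃ hA C (Algebra.TensorProduct.assoc (Rl ℓ) (Rl ℓ) (Rl ℓ) (equivAlg hA C)
      (equivAlg hA C) (equivAlg hA C) (s ⊗ₜ b)) z =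
      tensorEval hA C s (z.1, z.2.1) * (b : M → ℚb) z.2.2 := by
  induction s using TensorProduct.induction_on with
  | zero => simp [TensorProduct.zero_tmul]
  | tmul c d =>
    rw [Algebra.TensorProduct.assoc_tmul, tensorEval₃_tmul, tensorEval_tmul, tensorEval_tmul,
      mul_assoc]
  | add x y hx hy =>
    rw [TensorProduct.add_tmul, map_add, map_add, map_add, Pi.add_apply, Pi.add_apply, hx, hy,
      add_mul]

theorem tensorEval₃_comul_left (t : equivAlg hA C ⊗[Rl ℓ] equivAlg hA C) (z : M × (M × M)) :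
    tensorEval₃ hA C (Algebra.TensorProduct.assoc (Rl ℓ) (Rl ℓ) (Rl ℓ) (equivAlg hA C)
      (equivAlg hA C) (equivAlg hA C)
      (Algebra.TensorProduct.map (comulAlg hA C) (.id (Rl ℓ) (equivAlg hA C)) t)) z =
      tensorEval hA C t (z.1 + z.2.1, z.2.2) := by
  induction t using TensorProduct.induction_on with
  | zero => simp
  | tmul a b =>
    rw [Algebra.TensorProduct.map_tmul, AlgHom.id_apply, tensorEval₃_assoc, tensorEval_comulAlg,
      tensorEval_tmul]
  | add x y hx hy =>
    rw [map_add, map_add, map_add, map_add, Pi.add_apply, Pi.add_apply, hx, hy]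

theorem tensorEval₃_comul_right (t : equivAlg hA C ⊗[Rl ℓ] equivAlg hA C) (z : M × (M × M)) :
    tensorEval₃ hA C (Algebra.TensorProduct.map (.id (Rl ℓ) (equivAlg hA C)) (comulAlg hA C) t) z =
      tensorEval hA C t (z.1, z.2.1 + z.2.2) := by
  induction t using TensorProduct.induction_on with
  | zero => simp
  | tmul a b =>
    rw [Algebra.TensorProduct.map_tmul, AlgHom.id_apply, tensorEval₃_tmul, tensorEval_comulAlg,
      tensorEval_tmul]
  | add x y hx hy =>
    rw [map_add, map_add, map_add, Pi.add_apply, Pi.add_apply, hx, hy]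

theorem coassoc_comulAlg :
    (Algebra.TensorProduct.assoc (Rl ℓ) (Rl ℓ) (Rl ℓ) (equivAlg hA C) (equivAlg hA C)
        (equivAlg hA C)).toAlgHom.comp
      ((Algebra.TensorProduct.map (comulAlg hA C) (.id (Rl ℓ) (equivAlg hA C))).comp (comulAlg hA C))
      = (Algebra.TensorProduct.map (.id (Rl ℓ) (equivAlg hA C)) (comulAlg hA C)).comp
        (comulAlg hA C) := by
  refine AlgHom.ext fun h => injective_tensorEval₃ hA C (funext fun z => ?_)
  refine (tensorEval₃_comul_left hA C (comulAlg hA C h) z).trans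
    (Eq.trans ?_ (tensorEval₃_comul_right hA C (comulAlg hA C h) z).symm)
  rw [tensorEval_comulAlg, tensorEval_comulAlg, add_assoc]

theorem rTensor_counitAlg :
    (Algebra.TensorProduct.map (counitAlg hA C) (.id (Rl ℓ) (equivAlg hA C))).comp (comulAlg hA C)
      = (Algebra.TensorProduct.lid (Rl ℓ) (equivAlg hA C)).symm := by
  refine AlgHom.ext fun h =>
    (Algebra.TensorProduct.lid (Rl ℓ) (equivAlg hA C)).injective (Subtype.ext (funext fun x => ?_))
  have key : ∀ t, ((Algebra.TensorProduct.lid (Rl ℓ) (equivAlg hA C)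
      (Algebra.TensorProduct.map (counitAlg hA C) (.id (Rl ℓ) _) t) : equivAlg hA C) : M → ℚb) x =
      tensorEval hA C t (0, x) := fun t => by
    induction t using TensorProduct.induction_on with
    | zero => simp
    | tmul a b =>
      rw [Algebra.TensorProduct.map_tmul, Algebra.TensorProduct.lid_tmul, tensorEval_tmul,
        AlgHom.id_apply, SetLike.val_smul, Pi.smul_apply, Algebra.smul_def, algebraMap_counitAlg]
    | add u w hu hw => simp only [map_add, AddMemClass.coe_add, Pi.add_apply, hu, hw]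
  simp only [AlgHom.comp_apply, key, tensorEval_comulAlg, zero_add, AlgEquiv.coe_toAlgHom,
    AlgEquiv.apply_symm_apply]

theorem lTensor_counitAlg :
    (Algebra.TensorProduct.map (.id (Rl ℓ) (equivAlg hA C)) (counitAlg hA C)).comp (comulAlg hA C)
      = (Algebra.TensorProduct.rid (Rl ℓ) (Rl ℓ) (equivAlg hA C)).symm := by
  refine AlgHom.ext fun h => (Algebra.TensorProduct.rid (Rl ℓ) (Rl ℓ) (equivAlg hA C)).injective
    (Subtype.ext (funext fun x => ?_))
  have key : ∀ t, ((Algebra.TensorProduct.rid (Rl ℓ) (Rl ℓ) (equivAlg hA C)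
      (Algebra.TensorProduct.map (.id (Rl ℓ) _) (counitAlg hA C) t) : equivAlg hA C) : M → ℚb) x =
      tensorEval hA C t (x, 0) := fun t => by
    induction t using TensorProduct.induction_on with
    | zero => simp
    | tmul a b =>
      rw [Algebra.TensorProduct.map_tmul, Algebra.TensorProduct.rid_tmul, tensorEval_tmul,
        AlgHom.id_apply, SetLike.val_smul, Pi.smul_apply, Algebra.smul_def, algebraMap_counitAlg,
        mul_comm]
    | add u w hu hw => simp only [map_add, AddMemClass.coe_add, Pi.add_apply, hu, hw]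
  simp only [AlgHom.comp_apply, key, tensorEval_comulAlg, add_zero, AlgEquiv.coe_toAlgHom,
    AlgEquiv.apply_symm_apply]

/-- The bialgebra of equivariant elements. -/
@[instance_reducible]
def bialgebraEquivAlg : Bialgebra (Rl ℓ) (equivAlg hA C) :=
  Bialgebra.ofAlgHom (comulAlg hA C) (counitAlg hA C) (coassoc_comulAlg hA C)
    (rTensor_counitAlg hA C) (lTensor_counitAlg hA C)

/-- The Hopf algebra of equivariant elements. -/
@[instance_reducible]
def hopfEquivAlg : HopfAlgebra (Rl ℓ) (equivAlg hA C) :=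
  letI := bialgebraEquivAlg hA C
  HopfAlgebra.ofAlgHom (antipodeAlg hA C)
    (by
      refine AlgHom.ext fun h => Subtype.ext (funext fun x => ?_)
      have key : ∀ t, ((Algebra.TensorProduct.lift (antipodeAlg hA C) (.id (Rl ℓ) (equivAlg hA C))
          (fun _ _ => Commute.all _ _) t : equivAlg hA C) : M → ℚb) x =
          tensorEval hA C t (-x, x) := fun t => by
        induction t using TensorProduct.induction_on with
        | zero => simp
        | tmul a b =>
          rw [Algebra.TensorProduct.lift_tmul, tensorEval_tmul, AlgHom.id_apply, MulMemClass.coe_mul,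
            Pi.mul_apply, antipodeAlg_apply]
        | add u w hu hw => simp only [map_add, AddMemClass.coe_add, Pi.add_apply, hu, hw]
      refine (key (comulAlg hA C h)).trans ?_
      rw [tensorEval_comulAlg, neg_add_cancel, ← algebraMap_counitAlg hA C h]
      rfl)
    (by
      refine AlgHom.ext fun h => Subtype.ext (funext fun x => ?_)
      have key : ∀ t, ((Algebra.TensorProduct.lift (.id (Rl ℓ) (equivAlg hA C)) (antipodeAlg hA C)
          (fun _ _ => Commute.all _ _) t : equivAlg hA C) : M → ℚb) x =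
          tensorEval hA C t (x, -x) := fun t => by
        induction t using TensorProduct.induction_on with
        | zero => simp
        | tmul a b =>
          rw [Algebra.TensorProduct.lift_tmul, tensorEval_tmul, AlgHom.id_apply, MulMemClass.coe_mul,
            Pi.mul_apply, antipodeAlg_apply]
        | add u w hu hw => simp only [map_add, AddMemClass.coe_add, Pi.add_apply, hu, hw]
      refine (key (comulAlg hA C h)).trans ?_
      rw [tensorEval_comulAlg, add_neg_cancel, ← algebraMap_counitAlg hA C h]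
      rfl)

/-- Evaluation at a point. -/
def evalPt (x : M) : equivAlg hA C →ₐ[Rl ℓ] ℚb :=
  (Pi.evalAlgHom (Rl ℓ) (fun _ : M => ℚb) x).comp (equivAlg hA C).val

theorem evalPt_injective : Function.Injective (evalPt hA C) := by
  classical
  intro x y hxy
  by_contra hne
  haveI := Fintype.ofFinite M
  obtain ⟨ι, _, k, B, hB⟩ := exists_basis hA C
  have hz : ∀ φ : M → ℚb, φ x = φ y := fun φ => by
    have hk : ∀ i, B i x = B i y := fun i => by
      rw [hB]
      exact AlgHom.congr_fun hxy (k i)
    rw [← B.sum_repr φ, Finset.sum_apply, Finset.sum_apply]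
    exact Finset.sum_congr rfl fun i _ => by rw [Pi.smul_apply, Pi.smul_apply, hk]
  have := hz (Pi.single x 1)
  rw [Pi.single_eq_same, Pi.single_eq_of_ne (Ne.symm hne)] at this
  exact one_ne_zero this

theorem evalPt_surjective : Function.Surjective (evalPt hA C) := fun f => by
  haveI := Fintype.ofFinite M
  obtain ⟨ι, _, k, B, hB⟩ := exists_basis hA C
  obtain ⟨x, hx⟩ := exists_eval_eq k B hB f
  exact ⟨x, AlgHom.ext fun h => (hx h).symm⟩

include hA C in
/-- Integral coordinates give a finite flat model. -/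
theorem hasFlatModel_of_intCoords : HasFlatModel M ℓ := by
  letI := hopfEquivAlg hA C
  refine ⟨equivAlg hA C, inferInstance, hopfEquivAlg hA C, finite_equivAlg hA C,
    flat_equivAlg hA C, ⟨?_⟩, ?_⟩
  · refine LinearMap.ext fun h => injective_tensorEval hA C (funext fun z => ?_)
    have key : ∀ t, tensorEval hA C
        ((TensorProduct.comm (Rl ℓ) (equivAlg hA C) (equivAlg hA C)) t) z =
        tensorEval hA C t (z.2, z.1) := fun t => by
      induction t using TensorProduct.induction_on with
      | zero => simp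
      | tmul a b => rw [TensorProduct.comm_tmul, tensorEval_tmul, tensorEval_tmul, mul_comm]
      | add u w hu hw => simp only [map_add, Pi.add_apply, hu, hw]
    show tensorEval hA C ((TensorProduct.comm (Rl ℓ) (equivAlg hA C) (equivAlg hA C))
      (comulAlg hA C h)) z = tensorEval hA C (comulAlg hA C h) z
    rw [key, tensorEval_comulAlg, tensorEval_comulAlg, add_comm]
  let ev : M ≃ WithConv (equivAlg hA C →ₐ[Rl ℓ] ℚb) :=
    (Equiv.ofBijective (evalPt hA C) ⟨evalPt_injective hA C, evalPt_surjective hA C⟩).trans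
      (WithConv.equiv _).symm
  refine ⟨ev.symm, fun f g => ?_, fun σ f g hfg => ?_⟩
  · obtain ⟨x, rfl⟩ := ev.surjective f
    obtain ⟨y, rfl⟩ := ev.surjective g
    rw [ev.symm_apply_apply, ev.symm_apply_apply, ev.symm_apply_eq]
    refine WithConv.ext (AlgHom.ext fun h => ?_)
    have key : ∀ t, Algebra.TensorProduct.lift (evalPt hA C x) (evalPt hA C y)
        (fun _ _ => Commute.all _ _) t = tensorEval hA C t (x, y) := fun t => by
      induction t using TensorProduct.induction_on with
      | zero => simp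
      | tmul a b =>
        rw [Algebra.TensorProduct.lift_tmul, tensorEval_tmul]
        rfl
      | add u w hu hw => simp only [map_add, Pi.add_apply, hu, hw]
    refine (AlgHom.convMul_apply _ _ h).trans ((key (comulAlg hA C h)).trans ?_)
    rw [tensorEval_comulAlg]
    rfl
  · obtain ⟨x, rfl⟩ := ev.surjective f
    rw [ev.symm_apply_apply, ev.symm_apply_eq]
    refine WithConv.ext (AlgHom.ext fun h => ?_)
    exact (hfg h).trans (h.2.2.apply σ x).symm

end Fermat.Agent.MCurve.Flat
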