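/-
Integral coordinates pass to Galois submodules of finite powers and to quotients.
-/
import Fermat.Agent.MCurve.Flat.Order

set_option autoImplicit false
set_option linter.style.haveILetI false
set_option linter.unusedSectionVars false

noncomputable section

namespace Fermat.Agent.MCurve.Flat

open Fermat.Agent.Galois
open scoped TensorProduct

local notation "ℚb" => AlgebraicClosure ℚ

variable {ℓ : ℕ} {A : ValuationSubring (AlgebraicClosure ℚ)} {M : Type} [AddCommGroup M]
  [DistribMulAction GQ M]

/-- Coordinates pulled back along a jointly injective family of equivariant maps. -/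
def IntCoords.ofFamily (C : IntCoords M A ℓ) {M' : Type} [AddCommGroup M'] [DistribMulAction GQ M']
    {X : Type} [Fintype X] (j : X → M' →+ M) (hj : ∀ x (σ : GQ) v, j x (σ • v) = σ • j x v)
    (hinj : ∀ v, (∀ x, j x v = 0) → v = 0) : IntCoords M' A ℓ :=
  letI := C.fintype_ι
  { ι := X × C.ι
    fintype_ι := inferInstance
    φ := fun p v => C.φ p.2 (j p.1 v)
    sep := fun v w h => by
      refine sub_eq_zero.mp (hinj _ fun x => ?_)
      rw [map_sub, sub_eq_zero]
      exact C.sep (funext fun i => congrFun h (x, i))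
    f := C.f
    f_pos := C.f_pos
    equiv := fun σ hσ hζ p v => by
      show (C.φ p.2 (j p.1 (σ • v)) : ℚb) = _
      rw [hj, C.equiv σ hσ hζ]
    isOpen_stab := by
      obtain ⟨L, hL, hfix⟩ := C.isOpen_stab
      refine ⟨L, hL, fun σ hσ v => sub_eq_zero.mp (hinj _ fun x => ?_)⟩
      rw [map_sub, hj, hfix σ hσ, sub_self]
    flip := fun p => by
      let ev : (M × M → A) →ₐ[A] (M' × M' → A) :=
        { toFun := fun F z => F (j p.1 z.1, j p.1 z.2)
          map_one' := rfl
          map_mul' := fun _ _ => rfl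
          map_zero' := rfl
          map_add' := fun _ _ => rfl
          commutes' := fun _ => rfl }
      have h := (Subalgebra.mem_map (f := ev)).mpr ⟨_, C.flip p.2, rfl⟩
      rw [AlgHom.map_adjoin] at h
      have he : ev (fun z : M × M => C.φ p.2 (-(z.1 + z.2))) =
          fun z : M' × M' => C.φ p.2 (j p.1 (-(z.1 + z.2))) := funext fun z => by
        show C.φ p.2 (-(j p.1 z.1 + j p.1 z.2)) = _
        rw [map_neg, map_add]
      rw [he] at h
      refine Algebra.adjoin_mono ?_ h
      rintro _ ⟨F, ⟨i, rfl⟩ | ⟨i, rfl⟩, rfl⟩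
      · exact Or.inl ⟨(p.1, i), rfl⟩
      · exact Or.inr ⟨(p.1, i), rfl⟩ }

/-- A linear map on a tensor square in coordinates. -/
theorem apply_eq_sum_repr {R K P ι Z : Type*} [CommRing R] [CommRing K] [Algebra R K]
    [AddCommGroup P] [Module R P] [Fintype ι] (k : Module.Basis ι R P)
    (v : P ⊗[R] P →ₗ[R] (Z → K)) (t : P ⊗[R] P) (z : Z) :
    v t z = ∑ a, ∑ b, algebraMap R K ((k.tensorProduct k).repr t (a, b)) * v (k a ⊗ₜ k b) z := by
  conv_lhs => rw [← (k.tensorProduct k).sum_repr t]
  rw [map_sum, Finset.sum_apply, Fintype.sum_prod_type]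
  refine Finset.sum_congr rfl fun a _ => Finset.sum_congr rfl fun b _ => ?_
  rw [map_smul, Pi.smul_apply, Module.Basis.tensorProduct_apply', Algebra.smul_def]

/-- Vanishing of coefficients of a function in two variables from a condition on the first. -/
theorem coeff_eq_zero_of_slices {K X α : Type*} [Field K] [Fintype α] (k : α → X → K)
    (hli : LinearIndependent K k) (P : (X → K) → Prop) (S : α → Prop)
    (hzero : ∀ d : α → K, P (∑ a, d a • k a) → ∀ u, S u → d u = 0) (c : α → α → K)
    (hinv : ∀ y, P fun x => ∑ a, ∑ b, c a b * (k a x * k b y)) {u : α} (hu : S u) (b : α) :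
    c u b = 0 := by
  refine Fintype.linearIndependent_iff.mp hli (c u) (funext fun y => ?_) b
  have h := hzero (fun a => ∑ b, c a b * k b y) (by
    convert hinv y using 1
    funext x
    rw [Finset.sum_apply]
    refine Finset.sum_congr rfl fun a _ => ?_
    rw [Pi.smul_apply, smul_eq_mul, Finset.sum_mul]
    exact Finset.sum_congr rfl fun b _ => by ring) u hu
  simpa [Finset.sum_apply] using h

variable [Fact ℓ.Prime] [Finite M] (hA : A.LiesOverPrime ℓ) (C : IntCoords M A ℓ)

include hA in
theorem restrict_mem_coordAlg {F : M × M → ℚb} (hF : F ∈ boxAlg C) (n : M) :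
    (fun x : M => F (x, n)) ∈ coordAlg C := by
  change F ∈ boxSpan C at hF
  induction hF using Submodule.span_induction with
  | mem F hF =>
    obtain ⟨a, ha, b, hb, rfl⟩ := hF
    convert (coordAlg C).smul_mem ha.1 (⟨b n, apply_mem_of_mem C hb.1 n⟩ : A) using 1
    funext y
    exact mul_comm _ _
  | zero => exact (coordAlg C).zero_mem
  | add F G _ _ h h' => exact add_mem h h'
  | smul r F _ h => exact (coordAlg C).smul_mem h r

include hA in
theorem translate_mem_coordAlg {b : M → ℚb} (hb : b ∈ coordAlg C) (n : M) :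
    (fun x : M => b (x + n)) ∈ coordAlg C := by
  simpa using restrict_mem_coordAlg hA C (flipAll_mem_boxAlg hA C (neg_mem_coordAlg hA C hb)) n

set_option maxHeartbeats 800000 in
include hA C in
/-- Integral coordinates on a quotient. -/
theorem exists_intCoords_of_surjective {Q : Type} [AddCommGroup Q] [DistribMulAction GQ Q]
    (q : M →+ Q) (hq : ∀ (σ : GQ) x, q (σ • x) = σ • q x) (hsurj : Function.Surjective q) :
    Nonempty (IntCoords Q A ℓ) := by
  classical
  haveI := Fintype.ofFinite M
  haveI := finite_equivAlg hA C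
  haveI := free_equivAlg hA C
  let H := equivAlg hA C
  -- the invariant elements
  let H' : Submodule (Rl ℓ) H :=
    { carrier := {h | ∀ x y : M, q x = q y → (h : M → ℚb) x = (h : M → ℚb) y}
      add_mem' := fun {a b} ha hb x y hxy => by
        rw [AddMemClass.coe_add, Pi.add_apply, Pi.add_apply, ha x y hxy, hb x y hxy]
      zero_mem' := fun _ _ _ => rfl
      smul_mem' := fun r a ha x y hxy => by
        rw [SetLike.val_smul, Pi.smul_apply, Pi.smul_apply, ha x y hxy] }
  haveI : Module.IsTorsionFree (Rl ℓ) (H ⧸ H') := by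
    refine Module.IsTorsionFree.of_smul_eq_zero fun r u hu => ?_
    obtain ⟨h, rfl⟩ := Submodule.Quotient.mk_surjective H' u
    by_cases hr : r = 0
    · exact Or.inl hr
    refine Or.inr ((Submodule.Quotient.mk_eq_zero H').mpr fun x y hxy => ?_)
    rw [← Submodule.Quotient.mk_smul, Submodule.Quotient.mk_eq_zero] at hu
    have h1 := hu x y hxy
    rw [SetLike.val_smul, Pi.smul_apply, Pi.smul_apply, Algebra.smul_def, Algebra.smul_def] at h1
    exact mul_left_cancel₀ (fun h0 => hr (algebraMap_Rl_injective (h0.trans (map_zero _).symm))) h1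
  haveI : Module.Free (Rl ℓ) (H ⧸ H') := Module.free_of_finite_type_torsion_free'
  haveI : Module.IsTorsionFree (Rl ℓ) H' := by
    refine Module.IsTorsionFree.of_smul_eq_zero fun (r : Rl ℓ) (a : H') ha => ?_
    by_cases hr : r = 0
    · exact Or.inl hr
    refine Or.inr (Subtype.ext (Subtype.ext (funext fun x => ?_)))
    have h1 : algebraMap (Rl ℓ) ℚb r * ((a : H) : M → ℚb) x = 0 := by
      rw [← Algebra.smul_def]
      exact congrArg (fun u : H' => ((u : H) : M → ℚb) x) ha
    exact (mul_eq_zero.mp h1).resolve_left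
      fun h0 => hr (algebraMap_Rl_injective (h0.trans (map_zero _).symm))
  haveI : Module.Finite (Rl ℓ) H' := Module.Finite.iff_fg.mpr (IsNoetherian.noetherian H')
  haveI : Module.Free (Rl ℓ) H' := Module.free_of_finite_type_torsion_free' (R := Rl ℓ) (M := H')
  obtain ⟨s, hs⟩ := H'.mkQ.exists_rightInverse_of_surjective H'.range_mkQ
  have hs' : ∀ u, H'.mkQ (s u) = u := fun u => LinearMap.congr_fun hs u
  have hbij : Function.Bijective (H'.subtype.coprod s) := by
    refine ⟨(injective_iff_map_eq_zero _).mpr fun z hz => ?_, fun h => ?_⟩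
    · obtain ⟨a, u⟩ := z
      rw [LinearMap.coprod_apply] at hz
      have h1 := congrArg H'.mkQ hz
      rw [map_add, hs', map_zero] at h1
      have ha : H'.mkQ (H'.subtype a) = 0 := (Submodule.Quotient.mk_eq_zero H').mpr a.2
      rw [ha, zero_add] at h1
      rw [h1, map_zero, add_zero] at hz
      exact Prod.ext (Subtype.ext hz) h1
    · refine ⟨(⟨h - s (H'.mkQ h), (Submodule.Quotient.mk_eq_zero H').mp ?_⟩, H'.mkQ h), ?_⟩
      · rw [← Submodule.mkQ_apply, map_sub, hs', sub_self]
      · rw [LinearMap.coprod_apply]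
        exact sub_add_cancel h _
  let e : (H' × (H ⧸ H')) ≃ₗ[Rl ℓ] H := LinearEquiv.ofBijective _ hbij
  let bH := Module.Free.chooseBasis (Rl ℓ) H'
  let bQ := Module.Free.chooseBasis (Rl ℓ) (H ⧸ H')
  let k := (bH.prod bQ).map e
  have hkl : ∀ i, k (Sum.inl i) = (bH i : H) := fun i => by
    show H'.subtype (bH.prod bQ (Sum.inl i)).1 + s (bH.prod bQ (Sum.inl i)).2 = _
    rw [Module.Basis.prod_apply_inl_fst, Module.Basis.prod_apply_inl_snd, map_zero, add_zero]
    rfl
  -- the basis is a basis of all functions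
  obtain ⟨ι₀, _, k₀, B₀, hB₀⟩ := exists_basis hA C
  have hspan : ⊤ ≤ Submodule.span ℚb (Set.range fun i => (k i : M → ℚb)) := by
    rw [← B₀.span_eq, Submodule.span_le]
    rintro _ ⟨i, rfl⟩
    rw [hB₀, SetLike.mem_coe, ← k.sum_repr (k₀ i), AddSubmonoidClass.coe_finsetSum]
    refine sum_mem fun j _ => ?_
    rw [SetLike.val_smul, ← IsScalarTower.algebraMap_smul ℚb]
    exact Submodule.smul_mem _ _ (Submodule.subset_span ⟨j, rfl⟩)
  have hli : LinearIndependent ℚb fun i => (k i : M → ℚb) := by
    refine linearIndependent_of_top_le_span_of_card_le_finrank hspan (le_of_eq ?_)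
    rw [Module.finrank_eq_card_basis B₀, ← Module.finrank_eq_card_basis k,
      ← Module.finrank_eq_card_basis k₀]
  -- invariant functions are spanned by the invariant elements
  let P : (M → ℚb) →ₗ[ℚb] (M → ℚb) :=
    { toFun := fun φ x => ∑ n : q.ker, φ (x + (n : M))
      map_add' := fun φ ψ => funext fun x => by simp [Finset.sum_add_distrib]
      map_smul' := fun c φ => funext fun x => by simp [Finset.mul_sum] }
  have hP : ∀ h : H, P (h : M → ℚb) ∈ Submodule.span ℚb
      (Set.range fun i => (k (Sum.inl i) : M → ℚb)) := by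
    intro h
    have hmem : P (h : M → ℚb) ∈ equivSet C := by
      refine ⟨?_, fun σ => funext fun x => ?_⟩
      · have : P (h : M → ℚb) = ∑ n : q.ker, fun x => (h : M → ℚb) (x + (n : M)) := funext fun x => by
          rw [Finset.sum_apply]
          rfl
        rw [this]
        exact sum_mem fun n _ => translate_mem_coordAlg hA C h.2.1 _
      · show σ (∑ n : q.ker, (h : M → ℚb) (σ⁻¹ • x + (n : M))) =
          ∑ n : q.ker, (h : M → ℚb) (x + (n : M))
        rw [map_sum]
        have hker : ∀ n : q.ker, σ • (n : M) ∈ q.ker := fun n => by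
          rw [AddMonoidHom.mem_ker, hq, AddMonoidHom.mem_ker.mp n.2, smul_zero]
        refine Fintype.sum_equiv (Equiv.ofBijective (fun n : q.ker => (⟨σ • (n : M), hker n⟩ : q.ker))
          (Finite.injective_iff_bijective.mp fun a b hab =>
            Subtype.ext (MulAction.injective σ (congrArg Subtype.val hab)))) _ _ fun n => ?_
        show σ ((h : M → ℚb) (σ⁻¹ • x + (n : M))) = (h : M → ℚb) (x + σ • (n : M))
        rw [← h.2.2.apply σ, smul_add, smul_inv_smul]
    have hinv : (⟨P (h : M → ℚb), hmem⟩ : H) ∈ H' := fun x y hxy => by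
      show ∑ n : q.ker, (h : M → ℚb) (x + (n : M)) = ∑ n : q.ker, (h : M → ℚb) (y + (n : M))
      refine Fintype.sum_equiv (Equiv.addLeft (⟨x - y, by
        rw [AddMonoidHom.mem_ker, map_sub, hxy, sub_self]⟩ : q.ker)) _ _ fun n => ?_
      refine congrArg (h : M → ℚb) ?_
      show x + (n : M) = y + ((x - y) + (n : M))
      abel
    have h1 := congrArg (fun u : H' => ((u : H) : M → ℚb)) (bH.sum_repr ⟨_, hinv⟩)
    simp only [Submodule.coe_sum, AddSubmonoidClass.coe_finsetSum] at h1
    rw [← h1]
    refine sum_mem fun i _ => ?_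
    rw [Submodule.coe_smul, SetLike.val_smul, ← IsScalarTower.algebraMap_smul ℚb, ← hkl]
    exact Submodule.smul_mem _ _ (Submodule.subset_span ⟨i, rfl⟩)
  have hinvspan : ∀ φ : M → ℚb, (∀ x y : M, q x = q y → φ x = φ y) →
      φ ∈ Submodule.span ℚb (Set.range fun i => (k (Sum.inl i) : M → ℚb)) := by
    intro φ hφ
    have h1 : P φ = (Fintype.card q.ker : ℚb) • φ := funext fun x => by
      show ∑ n : q.ker, φ (x + (n : M)) = (Fintype.card q.ker : ℚb) * φ x
      refine (Finset.sum_congr rfl fun (n : q.ker) _ => hφ (x + (n : M)) x (by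
        rw [map_add, AddMonoidHom.mem_ker.mp n.2, add_zero])).trans ?_
      simp [nsmul_eq_mul]
    have hne : (Fintype.card q.ker : ℚb) ≠ 0 := Nat.cast_ne_zero.mpr Fintype.card_ne_zero
    rw [← one_smul ℚb φ, ← inv_mul_cancel₀ hne, mul_smul, ← h1]
    refine Submodule.smul_mem _ _ ?_
    rw [← B₀.sum_repr φ, map_sum]
    exact sum_mem fun i _ => by
      rw [map_smul, hB₀]
      exact Submodule.smul_mem _ _ (hP _)
  have hzero : ∀ c : _ → ℚb, (∀ x y : M, q x = q y →
      (∑ a, c a • (k a : M → ℚb)) x = (∑ a, c a • (k a : M → ℚb)) y) → ∀ u, c (Sum.inr u) = 0 := by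
    intro c hc u
    obtain ⟨d, hd⟩ := (Submodule.mem_span_range_iff_exists_fun ℚb).mp (hinvspan _ hc)
    have := Fintype.linearIndependent_iff.mp hli
      (fun a => c a - Sum.elim d (fun _ => 0) a) (by
        simp only [sub_smul, Finset.sum_sub_distrib, sub_eq_zero]
        rw [← hd, Fintype.sum_sum_type]
        simp) (Sum.inr u)
    simpa using this
  -- the coordinates
  choose g hg using hsurj
  obtain ⟨L, hL, hfix⟩ := C.isOpen_stab
  refine ⟨{
    ι := Module.Free.ChooseBasisIndex (Rl ℓ) H'
    fintype_ι := inferInstance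
    φ := fun i z => ⟨((bH i : H) : M → ℚb) (g z), apply_mem_of_mem C (bH i : H).2.1 _⟩
    sep := fun z w h => ?_
    f := 1
    f_pos := one_pos
    equiv := fun σ _ _ i z => ?_
    isOpen_stab := ⟨L, hL, fun σ hσ z => by rw [← hg z, ← hq, hfix σ hσ]⟩
    flip := fun i => ?_ }⟩
  · have hall : ∀ φ : M → ℚb, (∀ x y : M, q x = q y → φ x = φ y) → φ (g z) = φ (g w) := fun φ hφ => by
      have hm := hinvspan φ hφ
      clear hφ
      induction hm using Submodule.span_induction with
      | mem x hx =>
        obtain ⟨i, rfl⟩ := hx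
        simp only [hkl]
        exact congrArg (fun a : A => (a : ℚb)) (congrFun h i)
      | zero => rfl
      | add x y _ _ hx hy => rw [Pi.add_apply, Pi.add_apply, hx, hy]
      | smul r x _ hx => rw [Pi.smul_apply, Pi.smul_apply, hx]
    have := hall (fun x => if q x = z then 1 else 0) fun x y hxy => by simp only [hxy]
    simp only [hg, if_true] at this
    by_contra hne
    rw [if_neg (Ne.symm hne)] at this
    exact one_ne_zero this
  · show ((bH i : H) : M → ℚb) (g (σ • z)) = σ (((bH i : H) : M → ℚb) (g z))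
    rw [← (bH i : H).2.2.apply σ]
    exact (bH i).2 _ _ (by rw [hg, hq, hg])
  · let t := comulAlg hA C (antipodeAlg hA C (bH i : H))
    have ht : ∀ z : M × M, tensorEval hA C t z = ((bH i : H) : M → ℚb) (-(z.1 + z.2)) := fun z => by
      rw [tensorEval_comulAlg, antipodeAlg_apply]
    let c := fun p => (k.tensorProduct k).repr t p
    have hF : ∀ z : M × M, tensorEval hA C t z =
        ∑ a, ∑ b, algebraMap (Rl ℓ) ℚb (c (a, b)) * ((k a : M → ℚb) z.1 * (k b : M → ℚb) z.2) :=
      fun z => (apply_eq_sum_repr k (tensorEval hA C).toLinearMap t z).trans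
        (Finset.sum_congr rfl fun a _ => Finset.sum_congr rfl fun b _ =>
          congrArg (algebraMap (Rl ℓ) ℚb (c (a, b)) * ·) (tensorEval_tmul hA C (k a) (k b) z))
    have hinv₁ : ∀ x x' y : M, q x = q x' → tensorEval hA C t (x, y) = tensorEval hA C t (x', y) :=
      fun x x' y h => by
        rw [ht, ht]
        exact (bH i).2 _ _ (by simp only [map_neg, map_add, h])
    have hinv₂ : ∀ x y y' : M, q y = q y' → tensorEval hA C t (x, y) = tensorEval hA C t (x, y') :=
      fun x y y' h => by
        rw [ht, ht]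
        exact (bH i).2 _ _ (by simp only [map_neg, map_add, h])
    have hz : ∀ d : _ → ℚb, (∀ x y : M, q x = q y →
        (∑ a, d a • (k a : M → ℚb)) x = (∑ a, d a • (k a : M → ℚb)) y) →
        ∀ u, (∃ v, u = Sum.inr v) → d u = 0 := fun d hd u hu => by
      obtain ⟨v, rfl⟩ := hu
      exact hzero d hd v
    have hc₁ : ∀ u b, c (Sum.inr u, b) = 0 := fun u b =>
      algebraMap_Rl_injective ((coeff_eq_zero_of_slices (fun a => (k a : M → ℚb)) hli
        (fun φ => ∀ x y : M, q x = q y → φ x = φ y) (fun a => ∃ v, a = Sum.inr v) hz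
        (fun a b => algebraMap (Rl ℓ) ℚb (c (a, b)))
        (fun y x x' h => (hF (x, y)).symm.trans ((hinv₁ x x' y h).trans (hF (x', y))))
        (u := Sum.inr u) ⟨u, rfl⟩ b).trans (map_zero _).symm)
    have hswap : ∀ x y : M, tensorEval hA C t (x, y) =
        ∑ b, ∑ a, algebraMap (Rl ℓ) ℚb (c (a, b)) * ((k b : M → ℚb) y * (k a : M → ℚb) x) :=
      fun x y => (hF (x, y)).trans (Finset.sum_comm.trans
        (Finset.sum_congr rfl fun b _ => Finset.sum_congr rfl fun a _ =>
          congrArg (algebraMap (Rl ℓ) ℚb (c (a, b)) * ·) (mul_comm _ _)))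
    have hc₂ : ∀ a u, c (a, Sum.inr u) = 0 := fun a u =>
      algebraMap_Rl_injective ((coeff_eq_zero_of_slices (fun a => (k a : M → ℚb)) hli
        (fun φ => ∀ x y : M, q x = q y → φ x = φ y) (fun a => ∃ v, a = Sum.inr v) hz
        (fun b a => algebraMap (Rl ℓ) ℚb (c (a, b)))
        (fun x y y' h => (hswap x y).symm.trans ((hinv₂ x y y' h).trans (hswap x y')))
        (u := Sum.inr u) ⟨u, rfl⟩ a).trans (map_zero _).symm)
    let coA : Rl ℓ → A := fun r => ⟨algebraMap (Rl ℓ) ℚb r, algebraMap_mem_place A hA r⟩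
    have key : (fun z : Q × Q => (⟨((bH i : H) : M → ℚb) (g (-(z.1 + z.2))),
        apply_mem_of_mem C (bH i : H).2.1 _⟩ : A)) =
        ∑ a, ∑ b, coA (c (Sum.inl a, Sum.inl b)) •
          ((fun z : Q × Q => (⟨((bH a : H) : M → ℚb) (g z.1), apply_mem_of_mem C (bH a : H).2.1 _⟩ : A))
            * fun z : Q × Q => ⟨((bH b : H) : M → ℚb) (g z.2), apply_mem_of_mem C (bH b : H).2.1 _⟩) := by
      funext z
      refine Subtype.ext ?_
      simp only [Finset.sum_apply, Pi.smul_apply, Pi.mul_apply, AddSubmonoidClass.coe_finsetSum,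
        smul_eq_mul, MulMemClass.coe_mul]
      show ((bH i : H) : M → ℚb) (g (-(z.1 + z.2))) = _
      rw [(bH i).2 _ (-(g z.1 + g z.2)) (by simp only [hg, map_neg, map_add]), ← ht (g z.1, g z.2),
        hF, Fintype.sum_sum_type]
      simp only [hc₁, hc₂, map_zero, zero_mul, Finset.sum_const_zero, add_zero,
        Fintype.sum_sum_type, hkl, coA]
    let coordQ' : Module.Free.ChooseBasisIndex (Rl ℓ) H' → Q → A :=
      fun a z => ⟨((bH a : H) : M → ℚb) (g z), apply_mem_of_mem C (bH a : H).2.1 _⟩
    let T : Subalgebra A (Q × Q → A) := Algebra.adjoin A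
      (Set.range (fun a => fun z : Q × Q => coordQ' a z.1) ∪
        Set.range fun a => fun z : Q × Q => coordQ' a z.2)
    have h₁ : ∀ a, (fun z : Q × Q => coordQ' a z.1) ∈ T := fun a =>
      Algebra.subset_adjoin (R := A) (Or.inl ⟨a, rfl⟩)
    have h₂ : ∀ a, (fun z : Q × Q => coordQ' a z.2) ∈ T := fun a =>
      Algebra.subset_adjoin (R := A) (Or.inr ⟨a, rfl⟩)
    refine (congrArg (· ∈ T) key).mpr ?_
    exact sum_mem fun a _ => sum_mem fun b _ => T.smul_mem (T.mul_mem (h₁ _) (h₂ _)) _

end Fermat.Agent.MCurve.Flat
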