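/-
Finite flat models pass to Galois submodules, quotients and finite powers.
-/
import Fermat.Agent.MCurve.Flat.CoordsOps

set_option autoImplicit false
set_option linter.style.haveILetI false
set_option linter.unusedSectionVars false

noncomputable section

namespace Fermat.Agent.MCurve.Flat

open Fermat.Agent.Galois
open scoped TensorProduct

local notation "ℚb" => AlgebraicClosure ℚ

variable {ℓ : ℕ} [Fact ℓ.Prime] {M : Type} [AddCommGroup M] [DistribMulAction GQ M]

/-- A finite flat model gives integral coordinates at every place over `ℓ`. -/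
theorem exists_intCoords_of_hasFlatModel [Finite M] (h : HasFlatModel M ℓ)
    {A : ValuationSubring ℚb} (hA : A.LiesOverPrime ℓ) : Nonempty (IntCoords M A ℓ) := by
  obtain ⟨H, hring, hhopf, hfin, -, -, e, hadd, hequiv⟩ := h
  letI := hring
  letI := hhopf
  haveI := hfin
  obtain ⟨d, s, hs⟩ := Module.Finite.exists_fin (R := Rl ℓ) (M := H)
  let pt : M → (H →ₐ[Rl ℓ] ℚb) := fun x => (e.symm x).ofConv
  letI : Algebra (Rl ℓ) A := (oToA A hA).toAlgebra
  haveI : IsScalarTower (Rl ℓ) A ℚb := IsScalarTower.of_algebraMap_eq fun _ => rfl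
  have hmem : ∀ (x : M) (u : H), pt x u ∈ A := fun x u => by
    obtain ⟨y, hy⟩ := IsIntegrallyClosed.isIntegral_iff.mp
      (((IsIntegral.of_finite (Rl ℓ) u).map (pt x)).tower_top (A := A))
    rw [← hy]
    exact y.2
  have hsep : ∀ x y : M, (∀ i, pt x (s i) = pt y (s i)) → x = y := fun x y hxy => by
    have h1 : (pt x).toLinearMap = (pt y).toLinearMap := LinearMap.ext_on_range hs hxy
    have h2 : e.symm x = e.symm y :=
      WithConv.ext (AlgHom.ext fun u => LinearMap.congr_fun h1 u)
    exact e.symm.injective h2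
  have hgal : ∀ (σ : GQ) (x : M) (u : H), pt (σ • x) u = σ (pt x u) := by
    intro σ x u
    let g : WithConv (H →ₐ[Rl ℓ] ℚb) :=
      WithConv.toConv ((σ.toAlgHom.restrictScalars (Rl ℓ)).comp (e.symm x).ofConv)
    have hg : e g = σ • e (e.symm x) := hequiv σ (e.symm x) g fun _ => rfl
    rw [Equiv.apply_symm_apply] at hg
    show (e.symm (σ • x)).ofConv u = _
    rw [← hg, Equiv.symm_apply_apply]
    rfl
  let vals : M × Fin d → ℚb := fun z => pt z.1 (s z.2)
  refine ⟨{
    ι := Fin d
    fintype_ι := inferInstance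
    φ := fun i x => ⟨pt x (s i), hmem x _⟩
    sep := fun x y hxy => hsep x y fun i => congrArg Subtype.val (congrFun hxy i)
    f := 1
    f_pos := one_pos
    equiv := fun σ _ _ i x => hgal σ x (s i)
    isOpen_stab := ⟨IntermediateField.adjoin ℚ (Set.range vals),
      IntermediateField.finiteDimensional_adjoin fun _ _ => Algebra.IsIntegral.isIntegral _,
      fun σ hσ x => hsep _ _ fun i => by
        rw [hgal]
        exact hσ _ (IntermediateField.subset_adjoin ℚ _ ⟨(x, i), rfl⟩)⟩
    flip := fun i => ?_ }⟩
  -- the zero and negatives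
  have he1 : e 1 = 0 := by
    have h1 := hadd 1 1
    rw [mul_one] at h1
    exact left_eq_add.mp h1
  have hneg : ∀ (x : M) (u : H), pt (-x) u = pt x (HopfAlgebra.antipode (Rl ℓ) u) := by
    intro x u
    let g : WithConv (H →ₐ[Rl ℓ] ℚb) := WithConv.toConv
      ((e.symm x).ofConv.comp (HopfAlgebra.antipodeAlgHom (Rl ℓ) H))
    have hmul : e.symm x * g = 1 := by
      refine WithConv.ext (AlgHom.ext fun w => ?_)
      refine (AlgHom.convMul_apply _ _ w).trans ?_
      show _ = algebraMap (Rl ℓ) ℚb (Coalgebra.counit w)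
      rw [← AlgHom.commutes (e.symm x).ofConv,
        ← HopfAlgebra.mul_antipode_lTensor_comul_apply (R := Rl ℓ) w]
      induction (Coalgebra.comul w : H ⊗[Rl ℓ] H) using TensorProduct.induction_on with
      | zero => simp
      | tmul a b =>
        rw [Algebra.TensorProduct.lift_tmul, LinearMap.lTensor_tmul, LinearMap.mul'_apply, map_mul]
        rfl
      | add a b ha hb => simp only [map_add, ha, hb]
    have h1 := hadd (e.symm x) g
    rw [hmul, he1, Equiv.apply_symm_apply] at h1
    have h2 : e g = -x := eq_neg_of_add_eq_zero_right h1.symm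
    show (e.symm (-x)).ofConv u = _
    rw [← h2, Equiv.symm_apply_apply]
    rfl
  have hsum : ∀ (x y : M) (u : H), pt (x + y) u =
      Algebra.TensorProduct.lift (pt x) (pt y) (fun _ _ => Commute.all _ _) (Coalgebra.comul u) := by
    intro x y u
    have h1 : e.symm (x + y) = e.symm x * e.symm y := by
      rw [Equiv.symm_apply_eq, hadd, Equiv.apply_symm_apply, Equiv.apply_symm_apply]
    show (e.symm (x + y)).ofConv u = _
    rw [h1]
    exact AlgHom.convMul_apply _ _ u
  let T : Subalgebra A (M × M → A) := Algebra.adjoin A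
    (Set.range (fun j => fun z : M × M => (⟨pt z.1 (s j), hmem _ _⟩ : A)) ∪
      Set.range fun j => fun z : M × M => (⟨pt z.2 (s j), hmem _ _⟩ : A))
  have hpull : ∀ u : H, (fun z : M × M => (⟨pt z.1 u, hmem _ _⟩ : A)) ∈ T ∧
      (fun z : M × M => (⟨pt z.2 u, hmem _ _⟩ : A)) ∈ T := by
    intro u
    have hu : u ∈ Submodule.span (Rl ℓ) (Set.range s) := by rw [hs]; trivial
    induction hu using Submodule.span_induction with
    | mem u hu =>
      obtain ⟨j, rfl⟩ := hu
      exact ⟨Algebra.subset_adjoin (R := A) (Or.inl ⟨j, rfl⟩),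
        Algebra.subset_adjoin (R := A) (Or.inr ⟨j, rfl⟩)⟩
    | zero =>
      constructor <;> convert T.zero_mem using 1 <;> funext z <;> exact Subtype.ext (map_zero _)
    | add a b _ _ ha hb =>
      constructor
      · convert T.add_mem ha.1 hb.1 using 1
        funext z
        exact Subtype.ext (map_add _ _ _)
      · convert T.add_mem ha.2 hb.2 using 1
        funext z
        exact Subtype.ext (map_add _ _ _)
    | smul r a _ ha =>
      constructor
      · convert T.smul_mem ha.1 (oToA A hA r) using 1
        funext z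
        exact Subtype.ext ((map_smul _ _ _).trans (Algebra.smul_def _ _))
      · convert T.smul_mem ha.2 (oToA A hA r) using 1
        funext z
        exact Subtype.ext ((map_smul _ _ _).trans (Algebra.smul_def _ _))
  have hlift : ∀ t : H ⊗[Rl ℓ] H, ∃ F ∈ T, ∀ z : M × M, (F z : ℚb) =
      Algebra.TensorProduct.lift (pt z.1) (pt z.2) (fun _ _ => Commute.all _ _) t := by
    intro t
    induction t using TensorProduct.induction_on with
    | zero => exact ⟨0, T.zero_mem, fun z => by simp⟩
    | tmul a b =>
      exact ⟨_, T.mul_mem (hpull a).1 (hpull b).2, fun z => by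
        rw [Algebra.TensorProduct.lift_tmul]
        rfl⟩
    | add a b ha hb =>
      obtain ⟨F, hF, hF'⟩ := ha
      obtain ⟨G, hG, hG'⟩ := hb
      exact ⟨F + G, T.add_mem hF hG, fun z => by rw [map_add, ← hF', ← hG']; rfl⟩
  obtain ⟨F, hF, hF'⟩ := hlift (Coalgebra.comul (HopfAlgebra.antipode (Rl ℓ) (s i)))
  have heq : (fun z : M × M => (⟨pt (-(z.1 + z.2)) (s i), hmem _ _⟩ : A)) = F := funext fun z =>
    Subtype.ext ((hneg _ _).trans ((hsum _ _ _).trans (hF' z).symm))
  exact (congrArg (· ∈ T) heq).mpr hF

variable [Finite M]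

/-- A Galois submodule of a module with a finite flat model has one. -/
theorem HasFlatModel.of_injective (h : HasFlatModel M ℓ) {M' : Type} [AddCommGroup M']
    [DistribMulAction GQ M'] (j : M' →+ M) (hj : ∀ (σ : GQ) x, j (σ • x) = σ • j x)
    (hinj : Function.Injective j) : HasFlatModel M' ℓ := by
  obtain ⟨A, hA⟩ := exists_liesOverPrime (Fact.out : ℓ.Prime)
  obtain ⟨C⟩ := exists_intCoords_of_hasFlatModel h hA
  haveI : Finite M' := Finite.of_injective j hinj
  exact hasFlatModel_of_intCoords hA (C.ofFamily (X := Unit) (fun _ => j) (fun _ => hj)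
    fun v hv => hinj ((hv ()).trans (map_zero j).symm))

/-- A Galois quotient of a module with a finite flat model has one. -/
theorem HasFlatModel.of_surjective (h : HasFlatModel M ℓ) {Q : Type} [AddCommGroup Q]
    [DistribMulAction GQ Q] (q : M →+ Q) (hq : ∀ (σ : GQ) x, q (σ • x) = σ • q x)
    (hsurj : Function.Surjective q) : HasFlatModel Q ℓ := by
  obtain ⟨A, hA⟩ := exists_liesOverPrime (Fact.out : ℓ.Prime)
  obtain ⟨C⟩ := exists_intCoords_of_hasFlatModel h hA
  haveI : Finite Q := Finite.of_surjective q hsurj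
  obtain ⟨C'⟩ := exists_intCoords_of_surjective hA C q hq hsurj
  exact hasFlatModel_of_intCoords hA C'

/-- A finite family of maps which is jointly injective. -/
theorem HasFlatModel.of_family (h : HasFlatModel M ℓ) {M' : Type} [AddCommGroup M']
    [DistribMulAction GQ M'] [Finite M'] {X : Type} [Finite X] (j : X → M' →+ M)
    (hj : ∀ x (σ : GQ) v, j x (σ • v) = σ • j x v) (hinj : ∀ v, (∀ x, j x v = 0) → v = 0) :
    HasFlatModel M' ℓ := by
  haveI := Fintype.ofFinite X
  obtain ⟨A, hA⟩ := exists_liesOverPrime (Fact.out : ℓ.Prime)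
  obtain ⟨C⟩ := exists_intCoords_of_hasFlatModel h hA
  exact hasFlatModel_of_intCoords hA (C.ofFamily j hj hinj)

/-- A finite power of a module with a finite flat model has one. -/
theorem HasFlatModel.pi (h : HasFlatModel M ℓ) (X : Type) [Finite X] :
    HasFlatModel (X → M) ℓ :=
  h.of_family (fun x => Pi.evalAddMonoidHom (fun _ : X => M) x) (fun _ _ _ => rfl)
    fun v hv => funext hv

end Fermat.Agent.MCurve.Flat
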