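/-
The Kummer map on the torsion of `J₀(N)`: a class `z` with `n • z = 0` has a representative `D` with
`n • D` the divisor of a holomorphic modular function, whose `n`-th root transforms by a parabolic
homomorphism `Γ₀(N) → ℤ/n`. This gives an injective equivariant homomorphism.
-/
import Fermat.Agent.MCurve.RootBridge
import Fermat.Agent.MCurve.RiemannRoch.Curve
import Fermat.Agent.GalRep.Lattice
import Fermat.Prelude.Def_ModularCurve_ArithmeticGalois

set_option autoImplicit false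
set_option linter.style.haveILetI false
set_option linter.unusedSectionVars false
set_option maxHeartbeats 1000000

noncomputable section

namespace Fermat.Agent.MCurve.Flat

open AlgebraicCurve ModularCurve CongruenceSubgroup IsLocalRing
open Fermat.Agent.Galois (GQ)
open Fermat.Agent.GalRep (ParHom IsKummerRep HasQSeries IsModFun seriesToC seriesConj qbarToC
  kummerGalois)
open scoped MatrixGroups Manifold

local notation "Q̄" => AlgebraicClosure ℚ
local notation "ℍ" => UpperHalfPlane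

variable (N : ℕ) [NeZero N] (n : ℕ) [NeZero n]

local notation "𝔽" => modularFunctionFieldBar N

/-- `χ` is the Kummer character of the class `z`. -/
def IsKummerClass (z : JZero N) (χ : ParHom N (ZMod n)) : Prop :=
  ∃ (D : Divisor.degZero (K := Q̄) (F := 𝔽)) (x : barAlg N) (F : ℍ → ℂ) (f : LaurentSeries Q̄),
    Pic0.mk D = z ∧ x ≠ 0 ∧
      (∀ v : Place Q̄ 𝔽, v.ord (x : 𝔽) = n * (D : Divisor Q̄ 𝔽) v) ∧
      IsKummerRep N n χ F ∧ HasQSeries 1 F (seriesToC f) ∧
      f ^ n = ((x : 𝔽) : LaurentSeries Q̄)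

theorem bar_isFinOver : IsFinOver Q̄ (jBar N Q̄) := by
  letI : Algebra Q̄ ℂ := qbarToC.toAlgebra
  exact (bar_isFinOver_and_finrank N Q̄).1

theorem exists_good_place : ∃ (ℓ : ℕ) (A : ValuationSubring Q̄),
    ℓ.Prime ∧ ¬ ℓ ∣ N ∧ A.LiesOverPrime ℓ := by
  obtain ⟨ℓ, hN, hℓ⟩ := Nat.exists_infinite_primes (N + 1)
  obtain ⟨A, hA⟩ := Galois.exists_liesOverPrime hℓ
  exact ⟨ℓ, A, hℓ, fun h => by
    have := Nat.le_of_dvd (Nat.pos_of_ne_zero (NeZero.ne N)) h
    omega, hA⟩

theorem barAlg_frac : IsFractionRing (barAlg N) 𝔽 := by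
  obtain ⟨ℓ, A, hℓ, hℓN, hA⟩ := exists_good_place N
  haveI : Fact ℓ.Prime := ⟨hℓ⟩
  exact isFractionRing_barAlg N hA hℓN

theorem seriesToC_pow (f : LaurentSeries Q̄) (k : ℕ) : seriesToC (f ^ k) = seriesToC f ^ k :=
  map_pow (coeffMap qbarToC) f k

theorem seriesToC_mul (f g : LaurentSeries Q̄) : seriesToC (f * g) = seriesToC f * seriesToC g :=
  map_mul (coeffMap qbarToC) f g

/-- A root of a series with algebraic coefficients has algebraic coefficients. -/
theorem exists_root_series {m : ℕ} (hm0 : 0 < m) {s : LaurentSeries Q̄} (hs0 : s ≠ 0)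
    {h : LaurentSeries ℂ} (hh : h ^ m = seriesToC s) : ∃ f, seriesToC f = h ∧ f ^ m = s := by
  haveI : NeZero m := ⟨hm0.ne'⟩
  have hh0 : h ≠ 0 := fun h0 => hs0 (GalRep.seriesToC_injective (by
    rw [← hh, h0, zero_pow hm0.ne']; exact (map_zero (coeffMap qbarToC)).symm))
  have hlead : h.coeff h.order ≠ 0 := fun h0 => hh0 (HahnSeries.coeff_order_eq_zero.mp h0)
  have hfix0 : ∀ σ : ℂ ≃+* ℂ, (∀ y, σ (qbarToC y) = qbarToC y) →
      σ (h.coeff h.order) = h.coeff h.order := by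
    intro σ hσ
    have h1 : IsAlgebraic ℚ (h.coeff h.order ^ m) := by
      refine GalRep.isAlgebraic_of_fixed fun σ hσ => ?_
      have h2 : ∀ i : ℕ, (h ^ i).coeff (i • h.order) = h.coeff h.order ^ i := by
        intro i
        induction i with
        | zero => simp
        | succ i ih =>
          rw [pow_succ, pow_succ, succ_nsmul, ← ih]
          conv_lhs => rw [show i • h.order + h.order = (h ^ i).order + h.order by
            rw [HahnSeries.order_pow]]
          rw [HahnSeries.coeff_mul_order_add_order, HahnSeries.leadingCoeff_eq,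
            HahnSeries.leadingCoeff_eq, HahnSeries.order_pow]
      rw [← h2, hh]
      exact hσ _
    obtain ⟨y, hy⟩ := GalRep.exists_qbarToC_eq (IsAlgebraic.of_pow hm0 h1)
    rw [← hy]; exact hσ y
  have halg : ∀ k, IsAlgebraic ℚ (h.coeff k) := by
    intro k
    refine GalRep.isAlgebraic_of_fixed fun σ hσ => ?_
    have h1 : GalRep.lmap σ.toRingHom h ^ m = h ^ m := by
      rw [← map_pow, hh, lmap_fix_seriesToC hσ]
    obtain ⟨ω, hω⟩ : ∃ ω : ℂ, GalRep.lmap σ.toRingHom h = HahnSeries.C ω * h := by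
      set q := GalRep.lmap σ.toRingHom h / h with hq
      have hq1 : q ^ m = 1 := by rw [hq, div_pow, h1, div_self (pow_ne_zero _ hh0)]
      obtain ⟨i, -, hi⟩ := ((Complex.isPrimitiveRoot_exp m hm0.ne').map_of_injective
        (f := (HahnSeries.C : ℂ →+* LaurentSeries ℂ)) HahnSeries.C_injective).eq_pow_of_pow_eq_one hq1
      exact ⟨_, by rw [map_pow, hi, hq, div_mul_cancel₀ _ hh0]⟩
    have h2 := congrArg (fun s : LaurentSeries ℂ => s.coeff h.order) hω
    simp only [HahnSeries.C_apply, HahnSeries.coeff_single_zero_mul] at h2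
    have hω1 : ω = 1 := by
      refine mul_right_cancel₀ hlead ?_
      rw [one_mul, ← h2]
      exact hfix0 σ hσ
    rw [hω1, map_one, one_mul] at hω
    exact congrArg (fun s : LaurentSeries ℂ => s.coeff k) hω
  obtain ⟨f, hf⟩ := GalRep.exists_seriesToC_eq halg
  exact ⟨f, hf, GalRep.seriesToC_injective (by rw [seriesToC_pow, hf, hh])⟩

theorem mk_eq_zero_iff {D : Divisor.degZero (K := Q̄) (F := 𝔽)} :
    Pic0.mk D = 0 ↔ Divisor.IsPrincipal (D : Divisor Q̄ 𝔽) :=
  (QuotientAddGroup.eq_zero_iff D).trans AddSubgroup.mem_addSubgroupOf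

/-- Existence of the Kummer character. -/
theorem exists_isKummerClass {z : JZero N} (hz : (n : ℤ) • z = 0) :
    ∃ χ, IsKummerClass N n z χ := by
  obtain ⟨ℓ, A, hℓ, hℓN, hA⟩ := exists_good_place N
  haveI : Fact ℓ.Prime := ⟨hℓ⟩
  haveI := barAlg_frac N
  haveI : HasPrincipalDivisors Q̄ 𝔽 := RR.hasPrincipalDivisors_of_isFinOver (bar_isFinOver N)
  obtain ⟨D, rfl⟩ := Pic0.mk_surjective z
  have hz' : Pic0.mk ((n : ℤ) • D) = 0 := (map_zsmul (QuotientAddGroup.mk' _) (n : ℤ) D).trans hz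
  obtain ⟨g, hg0, hg⟩ := (mk_eq_zero_iff N).mp hz'
  obtain ⟨a, b, ha, hb, hab⟩ := exists_frac_ne_zero (R := barAlg N) hg0
  have hb' : (b : 𝔽) ≠ 0 := fun h => hb (Subtype.ext h)
  have ha' : (a : 𝔽) ≠ 0 := fun h => ha (Subtype.ext h)
  obtain ⟨E, hE, hdeg⟩ := HasPrincipalDivisors.exists_divisor (K := Q̄) (b : 𝔽) hb'
  set D' : Divisor.degZero (K := Q̄) (F := 𝔽) := D + ⟨E, hdeg⟩
  have hD' : Pic0.mk D' = Pic0.mk D := by
    rw [Pic0.mk_add, (mk_eq_zero_iff N (D := ⟨E, hdeg⟩)).mpr ⟨(b : 𝔽), hb', hE⟩, add_zero]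
  set x : barAlg N := a * b ^ (n - 1)
  have hx0 : x ≠ 0 := mul_ne_zero ha (pow_ne_zero _ hb)
  have hord : ∀ v : Place Q̄ 𝔽, v.ord (x : 𝔽) = n * (D' : Divisor Q̄ 𝔽) v := fun v => by
    have h1 : v.ord (a : 𝔽) - v.ord (b : 𝔽) = n * (D : Divisor Q̄ 𝔽) v := by
      have h2 := hg v
      rw [hab, show algebraMap (barAlg N) 𝔽 a = (a : 𝔽) from rfl,
        show algebraMap (barAlg N) 𝔽 b = (b : 𝔽) from rfl, div_eq_mul_inv,
        v.ord_mul ha' (inv_ne_zero hb'), v.ord_inv] at h2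
      simpa [sub_eq_add_neg] using h2.symm
    have h3 : v.ord (x : 𝔽) = v.ord (a : 𝔽) + ((n - 1 : ℕ) : ℤ) * v.ord (b : 𝔽) := by
      rw [show (x : 𝔽) = (a : 𝔽) * (b : 𝔽) ^ (n - 1) from rfl, v.ord_mul ha' (pow_ne_zero _ hb'),
        ord_pow]
    rw [h3, Nat.cast_sub (NeZero.pos n), show ((D' : Divisor Q̄ 𝔽)) v = (D : Divisor Q̄ 𝔽) v + E v
      from rfl, hE, mul_add, ← h1, Nat.cast_one]
    ring
  obtain ⟨G, -, hG⟩ := GalRep.exists_interp (toMod N x)
  obtain ⟨χ, F, hF, hnum⟩ := GalRep.rep_of_crit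
    (crit_of_dvd N hA hℓN hx0 (fun v => ⟨_, hord v⟩) hG)
  have hFn : ∀ τ, F τ ^ n = (toMod N x : ℍ → ℂ) τ := by
    have heq : ∀ τ : ℍ, (F τ ^ n - (toMod N x : ℍ → ℂ) τ) * (GalRep.denVal N : ℍ → ℂ) τ = 0 :=
      fun τ => by
        have h1 := hnum τ
        have h2 : (toMod N x : ℍ → ℂ) τ * (GalRep.denVal N : ℍ → ℂ) τ =
            (GalRep.numVal N G : ℍ → ℂ) τ := congrFun (congrArg Subtype.val hG) τ
        linear_combination h1 - h2
    rcases Hecke.eq_zero_or_eq_zero_of_holo_mul ((hF.holo.pow n).sub (toMod N x).2.holo)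
      (GalRep.denVal N).2.holo (funext heq) with hz | hz
    · exact fun τ => sub_eq_zero.mp (congrFun hz τ)
    · refine absurd (Subtype.ext hz : GalRep.denVal N = 0) fun h => ?_
      exact GalRep.biEval_modPoly_deriv_ne_zero (Period.baseCoset N) (by
        rw [← GalRep.incl_biEval]
        show GalRep.incl N (GalRep.denVal N) = 0
        rw [h, map_zero])
  obtain ⟨h, hh, -⟩ := hF.exists_series_one
  have hpow : h ^ n = seriesToC (((x : 𝔽)) : LaurentSeries Q̄) :=
    ((hh.pow n).congr (.of_forall hFn)).unique one_pos (hasQSeries_toMod N x)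
  obtain ⟨f, hf, hfn⟩ := exists_root_series (NeZero.pos n)
    (fun h0 => hx0 (Subtype.ext (Subtype.ext h0))) hpow
  exact ⟨χ, D', x, F, f, hD', hx0, hord, hF, hf ▸ hh, hfn⟩

variable {N n}

theorem IsKummerClass.add {z z' : JZero N} {χ χ' : ParHom N (ZMod n)}
    (h : IsKummerClass N n z χ) (h' : IsKummerClass N n z' χ') :
    IsKummerClass N n (z + z') (χ + χ') := by
  obtain ⟨D, x, F, f, hD, hx, hord, hF, hf, hfn⟩ := h
  obtain ⟨D', x', F', f', hD', hx', hord', hF', hf', hfn'⟩ := h'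
  refine ⟨D + D', x * x', F * F', f * f', by rw [Pic0.mk_add, hD, hD'], mul_ne_zero hx hx',
    fun v => ?_, hF.mul hF', by rw [seriesToC_mul]; exact hf.mul hf', by
      rw [mul_pow, hfn, hfn']; rfl⟩
  rw [show ((x * x' : barAlg N) : 𝔽) = (x : 𝔽) * (x' : 𝔽) from rfl,
    v.ord_mul (fun h => hx (Subtype.ext h)) (fun h => hx' (Subtype.ext h)), hord, hord',
    AddSubgroup.coe_add, Finsupp.add_apply, mul_add]

/-- The trivial class has the trivial character. -/
theorem IsKummerClass.eq_zero {χ : ParHom N (ZMod n)} (h : IsKummerClass N n 0 χ) : χ = 0 := by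
  obtain ⟨D, x, F, f, hD, hx, hord, hF, hf, hfn⟩ := h
  haveI := barAlg_frac N
  obtain ⟨g, hg0, hg⟩ := (mk_eq_zero_iff N).mp hD
  obtain ⟨a, b, ha, hb, hab⟩ := exists_frac_ne_zero (R := barAlg N) hg0
  have hb' : (b : 𝔽) ≠ 0 := fun h => hb (Subtype.ext h)
  have ha' : (a : 𝔽) ≠ 0 := fun h => ha (Subtype.ext h)
  have hx' : (x : 𝔽) ≠ 0 := fun h => hx (Subtype.ext h)
  have hg' : g = (a : 𝔽) / (b : 𝔽) := hab
  obtain ⟨c, hc0, hc⟩ := exists_const_of_ord_eq_zero (bar_isFinOver N)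
    (f := (x : 𝔽) / g ^ n) (div_ne_zero hx' (pow_ne_zero _ hg0)) fun v => by
      rw [div_eq_mul_inv, v.ord_mul hx' (inv_ne_zero (pow_ne_zero _ hg0)), v.ord_inv, ord_pow,
        hord, hg v]
      ring
  obtain ⟨c₁, hc₁⟩ := IsAlgClosed.exists_pow_nat_eq c (NeZero.pos n)
  -- the series
  have key : (f * ((b : 𝔽) : LaurentSeries Q̄)) ^ n =
      (algebraMap Q̄ (LaurentSeries Q̄) c₁ * ((a : 𝔽) : LaurentSeries Q̄)) ^ n := by
    have h1 : (x : 𝔽) * (b : 𝔽) ^ n = algebraMap Q̄ 𝔽 c * (a : 𝔽) ^ n := by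
      have h2 := hc.symm
      rw [hg', div_pow, div_eq_iff (by positivity)] at h2
      rw [h2]
      field_simp
    have h3 := congrArg Subtype.val h1
    rw [mul_pow, mul_pow, hfn, ← map_pow, hc₁]
    exact h3
  have hne : algebraMap Q̄ (LaurentSeries Q̄) c₁ * ((a : 𝔽) : LaurentSeries Q̄) ≠ 0 := by
    refine mul_ne_zero ?_ (fun h => ha' (Subtype.ext h))
    rw [Ne, map_eq_zero]
    rintro rfl
    rw [zero_pow (NeZero.ne n)] at hc₁
    exact hc0 hc₁.symm
  obtain ⟨ω, hω⟩ : ∃ ω : Q̄, f * ((b : 𝔽) : LaurentSeries Q̄) =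
      algebraMap Q̄ (LaurentSeries Q̄) ω * ((a : 𝔽) : LaurentSeries Q̄) := by
    set q := f * ((b : 𝔽) : LaurentSeries Q̄) /
      (algebraMap Q̄ (LaurentSeries Q̄) c₁ * ((a : 𝔽) : LaurentSeries Q̄)) with hq
    have hq1 : q ^ n = 1 := by rw [hq, div_pow, key, div_self (pow_ne_zero _ hne)]
    obtain ⟨ζ, hζ⟩ := HasEnoughRootsOfUnity.exists_primitiveRoot Q̄ n
    obtain ⟨i, -, hi⟩ := (hζ.map_of_injective
      (f := (algebraMap Q̄ (LaurentSeries Q̄))) (algebraMap Q̄ _).injective).eq_pow_of_pow_eq_one hq1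
    exact ⟨ζ ^ i * c₁, by rw [map_mul, map_pow, hi, mul_assoc, hq, div_mul_cancel₀ _ hne]⟩
  -- the functions
  set A' := toMod N (algebraMap Q̄ _ ω * a)
  set B' := toMod N b
  have hfun : (fun τ => F τ * (B' : ℍ → ℂ) τ) = (A' : ℍ → ℂ) := by
    refine GalRep.eq_of_hasQSeries (hF.holo.mul B'.2.holo) A'.2.holo
      (hf.mul (hasQSeries_toMod N b)) ?_
    rw [← seriesToC_mul, hω]
    exact hasQSeries_toMod N _
  have hne' : (fun τ => F τ * (B' : ℍ → ℂ) τ) ≠ 0 := fun h0 => by
    rcases Hecke.eq_zero_or_eq_zero_of_holo_mul hF.holo B'.2.holo h0 with h1 | h1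
    · exact hF.ne_zero h1
    · exact hb (toMod_injective N ((Subtype.ext h1 : B' = 0).trans (map_zero _).symm))
  obtain ⟨τ, hτ⟩ := Function.ne_iff.mp hne'
  refine Subtype.ext (AddMonoidHom.ext fun y => ?_)
  obtain ⟨γ, rfl⟩ := Additive.ofMul.surjective y
  refine ZMod.injective_stdAddChar (mul_right_cancel₀ hτ ?_)
  show _ = ZMod.stdAddChar (0 : ZMod n) * _
  have e := congrFun hfun ((γ : SL(2, ℤ)) • τ)
  rw [hF.equivariant, B'.2.invariant _ γ.2, A'.2.invariant _ γ.2, ← congrFun hfun τ, mul_assoc] at e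
  rw [AddChar.map_zero_eq_one, one_mul]
  exact e

/-- The character is determined by the class. -/
theorem IsKummerClass.unique {z : JZero N} (hz : (n : ℤ) • z = 0) {χ χ' : ParHom N (ZMod n)}
    (h : IsKummerClass N n z χ) (h' : IsKummerClass N n z χ') : χ = χ' := by
  obtain ⟨ψ, hψ⟩ := exists_isKummerClass N n (z := -z) (by rw [zsmul_neg, hz, neg_zero])
  have h1 : IsKummerClass N n 0 (χ + ψ) := by simpa using h.add hψ
  have h2 : IsKummerClass N n 0 (χ' + ψ) := by simpa using h'.add hψ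
  exact add_right_cancel (h1.eq_zero.trans h2.eq_zero.symm)

/-- A class with trivial character is trivial. -/
theorem IsKummerClass.class_eq_zero {z : JZero N} (h : IsKummerClass N n z 0) : z = 0 := by
  obtain ⟨D, x, F, f, rfl, hx, hord, hF, hf, hfn⟩ := h
  have hmem : f ∈ modularFunctionFieldBar N := mem_bar_of_isModFun hF.isModFun hf
  have hx' : (x : 𝔽) ≠ 0 := fun h => hx (Subtype.ext h)
  have hg : (⟨f, hmem⟩ : 𝔽) ^ n = (x : 𝔽) := Subtype.ext hfn
  refine (mk_eq_zero_iff N).mpr ⟨⟨f, hmem⟩, fun h0 => hx' (by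
    rw [← hg, h0, zero_pow (NeZero.ne n)]), fun v => ?_⟩
  have h1 := hord v
  rw [← hg, ord_pow] at h1
  exact (mul_left_cancel₀ (by exact_mod_cast NeZero.ne n) h1).symm

theorem coeffMap_mem_genAlg (σ : GQ) {y : LaurentSeries Q̄} (hy : y ∈ genAlg Q̄ N) :
    coeffMap (σ : Q̄ →+* Q̄) y ∈ genAlg Q̄ N := by
  induction hy using Algebra.adjoin_induction with
  | mem y hy =>
    obtain ⟨d, hd0, hd, rfl⟩ := hy
    rw [qExpand_coeffMap, MCurve.coeffMap_jqModC]
    exact Algebra.subset_adjoin ⟨d, hd0, hd, rfl⟩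
  | algebraMap a => rw [coeffMap_algebraMap]; exact Subalgebra.algebraMap_mem _ _
  | add y z _ _ hy hz => rw [map_add]; exact add_mem hy hz
  | mul y z _ _ hy hz => rw [map_mul]; exact mul_mem hy hz

/-- Equivariance. -/
theorem IsKummerClass.smul {z : JZero N} {χ : ParHom N (ZMod n)} (h : IsKummerClass N n z χ)
    (σ : GQ) : IsKummerClass N n (σ • z) ((kummerGalois N n).galois σ χ) := by
  obtain ⟨D, x, F, f, rfl, hx, hord, hF, hf, hfn⟩ := h
  obtain ⟨F', hF', hf'⟩ := (kummerGalois N n).galois_spec σ χ F f hF hf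
  set g := arithmeticGalois (modularFunctionFieldFull N) σ
  let y : barAlg N := ⟨g • (x : 𝔽), coeffMap_mem_genAlg σ x.2⟩
  have hy : y ≠ 0 := fun h0 => hx (Subtype.ext (by
    have h1 : g • (x : 𝔽) = 0 := congrArg Subtype.val h0
    simpa using h1))
  refine ⟨SemilinearAut.degZeroSMulHom g D, y, F', seriesConj σ f,
    (SemilinearAut.pic0_smul_mk g D).symm, hy, fun v => ?_, hF', hf', ?_⟩
  · rw [SemilinearAut.coe_degZeroSMulHom, SemilinearAut.divisor_smul_apply, ← hord]
    conv_lhs => rw [← smul_inv_smul g v]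
    exact SemilinearAut.ord_smul g (g⁻¹ • v) (x : 𝔽)
  · have e : ∀ s : LaurentSeries Q̄, seriesConj σ s = coeffMap (σ : Q̄ →+* Q̄) s := fun s => by
      ext m; rfl
    rw [e, ← map_pow, hfn]
    rfl

variable (N n)

/-- The Kummer character of a torsion class. -/
def kummerChar (z : Submodule.torsionBy ℤ (JZero N) (n : ℤ)) : ParHom N (ZMod n) :=
  (exists_isKummerClass N n z.2).choose

theorem isKummerClass_kummerChar (z : Submodule.torsionBy ℤ (JZero N) (n : ℤ)) :
    IsKummerClass N n z (kummerChar N n z) :=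
  (exists_isKummerClass N n z.2).choose_spec

theorem kummerChar_eq {z : Submodule.torsionBy ℤ (JZero N) (n : ℤ)} {χ : ParHom N (ZMod n)}
    (h : IsKummerClass N n z χ) : kummerChar N n z = χ :=
  (isKummerClass_kummerChar N n z).unique z.2 h

/-- The Kummer map. -/
def kummerMap : Submodule.torsionBy ℤ (JZero N) (n : ℤ) →+ ParHom N (ZMod n) :=
  AddMonoidHom.mk' (kummerChar N n) fun z z' => kummerChar_eq N n
    (Submodule.coe_add z z' ▸ (isKummerClass_kummerChar N n z).add (isKummerClass_kummerChar N n z'))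

theorem kummerMap_injective : Function.Injective (kummerMap N n) :=
  (injective_iff_map_eq_zero _).mpr fun z hz => Subtype.ext
    (IsKummerClass.class_eq_zero (by
      have h := isKummerClass_kummerChar N n z
      rwa [show kummerChar N n z = 0 from hz] at h))

/-- The Kummer map commutes with the Galois actions. -/
theorem kummerMap_smul (σ : GQ) (z w : Submodule.torsionBy ℤ (JZero N) (n : ℤ))
    (h : (w : JZero N) = σ • (z : JZero N)) :
    kummerMap N n w = (kummerGalois N n).galois σ (kummerMap N n z) :=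
  kummerChar_eq N n (h ▸ (isKummerClass_kummerChar N n z).smul σ)

theorem finite_parHom : Finite (ParHom N (ZMod n)) := by
  obtain ⟨s, hs⟩ := GalRep.exists_generators N
  refine Finite.of_injective
    (fun (χ : ParHom N (ZMod n)) (g : s) =>
      (χ : Additive (Gamma0 N) →+ ZMod n) (Additive.ofMul (g : Gamma0 N))) fun χ χ' h => ?_
  refine Subtype.ext (sub_eq_zero.mp (GalRep.hom_eq_zero_of_generators hs _ fun g hg => ?_))
  rw [AddMonoidHom.sub_apply]
  exact sub_eq_zero.mpr (congrFun h ⟨g, hg⟩)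

/-- The torsion of `J₀(N)` is finite. -/
theorem finite_torsionBy : Finite (Submodule.torsionBy ℤ (JZero N) (n : ℤ)) :=
  haveI := finite_parHom N n
  Finite.of_injective _ (kummerMap_injective N n)

end Fermat.Agent.MCurve.Flat
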