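/-
Divisibility of orders: if `χ : Γ₀(N) → ℤ/n` is parabolic and kills the elements of finite order,
the `n`-th power of a Kummer function of `χ` has all orders on `X₀(N)` divisible by `n`.
-/
import Fermat.Agent.MCurve.Genus
import Fermat.Agent.MCurve.NormFormula
import Fermat.Agent.MCurve.RiemannRoch.Curve
import Fermat.Agent.MCurve.Spec.Reduction
import Fermat.Agent.GalRep.KummerRep
import Fermat.Agent.MCurve.RootBridge

set_option autoImplicit false
set_option linter.style.haveILetI false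
set_option linter.unusedSectionVars false
set_option maxHeartbeats 1000000

noncomputable section

namespace Fermat.Agent.MCurve.Flat

open AlgebraicCurve ModularCurve CongruenceSubgroup IntermediateField UpperHalfPlane Filter Topology
open Fermat.Agent.GalRep (ParHom IsKummerRep HasQSeries seriesToC qbarToC)
open Fermat.Agent.Period (ellU)
open ModularGroup (S T)
open scoped MatrixGroups Manifold Pointwise Real

/-- A parabolic character which kills the elements of finite order. -/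
def NoTors {N n : ℕ} (χ : ParHom N (ZMod n)) : Prop :=
  ∀ γ : Gamma0 N, IsOfFinOrder γ →
    (χ : Additive (Gamma0 N) →+ ZMod n) (Additive.ofMul γ) = 0

/-! ## Ramification over the fixed field of a finite group -/

theorem ramificationIndex_eq_card_stabilizer {K L : Type*} [Field K] [IsAlgClosed K] [CharZero K]
    [Field L] [Algebra K L] {x : L} (h : IsFinOver K x) (H : Subgroup (L ≃ₐ[K] L)) [Finite H]
    (hx : ∀ g ∈ H, g x = x) [Algebra.IsIntegral (IntermediateField.fixedField H) L]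
    (P : Place K L) :
    P.ramificationIndex (IntermediateField.fixedField H) =
      Nat.card (MulAction.stabilizer H P) := by
  classical
  set F := IntermediateField.fixedField H with hF
  haveI := Fintype.ofFinite H
  have hfr : Module.finrank F L = Nat.card H := by
    rw [Nat.card_eq_fintype_card]; exact FixedPoints.finrank_eq_card H L
  haveI : FiniteDimensional F L := Module.finite_of_finrank_pos (hfr ▸ Nat.card_pos)
  haveI : HasPrincipalDivisors K L := RR.hasPrincipalDivisors_of_isFinOver h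
  have hres : ∀ g : H, (g • P).restrict F = P.restrict F := fun g => place_eq_of_le fun f hf => by
    rw [Place.mem_restrict_iff] at hf ⊢
    rw [show g • P = (g : L ≃ₐ[K] L) • P from rfl, mem_smul_toValuationSubring,
      show algebraMap F L f = (f : L) from rfl,
      (mem_fixedField_iff H (f : L)).mp f.2 _ (inv_mem g.2)] at hf
    exact hf
  have hram : ∀ g : H, (g • P).ramificationIndex F = P.ramificationIndex F := fun g => by
    obtain ⟨ϖ, hϖ0, hϖ⟩ := exists_ord_eq_one (P.restrict F)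
    have h1 := P.ord_restrict ϖ
    have h2 := (g • P).ord_restrict ϖ
    rw [hres g, hϖ, mul_one] at h2
    rw [hϖ, mul_one] at h1
    rw [show g • P = (g : L ≃ₐ[K] L) • P from rfl, ord_smul_place,
      show algebraMap F L ϖ = (ϖ : L) from rfl,
      (mem_fixedField_iff H (ϖ : L)).mp ϖ.2 _ (inv_mem g.2)] at h2
    rw [show algebraMap F L ϖ = (ϖ : L) from rfl] at h1
    exact_mod_cast h2.symm.trans h1
  have horb : ((P.restrict F).fiber L : Set (Place K L)) = MulAction.orbit H P := by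
    ext Q
    rw [Finset.mem_coe, Place.mem_fiber]
    refine ⟨fun hQ => ?_, ?_⟩
    · obtain ⟨g, hg, rfl⟩ := exists_smul_eq_of_fixed h H hx P Q fun f hf => by
        have hfF : f ∈ F := (mem_fixedField_iff H f).mpr hf
        exact iff_of_eq (congrArg
          (fun v : Place K F => (⟨f, hfF⟩ : F) ∈ v.toValuationSubring) hQ.symm)
      exact ⟨⟨g, hg⟩, rfl⟩
    · rintro ⟨g, rfl⟩
      exact hres g
  have hsum := sum_ramificationIndex h (P.restrict F)
  rw [Finset.sum_congr rfl (g := fun _ => (P.ramificationIndex F : ℤ)) fun Q hQ => by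
      obtain ⟨g, rfl⟩ := horb ▸ (Finset.mem_coe.mpr hQ)
      rw [hram g],
    Finset.sum_const, nsmul_eq_mul, hfr] at hsum
  have hcard : Nat.card (MulAction.orbit H P) * Nat.card (MulAction.stabilizer H P) = Nat.card H := by
    rw [← Nat.card_congr (MulAction.orbitEquivQuotientStabilizer H P).symm, mul_comm]
    exact Subgroup.card_mul_index _
  rw [← horb, Nat.card_coe_set_eq, Set.ncard_coe_finset] at hcard
  have hne : ((P.restrict F).fiber L).card ≠ 0 :=
    Finset.card_ne_zero.mpr ⟨P, Place.restrict_mem_fiber P⟩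
  exact Nat.eq_of_mul_eq_mul_left (Nat.pos_of_ne_zero hne)
    ((by exact_mod_cast hsum : _ = Nat.card H).trans hcard.symm)

/-! ## Invariance under an elliptic element -/

/-- The order of an invariant function at a fixed point of a fractional linear map. -/
theorem denom_pow_eq_one {h : ℍ → ℂ} {τ : ℍ} {σ : SL(2, ℤ)} (hσ : σ • τ = τ)
    (hh : ∀ z, h (σ • z) = h z) (ha : AnalyticAt ℂ (h ∘ ofComplex) (τ : ℂ))
    (hne : analyticOrderAt (h ∘ ofComplex) (τ : ℂ) ≠ ⊤) :
    denom (σ : GL (Fin 2) ℝ) (τ : ℂ) ^ (2 * analyticOrderNatAt (h ∘ ofComplex) (τ : ℂ)) = 1 := by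
  set m := analyticOrderNatAt (h ∘ ofComplex) (τ : ℂ)
  obtain ⟨u, hu, hu0, hev⟩ :=
    (ha.analyticOrderAt_eq_natCast).mp (Nat.cast_analyticOrderNatAt hne).symm
  let G : ℂ → ℂ := fun z =>
    ((σ 0 0 : ℂ) * z + (σ 0 1 : ℂ)) / ((σ 1 0 : ℂ) * z + (σ 1 1 : ℂ))
  let d : ℂ → ℂ := fun z => (σ 1 0 : ℂ) * z + (σ 1 1 : ℂ)
  have hd : denom (σ : GL (Fin 2) ℝ) (τ : ℂ) = d τ := ModularGroup.denom_apply σ τ
  have hd0 : d τ ≠ 0 := hd ▸ denom_ne_zero _ τ
  have hGc : ∀ z : ℍ, G z = ((σ • z : ℍ) : ℂ) := fun z => by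
    rw [UpperHalfPlane.coe_specialLinearGroup_apply]
    simp [G]
  have hGτ : G τ = τ := by rw [hGc, hσ]
  have hcG : ContinuousAt G τ := ContinuousAt.div (by fun_prop) (by fun_prop) hd0
  have hdet : (σ 0 0 : ℂ) * σ 1 1 - σ 0 1 * σ 1 0 = 1 := by
    have := σ.det_coe
    rw [Matrix.det_fin_two] at this
    exact_mod_cast congrArg (fun x : ℤ => (x : ℂ)) this
  have hsub : ∀ z : ℂ, d z ≠ 0 → G z - τ = (z - τ) / (d z * d τ) := fun z hz => by
    conv_lhs => rw [← hGτ]
    simp only [G]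
    rw [div_sub_div _ _ hz hd0]
    congr 1
    linear_combination (z - (τ : ℂ)) * hdet
  have hmain : ∀ᶠ z in 𝓝[≠] (τ : ℂ), u z = u (G z) / (d z * d τ) ^ m := by
    have h1 : ∀ᶠ z in 𝓝 (τ : ℂ), 0 < z.im := isOpen_upperHalfPlaneSet.mem_nhds τ.im_pos
    have h2 : ∀ᶠ z in 𝓝 (τ : ℂ), d z ≠ 0 :=
      (show ContinuousAt d τ by fun_prop).eventually_ne hd0
    have h3 : ∀ᶠ z in 𝓝 (τ : ℂ),
        (h ∘ ofComplex) (G z) = (G z - (τ : ℂ)) ^ m • u (G z) :=
      hcG.eventually (show ∀ᶠ y in 𝓝 (G τ), _ by rw [hGτ]; exact hev)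
    filter_upwards [nhdsWithin_le_nhds h1, nhdsWithin_le_nhds h2, nhdsWithin_le_nhds h3,
      nhdsWithin_le_nhds hev, self_mem_nhdsWithin] with z hz1 hz2 hz3 hz4 hz5
    have e : (h ∘ ofComplex) (G z) = (h ∘ ofComplex) z := by
      have e1 : G z = ((σ • (⟨z, hz1⟩ : ℍ) : ℍ) : ℂ) := hGc ⟨z, hz1⟩
      rw [e1, Function.comp_apply, Function.comp_apply, ofComplex_apply,
        ofComplex_apply_of_im_pos hz1, hh]
    rw [hz3, hz4, smul_eq_mul, smul_eq_mul, hsub z hz2, div_pow] at e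
    have hzt : (z - (τ : ℂ)) ^ m ≠ 0 := pow_ne_zero _ (sub_ne_zero.mpr hz5)
    apply mul_left_cancel₀ hzt
    rw [← e]
    ring
  have hlim1 : Tendsto u (𝓝[≠] (τ : ℂ)) (𝓝 (u τ)) :=
    hu.continuousAt.tendsto.mono_left nhdsWithin_le_nhds
  have hlim2 : Tendsto (fun z => u (G z) / (d z * d τ) ^ m) (𝓝[≠] (τ : ℂ))
      (𝓝 (u τ / (d τ * d τ) ^ m)) := by
    refine (ContinuousAt.tendsto ?_ : Tendsto _ (𝓝 (τ : ℂ)) _).mono_left nhdsWithin_le_nhds |>.trans
      (le_of_eq (by simp only [hGτ]))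
    refine ContinuousAt.div (ContinuousAt.comp (g := u) (hGτ.symm ▸ hu.continuousAt) hcG)
      (by fun_prop) (pow_ne_zero _ (mul_ne_zero hd0 hd0))
  have := tendsto_nhds_unique (hlim1.congr' hmain) hlim2
  rw [eq_div_iff (pow_ne_zero _ (mul_ne_zero hd0 hd0))] at this
  rw [hd, pow_mul, sq]
  exact mul_left_cancel₀ hu0 (by rw [this, mul_one])

theorem two_dvd_order {h : ℍ → ℂ} (hh : ∀ z, h (S • z) = h z)
    (ha : AnalyticAt ℂ (h ∘ ofComplex) (UpperHalfPlane.I : ℂ))
    (hne : analyticOrderAt (h ∘ ofComplex) (UpperHalfPlane.I : ℂ) ≠ ⊤) :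
    2 ∣ analyticOrderNatAt (h ∘ ofComplex) (UpperHalfPlane.I : ℂ) := by
  have hS : (S : SL(2, ℤ)) • UpperHalfPlane.I = UpperHalfPlane.I := by
    rw [modular_S_smul]
    apply UpperHalfPlane.ext
    simp [Complex.inv_I]
  have h1 := denom_pow_eq_one hS hh ha hne
  rw [ModularGroup.denom_apply, ModularGroup.coe_S] at h1
  simp only [Matrix.cons_val', Matrix.cons_val_zero, Matrix.cons_val_fin_one, Matrix.cons_val_one,
    Matrix.of_apply, Int.cast_one, Int.cast_zero, one_mul, add_zero, UpperHalfPlane.coe_I] at h1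
  rw [pow_mul, Complex.I_sq] at h1
  exact even_iff_two_dvd.mp (neg_one_pow_eq_one_iff_even (by norm_num) |>.mp h1)

theorem three_dvd_order {h : ℍ → ℂ} (hh : ∀ z, h (ellU • z) = h z)
    (ha : AnalyticAt ℂ (h ∘ ofComplex) (ρ : ℂ))
    (hne : analyticOrderAt (h ∘ ofComplex) (ρ : ℂ) ≠ ⊤) :
    3 ∣ analyticOrderNatAt (h ∘ ofComplex) (ρ : ℂ) := by
  have h1 := denom_pow_eq_one (σ := ellU) Period.ellU_smul_ρ hh ha hne
  rw [ModularGroup.denom_apply, Period.coe_ellU] at h1
  simp only [Matrix.cons_val', Matrix.cons_val_zero, Matrix.cons_val_fin_one, Matrix.cons_val_one,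
    Matrix.of_apply, Int.cast_one, one_mul] at h1
  rw [pow_mul, show ((ρ : ℂ) + 1) ^ 2 = (ρ : ℂ) by linear_combination ρ_sq] at h1
  have hp : IsPrimitiveRoot (ρ : ℂ) 3 := by
    haveI : Fact (Nat.Prime 3) := ⟨Nat.prime_three⟩
    refine IsPrimitiveRoot.iff_orderOf.mpr ?_
    refine orderOf_eq_prime Period.ρ_cube fun h => ?_
    have := ρ_sq
    rw [h] at this
    norm_num at this
  exact hp.dvd_of_pow_eq_one _ h1

/-! ## Divisibility -/

section Places

/-- The place of the cusp at infinity, with its order function. -/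
theorem exists_cusp_place (N : ℕ) [NeZero N] (K : Type*) [Field K] [Algebra K ℂ] [IsAlgClosed K]
    [CharZero K] :
    ∃ P : Place K (ModFld N K),
      (∀ a : modRing N K, a ≠ 0 →
        P.ord (algebraMap (modRing N K) (ModFld N K) a) = (expansion N K a).order) ∧
      P.ord (jL N K) = -(N : ℤ) ∧ fldAct N K T • P = P ∧
      orderOf (fldAct N K T) = N ∧
      ∀ g ∈ fullGp N K, g • P = P → g ∈ Subgroup.zpowers (fldAct N K T) := by
  classical
  set j : modRing N K := ⟨jFn, Algebra.subset_adjoin (jFn_mem_genSet N)⟩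
  have hN : 0 < N := Nat.pos_of_ne_zero (NeZero.ne N)
  have hne : ∀ {b : modRing N K}, b ≠ 0 → expansion N K b ≠ 0 := fun hb h0 =>
    hb (expansion_injective N K (h0.trans (map_zero _).symm))
  have hjord := expansion_jFn_order N K
  have hj0 : j ≠ 0 := fun h => by
    rw [show (⟨jFn, _⟩ : modRing N K) = 0 from h, map_zero, HahnSeries.order_zero] at hjord
    omega
  obtain ⟨P, hP1, k, hk, hkey⟩ := (isFinOver_jL N K).exists_place_of_order (R := modRing N K)
    (fun a => (expansion N K a).order)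
    (fun ha hb => by rw [map_mul]; exact HahnSeries.order_mul (hne ha) (hne hb))
    (fun ha hb hab => by
      rw [map_add]; exact HahnSeries.min_order_le_order_add (by rw [← map_add]; exact hne hab))
    (fun c hc => by
      rw [AlgHom.commutes, ModularCurve.algebraMap_laurentSeries_eq_single,
        HahnSeries.order_single hc])
    ⟨j, hj0, by rw [hjord]; omega⟩
  have hjP : -(N : ℤ) = P.ord (jL N K) * k := hjord.symm.trans (hkey j hj0)
  have hpos : 0 < P.ord (jL N K)⁻¹ := by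
    rw [P.ord_inv]
    by_contra hcon
    nlinarith
  have hT : fldAct N K T • P = P := by
    refine place_eq_of_le fun z hz => ?_
    rcases eq_or_ne z 0 with rfl | hz0
    · exact zero_mem _
    obtain ⟨x, y, hx, hy, rfl⟩ := exists_frac_ne_zero (R := modRing N K) hz0
    have hinv : ∀ {u : modRing N K}, u ≠ 0 →
        (expansion N K (ringAct N K T⁻¹ u)).order = (expansion N K u).order := fun {u} hu => by
      conv_rhs => rw [show u = ringAct N K T (ringAct N K T⁻¹ u) by
        rw [← AlgEquiv.mul_apply, ← map_mul, mul_inv_cancel, map_one, AlgEquiv.one_apply]]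
      exact (ringAct_T_order N K (by simpa using hu)).symm
    rw [mem_smul_toValuationSubring, ← map_inv, map_div₀, fldAct_algebraMap, fldAct_algebraMap,
      hP1 _ _ (by simpa using hx) (by simpa using hy), hinv hx, hinv hy] at hz
    exact (hP1 x y hx hy).mpr hz
  have hfix : IntermediateField.fixedField (fullGp N K) = K⟮(jL N K)⁻¹⟯ := by
    rw [fixedField_fullGp]
    refine le_antisymm (adjoin_simple_le_iff.mpr ?_)
      (adjoin_simple_le_iff.mpr (inv_mem (mem_adjoin_simple_self K _)))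
    simpa using inv_mem (mem_adjoin_simple_self K (jL N K)⁻¹)
  obtain ⟨-, hstab⟩ := (isFinOver_jL N K).inv.galois_fibre (fullGp N K) hfix 0 P
    (by rw [map_zero, sub_zero]; exact hpos)
  rw [map_zero, sub_zero] at hstab
  set t : fullGp N K := ⟨fldAct N K T, T, rfl⟩
  have hmem : Subgroup.zpowers t ≤ MulAction.stabilizer (fullGp N K) P :=
    Subgroup.zpowers_le.mpr hT
  have hord : orderOf t = orderOf (fldAct N K T) :=
    (orderOf_injective (fullGp N K).subtype (fullGp N K).subtype_injective t).symm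
  have hdvd : N ∣ orderOf (fldAct N K T) :=
    dvd_of_fldAct_T_pow N K (by rw [map_pow]; exact pow_orderOf_eq_one _)
  have hle : orderOf (fldAct N K T) ≤ Nat.card (MulAction.stabilizer (fullGp N K) P) := by
    rw [← hord, ← Nat.card_zpowers]
    exact Subgroup.card_le_of_le hmem
  have h0 : 0 < orderOf (fldAct N K T) := hord ▸ orderOf_pos t
  have hk1 : k = 1 := by
    have h1 : (N : ℤ) ≤ Nat.card (MulAction.stabilizer (fullGp N K) P) := by
      exact_mod_cast (Nat.le_of_dvd h0 hdvd).trans hle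
    rw [hstab, P.ord_inv] at h1
    have : 0 < (N : ℤ) := by exact_mod_cast hN
    nlinarith
  rw [hk1, mul_one] at hjP
  have hcardN : Nat.card (MulAction.stabilizer (fullGp N K) P) = N := by
    have : (Nat.card (MulAction.stabilizer (fullGp N K) P) : ℤ) = N := by
      rw [hstab, P.ord_inv, ← hjP, neg_neg]
    exact_mod_cast this
  have horder : orderOf (fldAct N K T) = N :=
    le_antisymm (hle.trans_eq hcardN) (Nat.le_of_dvd h0 hdvd)
  refine ⟨P, fun a ha => by rw [hkey a ha, hk1, mul_one], hjP.symm, hT, horder, fun g hg hgP => ?_⟩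
  have heq : Subgroup.zpowers t = MulAction.stabilizer (fullGp N K) P :=
    Subgroup.eq_of_le_of_card_ge hmem (by rw [Nat.card_zpowers, hord, horder, hcardN])
  obtain ⟨i, hi⟩ := Subgroup.mem_zpowers_iff.mp
    (show (⟨g, hg⟩ : fullGp N K) ∈ Subgroup.zpowers t from heq ▸ hgP)
  exact ⟨i, congrArg Subtype.val hi⟩

end Places

variable {N : ℕ} [NeZero N]

local notation "Q̄" => AlgebraicClosure ℚ
local notation "𝔽" => modularFunctionFieldBar N

theorem mem_Gamma0_of_mem_gamma0Gp [Algebra Q̄ ℂ] {γ : SL(2, ℤ)}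
    (h : fldAct N Q̄ γ ∈ gamma0Gp N Q̄) : γ ∈ Gamma0 N := by
  obtain ⟨δ, hδ, he⟩ := h
  refine (fldAct_fix_fixFld_iff N Q̄ γ).mp fun x hx => ?_
  rw [← he]
  exact (mem_fixFld N Q̄).mp hx δ hδ

theorem isOfFinOrder_conj {δ σ : SL(2, ℤ)} (hσ : IsOfFinOrder σ)
    (hmem : δ * σ * δ⁻¹ ∈ Gamma0 N) : IsOfFinOrder (⟨_, hmem⟩ : Gamma0 N) := by
  obtain ⟨k, hk, hk1⟩ := isOfFinOrder_iff_pow_eq_one.mp hσ
  refine isOfFinOrder_iff_pow_eq_one.mpr ⟨k, hk, Subtype.ext ?_⟩
  rw [SubgroupClass.coe_pow, OneMemClass.coe_one, conj_pow, hk1, mul_one, mul_inv_cancel]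

theorem isOfFinOrder_S : IsOfFinOrder (S : SL(2, ℤ)) := by
  refine isOfFinOrder_iff_pow_eq_one.mpr ⟨4, by norm_num, Subtype.ext ?_⟩
  rw [Matrix.SpecialLinearGroup.coe_pow, ModularGroup.coe_S, Matrix.SpecialLinearGroup.coe_one]
  decide

theorem isOfFinOrder_ellU : IsOfFinOrder ellU := by
  refine isOfFinOrder_iff_pow_eq_one.mpr ⟨6, by norm_num, Subtype.ext ?_⟩
  rw [Matrix.SpecialLinearGroup.coe_pow, Period.coe_ellU, Matrix.SpecialLinearGroup.coe_one]
  decide

/-- The points of the upper half plane over a value of `j`, with their stabilisers. -/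
theorem exists_point (c : Q̄) : letI : Algebra Q̄ ℂ := qbarToC.toAlgebra
    ∃ (τ : ℍ) (r : ℕ), jFn τ = qbarToC c ∧
      analyticOrderNatAt ((fun z => jFn z - qbarToC c) ∘ ofComplex) (τ : ℂ) = r ∧
      (r ≤ 1 ∨ (r.Prime ∧ ∃ σ : SL(2, ℤ), σ • τ = τ ∧ IsOfFinOrder σ ∧
        ∀ h : ℍ → ℂ, (∀ z, h (σ • z) = h z) → AnalyticAt ℂ (h ∘ ofComplex) (τ : ℂ) →
          analyticOrderAt (h ∘ ofComplex) (τ : ℂ) ≠ ⊤ →
          r ∣ analyticOrderNatAt (h ∘ ofComplex) (τ : ℂ))) := by
  rcases eq_or_ne c 0 with rfl | h0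
  · have hE := Period.E4_ρ
    have h6 := Period.not_common_zero _ hE
    refine ⟨ρ, 3, by rw [map_zero, jFn, hE]; simp, ?_, Or.inr ⟨Nat.prime_three, ellU,
      Period.ellU_smul_ρ, isOfFinOrder_ellU, fun h => three_dvd_order⟩⟩
    have hd : deriv ((ModularForm.E₄ : ℍ → ℂ) ∘ ofComplex) (ρ : ℂ) ≠ 0 := by
      rw [(Period.hasDerivAt_of_D (ModularFormClass.holo ModularForm.E₄) ρ).deriv,
        Period.D_E4, hE, mul_zero, zero_sub]
      exact mul_ne_zero Complex.two_pi_I_ne_zero (mul_ne_zero (by norm_num) (neg_ne_zero.mpr h6))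
    rw [show (fun z => jFn z - qbarToC 0) =
      fun z => ModularForm.E₄ z ^ 3 / ModularForm.discriminant z by
        funext z; rw [map_zero, sub_zero]; rfl]
    exact analyticOrder_div_discriminant (ModularFormClass.holo ModularForm.E₄) hE hd 3
  rcases eq_or_ne c 1728 with rfl | h1728
  · have hE := Period.E6_I
    have h4 : ModularForm.E₄ UpperHalfPlane.I ≠ 0 := fun h => Period.not_common_zero _ h hE
    have hj : ∀ z, jFn z - 1728 = ModularForm.E₆ z ^ 2 / ModularForm.discriminant z := fun z => by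
      have h' := Period.E4_cube_sub_E6_sq z
      rw [jFn, sub_eq_iff_eq_add, div_add' _ _ _ (ModularForm.discriminant_ne_zero z)]
      congr 1
      linear_combination h'
    have hS : (S : SL(2, ℤ)) • UpperHalfPlane.I = UpperHalfPlane.I := by
      rw [modular_S_smul]
      apply UpperHalfPlane.ext
      simp [Complex.inv_I]
    refine ⟨UpperHalfPlane.I, 2, by rw [map_ofNat, ← sub_eq_zero, hj, hE]; simp, ?_,
      Or.inr ⟨Nat.prime_two, S, hS, isOfFinOrder_S, fun h => two_dvd_order⟩⟩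
    have hd : deriv ((ModularForm.E₆ : ℍ → ℂ) ∘ ofComplex) (UpperHalfPlane.I : ℂ) ≠ 0 := by
      rw [(Period.hasDerivAt_of_D (ModularFormClass.holo ModularForm.E₆) UpperHalfPlane.I).deriv,
        Period.D_E6, hE, mul_zero, zero_sub]
      exact mul_ne_zero Complex.two_pi_I_ne_zero (mul_ne_zero (by norm_num)
        (neg_ne_zero.mpr (pow_ne_zero _ h4)))
    rw [show (fun z => jFn z - qbarToC 1728) =
      fun z => ModularForm.E₆ z ^ 2 / ModularForm.discriminant z by
        funext z; rw [map_ofNat]; exact hj z]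
    exact analyticOrder_div_discriminant (ModularFormClass.holo ModularForm.E₆) hE hd 2
  obtain ⟨τ, hτ⟩ := exists_jFn_eq (qbarToC c)
  have h4 : ModularForm.E₄ τ ≠ 0 := fun h => h0 (qbarToC.injective (by
    rw [map_zero, ← hτ, jFn, h]; simp))
  have h6 : ModularForm.E₆ τ ≠ 0 := fun h => h1728 (qbarToC.injective (by
    have h' := Period.E4_cube_sub_E6_sq τ
    rw [h] at h'
    rw [map_ofNat, ← hτ, jFn, div_eq_iff (ModularForm.discriminant_ne_zero τ)]
    linear_combination h'))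
  exact ⟨τ, _, hτ, rfl, Or.inl (analyticOrder_generic hτ h4 h6)⟩

variable {n : ℕ} [NeZero n] {χ : ParHom N (ZMod n)} {F : ℍ → ℂ} {f : LaurentSeries Q̄}

theorem rep_invariant (hχ : NoTors χ) (hF : IsKummerRep N n χ F) {δ σ : SL(2, ℤ)}
    (hσ : IsOfFinOrder σ) (hmem : δ * σ * δ⁻¹ ∈ Gamma0 N) (z : ℍ) :
    F (δ • σ • z) = F (δ • z) := by
  have h := hF.equivariant ⟨_, hmem⟩ (δ • z)
  rw [hχ _ (isOfFinOrder_conj hσ hmem), AddChar.map_zero_eq_one, one_mul] at h
  simpa [mul_smul] using h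

theorem analytic_comp (hF : IsKummerRep N n χ F) (δ : SL(2, ℤ)) (τ : ℍ) :
    AnalyticAt ℂ ((fun z => F (δ • z)) ∘ ofComplex) (τ : ℂ) ∧
      analyticOrderAt ((fun z => F (δ • z)) ∘ ofComplex) (τ : ℂ) ≠ ⊤ :=
  ⟨analyticAt_of_differentiableOn
    (UpperHalfPlane.mdifferentiable_iff.mp (GalRep.mdifferentiable_comp_smul hF.holo δ)) τ,
    GalRep.analyticOrderAt_modFun_ne_top (GalRep.mdifferentiable_comp_smul hF.holo δ)
      (fun h => hF.ne_zero (funext fun z => by simpa using congrFun h (δ⁻¹ • z))) τ.im_pos⟩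

/-- All orders of the `n`-th power of a Kummer function are divisible by `n`. -/
theorem dvd_ord_of_noTors (hχ : NoTors χ) (hF : IsKummerRep N n χ F)
    (hf : HasQSeries 1 F (seriesToC f)) {g : 𝔽} (hg : (g : LaurentSeries Q̄) = f ^ n)
    (v : Place Q̄ 𝔽) : (n : ℤ) ∣ v.ord g := by
  classical
  letI : Algebra Q̄ ℂ := qbarToC.toAlgebra
  set v' : Place Q̄ (fixFld N Q̄) := placeEquiv (barEquiv N Q̄) v
  have hv' : ∀ y : 𝔽, v'.ord (barEquiv N Q̄ y) = v.ord y := fun y => ord_placeEquiv v _ y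
  have hfinj := isFinOver_jL N Q̄
  haveI : FiniteDimensional (fixFld N Q̄) (ModFld N Q̄) := Module.finite_of_finrank_pos (by
    rw [show Module.finrank (fixFld N Q̄) (ModFld N Q̄) = Nat.card (gamma0Gp N Q̄) from
      finrank_fixedField_gp N Q̄ _]
    exact Nat.card_pos)
  haveI : Algebra.IsIntegral (fixFld N Q̄) (ModFld N Q̄) := Algebra.IsIntegral.of_finite _ _
  haveI : Algebra.IsIntegral (IntermediateField.fixedField (gamma0Gp N Q̄)) (ModFld N Q̄) :=
    show Algebra.IsIntegral (fixFld N Q̄) (ModFld N Q̄) from inferInstance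
  obtain ⟨P, hP⟩ := exists_place_extension hfinj (F := fixFld N Q̄) v'
  set e := P.ramificationIndex (fixFld N Q̄)
  have hstab : e = Nat.card (MulAction.stabilizer (gamma0Gp N Q̄) P) :=
    ramificationIndex_eq_card_stabilizer hfinj (gamma0Gp N Q̄)
      (by rintro _ ⟨γ, -, rfl⟩; exact fldAct_jL N Q̄ γ) P
  have hPord : ∀ y : 𝔽, P.ord ((barEquiv N Q̄ y : fixFld N Q̄) : ModFld N Q̄) = e * v.ord y := by
    intro y
    have h := P.ord_restrict (F := fixFld N Q̄) (barEquiv N Q̄ y)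
    rw [hP, hv'] at h
    exact h
  -- numerator and denominator
  obtain ⟨a, b, -, hb0, -, hab⟩ := exists_analytic_frac N Q̄ g
  have hab' : algebraMap (modRing N Q̄) (ModFld N Q̄) a =
      ((barEquiv N Q̄ g : fixFld N Q̄) : ModFld N Q̄) * algebraMap (modRing N Q̄) (ModFld N Q̄) b := by
    apply expFld_injective N Q̄
    rw [map_mul, expFld_algebraMap, expFld_algebraMap, expFld_barEquiv, hab]
    rfl
  have hq : ∀ w : modRing N Q̄, HasQSeries N (w : ℍ → ℂ) (seriesToC (expansion N Q̄ w)) :=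
    fun w => Spec.hasQSeries_of_lExp (lExp_expansion N Q̄ w)
  have hfun : (a : ℍ → ℂ) = fun τ => F τ ^ n * (b : ℍ → ℂ) τ := by
    refine GalRep.eq_of_hasQSeries (UpperHalfPlane.mdifferentiable_iff.mpr (mdifferentiable_of_mem a.2))
      ((hF.holo.pow n).mul (UpperHalfPlane.mdifferentiable_iff.mpr (mdifferentiable_of_mem b.2)))
      (hq a) ?_
    have h := ((GalRep.hasQSeries_expand (N := N) hf).pow n |>.mul (hq b)).congr
      (G := fun τ => F τ ^ n * (b : ℍ → ℂ) τ) (.of_forall fun τ => by simp)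
    have e : seriesToC (expansion N Q̄ a) =
        GalRep.expand N (NeZero.ne N) (seriesToC f) ^ n * seriesToC (expansion N Q̄ b) := by
      simp only [seriesToC_eq_coeffMap]
      rw [hab, hg, map_mul, qExpand_coeffMap, qExpand_eq_expand, ← map_pow (GalRep.expand _ _), map_pow]
    rw [e]
    exact h
  have hg0 : g ≠ 0 := fun h0 => by
    have h1 : f ^ n = 0 := by rw [← hg, h0]; rfl
    rw [pow_eq_zero_iff (NeZero.ne n)] at h1
    rw [h1, show seriesToC (0 : LaurentSeries Q̄) = 0 from map_zero (coeffMap qbarToC)] at hf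
    exact hF.ne_zero (GalRep.eq_of_hasQSeries hF.holo mdifferentiable_const hf (HasQSeries.zero 1))
  have hgF : ((barEquiv N Q̄ g : fixFld N Q̄) : ModFld N Q̄) ≠ 0 := by simpa using hg0
  have ha0 : a ≠ 0 := fun h0 => by
    rw [h0, map_zero, zero_eq_mul] at hab'
    exact hab'.elim hgF ((map_ne_zero_iff _ (IsFractionRing.injective _ _)).mpr hb0)
  have hne : ∀ {w : modRing N Q̄}, w ≠ 0 → ∀ δ, ringAct N Q̄ δ w ≠ 0 := fun hw δ => by simpa using hw
  -- orders at a translate of a place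
  have hconv : ∀ (P₀ : Place Q̄ (ModFld N Q̄)) (δ : SL(2, ℤ)), fldAct N Q̄ δ • P₀ = P →
      (e : ℤ) * v.ord g =
        P₀.ord (algebraMap (modRing N Q̄) (ModFld N Q̄) (ringAct N Q̄ δ⁻¹ a)) -
          P₀.ord (algebraMap (modRing N Q̄) (ModFld N Q̄) (ringAct N Q̄ δ⁻¹ b)) := by
    intro P₀ δ hδ
    have key : ∀ w : modRing N Q̄, P.ord (algebraMap (modRing N Q̄) (ModFld N Q̄) w) =
        P₀.ord (algebraMap (modRing N Q̄) (ModFld N Q̄) (ringAct N Q̄ δ⁻¹ w)) := fun w => by
      rw [← hδ, ord_smul_place, ← map_inv, fldAct_algebraMap]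
    have h := congrArg P.ord hab'
    rw [P.ord_mul hgF ((map_ne_zero_iff _ (IsFractionRing.injective _ _)).mpr hb0), hPord] at h
    rw [← key, ← key, h]
    ring
  set jb : 𝔽 := jBar N Q̄
  rcases le_or_gt 0 (v.ord jb) with hfin | hinf
  · -- finite places
    haveI : v.FiniteResidue := RR.finiteResidue_of_isFinOver (bar_isFinOver_and_finrank N Q̄).1 v
    haveI : Module.Finite Q̄ v.ResidueField := Place.FiniteResidue.finite
    have htr := (bar_isFinOver_and_finrank N Q̄).1.transcendental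
    obtain ⟨c, hc⟩ : ∃ c : Q̄, 0 < v.ord (jb - algebraMap Q̄ 𝔽 c) := by
      obtain ⟨c, hc | hc⟩ := exists_value v ((mem_iff_ord_nonneg v (fun h0 => htr (by
        rw [show jBar N Q̄ = 0 from h0]; exact isAlgebraic_zero))).mpr hfin)
      · exact absurd (show jBar N Q̄ = algebraMap Q̄ 𝔽 c from hc) fun h => htr (h ▸ isAlgebraic_algebraMap c)
      · exact ⟨c, hc⟩
    obtain ⟨τ, r, hτ, hr, hcase⟩ := exists_point c
    set b₀ : modRing N Q̄ :=
      ⟨jFn, Algebra.subset_adjoin (jFn_mem_genSet N)⟩ - algebraMap Q̄ (modRing N Q̄) c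
    have hb₀L : algebraMap (modRing N Q̄) (ModFld N Q̄) b₀ =
        jL N Q̄ - algebraMap Q̄ (ModFld N Q̄) c := by
      rw [map_sub, ← IsScalarTower.algebraMap_apply]; rfl
    have hjP : P.ord (jL N Q̄ - algebraMap Q̄ (ModFld N Q̄) c) = e * v.ord (jb - algebraMap Q̄ 𝔽 c) := by
      rw [← hPord, map_sub, AlgEquiv.commutes, barEquiv_jBar]
      rfl
    have hPpos : 0 < P.ord (jL N Q̄ - algebraMap Q̄ (ModFld N Q̄) c) := by
      rw [hjP]
      exact mul_pos (by exact_mod_cast P.ramificationIndex_pos) hc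
    obtain ⟨P₀, k, hk, hkey, hP₀, -, hPσ⟩ := exists_point_place_order (N := N) τ c hτ
    obtain ⟨hconj, hcardP⟩ := hfinj.galois_fibre (fullGp N Q̄) (fixedField_fullGp N Q̄) c P₀ hP₀
    obtain ⟨_, ⟨δ, rfl⟩, hδ⟩ := hconj P hPpos
    have hj : P₀.ord (jL N Q̄ - algebraMap Q̄ (ModFld N Q̄) c) =
        P.ord (jL N Q̄ - algebraMap Q̄ (ModFld N Q̄) c) := by
      rw [← hδ, ord_smul_place, map_sub, AlgEquiv.commutes, ← map_inv, fldAct_jL]
    -- the order of the translate of the function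
    set h₁ : ℍ → ℂ := fun z => F (δ • z)
    obtain ⟨hh₁, hh₁'⟩ := analytic_comp hF δ τ
    set mF : ℕ := analyticOrderNatAt (h₁ ∘ ofComplex) (τ : ℂ)
    have hab2 : ((ringAct N Q̄ δ⁻¹ a : modRing N Q̄) : ℍ → ℂ) ∘ ofComplex =
        (h₁ ∘ ofComplex) ^ n * (((ringAct N Q̄ δ⁻¹ b : modRing N Q̄) : ℍ → ℂ) ∘ ofComplex) := by
      funext z
      simp only [Function.comp_apply, Pi.mul_apply, Pi.pow_apply, coe_ringAct, inv_inv, hfun, h₁]
    have hord : ordAt N Q̄ τ (ringAct N Q̄ δ⁻¹ a) =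
        n * mF + ordAt N Q̄ τ (ringAct N Q̄ δ⁻¹ b) := by
      simp only [ordAt]
      have h2 : analyticOrderAt ((h₁ ∘ ofComplex) ^ n) (τ : ℂ) ≠ ⊤ := by
        rw [analyticOrderAt_pow hh₁, ← Nat.cast_analyticOrderNatAt hh₁', nsmul_eq_mul, ← Nat.cast_mul]
        exact ENat.coe_ne_top _
      rw [hab2, analyticOrderNatAt_mul (hh₁.pow n) (analyticAt_modRing _ τ) h2
        (analyticOrderAt_ne_top' (hne hb0 _) τ), analyticOrderNatAt_pow hh₁]
      simp only [mF, h₁, smul_eq_mul, Nat.cast_add, Nat.cast_mul]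
    have hEg : (k * e) * v.ord g = n * mF := by
      rw [hkey _ (hne ha0 _), hkey _ (hne hb0 _)] at hord
      rw [mul_assoc, hconv P₀ δ hδ, mul_sub]
      linarith
    -- the ramification divides the order
    have hEm : (k * e : ℤ) ∣ (mF : ℤ) := by
      have hrk : (r : ℤ) = k * e * v.ord (jb - algebraMap Q̄ 𝔽 c) := by
        rw [← hr, mul_assoc, ← hjP, ← hj, ← hb₀L, mul_comm, ← hkey b₀ (fun h0 => by
          rw [hb₀L.symm.trans (by rw [h0, map_zero])] at hP₀
          simp at hP₀)]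
        rfl
      have hkpos : 0 < k * e := mul_pos hk (by exact_mod_cast P.ramificationIndex_pos)
      rcases hcase with hr1 | ⟨hrp, σ, hσ, hσfin, hσdvd⟩
      · have : k * e = 1 := by nlinarith [show (r : ℤ) ≤ 1 by exact_mod_cast hr1]
        rw [this]; exact one_dvd _
      rcases (Nat.dvd_prime hrp).mp (show (k * e).toNat ∣ r by
        rw [← Int.natCast_dvd_natCast, Int.toNat_of_nonneg hkpos.le]
        exact ⟨_, hrk⟩) with h1 | h1
      · rw [show k * e = 1 by omega]; exact one_dvd _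
      have hke : k * e = r := by omega
      have hval : v.ord (jb - algebraMap Q̄ 𝔽 c) = 1 := by
        have : (r : ℤ) * v.ord (jb - algebraMap Q̄ 𝔽 c) = r * 1 := by
          rw [mul_one, ← hke]; exact hrk.symm.trans hke.symm |>.trans hke |>.trans hke.symm
        exact mul_left_cancel₀ (by exact_mod_cast hrp.ne_zero) this
      rw [hval, mul_one] at hjP
      -- the stabiliser lies in the group of `Γ₀(N)`
      have hcard : Nat.card (MulAction.stabilizer (fullGp N Q̄) P) = e := by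
        obtain ⟨-, hcardP'⟩ := hfinj.galois_fibre (fullGp N Q̄) (fixedField_fullGp N Q̄) c P hPpos
        exact_mod_cast hcardP'.trans hjP
      let ι : MulAction.stabilizer (gamma0Gp N Q̄) P → MulAction.stabilizer (fullGp N Q̄) P :=
        fun s => ⟨⟨s.1.1, gamma0Gp_le N Q̄ s.1.2⟩, s.2⟩
      have hιinj : Function.Injective ι := fun s t hst => by
        apply Subtype.ext; apply Subtype.ext
        exact congrArg (fun w : MulAction.stabilizer (fullGp N Q̄) P =>
          ((w : fullGp N Q̄) : ModFld N Q̄ ≃ₐ[Q̄] ModFld N Q̄)) hst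
      haveI : Finite (MulAction.stabilizer (fullGp N Q̄) P) := inferInstance
      have hιbij := (Nat.bijective_iff_injective_and_card ι).mpr ⟨hιinj, hstab.symm.trans hcard.symm⟩
      have hs : fldAct N Q̄ (δ * σ * δ⁻¹) • P = P := by
        rw [map_mul, map_mul, map_inv, mul_smul, mul_smul, ← hδ, inv_smul_smul, hPσ σ hσ]
      obtain ⟨s, hs'⟩ := hιbij.2 ⟨⟨fldAct N Q̄ (δ * σ * δ⁻¹), _, rfl⟩, hs⟩
      have hmem : δ * σ * δ⁻¹ ∈ Gamma0 N := mem_Gamma0_of_mem_gamma0Gp (by
        rw [← show ((s : gamma0Gp N Q̄) : ModFld N Q̄ ≃ₐ[Q̄] ModFld N Q̄) = fldAct N Q̄ (δ * σ * δ⁻¹) from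
          congrArg (fun w : MulAction.stabilizer (fullGp N Q̄) P =>
          ((w : fullGp N Q̄) : ModFld N Q̄ ≃ₐ[Q̄] ModFld N Q̄)) hs']
        exact s.1.2)
      rw [hke]
      exact_mod_cast hσdvd h₁ (rep_invariant hχ hF hσfin hmem) hh₁ hh₁'
    obtain ⟨d, hd⟩ := hEm
    refine ⟨d, mul_left_cancel₀ (mul_ne_zero hk.ne' (show (e : ℤ) ≠ 0 by
      exact_mod_cast (P.ramificationIndex_pos (F := fixFld N Q̄)).ne')) ?_⟩
    rw [hEg, hd]
    ring
  · -- cusps
    obtain ⟨P₀, hkey, hcard₀, hT, horder⟩ := exists_cusp_place N Q̄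
    have hPinv : 0 < P.ord ((jL N Q̄)⁻¹ - algebraMap Q̄ (ModFld N Q̄) 0) := by
      rw [map_zero, sub_zero, P.ord_inv,
        show jL N Q̄ = ((barEquiv N Q̄ jb : fixFld N Q̄) : ModFld N Q̄) by rw [barEquiv_jBar], hPord]
      nlinarith [show (0 : ℤ) < e by exact_mod_cast P.ramificationIndex_pos (F := fixFld N Q̄)]
    have hfix : IntermediateField.fixedField (fullGp N Q̄) = Q̄⟮(jL N Q̄)⁻¹⟯ := by
      rw [fixedField_fullGp]
      refine le_antisymm (adjoin_simple_le_iff.mpr ?_)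
        (adjoin_simple_le_iff.mpr (inv_mem (mem_adjoin_simple_self Q̄ _)))
      simpa using inv_mem (mem_adjoin_simple_self Q̄ (jL N Q̄)⁻¹)
    obtain ⟨hconj, -⟩ := hfinj.inv.galois_fibre (fullGp N Q̄) hfix 0 P₀ (by
      rw [map_zero, sub_zero, P₀.ord_inv, hcard₀]
      have := NeZero.pos N; omega)
    obtain ⟨_, ⟨δ, rfl⟩, hδ⟩ := hconj P hPinv
    have hw : (e : ℤ) * (-v.ord jb) = N := by
      have h1 : P.ord (jL N Q̄) = e * v.ord jb := by
        rw [← hPord, barEquiv_jBar]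
      have h2 : P₀.ord (jL N Q̄) = P.ord (jL N Q̄) := by
        rw [← hδ, ord_smul_place, ← map_inv, fldAct_jL]
      rw [mul_neg, ← h1, ← h2, hcard₀, neg_neg]
    set w : ℕ := (-v.ord jb).toNat
    have hwN : e * w = N := by
      zify
      rw [show (w : ℤ) = -v.ord jb from Int.toNat_of_nonneg (by omega)]
      exact hw
    -- the width
    have hmem : δ * T ^ w * δ⁻¹ ∈ Gamma0 N := by
      set t := fldAct N Q̄ T
      set D := fldAct N Q̄ δ
      let C : Subgroup (ModFld N Q̄ ≃ₐ[Q̄] ModFld N Q̄) := Subgroup.zpowers t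
      let ψ : C →* (ModFld N Q̄ ≃ₐ[Q̄] ModFld N Q̄) := (MulAut.conj D).toMonoidHom.comp C.subtype
      let H : Subgroup C := (gamma0Gp N Q̄).comap ψ
      have hcomm : ∀ x y : C, x * y = y * x := fun x y => mul_comm' x y
      haveI : H.Normal := ⟨fun x hx y => by rwa [hcomm y x, mul_inv_cancel_right]⟩
      have hC : Nat.card C = N := by rw [Nat.card_zpowers, horder.1]
      let ι : H → MulAction.stabilizer (gamma0Gp N Q̄) P := fun x => ⟨⟨ψ x.1, x.2⟩, by
        show ψ x.1 • P = P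
        show (D * (x.1 : ModFld N Q̄ ≃ₐ[Q̄] ModFld N Q̄) * D⁻¹) • P = P
        have hx : (x.1 : ModFld N Q̄ ≃ₐ[Q̄] ModFld N Q̄) ∈ MulAction.stabilizer (ModFld N Q̄ ≃ₐ[Q̄] ModFld N Q̄) P₀ :=
          (Subgroup.zpowers_le.mpr (MulAction.mem_stabilizer_iff.mpr hT)) x.1.2
        rw [mul_smul, mul_smul, ← hδ, inv_smul_smul, MulAction.mem_stabilizer_iff.mp hx]⟩
      have hι : Function.Bijective ι := by
        refine ⟨fun x y hxy => ?_, fun s => ?_⟩
        · apply Subtype.ext; apply Subtype.ext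
          have h1 : ψ x.1 = ψ y.1 :=
            congrArg (fun u : MulAction.stabilizer (gamma0Gp N Q̄) P =>
              ((u : gamma0Gp N Q̄) : ModFld N Q̄ ≃ₐ[Q̄] ModFld N Q̄)) hxy
          exact mul_left_cancel (mul_right_cancel h1)
        · have h1 : (D⁻¹ * ((s : gamma0Gp N Q̄) : ModFld N Q̄ ≃ₐ[Q̄] ModFld N Q̄) * D) • P₀ = P₀ := by
            rw [mul_smul, mul_smul, hδ, show ((s : gamma0Gp N Q̄) : ModFld N Q̄ ≃ₐ[Q̄] ModFld N Q̄) • P = P from s.2, ← hδ, inv_smul_smul]
          have h2 : D⁻¹ * ((s : gamma0Gp N Q̄) : ModFld N Q̄ ≃ₐ[Q̄] ModFld N Q̄) * D ∈ fullGp N Q̄ :=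
            mul_mem (mul_mem (inv_mem ⟨δ, rfl⟩) (gamma0Gp_le N Q̄ s.1.2)) ⟨δ, rfl⟩
          have h3 : D⁻¹ * ((s : gamma0Gp N Q̄) : ModFld N Q̄ ≃ₐ[Q̄] ModFld N Q̄) * D ∈ C := horder.2 _ h2 h1
          have h4 : ψ ⟨_, h3⟩ = ((s : gamma0Gp N Q̄) : ModFld N Q̄ ≃ₐ[Q̄] ModFld N Q̄) := by
            show D * (D⁻¹ * ((s : gamma0Gp N Q̄) : ModFld N Q̄ ≃ₐ[Q̄] ModFld N Q̄) * D) * D⁻¹ = _
            group
          refine ⟨⟨⟨_, h3⟩, show ψ ⟨_, h3⟩ ∈ gamma0Gp N Q̄ by rw [h4]; exact s.1.2⟩, ?_⟩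
          exact Subtype.ext (Subtype.ext h4)
      have hH : Nat.card H = e := (Nat.card_eq_of_bijective ι hι).trans hstab.symm
      have hidx : H.index = w := by
        have h1 := H.card_mul_index
        rw [hH, hC] at h1
        exact Nat.eq_of_mul_eq_mul_left P.ramificationIndex_pos (h1.trans hwN.symm)
      have h2 := H.pow_index_mem ⟨t, Subgroup.mem_zpowers t⟩
      rw [hidx] at h2
      refine mem_Gamma0_of_mem_gamma0Gp ?_
      have h3 : ψ (⟨t, Subgroup.mem_zpowers t⟩ ^ w) ∈ gamma0Gp N Q̄ := h2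
      rw [map_mul, map_mul, map_pow, map_inv]
      exact h3
    obtain ⟨h, hh, hh0⟩ := GalRep.exists_series_rep hF δ
    -- the series of the translates
    have hser : expansion N Q̄ (ringAct N Q̄ δ⁻¹ a) ≠ 0 ∧
        (expansion N Q̄ (ringAct N Q̄ δ⁻¹ a)).order =
          n * h.order + (expansion N Q̄ (ringAct N Q̄ δ⁻¹ b)).order := by
      have hz : ∀ {u : modRing N Q̄}, u ≠ 0 → expansion N Q̄ u ≠ 0 := fun hu h0 =>
        hu (expansion_injective N Q̄ (h0.trans (map_zero _).symm))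
      refine ⟨hz (hne ha0 _), ?_⟩
      have h1 : h ^ n * seriesToC (expansion N Q̄ (ringAct N Q̄ δ⁻¹ b)) =
          seriesToC (expansion N Q̄ (ringAct N Q̄ δ⁻¹ a)) := by
        refine (((hh.pow n).mul (hq _)).congr (.of_forall fun z => ?_)).unique (NeZero.pos N) (hq _)
        simp only [Pi.mul_apply, Pi.pow_apply, coe_ringAct, inv_inv, hfun]
      rw [GalRep.seriesToC_eq_lmap, GalRep.seriesToC_eq_lmap] at h1
      have h2 := congrArg HahnSeries.order h1
      rw [HahnSeries.order_mul (pow_ne_zero _ hh0) (fun h0 => hz (hne hb0 _)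
          (GalRep.lmap_injective GalRep.qbarToC_injective (h0.trans (map_zero _).symm))),
        HahnSeries.order_pow, GalRep.order_lmap GalRep.qbarToC_injective,
        GalRep.order_lmap GalRep.qbarToC_injective, nsmul_eq_mul] at h2
      exact h2.symm
    have hEg : (e : ℤ) * v.ord g = n * h.order := by
      rw [hconv P₀ δ hδ, hkey _ (hne ha0 _), hkey _ (hne hb0 _), hser.2]
      ring
    have hdvd : (e : ℤ) ∣ h.order := by
      set ζ : ℂˣ := Units.mk0 (Complex.exp (2 * π * Complex.I * ((w : ℤ) : ℂ) / N))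
        (Complex.exp_ne_zero _)
      have h1 : ζ ^ h.order = 1 := GalRep.zpow_eq_one_of_twist hh0
        (GalRep.twist_eq_of_periodic (NeZero.pos N) hh (w : ℤ) ζ rfl
          fun z => hF.periodic δ (w : ℤ) (by rwa [zpow_natCast]) z)
      have hprim : IsPrimitiveRoot ζ e := by
        refine IsPrimitiveRoot.of_map_of_injective (f := Units.coeHom ℂ) ?_ Units.val_injective
        have he0 : e ≠ 0 := (P.ramificationIndex_pos (F := fixFld N Q̄)).ne'
        have : Complex.exp (2 * π * Complex.I * ((w : ℤ) : ℂ) / N) =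
            Complex.exp (2 * π * Complex.I / e) := by
          congr 1
          have hw0 : (w : ℂ) ≠ 0 := Nat.cast_ne_zero.mpr fun h0 => NeZero.ne N (by rw [← hwN, h0, mul_zero])
          rw [← hwN]
          push_cast
          field_simp
        show IsPrimitiveRoot (Complex.exp _) e
        rw [this]
        exact Complex.isPrimitiveRoot_exp e he0
      exact (hprim.zpow_eq_one_iff_dvd _).mp h1
    obtain ⟨d, hd⟩ := hdvd
    refine ⟨d, mul_left_cancel₀ (show (e : ℤ) ≠ 0 by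
      exact_mod_cast (P.ramificationIndex_pos (F := fixFld N Q̄)).ne') ?_⟩
    rw [hEg, hd]
    ring

end Fermat.Agent.MCurve.Flat
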