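/-
Every parabolic character killing the elements of finite order is the Kummer character of a torsion
class; the resulting lower bound `ℓ ^ (2 dim S₂) ≤ #J₀(N)[ℓ]`.
-/
import Fermat.Agent.MCurve.Flat.Kummer
import Fermat.Agent.MCurve.Flat.KummerPlaces
import Fermat.Agent.NewVec.Hecke

set_option autoImplicit false
set_option linter.style.haveILetI false
set_option linter.unusedSectionVars false
set_option maxHeartbeats 1000000

noncomputable section

namespace Fermat.Agent.MCurve.Flat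

open AlgebraicCurve ModularCurve CongruenceSubgroup
open Fermat.Agent.Galois (GQ)
open Fermat.Agent.GalRep (ParHom IsKummerRep HasQSeries IsModFun seriesToC qbarToC kummerGalois parMap)
open scoped MatrixGroups Manifold

local notation "Q̄" => AlgebraicClosure ℚ
local notation "ℍ" => UpperHalfPlane

variable (N : ℕ) [NeZero N] {n : ℕ} [NeZero n]

local notation "𝔽" => modularFunctionFieldBar N

/-- A character killing the torsion is the character of a class. -/
theorem exists_class_of_noTors {χ : ParHom N (ZMod n)} (hχ : NoTors χ) :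
    ∃ z : JZero N, (n : ℤ) • z = 0 ∧ IsKummerClass N n z χ := by
  classical
  obtain ⟨F, f, hF, hf⟩ := (kummerGalois N n).exists_algebraic χ
  have hmem : f ^ n ∈ modularFunctionFieldBar N := mem_bar_of_isModFun hF.isModFun_pow
    (by rw [seriesToC_pow]; exact hf.pow n)
  set g : 𝔽 := ⟨f ^ n, hmem⟩
  have hdvd := fun v => dvd_ord_of_noTors hχ hF hf (g := g) rfl v
  have hf0 : f ≠ 0 := fun h0 => by
    rw [h0, show seriesToC (0 : LaurentSeries Q̄) = 0 from map_zero (coeffMap qbarToC)] at hf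
    exact hF.ne_zero (GalRep.eq_of_hasQSeries hF.holo mdifferentiable_const hf (HasQSeries.zero 1))
  have hg0 : g ≠ 0 := fun h0 => pow_ne_zero n hf0 (congrArg Subtype.val h0)
  haveI := barAlg_frac N
  haveI : HasPrincipalDivisors Q̄ 𝔽 := RR.hasPrincipalDivisors_of_isFinOver (bar_isFinOver N)
  obtain ⟨a, b, ha, hb, hab⟩ := exists_frac_ne_zero (R := barAlg N) hg0
  have hb' : (b : 𝔽) ≠ 0 := fun h => hb (Subtype.ext h)
  have ha' : (a : 𝔽) ≠ 0 := fun h => ha (Subtype.ext h)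
  -- the divisor
  obtain ⟨E, hE, hEdeg⟩ := HasPrincipalDivisors.exists_divisor (K := Q̄) g hg0
  obtain ⟨Eb, hEb, hEbdeg⟩ := HasPrincipalDivisors.exists_divisor (K := Q̄) (b : 𝔽) hb'
  set D : Divisor Q̄ 𝔽 := Finsupp.mapRange (fun e : ℤ => e / (n : ℤ)) (by simp) E
  have hn0 : (n : ℤ) ≠ 0 := by exact_mod_cast NeZero.ne n
  have hD : ∀ v, (n : ℤ) * D v = v.ord g := fun v => by
    rw [Finsupp.mapRange_apply, hE]
    exact Int.mul_ediv_cancel' (hdvd v)
  have hnD : n • D = E := Finsupp.ext fun v => by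
    rw [Finsupp.smul_apply, nsmul_eq_mul, hD, hE]
  have hdeg : D ∈ Divisor.degZero (K := Q̄) (F := 𝔽) := by
    rw [Divisor.mem_degZero]
    have h : n • Divisor.degree D = 0 := by rw [← map_nsmul, hnD, hEdeg]
    exact (nsmul_eq_zero_iff.mp h).resolve_right (NeZero.ne n)
  set D' : Divisor.degZero (K := Q̄) (F := 𝔽) := ⟨D, hdeg⟩ + ⟨Eb, hEbdeg⟩
  refine ⟨Pic0.mk ⟨D, hdeg⟩, ?_, D', a * b ^ (n - 1),
    fun τ => F τ * (toMod N b : ℍ → ℂ) τ, f * ((b : 𝔽) : LaurentSeries Q̄), ?_,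
    mul_ne_zero ha (pow_ne_zero _ hb), fun v => ?_, ?_, ?_, ?_⟩
  · refine (map_zsmul (QuotientAddGroup.mk' _) (n : ℤ) (⟨D, hdeg⟩ : Divisor.degZero)).symm.trans ?_
    refine (mk_eq_zero_iff N (D := (n : ℤ) • ⟨D, hdeg⟩)).mpr ⟨g, hg0, fun v => ?_⟩
    rw [← hD v]; rfl
  · rw [Pic0.mk_add, (mk_eq_zero_iff N (D := ⟨Eb, hEbdeg⟩)).mpr ⟨(b : 𝔽), hb', hEb⟩, add_zero]
  · have h1 : v.ord (a : 𝔽) - v.ord (b : 𝔽) = n * D v := by
      rw [hD, hab, show algebraMap (barAlg N) 𝔽 a = (a : 𝔽) from rfl,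
        show algebraMap (barAlg N) 𝔽 b = (b : 𝔽) from rfl, div_eq_mul_inv,
        v.ord_mul ha' (inv_ne_zero hb'), v.ord_inv, sub_eq_add_neg]
    rw [show ((a * b ^ (n - 1) : barAlg N) : 𝔽) = (a : 𝔽) * (b : 𝔽) ^ (n - 1) from rfl,
      v.ord_mul ha' (pow_ne_zero _ hb'), ord_pow, Nat.cast_sub (NeZero.pos n),
      show (D' : Divisor Q̄ 𝔽) v = D v + Eb v from rfl, hEb, mul_add, ← h1, Nat.cast_one]
    ring
  · have hB : IsKummerRep N n (0 : ParHom N (ZMod n)) (toMod N b : ℍ → ℂ) :=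
      ⟨(toMod N b).2.holo, fun h0 => hb (toMod_injective N ((Subtype.ext h0).trans (map_zero _).symm)),
        fun γ τ => by simpa using (toMod N b).2.invariant _ γ.2 τ, (toMod N b).2.cusps⟩
    simpa [Pi.mul_def] using hF.mul hB
  · rw [seriesToC_mul]; exact hf.mul (hasQSeries_toMod N b)
  · have h : g * (b : 𝔽) = (a : 𝔽) := by
      rw [hab]; exact div_mul_cancel₀ _ hb'
    have h' : f ^ n * ((b : 𝔽) : LaurentSeries Q̄) = ((a : 𝔽) : LaurentSeries Q̄) :=
      congrArg Subtype.val h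
    show _ = ((a : 𝔽) : LaurentSeries Q̄) * ((b : 𝔽) : LaurentSeries Q̄) ^ (n - 1)
    rw [← h', mul_pow, mul_assoc, ← pow_succ', Nat.sub_add_cancel (NeZero.pos n)]

/-- Every character killing the torsion is in the image of the Kummer map. -/
theorem exists_kummerMap_eq {χ : ParHom N (ZMod n)} (hχ : NoTors χ) :
    ∃ z, kummerMap N n z = χ := by
  obtain ⟨z, hz, h⟩ := exists_class_of_noTors N hχ
  exact ⟨⟨z, hz⟩, kummerChar_eq N n (z := ⟨z, hz⟩) h⟩

/-- Reductions of integral characters kill the torsion. -/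
theorem noTors_parMap (f : ℤ →+ ZMod n) (φ : ParHom N ℤ) : NoTors (parMap f φ) := by
  intro γ hγ
  obtain ⟨k, hk, hk1⟩ := isOfFinOrder_iff_pow_eq_one.mp hγ
  have h : k • (φ : Additive (Gamma0 N) →+ ℤ) (Additive.ofMul γ) = 0 := by
    rw [← map_nsmul, ← ofMul_pow, hk1, ofMul_one, map_zero]
  rw [GalRep.parMap_apply, (nsmul_eq_zero_iff.mp h).resolve_right hk.ne', map_zero]

omit [NeZero n] in
theorem two_mul_finrank_le_parHom :
    2 * Module.finrank ℂ (CuspForm (Gamma0 N) 2) ≤ Module.finrank ℤ (ParHom N ℤ) := by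
  classical
  rw [← Period.finrank_parabolicHoms N]
  let b := Module.finBasis ℤ (ParHom N ℤ)
  let v : Fin (Module.finrank ℤ (ParHom N ℤ)) → Period.parabolicHoms ℂ (Gamma0 N) ℂ := fun i =>
    ⟨(parMap (Int.castAddHom ℂ) (b i)).1, (parMap (Int.castAddHom ℂ) (b i)).2⟩
  have hspan : ⊤ ≤ Submodule.span ℂ (Set.range v) := by
    rintro ⟨χ, hχ⟩ -
    obtain ⟨ι, _, φ, e, he, -⟩ := NewVec.exists_decomp (⟨χ, hχ⟩ : ParHom N ℂ)
    have key : (⟨χ, hχ⟩ : Period.parabolicHoms ℂ (Gamma0 N) ℂ) =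
        ∑ i, ∑ j, (e i * ((b.repr (φ i) j : ℤ) : ℂ)) • v j := by
      refine Subtype.ext (AddMonoidHom.ext fun x => ?_)
      have h1 := DFunLike.congr_fun (congrArg Subtype.val he) x
      rw [AddSubmonoidClass.coe_finsetSum, AddMonoidHom.finsetSum_apply] at h1
      simp only [AddSubmonoidClass.coe_finsetSum, AddMonoidHom.finsetSum_apply,
        Submodule.coe_smul]
      refine h1.trans (Finset.sum_congr rfl fun i _ => ?_)
      have h2 := congrArg (fun ψ : ParHom N ℤ => (ψ : Additive (Gamma0 N) →+ ℤ) x)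
        (b.sum_repr (φ i))
      simp only [AddSubmonoidClass.coe_finsetSum, AddMonoidHom.finsetSum_apply] at h2
      rw [GalRep.parMap_apply, ← h2, zmultiplesHom_apply, zsmul_eq_mul, Int.cast_sum, Finset.sum_mul]
      refine Finset.sum_congr rfl fun j _ => ?_
      show _ = (e i * ((b.repr (φ i) j : ℤ) : ℂ)) * ((parMap (Int.castAddHom ℂ) (b j)).1 x)
      rw [GalRep.parMap_apply, Int.coe_castAddHom]
      simp only [Submodule.coe_smul, AddMonoidHom.coe_smul, Pi.smul_apply, smul_eq_mul, Int.cast_mul]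
      ring
    rw [key]
    exact Submodule.sum_mem _ fun i _ => Submodule.sum_mem _ fun j _ =>
      Submodule.smul_mem _ _ (Submodule.subset_span ⟨j, rfl⟩)
  haveI := Period.parabolicHoms_finiteDimensional (N := N)
  have h := finrank_range_le_card (R := ℂ) v
  rw [Set.finrank, top_le_iff.mp hspan, finrank_top, Fintype.card_fin] at h
  exact h

/-- The lower bound for the torsion at a prime. -/
theorem pow_le_card_torsionBy {l : ℕ} (hl : l.Prime) :
    l ^ (2 * Module.finrank ℂ (CuspForm (Gamma0 N) 2)) ≤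
      Nat.card (Submodule.torsionBy ℤ (JZero N) (l : ℤ)) := by
  classical
  haveI : NeZero l := ⟨hl.ne_zero⟩
  haveI := finite_torsionBy N l
  set r := Module.finrank ℤ (ParHom N ℤ)
  let b := Module.finBasis ℤ (ParHom N ℤ)
  let c : (Fin r → Fin l) → Submodule.torsionBy ℤ (JZero N) (l : ℤ) := fun t =>
    (exists_kummerMap_eq N (noTors_parMap N (Int.castAddHom (ZMod l))
      (∑ i, ((t i : ℕ) : ℤ) • b i))).choose
  have hc : ∀ t, kummerMap N l (c t) =
      parMap (Int.castAddHom (ZMod l)) (∑ i, ((t i : ℕ) : ℤ) • b i) := fun t =>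
    (exists_kummerMap_eq N (noTors_parMap N (Int.castAddHom (ZMod l))
      (∑ i, ((t i : ℕ) : ℤ) • b i))).choose_spec
  have hinj : Function.Injective c := fun s t hst => by
    have h1 := (hc s).symm.trans ((congrArg (kummerMap N l) hst).trans (hc t))
    rw [← sub_eq_zero, ← map_sub, ← Finset.sum_sub_distrib] at h1
    simp only [← sub_smul] at h1
    set φ : ParHom N ℤ := ∑ i, (((s i : ℕ) : ℤ) - ((t i : ℕ) : ℤ)) • b i
    have hdiv : ∀ x, (l : ℤ) ∣ (φ : Additive (Gamma0 N) →+ ℤ) x := fun x => by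
      have h2 := DFunLike.congr_fun (congrArg Subtype.val h1) x
      rw [GalRep.parMap_apply] at h2
      exact (ZMod.intCast_zmod_eq_zero_iff_dvd _ _).mp h2
    have hl0 : (l : ℤ) ≠ 0 := by exact_mod_cast hl.ne_zero
    let ψ : ParHom N ℤ := ⟨AddMonoidHom.mk' (fun x => (φ : Additive (Gamma0 N) →+ ℤ) x / l)
      (fun x y => by rw [map_add, Int.add_ediv_of_dvd_left (hdiv x)]), fun γ hγ => by
        show (φ : Additive (Gamma0 N) →+ ℤ) (Additive.ofMul γ) / l = 0
        rw [φ.2 γ hγ, Int.zero_ediv]⟩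
    have hφ : φ = (l : ℤ) • ψ := Subtype.ext (AddMonoidHom.ext fun x => by
      show _ = (l : ℤ) * ((φ : Additive (Gamma0 N) →+ ℤ) x / l)
      rw [Int.mul_ediv_cancel' (hdiv x)])
    funext i
    have h3 := congrArg (fun θ => b.repr θ i) hφ
    simp only [φ, map_smul, Finsupp.smul_apply, smul_eq_mul] at h3
    rw [b.repr_sum_self] at h3
    have h4 : (l : ℤ) ∣ ((s i : ℕ) : ℤ) - ((t i : ℕ) : ℤ) := ⟨_, h3⟩
    apply Fin.ext
    have := (s i).isLt
    have := (t i).isLt
    have h5 := Int.eq_zero_of_abs_lt_dvd h4 (by rw [abs_lt]; omega)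
    omega
  calc l ^ (2 * Module.finrank ℂ (CuspForm (Gamma0 N) 2)) ≤ l ^ r :=
        Nat.pow_le_pow_right hl.pos (two_mul_finrank_le_parHom N)
    _ = Nat.card (Fin r → Fin l) := by simp
    _ ≤ _ := Nat.card_le_card_of_injective c hinj

end Fermat.Agent.MCurve.Flat
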