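import Fermat.Agent.MCurve.Flat.Model
import Fermat.Agent.MCurve.Spec.Place

/-!
Finite flat models of the torsion of `J₀(N)` at a prime of good reduction.
-/

set_option autoImplicit false
set_option linter.style.haveILetI false
set_option linter.unusedSectionVars false
set_option synthInstance.maxHeartbeats 400000
set_option maxHeartbeats 1000000

noncomputable section

namespace Fermat.Agent.MCurve.Flat

open AlgebraicCurve ModularCurve IsLocalRing
open Fermat.Agent.MCurve.Spec (redDom redF redPlace mapDomain_redPlace)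

/-- The torsion of `J₀(N)` has finite flat models at good primes. -/
theorem hasFlatModel_torsion {N ℓ : ℕ} [NeZero N] [Fact ℓ.Prime] (hℓN : ¬ ℓ ∣ N) (n : ℕ) [NeZero n] :
    HasFlatModel ↥(Submodule.torsionBy ℤ (JZero N) (n : ℤ)) ℓ := by
  obtain ⟨A, hA⟩ := Fermat.Agent.Galois.exists_liesOverPrime (Fact.out : ℓ.Prime)
  obtain ⟨hpK, hrK, hneK⟩ := Fermat.Agent.MCurve.RR.curve_props (bar_isFinOver N)
  haveI : ∀ P : Place (AlgebraicClosure ℚ) (modularFunctionFieldBar N),
      Module.Finite (AlgebraicClosure ℚ) P.ResidueField := fun P => (hrK P).finite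
  obtain ⟨xk, hxk⟩ := exists_finOver_red A N hA hℓN
  obtain ⟨hpk, hrk, hnek⟩ := Fermat.Agent.MCurve.RR.curve_props hxk
  haveI : ∀ Q : Place (ResidueField A) (modularFunctionFieldFullC (ResidueField A) N),
      Module.Finite (ResidueField A) Q.ResidueField := fun Q => (hrk Q).finite
  refine hasFlatModel_torsion_of_places hA hℓN ⟨redPlace hA hℓN, fun u hu D hD Q => ?_⟩ n
  have e : redF hA hℓN (⟨(u : modularFunctionFieldBar N), u.2⟩ : redDom A N) =
      redρ A N hA hℓN u := Subtype.ext rfl
  rw [← e] at hu ⊢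
  exact mapDomain_redPlace hA hℓN _ hu hD Q

end Fermat.Agent.MCurve.Flat
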