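/-
The reduction of the function field of `X₀(N)` at a good prime through the series at infinity: the
valuation ring of series with bounded denominators, its reduction into the function field in
characteristic `ℓ`, scaling and bases with independent reductions.
-/
import Fermat.Agent.MCurve.Flat.Setup
import Fermat.Agent.MCurve.Spec.SeriesRed
import Fermat.Agent.MCurve.Spec.Coord
import Fermat.Agent.MCurve.SpecialDifferential.Gen

set_option autoImplicit false
set_option linter.style.haveILetI false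
set_option linter.unusedSectionVars false
set_option synthInstance.maxHeartbeats 400000
set_option maxHeartbeats 1000000

noncomputable section

namespace Fermat.Agent.MCurve.Flat

open AlgebraicCurve ModularCurve IsLocalRing CongruenceSubgroup IntermediateField
open Fermat.Agent.MCurve.Spec (redRing redS redS_eq redS_mk red_cross red_indep sk sQ sQ_injective
  sk_aJ sk_aJ_ne_zero sQ_aJ bSer exists_repr exists_common mem_or_inv_red bBasis bFun)
open Fermat.Agent.MCurve.SpecialDifferential (GenData genData exists_modEquation Coord ev1 etaL)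

local notation "Q̄" => AlgebraicClosure ℚ

/-- A finite family spanning over the constants, with independent residues, scales every vector. -/
theorem exists_scale_of_orth {K F k F' : Type*} [Field K] [Field F] [Algebra K F] [Field k]
    [Field F'] [Algebra k F'] {A : ValuationSubring K} (π : A →+* k)
    (hπ : ∀ a : A, π a = 0 ↔ a ∈ maximalIdeal A) {V : ValuationSubring F}
    (hV : ∀ a : A, algebraMap K F a ∈ V) (ρ : V →+* F')
    (hρ : ∀ a : A, ρ ⟨algebraMap K F a, hV a⟩ = algebraMap k F' (π a)) {d : ℕ} (w : Fin d → V)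
    (hw : LinearIndependent k fun i => ρ (w i)) {f : F} (hf0 : f ≠ 0)
    (hf : f ∈ Submodule.span K (Set.range fun i => ((w i : V) : F))) :
    ∃ (c : K) (u : V), ρ u ≠ 0 ∧ f = algebraMap K F c * (u : F) := by
  classical
  obtain ⟨g, hg⟩ := (Submodule.mem_span_range_iff_exists_fun K).mp hf
  haveI : Nonempty (Fin d) := by
    by_contra h
    rw [not_nonempty_iff] at h
    exact hf0 (by rw [← hg, Finset.univ_eq_empty, Finset.sum_empty])
  obtain ⟨i₀, -, hmax⟩ :=
    Finset.exists_max_image Finset.univ (fun i => A.valuation (g i)) Finset.univ_nonempty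
  have h0 : g i₀ ≠ 0 := fun h => hf0 (by
    rw [← hg]
    refine Finset.sum_eq_zero fun i _ => ?_
    have := hmax i (Finset.mem_univ i)
    rw [h, map_zero, le_zero_iff, A.valuation.zero_iff] at this
    rw [this, zero_smul])
  have hle : ∀ i, g i / g i₀ ∈ A := fun i => by
    rw [← A.valuation_le_one_iff, map_div₀]
    exact div_le_one_of_le₀ (hmax i (Finset.mem_univ i)) zero_le
  set u : V := ∑ i, ⟨algebraMap K F (⟨g i / g i₀, hle i⟩ : A), hV _⟩ * w i
  refine ⟨g i₀, u, fun hu => ?_, ?_⟩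
  · simp only [u, map_sum, map_mul, hρ] at hu
    have h1 := Fintype.linearIndependent_iff.mp hw (fun i => π ⟨g i / g i₀, hle i⟩) (by
      refine Eq.trans (Finset.sum_congr rfl fun i _ => ?_) hu
      rw [Algebra.smul_def, ← hρ]) i₀
    rw [hπ] at h1
    exact h1 (by
      rw [show (⟨g i₀ / g i₀, hle i₀⟩ : A) = 1 from Subtype.ext (div_self h0)]
      exact isUnit_one)
  · rw [← hg, AddSubmonoidClass.coe_finsetSum, Finset.mul_sum]
    refine Finset.sum_congr rfl fun i _ => ?_
    rw [Algebra.smul_def, MulMemClass.coe_mul, ← mul_assoc, ← map_mul, mul_div_cancel₀ _ h0]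

variable (A : ValuationSubring Q̄) (N : ℕ) [NeZero N] {ℓ : ℕ} [Fact ℓ.Prime]
  (hA : A.LiesOverPrime ℓ) (hℓN : ¬ ℓ ∣ N)

local notation "𝕜" => ResidueField A
local notation "𝔽" => modularFunctionFieldBar N
local notation "𝔽'" => modularFunctionFieldFullC (ResidueField A) N

/-! ## The valuation ring and the reduction -/

/-- Functions whose series has a reduction. -/
def redV : ValuationSubring 𝔽 :=
  { (redRing A).comap ((modularFunctionFieldBar N).val : 𝔽 →+* LaurentSeries Q̄) with
    mem_or_inv_mem' := fun x => by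
      rcases mem_or_inv_red (A := A) hA hℓN x with h | ⟨h, -⟩
      · exact Or.inl h
      · refine Or.inr ?_
        show ((modularFunctionFieldBar N).val : 𝔽 →+* LaurentSeries Q̄) x⁻¹ ∈ redRing A
        rw [map_inv₀]
        exact h }

theorem mem_redV {x : 𝔽} : x ∈ redV A N hA hℓN ↔ (x : LaurentSeries Q̄) ∈ redRing A := Iff.rfl

include hA hℓN in
/-- An integral series is a ratio with a denominator in `A[j]` nonzero modulo the place. -/
theorem exists_repr_unit {x : 𝔽} (hx : (x : LaurentSeries Q̄) ∈ redRing A) :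
    ∃ (D : Polynomial A) (P : Fin (Gamma0 N).index → Polynomial A), D.map (residue A) ≠ 0 ∧
      (x : LaurentSeries Q̄) * sQ A (aJ A D) = sQ A (∑ i, aJ A (P i) * bSer A N i) := by
  obtain ⟨D, P, hor, -, hxe⟩ := exists_repr hA hℓN x
  refine ⟨D, P, fun hD => ?_, hxe⟩
  obtain ⟨i, hi⟩ := hor.resolve_left (not_not.mpr hD)
  obtain ⟨S', E, hE, hSE⟩ := hx
  have h := red_cross A hxe hSE
  rw [sk_aJ D, hD, map_zero, mul_zero] at h
  exact hi (red_indep hA hℓN P ((mul_eq_zero.mp h).resolve_right hE) i)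

theorem sk_bSer (i : Fin (Gamma0 N).index) :
    sk A (bSer A N i) = qExpand 𝕜 N (jqModC 𝕜) ^ (i : ℕ) := by
  rw [bSer, map_pow, sk, qExpand_coeffMap, MCurve.coeffMap_jqModC]

include hA hℓN in
theorem redS_mem_fullC (x : 𝔽) (hx : (x : LaurentSeries Q̄) ∈ redRing A) :
    redS A ⟨(x : LaurentSeries Q̄), hx⟩ ∈ 𝔽' := by
  obtain ⟨D, P, hD, hxe⟩ := exists_repr_unit A N hA hℓN hx
  rw [redS_mk A hx (sk_aJ_ne_zero hD) hxe, sk_aJ, map_sum]
  refine div_mem (sum_mem fun i _ => ?_) (genAlg_le_full 𝕜 N (evJq_mem 𝕜 N _))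
  rw [map_mul, sk_aJ, sk_bSer]
  exact mul_mem (genAlg_le_full 𝕜 N (evJq_mem 𝕜 N _))
    (pow_mem (IntermediateField.subset_adjoin _ _ (mem_divisorExpansionsC 𝕜 N dvd_rfl)) _)

/-- The reduction into the function field in characteristic `ℓ`. -/
def redρ : redV A N hA hℓN →+* 𝔽' :=
  ((redS A).comp ((((modularFunctionFieldBar N).val : 𝔽 →+* LaurentSeries Q̄).comp
    (redV A N hA hℓN).subtype).codRestrict (redRing A) fun x => x.2)).codRestrict
      (modularFunctionFieldFullC (ResidueField A) N).toSubfield.toSubring fun x =>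
        redS_mem_fullC A N hA hℓN x x.2

theorem coe_redρ (x : redV A N hA hℓN) :
    (redρ A N hA hℓN x : LaurentSeries 𝕜) =
      redS A ⟨((x : 𝔽) : LaurentSeries Q̄), x.2⟩ := rfl

theorem redρ_eq (x : redV A N hA hℓN) {S E : LaurentSeries A} (hE : sk A E ≠ 0)
    (h : ((x : 𝔽) : LaurentSeries Q̄) * sQ A E = sQ A S) :
    (redρ A N hA hℓN x : LaurentSeries 𝕜) = sk A S / sk A E :=
  redS_mk A x.2 hE h

theorem algebraMap_mem_redV (a : A) : algebraMap Q̄ 𝔽 (a : Q̄) ∈ redV A N hA hℓN := by
  refine ⟨HahnSeries.C a, 1, by rw [map_one]; exact one_ne_zero, ?_⟩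
  rw [map_one, mul_one, HahnSeries.C_apply, sQ, coeffMap_single, ← algebraMap_laurentSeries_eq_single]
  rfl

theorem redρ_algebraMap (a : A) :
    redρ A N hA hℓN ⟨algebraMap Q̄ 𝔽 (a : Q̄), algebraMap_mem_redV A N hA hℓN a⟩ =
      algebraMap 𝕜 𝔽' (residue A a) := by
  refine Subtype.ext ?_
  rw [redρ_eq A N hA hℓN _ (S := HahnSeries.C a) (E := 1) (by rw [map_one]; exact one_ne_zero) (by
      rw [map_one, mul_one, HahnSeries.C_apply, sQ, coeffMap_single,
        ← algebraMap_laurentSeries_eq_single]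
      rfl), map_one, div_one, HahnSeries.C_apply, sk, coeffMap_single,
    ← algebraMap_laurentSeries_eq_single]
  rfl

theorem jBar_mem_redV : jBar N Q̄ ∈ redV A N hA hℓN := by
  refine ⟨jqModC A, 1, by rw [map_one]; exact one_ne_zero, ?_⟩
  rw [map_one, mul_one, sQ, MCurve.coeffMap_jqModC]
  exact (Spec.coe_jBar' (N := N))

theorem redρ_jBar : redρ A N hA hℓN ⟨jBar N Q̄, jBar_mem_redV A N hA hℓN⟩ = jFullC 𝕜 N := by
  refine Subtype.ext ?_
  rw [redρ_eq A N hA hℓN _ (S := jqModC A) (E := 1) (by rw [map_one]; exact one_ne_zero) (by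
      rw [map_one, mul_one, sQ, MCurve.coeffMap_jqModC]
      exact (Spec.coe_jBar' (N := N))), map_one, div_one, sk, MCurve.coeffMap_jqModC]
  rfl

include hA hℓN in
/-- Finitely many functions lie in the span of integral ones with independent reductions. -/
theorem exists_orth (s : Finset 𝔽) :
    ∃ (d : ℕ) (w : Fin d → redV A N hA hℓN),
      LinearIndependent 𝕜 (fun i => redρ A N hA hℓN (w i)) ∧
      (s : Set 𝔽) ⊆ Submodule.span Q̄ (Set.range fun i => ((w i : redV A N hA hℓN) : 𝔽)) := by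
  classical
  let bs := bBasis (A := A) hA hℓN
  obtain ⟨D, p, hD, hp⟩ := exists_common (N := N)
    fun e : (↥s) × Fin (Gamma0 N).index => bs.repr (e.1 : 𝔽) e.2
  obtain ⟨c, D₁, hc, hD₁, hD₁r⟩ := exists_primitive A hD
  set n : ℕ := (Finset.univ.sup fun e => (p e).natDegree) + 1
  set E : LaurentSeries A := aJ A D₁
  have hE : sk A E ≠ 0 := sk_aJ_ne_zero hD₁r
  have hE' : sQ A E ≠ 0 := fun h => hE (by rw [sQ_injective A (h.trans (map_zero _).symm), map_zero])
  let den : 𝔽 := Polynomial.aeval (jBar N Q̄) (D₁.map (subA A))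
  have hden : (den : LaurentSeries Q̄) = sQ A E := by
    rw [sQ_aJ]; exact Spec.coe_aeval_jBar _
  let wF : Fin n × Fin (Gamma0 N).index → 𝔽 := fun e =>
    jBar N Q̄ ^ (e.1 : ℕ) * bFun A N e.2 / den
  have hwS : ∀ e, (wF e : LaurentSeries Q̄) * sQ A E =
      sQ A (jqModC A ^ (e.1 : ℕ) * bSer A N e.2) := fun e => by
    show ((modularFunctionFieldBar N).val : 𝔽 →+* LaurentSeries Q̄) (wF e) * _ = _
    simp only [wF, map_div₀, map_mul, map_pow]
    rw [show ((modularFunctionFieldBar N).val : 𝔽 →+* LaurentSeries Q̄) den = sQ A E from hden,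
      div_mul_cancel₀ _ hE', show sQ A (jqModC A) = jqModC Q̄ from MCurve.coeffMap_jqModC _,
      show ((modularFunctionFieldBar N).val : 𝔽 →+* LaurentSeries Q̄) (jBar N Q̄) = jqModC Q̄ from
        (Spec.coe_jBar' (N := N))]
    rfl
  have hwmem : ∀ e, wF e ∈ redV A N hA hℓN := fun e => ⟨_, E, hE, hwS e⟩
  let ε := Fintype.equivFin (Fin n × Fin (Gamma0 N).index)
  refine ⟨_, fun i => ⟨wF (ε.symm i), hwmem _⟩, ?_, ?_⟩
  · refine (linearIndependent_equiv ε.symm (f := fun e => redρ A N hA hℓN ⟨wF e, hwmem e⟩)).mpr ?_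
    rw [Fintype.linearIndependent_iff]
    intro g hg
    have h1 := congrArg (modularFunctionFieldFullC (ResidueField A) N).val hg
    rw [map_sum, map_zero] at h1
    have h2 : ∑ b : Fin (Gamma0 N).index,
        jHom 𝕜 (∑ i : Fin n, Polynomial.C (g (i, b)) * Polynomial.X ^ (i : ℕ)) *
          qExpand 𝕜 N (jqModC 𝕜) ^ (b : ℕ) = 0 := by
      have h3 := congrArg (· * sk A E) h1
      rw [zero_mul, Finset.sum_mul] at h3
      rw [← h3, Fintype.sum_prod_type_right]
      refine Finset.sum_congr rfl fun b _ => ?_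
      rw [map_sum, Finset.sum_mul]
      refine Finset.sum_congr rfl fun i _ => ?_
      rw [Algebra.smul_def, map_mul (modularFunctionFieldFullC (ResidueField A) N).val,
        AlgHom.commutes, IntermediateField.coe_val,
        redρ_eq A N hA hℓN ⟨wF (i, b), hwmem (i, b)⟩ hE (hwS (i, b)),
        mul_assoc, div_mul_cancel₀ _ hE, map_mul, map_mul, map_pow, map_pow,
        algebraMap_laurentSeries_eq_single, jHom, Polynomial.coe_eval₂RingHom, Polynomial.eval₂_C,
        Polynomial.eval₂_X, sk_bSer, show sk A (jqModC A) = jqModC 𝕜 from MCurve.coeffMap_jqModC _]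
      exact mul_assoc _ _ _
    rintro ⟨i, b⟩
    have h4 := congrArg (fun q => Polynomial.coeff q (i : ℕ))
      (congrFun (Spec.redIndependent_of_not_dvd hA hℓN _ h2) b)
    simpa [Polynomial.finsetSum_coeff, Polynomial.coeff_C_mul_X_pow, Fin.val_inj] using h4
  · intro x hx
    have hxe : x = ∑ e : Fin n × Fin (Gamma0 N).index,
        (c * (p (⟨x, hx⟩, e.2)).coeff (e.1 : ℕ)) • wF e := by
      refine Subtype.ext (mul_right_cancel₀ hE' ?_)
      have hbs := congrArg (modularFunctionFieldBar N).val (bs.sum_repr x)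
      rw [map_sum] at hbs
      rw [show (∑ e : Fin n × Fin (Gamma0 N).index,
        (c * (p (⟨x, hx⟩, e.2)).coeff (e.1 : ℕ)) • wF e : 𝔽).val =
          (modularFunctionFieldBar N).val (∑ e : Fin n × Fin (Gamma0 N).index,
        (c * (p (⟨x, hx⟩, e.2)).coeff (e.1 : ℕ)) • wF e) from rfl, map_sum, Finset.sum_mul,
        Fintype.sum_prod_type_right, ← IntermediateField.coe_val, ← hbs, Finset.sum_mul]
      refine Finset.sum_congr rfl fun b _ => ?_
      rw [Spec.bBasis_apply]
      show ((((bs.repr x) b : 𝔽) : LaurentSeries Q̄) * sQ A (bSer A N b)) * _ = _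
      simp_rw [Algebra.smul_def, map_mul (modularFunctionFieldBar N).val, AlgHom.commutes,
        IntermediateField.coe_val, mul_assoc, hwS, map_mul (sQ A),
        map_pow (sQ A), show sQ A (jqModC A) = jqModC Q̄ from MCurve.coeffMap_jqModC _]
      rw [mul_comm (sQ A (bSer A N b)), ← mul_assoc, sQ_aJ, hD₁, map_mul, ← mul_assoc,
        mul_comm ((((bs.repr x) b : 𝔽)) : LaurentSeries Q̄), mul_assoc (evJq Q̄ (Polynomial.C c)),
        hp (⟨x, hx⟩, b), show evJq Q̄ (Polynomial.C c) = algebraMap Q̄ (LaurentSeries Q̄) c from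
          Polynomial.aeval_C _ c]
      have hdeg : (p (⟨x, hx⟩, b)).natDegree < n :=
        Nat.lt_succ_of_le (Finset.le_sup (f := fun e => (p e).natDegree) (Finset.mem_univ _))
      conv_lhs => rw [(p (⟨x, hx⟩, b)).as_sum_range_C_mul_X_pow' hdeg]
      rw [map_sum, Finset.mul_sum, Finset.sum_mul, Finset.sum_range]
      refine Finset.sum_congr rfl fun i _ => ?_
      rw [map_mul, map_pow, evJq, Polynomial.aeval_C, Polynomial.aeval_X, map_mul]
      simp only [mul_assoc]
    rw [hxe]
    refine sum_mem fun e _ => Submodule.smul_mem _ _ (Submodule.subset_span ⟨ε e, ?_⟩)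
    simp

include hA hℓN in
/-- Every function is a constant times an integral one with nonzero reduction. -/
theorem exists_scale (f : 𝔽) (hf : f ≠ 0) :
    ∃ (c : Q̄) (u : redV A N hA hℓN), redρ A N hA hℓN u ≠ 0 ∧ f = algebraMap Q̄ 𝔽 c * (u : 𝔽) := by
  obtain ⟨d, w, hw, hs⟩ := exists_orth A N hA hℓN {f}
  exact exists_scale_of_orth (residue A) residue_eq_zero_iff (algebraMap_mem_redV A N hA hℓN)
    (redρ A N hA hℓN) (redρ_algebraMap A N hA hℓN) w hw hf (hs (Finset.mem_singleton_self f))

/-- The series part of a reduction model, for a given map of places. -/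
def redModelOf (r : Place Q̄ 𝔽 → Place 𝕜 𝔽')
    (hr : ∀ u : redV A N hA hℓN, redρ A N hA hℓN u ≠ 0 → ∀ D : Divisor Q̄ 𝔽,
      (∀ P, D P = P.ord (u : 𝔽)) →
      ∀ Q, Finsupp.mapDomain r D Q = Q.ord (redρ A N hA hℓN u)) :
    RedModel Q̄ 𝔽 𝕜 𝔽' A where
  π := residue A
  π_surjective := residue_surjective
  π_eq_zero := residue_eq_zero_iff
  V := redV A N hA hℓN
  const_mem := algebraMap_mem_redV A N hA hℓN
  ρ := redρ A N hA hℓN
  ρ_const := redρ_algebraMap A N hA hℓN
  scale := exists_scale A N hA hℓN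
  exists_orth := exists_orth A N hA hℓN
  r := r
  ord_ρ := hr

/-! ## The field in characteristic `ℓ` -/

include hA hℓN in
theorem exists_genData : ∃ P : Polynomial (Polynomial ↥(GaloisRep.ratLocalizedAt ℓ)),
    P.Monic ∧ P.natDegree = (Gamma0 N).index ∧ SpecialDifferential.ev2 _ N P = 0 ∧
      GenData 𝕜 N (P.map (Polynomial.mapRingHom ((residue A).comp (oToA A hA)))) := by
  haveI := GalRep.charP_residue (A := A) (Fact.out : ℓ.Prime) hA
  obtain ⟨P, hP, hdeg, hroot⟩ := exists_modEquation ℓ N hℓN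
  exact ⟨P, hP, hdeg, hroot, genData hℓN (fun z hz => (CharP.intCast_eq_zero_iff _ ℓ z).mp hz) _
    (Spec.redIndependent_of_not_dvd hA hℓN) hP hdeg hroot⟩

include hA hℓN in
theorem isFinOver_red : IsFinOver 𝕜 (jFullC 𝕜 N) :=
  isFinOver_jFullC (hint_red A N hA hℓN)

include hA hℓN in
theorem exists_finOver_red : ∃ x : 𝔽', IsFinOver 𝕜 x := ⟨_, isFinOver_red A N hA hℓN⟩

include hA hℓN in
theorem coord_red : Coord 𝕜 (jFullC 𝕜 N) := by
  obtain ⟨P, -, -, -, g⟩ := exists_genData A N hA hℓN
  exact g.coord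

end Fermat.Agent.MCurve.Flat
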