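/-
The two charts of `X₀(N)` over a good place: functions with a single zero at each centre, the
integral generator `j (q ^ N)`, and the degree of the reduced coordinate.
-/
import Fermat.Agent.MCurve.Flat.Series
import Fermat.Agent.MCurve.Spec.DiscUnif
import Fermat.Agent.MCurve.Spec.CuspDisc
import Fermat.Agent.MCurve.Spec.Principal

set_option autoImplicit false
set_option linter.style.haveILetI false
set_option linter.unusedSectionVars false
set_option synthInstance.maxHeartbeats 400000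
set_option maxHeartbeats 1000000

noncomputable section

namespace Fermat.Agent.MCurve.Spec

open AlgebraicCurve Polynomial IsLocalRing

local notation "Q̄" => AlgebraicClosure ℚ

variable {A : ValuationSubring Q̄} {F : Type*} [Field F] [Algebra Q̄ F]
  [∀ P : Place Q̄ F, Module.Finite Q̄ P.ResidueField]

/-- Inversion of values prime to the place. -/
theorem exists_hasVal_inv (P : Place Q̄ F) {t : F} (ht : t ≠ 0) {a : A} (ha : HasVal P t (a : Q̄))
    (hr : residue A a ≠ 0) :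
    ∃ a' : A, HasVal P t⁻¹ (a' : Q̄) ∧ residue A a' = (residue A a)⁻¹ := by
  have hi : IsIntAt A P t⁻¹ := (isIntAt_inv_iff P ht (isIntAt_of_hasVal P ha)).mpr (by
    rwa [cval_of_hasVal P _ ⟨t, self_mem_chart A t⟩ ha])
  obtain ⟨a', ha'⟩ := isIntAt_iff.mp hi
  refine ⟨a', ha', eq_inv_of_mul_eq_one_left ?_⟩
  have h := ha'.mul P ha
  rw [inv_mul_cancel₀ ht] at h
  rw [← map_mul, show a' * a = 1 from
    Subtype.ext (h.unique P (Or.inl (map_one _).symm)), map_one]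

theorem SameCen.val_eq {t : F} {P₀ P : Place Q̄ F} (h : SameCen A t P₀ P) {y : F}
    (hy : y ∈ chart A t) {a : A} (ha : HasVal P₀ y (a : Q̄)) :
    ∃ b : A, HasVal P y (b : Q̄) ∧ residue A b = residue A a := by
  obtain ⟨b, hb⟩ := exists_hasVal_of_mem_chart P h.1 hy
  exact ⟨b, hb, h.2 y hy b a hb ha⟩

theorem sameCen_inv {t : F} (ht : t ≠ 0) {P₀ P : Place Q̄ F} {a₀ : A}
    (h₀ : HasVal P₀ t (a₀ : Q̄)) (hr : residue A a₀ ≠ 0) (h : SameCen A t P₀ P) :
    SameCen A t⁻¹ P₀ P := by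
  obtain ⟨b, hb, hbr⟩ := h.val_eq (self_mem_chart A t) h₀
  obtain ⟨b', hb', hbr'⟩ := exists_hasVal_inv P ht hb (hbr ▸ hr)
  obtain ⟨a', ha', har'⟩ := exists_hasVal_inv P₀ ht h₀ hr
  refine ⟨isIntAt_of_hasVal P hb', fun y hy c c' hc hc' => ?_⟩
  obtain ⟨m, hm⟩ := exists_inv_pow_mul_mem (inv_ne_zero ht) hy
  have hy' : y * t ^ m ∈ chart A t := by simpa using hm m le_rfl
  have e := h.2 _ hy' (c * b ^ m) (c' * a₀ ^ m)
    (by push_cast; exact hc.mul P (hb.pow P m)) (by push_cast; exact hc'.mul P₀ (h₀.pow P₀ m))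
  rw [map_mul, map_mul, map_pow, map_pow, hbr] at e
  exact mul_right_cancel₀ (pow_ne_zero m hr) e

theorem sameCen_inv_iff {t : F} (ht : t ≠ 0) {P₀ P : Place Q̄ F} {a₀ : A}
    (h₀ : HasVal P₀ t (a₀ : Q̄)) (hr : residue A a₀ ≠ 0) :
    SameCen A t⁻¹ P₀ P ↔ SameCen A t P₀ P := by
  refine ⟨fun h => ?_, sameCen_inv ht h₀ hr⟩
  obtain ⟨a', ha', har'⟩ := exists_hasVal_inv P₀ ht h₀ hr
  have := sameCen_inv (inv_ne_zero ht) ha' (har' ▸ inv_ne_zero hr) h
  rwa [inv_inv] at this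

theorem exists_place_val {t : F} (h : IsFinOver Q̄ t) (a : Q̄) :
    ∃ P : Place Q̄ F, HasVal P t a := by
  haveI := h.finite
  obtain ⟨Z, hZ, hsum⟩ := h.exists_zeros a
  obtain ⟨P, hP⟩ : Z.Nonempty := by
    by_contra hne
    rw [Finset.not_nonempty_iff_eq_empty.mp hne, Finset.sum_empty] at hsum
    exact Module.finrank_pos.ne' (by exact_mod_cast hsum.symm)
  exact ⟨P, Or.inr ((hZ P).mp hP)⟩

/-- A function of the chart of `t` with one zero at the centre of `P₀` and a unit at some centre. -/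
def HasOne (A : ValuationSubring Q̄) (t : F) (P₀ : Place Q̄ F) : Prop :=
  ∃ y ∈ chart A t, (∃ b : A, HasVal P₀ y (b : Q̄) ∧ residue A b = 0) ∧
    (∃ P₁ : Place Q̄ F, IsIntAt A P₁ t ∧ ∃ b : A, HasVal P₁ y (b : Q̄) ∧ residue A b ≠ 0) ∧
    ∀ E : Divisor Q̄ F, (∀ P, SameCen A t P₀ P → E P = P.ord y) →
      (∀ P, ¬ SameCen A t P₀ P → E P = 0) → Divisor.degree E = 1

end Fermat.Agent.MCurve.Spec

namespace Fermat.Agent.MCurve.Flat

open AlgebraicCurve ModularCurve IsLocalRing CongruenceSubgroup IntermediateField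
open Fermat.Agent.MCurve.Spec
open Fermat.Agent.MCurve.SpecialDifferential (GenData etaF ev1 evF)
open Fermat.Agent.GalRep.Model (Lev)

local notation "Q̄" => AlgebraicClosure ℚ

theorem exists_level (A : ValuationSubring Q̄) (N : ℕ) [NeZero N] {ℓ : ℕ} [hℓ : Fact ℓ.Prime]
    (hA : A.LiesOverPrime ℓ) (hℓN : ¬ ℓ ∣ N) :
    ∃ M : ℕ, NeZero M ∧ IsUnit (M : A) ∧ N ∣ M ∧ Nonempty (Lev M) := by
  obtain ⟨k, hk, hℓk, hL⟩ := GalRep.Model.exists_lev (M := N) hℓ.out hℓN
  refine ⟨N * k, ⟨Nat.mul_ne_zero (NeZero.ne N) hk.ne'⟩, ?_, dvd_mul_right N k, hL⟩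
  rw [← residue_ne_zero_iff_isUnit, map_natCast]
  intro h0
  have h1 : (ℓ : ResidueField A) = 0 := by
    rw [← map_natCast (residue A), residue_eq_zero_iff]
    exact (A.valuation_lt_one_iff _).mpr (GalRep.valuation_ell_lt_one hA)
  obtain ⟨u, v, huv⟩ := ((Nat.prime_iff_prime_int.mp hℓ.out).coprime_iff_not_dvd.mpr
    (mt Int.natCast_dvd_natCast.mp hℓk) : IsCoprime (ℓ : ℤ) ((N * k : ℕ) : ℤ))
  have h2 := congrArg (fun z : ℤ => (z : ResidueField A)) huv
  simp only [Int.cast_add, Int.cast_mul, Int.cast_natCast, Int.cast_one] at h2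
  rw [h1, h0, mul_zero, mul_zero, add_zero] at h2
  exact zero_ne_one h2

variable (A : ValuationSubring Q̄) (N : ℕ) [NeZero N] {ℓ : ℕ} [Fact ℓ.Prime]
  (hA : A.LiesOverPrime ℓ) (hℓN : ¬ ℓ ∣ N)

local notation "𝕜" => ResidueField A
local notation "𝔽" => modularFunctionFieldBar N
local notation "𝔽'" => modularFunctionFieldFullC (ResidueField A) N

include hA hℓN

theorem jNb_mem_chart : jNb N ∈ chart A (jBar N Q̄) := by
  obtain ⟨M, hM0, hu, hNM, ⟨L⟩⟩ := exists_level A N hA hℓN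
  haveI := hM0
  haveI : Fact (IsUnit (M : A)) := ⟨hu⟩
  refine (mem_chart_map_iff (iotaBar A L hNM hA hℓN)).mp ?_
  rw [iotaBar_jBar]
  exact intHol_le_chart A L (lvlHol_le_intHol A (iotaBar_jNb_mem A L hNM hA hℓN))

theorem jBar_isFinOver : IsFinOver Q̄ (jBar N Q̄) := by
  letI : Algebra Q̄ ℂ := GalRep.qbarToC.toAlgebra
  exact (bar_isFinOver_and_finrank N Q̄).1

theorem jBar_ne_zero : jBar N Q̄ ≠ 0 := fun h =>
  (jBar_isFinOver A N hA hℓN).transcendental (h ▸ isAlgebraic_zero)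

/-- Functions with a single zero on the chart of `j`. -/
theorem hasOne_jBar [∀ P : Place Q̄ (modularFunctionFieldBar N), Module.Finite Q̄ P.ResidueField]
    [HasPrincipalDivisors Q̄ (modularFunctionFieldBar N)]
    (P₀ : Place Q̄ 𝔽) {a₀ : A} (h₀ : HasVal P₀ (jBar N Q̄) (a₀ : Q̄)) :
    HasOne A (jBar N Q̄) P₀ := by
  obtain ⟨M, hM0, hu, hNM, ⟨L⟩⟩ := exists_level A N hA hℓN
  haveI := hM0
  haveI : Fact (IsUnit (M : A)) := ⟨hu⟩
  obtain ⟨P₁, h₁⟩ := exists_place_val (jBar_isFinOver A N hA hℓN) ((a₀ + 1 : A) : Q̄)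
  have hne : residue A a₀ ≠ residue A (a₀ + 1) := by simp
  obtain ⟨a, ha, -, hz, hnz, hE⟩ := (coverW A L).exists_norm_one (iotaBar A L hNM hA hℓN)
    (gam0G N M A) (gam0G_le A) (fixedField_gam0G A L hNM hA hℓN)
    (iotaBar_jBar A L hNM hA hℓN) (jBar_isFinOver A N hA hℓN) P₀ P₁ h₀ h₁ hne
    (fun χ hχ _ => unif_coverW A L χ hχ)
  exact ⟨a, ha, hz, ⟨P₁, isIntAt_of_hasVal P₁ h₁, hnz⟩, hE⟩

/-- Functions with a single zero on the chart of `j⁻¹`. -/
theorem hasOne_jBar_inv [∀ P : Place Q̄ (modularFunctionFieldBar N), Module.Finite Q̄ P.ResidueField]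
    [HasPrincipalDivisors Q̄ (modularFunctionFieldBar N)]
    (P₀ : Place Q̄ 𝔽) {a₀ : A} (h₀ : HasVal P₀ (jBar N Q̄)⁻¹ (a₀ : Q̄)) :
    HasOne A (jBar N Q̄)⁻¹ P₀ := by
  classical
  have hj0 := jBar_ne_zero A N hA hℓN
  have hjf := jBar_isFinOver A N hA hℓN
  obtain ⟨M, hM0, hu, hNM, ⟨L⟩⟩ := exists_level A N hA hℓN
  haveI := hM0
  haveI : Fact (IsUnit (M : A)) := ⟨hu⟩
  rcases eq_or_ne (residue A a₀) 0 with hr | hr
  · obtain ⟨P₁, h₁⟩ := exists_place_val hjf.inv ((1 : A) : Q̄)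
    have hne : residue A a₀ ≠ residue A 1 := by rw [hr, map_one]; exact zero_ne_one
    obtain ⟨a, ha, -, hz, hnz, hE⟩ := (coverI A L).exists_norm_one (iotaBar A L hNM hA hℓN)
      (gam0G N M A) (gam0G_le A) (fixedField_gam0G A L hNM hA hℓN)
      (by rw [map_inv₀, iotaBar_jBar]; rfl) hjf P₀ P₁ h₀ h₁ hne
      (fun χ hχ h => unif_coverI A L hχ (h.trans hr))
    exact ⟨a, ha, hz, ⟨P₁, isIntAt_of_hasVal P₁ h₁, hnz⟩, hE⟩
  -- a unit at the centre: a function of the other chart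
  haveI : Infinite 𝕜 := IsAlgClosed.instInfinite
  obtain ⟨b₀, hb₀, hbr⟩ := exists_hasVal_inv P₀ (inv_ne_zero hj0) h₀ hr
  rw [inv_inv] at hb₀
  have hbne : residue A b₀ ≠ 0 := hbr ▸ inv_ne_zero hr
  obtain ⟨c, hc⟩ := Infinite.exists_notMem_finset ({0, residue A b₀} : Finset 𝕜)
  simp only [Finset.mem_insert, Finset.mem_singleton, not_or] at hc
  obtain ⟨b₁, rfl⟩ := residue_surjective c
  obtain ⟨P₁, h₁⟩ := exists_place_val hjf (b₁ : Q̄)
  obtain ⟨a, ha, -, ⟨z, hz, hz0⟩, ⟨z₁, hz₁, hz₁0⟩, hE⟩ := (coverW A L).exists_norm_one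
    (iotaBar A L hNM hA hℓN) (gam0G N M A) (gam0G_le A) (fixedField_gam0G A L hNM hA hℓN)
    (iotaBar_jBar A L hNM hA hℓN) hjf P₀ P₁ hb₀ h₁ (Ne.symm hc.2)
    (fun χ hχ _ => unif_coverW A L χ hχ)
  obtain ⟨m, hm⟩ := exists_inv_pow_mul_mem hj0 ha
  obtain ⟨a₁, ha₁, har₁⟩ := exists_hasVal_inv P₁ hj0 h₁ hc.1
  refine ⟨a * (jBar N Q̄)⁻¹ ^ m, hm m le_rfl,
    ⟨z * a₀ ^ m, by push_cast; exact hz.mul P₀ (h₀.pow P₀ m), by rw [map_mul, hz0, zero_mul]⟩,
    ⟨P₁, isIntAt_of_hasVal P₁ ha₁, z₁ * a₁ ^ m, by push_cast; exact hz₁.mul P₁ (ha₁.pow P₁ m), by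
      rw [map_mul, map_pow, har₁]; exact mul_ne_zero hz₁0 (pow_ne_zero _ (inv_ne_zero hc.1))⟩,
    fun E hE1 hE2 => hE E (fun P hP => ?_) fun P hP =>
      hE2 P (mt (sameCen_inv_iff hj0 hb₀ hbne).mp hP)⟩
  obtain ⟨b, hb, hbr'⟩ := hP.val_eq (self_mem_chart A _) hb₀
  rw [hE1 P ((sameCen_inv_iff hj0 hb₀ hbne).mpr hP)]
  rcases eq_or_ne a 0 with h0 | h0
  · rw [h0, zero_mul]
  · have hb0 : (b : Q̄) ≠ 0 := fun h => hbne (by rw [← hbr', show b = 0 from Subtype.ext h, map_zero])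
    rw [P.ord_mul h0 (pow_ne_zero _ (inv_ne_zero hj0)), ord_pow, P.ord_inv, hb.ord_eq_zero hb0,
      neg_zero, mul_zero, add_zero]

/-- The degree of the reduced coordinate, and the generator. -/
theorem finrank_red : Module.finrank 𝕜⟮jFullC 𝕜 N⟯ 𝔽' = (Gamma0 N).index ∧
    IsAlgebraic 𝕜⟮jFullC 𝕜 N⟯ (etaF 𝕜 N) ∧
    IntermediateField.adjoin 𝕜⟮jFullC 𝕜 N⟯ ({etaF 𝕜 N} : Set 𝔽') = ⊤ := by
  obtain ⟨P₀, -, -, -, g⟩ := exists_genData A N hA hℓN
  have hfin := isFinOver_red A N hA hℓN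
  haveI := hfin.finite
  set t := jFullC 𝕜 N
  set η := etaF 𝕜 N
  set E := 𝕜⟮t⟯
  set P := P₀.map (Polynomial.mapRingHom ((residue A).comp (oToA A hA)))
  let φ : Polynomial 𝕜 →+* E := ((Polynomial.aeval (R := 𝕜) t).toRingHom).codRestrict
    E.toSubring (fun a => algebra_adjoin_le_adjoin 𝕜 {t}
      (by rw [Algebra.adjoin_singleton_eq_range_aeval]; exact ⟨a, rfl⟩))
  have h0 : Polynomial.aeval η (P.map φ) = 0 := by
    rw [Polynomial.aeval_def, Polynomial.eval₂_map]; exact g.evF_root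
  have hint : IsIntegral E η := ⟨P.map φ, g.monic.map _, by rw [← Polynomial.aeval_def]; exact h0⟩
  refine ⟨le_antisymm ?_ ?_, hint.isAlgebraic, g.adjoin_eta⟩
  · rw [← IntermediateField.finrank_top', ← g.adjoin_eta, IntermediateField.adjoin.finrank hint]
    refine (Polynomial.natDegree_le_of_dvd (minpoly.dvd E η h0) (g.monic.map φ).ne_zero).trans ?_
    rw [g.monic.natDegree_map, g.natDegree_eq]
  · have hli : LinearIndependent E fun b : Fin (Gamma0 N).index => η ^ (b : ℕ) := by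
      rw [Fintype.linearIndependent_iff]
      intro r hr
      have hinj : Function.Injective (Polynomial.aeval (R := 𝕜) t) :=
        transcendental_iff_injective.mp hfin.transcendental
      have hden : ∀ b, ∃ q : Polynomial 𝕜, q ≠ 0 ∧
          ∃ p, (r b : 𝔽') * Polynomial.aeval t q = Polynomial.aeval t p := fun b => by
        obtain ⟨p, q, hpq⟩ := (mem_adjoin_simple_iff 𝕜 _).mp (r b).2
        rcases eq_or_ne q 0 with rfl | hq
        · rw [map_zero, div_zero] at hpq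
          exact ⟨1, one_ne_zero, 0, by rw [hpq, zero_mul, map_zero]⟩
        · exact ⟨q, hq, p, by rw [hpq, div_mul_cancel₀]; exact (map_ne_zero_iff _ hinj).mpr hq⟩
      choose q hq p hp using hden
      let c : Fin (Gamma0 N).index → Polynomial 𝕜 := fun b => p b * ∏ i ∈ Finset.univ.erase b, q i
      have hc : ∀ b, Polynomial.aeval t (c b) = (r b : 𝔽') * Polynomial.aeval t (∏ i, q i) := fun b => by
        rw [← Finset.mul_prod_erase _ _ (Finset.mem_univ b), map_mul, map_mul, ← mul_assoc, ← hp b]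
      have hzero : (∑ b, Polynomial.aeval t (c b) * η ^ (b : ℕ) : 𝔽') = 0 := by
        have h := congrArg (· * Polynomial.aeval t (∏ i, q i)) hr
        rw [zero_mul, Finset.sum_mul] at h
        rw [← h]
        refine Finset.sum_congr rfl fun b _ => ?_
        rw [hc]
        show _ = (r b : 𝔽') * _ * _
        ring
      have hser := congrArg (modularFunctionFieldFullC 𝕜 N).val hzero
      simp only [map_sum, map_mul, map_pow, map_zero] at hser
      have hz := g.indep c (by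
        rw [← hser]
        exact Finset.sum_congr rfl fun b _ => congrArg₂ (· * ·)
          (SpecialDifferential.coe_aeval_jFullC (c b)).symm rfl)
      intro b
      have h := hc b
      rw [congrFun hz b, Pi.zero_apply, map_zero, eq_comm, mul_eq_zero] at h
      exact Subtype.ext (h.resolve_right ((map_ne_zero_iff _ hinj).mpr
        (Finset.prod_ne_zero_iff.mpr fun i _ => hq i)))
    simpa using hli.fintype_card_le_finrank

end Fermat.Agent.MCurve.Flat
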