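import Mathlib

/-!
Matrices of products and of colons of subspaces given by matrices, along a bilinear table with
coefficients in a ring `R`, and their specialisations to a field.
-/

set_option autoImplicit false
set_option linter.unusedSectionVars false

noncomputable section

namespace Fermat.Agent.MCurve.Flat

open Matrix

variable {R : Type*} [CommRing R] {ι ι' ι'' κ κ' : Type*} [Fintype ι] [Fintype ι'] [Fintype ι'']
  [Fintype κ] [Fintype κ'] [DecidableEq ι'']

/-- The products of the columns of two matrices. -/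
def mulMat (T : ι → ι' → ι'' → R) (M : Matrix ι κ R) (M' : Matrix ι' κ' R) :
    Matrix ι'' (κ × κ') R :=
  Matrix.of fun l x => ∑ a, ∑ c, M a x.1 * M' c x.2 * T a c l

/-- The conditions `v · (column of M') ∈ range e`. -/
def colonMat (T : ι → ι' → ι'' → R) (M' : Matrix ι' κ' R) (e : Matrix ι'' ι'' R) :
    Matrix (ι'' × κ') ι R :=
  Matrix.of fun x a => ∑ m, (1 - e) x.1 m * ∑ c, M' c x.2 * T a c m

variable {L E : Type*} [Field L] [Field E] [Algebra L E] (φ : R →+* L)

/-- The elements with given coordinates. -/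
abbrev elem (β : ι → E) : (ι → L) →ₗ[L] E := Fintype.linearCombination L β

/-- The subspace of a matrix. -/
abbrev spanOf (β : ι → E) (M : Matrix ι κ R) : Submodule L E :=
  (LinearMap.range (M.map φ).mulVecLin).map (elem β)

theorem spanOf_eq_span (β : ι → E) (M : Matrix ι κ R) :
    spanOf φ β M = Submodule.span L (Set.range fun i => elem β fun a => φ (M a i)) := by
  rw [spanOf, Matrix.range_mulVecLin, Submodule.map_span, ← Set.range_comp]
  rfl

variable (β : ι → E) (β' : ι' → E) (β'' : ι'' → E) (T : ι → ι' → ι'' → R)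
  (htab : ∀ a c, β a * β' c = ∑ l, φ (T a c l) • β'' l)

include htab in
theorem elem_mul (v : ι → L) (v' : ι' → L) :
    elem β v * elem (L := L) β' v' = elem (L := L) β'' fun l => ∑ a, ∑ c, v a * v' c * φ (T a c l) := by
  simp only [Fintype.linearCombination_apply, Finset.sum_smul]
  rw [Finset.sum_mul_sum]
  conv_rhs => rw [Finset.sum_comm]
  refine Finset.sum_congr rfl fun a _ => ?_
  conv_rhs => rw [Finset.sum_comm]
  refine Finset.sum_congr rfl fun c _ => ?_
  rw [smul_mul_smul_comm, htab, Finset.smul_sum]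
  exact Finset.sum_congr rfl fun l _ => smul_smul _ _ _

include htab in
/-- The matrix of products spans the product of the subspaces. -/
theorem spanOf_mulMat (M : Matrix ι κ R) (M' : Matrix ι' κ' R) :
    spanOf φ β'' (mulMat T M M') = spanOf φ β M * spanOf φ β' M' := by
  rw [spanOf_eq_span, spanOf_eq_span, spanOf_eq_span, Submodule.span_mul_span]
  congr 1
  ext z
  simp only [Set.mem_range, Set.mem_mul, Prod.exists, exists_exists_eq_and]
  have key : ∀ i j, (elem β fun a => φ (M a i)) * (elem (L := L) β' fun c => φ (M' c j)) =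
      elem (L := L) β'' fun l => φ (mulMat T M M' l (i, j)) := fun i j => by
    rw [elem_mul φ β β' β'' T htab]
    congr 1
    funext l
    simp [mulMat]
  exact ⟨fun ⟨i, j, h⟩ => ⟨i, j, (key i j).trans h⟩, fun ⟨i, j, h⟩ => ⟨i, j, (key i j).symm.trans h⟩⟩

variable [DecidableEq ι]

include htab in
/-- The kernel of the colon matrix. -/
theorem mem_ker_colonMat (M' : Matrix ι' κ' R) {e : Matrix ι'' ι'' R} (he : e * e = e)
    (hinj : LinearIndependent L β'') (v : ι → L) :
    ((colonMat T M' e).map φ).mulVec v = 0 ↔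
      ∀ z ∈ spanOf φ β' M', elem β v * z ∈ spanOf φ β'' e := by
  set prod : κ' → ι'' → L := fun j l => ∑ a, ∑ c, v a * φ (M' c j) * φ (T a c l) with hprod
  have hkey : ∀ (l : ι'') (j : κ'), ((colonMat T M' e).map φ).mulVec v (l, j) =
      (((1 - e).map φ).mulVec (prod j)) l := fun l j => by
    simp only [Matrix.mulVec, dotProduct, colonMat, Matrix.map_apply, Matrix.of_apply, map_sum,
      map_mul, hprod, Finset.sum_mul, Finset.mul_sum]
    rw [Finset.sum_comm]
    refine Finset.sum_congr rfl fun m _ => Finset.sum_congr rfl fun a _ =>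
      Finset.sum_congr rfl fun c _ => by ring
  have hmem : ∀ w : ι'' → L, elem (L := L) β'' w ∈ spanOf φ β'' e ↔ ((1 - e).map φ).mulVec w = 0 := fun w => by
    rw [Matrix.map_sub _ (map_sub φ), Matrix.map_one _ (map_zero φ) (map_one φ), Matrix.sub_mulVec,
      Matrix.one_mulVec, sub_eq_zero]
    constructor
    · rintro ⟨_, ⟨x, rfl⟩, hx⟩
      rw [← LinearIndependent.fintypeLinearCombination_injective hinj hx, Matrix.mulVecLin_apply,
        Matrix.mulVec_mulVec, ← Matrix.map_mul, he]
    · intro h
      exact ⟨_, ⟨w, h.symm⟩, rfl⟩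
  have hspan : (∀ z ∈ spanOf φ β' M', elem β v * z ∈ spanOf φ β'' e) ↔
      ∀ j, elem β v * (elem (L := L) β' fun c => φ (M' c j)) ∈ spanOf φ β'' e := by
    rw [spanOf_eq_span φ β' M']
    refine ⟨fun h j => h _ (Submodule.subset_span ⟨j, rfl⟩), fun h z hz => ?_⟩
    induction hz using Submodule.span_induction with
    | mem x hx => obtain ⟨j, rfl⟩ := hx; exact h j
    | zero => rw [mul_zero]; exact zero_mem _
    | add x y _ _ hx hy => rw [mul_add]; exact add_mem hx hy
    | smul a x _ hx => rw [mul_smul_comm]; exact Submodule.smul_mem _ _ hx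
  rw [hspan]
  simp only [elem_mul φ β β' β'' T htab, hmem, funext_iff, Prod.forall, hkey, Pi.zero_apply]
  exact forall_comm

end Fermat.Agent.MCurve.Flat
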