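import Mathlib

/-!
Families of subspaces of constant residual dimension over a finite set of points with values in a
valuation ring: they are images of idempotents over any ring `R` of functions defining them.
-/

set_option autoImplicit false
set_option linter.unusedSectionVars false

noncomputable section

namespace Fermat.Agent.MCurve.Flat

open IsLocalRing Matrix

variable {K : Type*} [Field K] {A : ValuationSubring K} {k : Type*} [Field k] (π : A →+* k)
  {P : Type*} (R : Subalgebra A (P → A))

/-- Values at a point. -/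
def evA (p : P) : R →+* A := (Pi.evalRingHom (fun _ : P => A) p).comp R.val.toRingHom

/-- Values at a point, in the field. -/
def evK (p : P) : R →+* K := A.subtype.comp (evA R p)

/-- Residues of values at a point. -/
def evk (p : P) : R →+* k := π.comp (evA R p)

@[simp] theorem evA_apply (p : P) (f : R) : evA R p f = (f : P → A) p := rfl

theorem evA_algebraMap (p : P) (a : A) : evA R p (algebraMap A R a) = a := rfl

theorem evA_ext {f g : R} (h : ∀ p, evA R p f = evA R p g) : f = g := Subtype.ext (funext h)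

variable [Finite P] (hsurj : Function.Surjective π) (hker : ∀ a : A, π a = 0 ↔ a ∈ maximalIdeal A)

include hker in
/-- Functions with nonzero residues everywhere are units. -/
theorem isUnit_of_evk_ne_zero {f : R} (h : ∀ p, evk π R p f ≠ 0) : IsUnit f := by
  classical
  haveI := Fintype.ofFinite P
  set q : Polynomial A := ∏ p, (Polynomial.X - Polynomial.C (evA R p f)) with hq
  have h0 : Polynomial.aeval f q = 0 := evA_ext R fun p => by
    rw [map_zero, Polynomial.aeval_def, Polynomial.hom_eval₂,
      show (evA R p).comp (algebraMap A R) = RingHom.id A from rfl, ← Polynomial.eval, hq,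
      Polynomial.eval_prod]
    exact Finset.prod_eq_zero (Finset.mem_univ p) (by simp)
  have hc : IsUnit (q.coeff 0) := by
    rw [hq, Polynomial.coeff_zero_prod, IsUnit.prod_iff]
    intro p _
    have hp : IsUnit (evA R p f) := by
      by_contra hn
      exact h p ((hker _).mpr ((mem_maximalIdeal _).mpr hn))
    simpa using hp.neg
  rw [← Polynomial.X_mul_divX_add q, map_add, map_mul, Polynomial.aeval_X, Polynomial.aeval_C] at h0
  have hu : IsUnit (f * Polynomial.aeval f q.divX) := by
    rw [eq_neg_of_add_eq_zero_left h0]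
    exact (hc.map (algebraMap A R)).neg
  exact isUnit_of_mul_isUnit_left hu

include hsurj in
/-- Residues constant on the classes of points with equal residues are values of an element. -/
theorem exists_interp (v : P → k) (hv : ∀ p q, evk π R p = evk π R q → v p = v q) :
    ∃ a : R, ∀ p, evk π R p a = v p := by
  classical
  haveI := Fintype.ofFinite P
  set S : Finset (R →+* k) := Finset.univ.image (evk π R) with hS
  have hconst : ∀ χ ∈ S, ∀ a : A, χ (algebraMap A R a) = π a := fun χ hχ a => by
    obtain ⟨p, -, rfl⟩ := Finset.mem_image.mp hχ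
    rfl
  have hsep : ∀ χ ∈ S, ∀ χ' ∈ S, χ' ≠ χ → ∃ g : R, χ g = 1 ∧ χ' g = 0 := by
    intro χ hχ χ' hχ' hne
    obtain ⟨g, hg⟩ : ∃ g, χ' g ≠ χ g := by
      by_contra hn
      push Not at hn
      exact hne (RingHom.ext hn)
    obtain ⟨b, hb⟩ := hsurj (χ' g)
    obtain ⟨c, hc⟩ := hsurj (χ g - χ' g)⁻¹
    refine ⟨algebraMap A R c * (g - algebraMap A R b), ?_, ?_⟩
    · rw [map_mul, map_sub, hconst χ hχ, hconst χ hχ, hb, hc,
        inv_mul_cancel₀ (sub_ne_zero.mpr (Ne.symm hg))]
    · rw [map_mul, map_sub, hconst χ' hχ', hconst χ' hχ', hb, sub_self, mul_zero]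
  have hone : ∀ χ ∈ S, ∃ e : R, χ e = 1 ∧ ∀ χ' ∈ S, χ' ≠ χ → χ' e = 0 := by
    intro χ hχ
    choose g hg1 hg0 using hsep χ hχ
    refine ⟨∏ x ∈ (S.erase χ).attach, g x.1 (Finset.mem_of_mem_erase x.2) (Finset.ne_of_mem_erase x.2),
      ?_, fun χ' hχ' hne => ?_⟩
    · rw [map_prod]; exact Finset.prod_eq_one fun x _ => hg1 ..
    · rw [map_prod]
      exact Finset.prod_eq_zero (Finset.mem_attach _ ⟨χ', Finset.mem_erase.mpr ⟨hne, hχ'⟩⟩) (hg0 ..)
  choose e he1 he0 using hone
  choose pt hpt using fun x : S => Finset.mem_image.mp x.2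
  choose lift hlift using hsurj
  refine ⟨∑ x ∈ S.attach, algebraMap A R (lift (v (pt x))) * e x.1 x.2, fun p => ?_⟩
  have hp : evk π R p ∈ S := Finset.mem_image.mpr ⟨p, Finset.mem_univ p, rfl⟩
  rw [map_sum, Finset.sum_eq_single_of_mem ⟨_, hp⟩ (Finset.mem_attach _ _)]
  · rw [map_mul, he1, mul_one, hconst _ hp, hlift]
    exact hv _ _ (hpt ⟨_, hp⟩).2
  · intro x _ hx
    rw [map_mul, he0 x.1 x.2 _ hp (fun h => hx (Subtype.ext h.symm)), mul_zero]

include hsurj in
/-- Interpolation of matrices of residues. -/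
theorem exists_interp_matrix {m n : Type*} (v : P → Matrix m n k)
    (hv : ∀ p q, evk π R p = evk π R q → v p = v q) :
    ∃ X : Matrix m n R, ∀ p, X.map (evk π R p) = v p := by
  choose X hX using fun (i : m) (j : n) =>
    exists_interp π R hsurj (fun p => v p i j) fun p q h => by rw [hv p q h]
  exact ⟨X, fun p => Matrix.ext fun i j => hX i j p⟩

section Field

variable {ι κ : Type*} [Fintype ι] [Fintype κ] [DecidableEq ι] [DecidableEq κ]

/-- A matrix of rank at least `r` has an invertible compression of size `r`. -/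
theorem exists_compress {M : Matrix ι κ k} {r : ℕ} (h : r ≤ M.rank) :
    ∃ (S : Matrix κ (Fin r) k) (L : Matrix (Fin r) ι k), L * M * S = 1 := by
  obtain ⟨v, hv⟩ := exists_linearIndependent_of_le_finrank (R := k)
    (M := LinearMap.range M.mulVecLin) h
  choose u hu using fun a => (v a).2
  set g : (Fin r → k) →ₗ[k] (ι → k) := Fintype.linearCombination k fun a => (v a : ι → k) with hg
  have hgi : LinearMap.ker g = ⊥ := by
    rw [LinearMap.ker_eq_bot, hg]
    exact LinearIndependent.fintypeLinearCombination_injective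
      (hv.map' _ (Submodule.ker_subtype _))
  obtain ⟨h', hh'⟩ := g.exists_leftInverse_of_injective hgi
  set S : Matrix κ (Fin r) k := Matrix.of fun j a => u a j with hS
  have hMS : Matrix.toLin' (M * S) = g := by
    refine (Pi.basisFun k (Fin r)).ext fun a => ?_
    rw [Pi.basisFun_apply, hg, Fintype.linearCombination_apply_single, one_smul,
      Matrix.toLin'_apply, ← Matrix.mulVec_mulVec, Matrix.mulVec_single_one]
    exact hu a
  refine ⟨S, LinearMap.toMatrix' h', ?_⟩
  rw [Matrix.mul_assoc, ← LinearMap.toMatrix'_toLin' (M * S), hMS, ← LinearMap.toMatrix'_comp, hh',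
    LinearMap.toMatrix'_id]

end Field

variable {ι κ : Type*} [Fintype ι] [Fintype κ] [DecidableEq ι] [DecidableEq κ]

include hsurj hker in
/-- A matrix with residual rank at least `r` everywhere has an invertible compression. -/
theorem exists_split (M : Matrix ι κ R) (r : ℕ) (h : ∀ p, r ≤ (M.map (evk π R p)).rank) :
    ∃ (S : Matrix κ (Fin r) R) (L : Matrix (Fin r) ι R), L * M * S = 1 := by
  classical
  let f : Matrix ι κ k → Matrix κ (Fin r) k × Matrix (Fin r) ι k := fun N =>
    if hN : r ≤ N.rank then ((exists_compress hN).choose, (exists_compress hN).choose_spec.choose)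
    else 0
  obtain ⟨S, hS⟩ := exists_interp_matrix π R hsurj (fun p => (f (M.map (evk π R p))).1)
    fun p q hpq => by rw [hpq]
  obtain ⟨L, hL⟩ := exists_interp_matrix π R hsurj (fun p => (f (M.map (evk π R p))).2)
    fun p q hpq => by rw [hpq]
  have hX : IsUnit (L * M * S).det := isUnit_of_evk_ne_zero π R hker fun p => by
    have hspec : (f (M.map (evk π R p))).2 * M.map (evk π R p) * (f (M.map (evk π R p))).1 = 1 := by
      simp only [f, dif_pos (h p)]
      exact (exists_compress (h p)).choose_spec.choose_spec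
    rw [RingHom.map_det, RingHom.mapMatrix_apply, Matrix.map_mul, Matrix.map_mul, hS, hL, hspec,
      Matrix.det_one]
    exact one_ne_zero
  exact ⟨S, (L * M * S)⁻¹ * L, by
    rw [Matrix.mul_assoc _ L, Matrix.mul_assoc _ (L * M), Matrix.nonsing_inv_mul _ hX]⟩

/-- The subspace of a matrix at a point. -/
abbrev rangeAt (M : Matrix ι κ R) (p : P) : Submodule K (ι → K) :=
  LinearMap.range (M.map (evK R p)).mulVecLin

/-- A family of subspaces given by an idempotent over `R`. -/
def IsRegularFamily (W : P → Submodule K (ι → K)) : Prop :=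
  ∃ e : Matrix ι ι R, e * e = e ∧ ∀ p, rangeAt R e p = W p

theorem rangeAt_mul_le {n : Type*} [Fintype n] (M : Matrix ι κ R) (N : Matrix κ n R) (p : P) :
    rangeAt R (M * N) p ≤ rangeAt R M p := by
  rw [rangeAt, rangeAt, Matrix.map_mul, Matrix.mulVecLin_mul]
  exact LinearMap.range_comp_le_range _ _

theorem finrank_rangeAt_of_left_inverse {r : ℕ} {M : Matrix ι (Fin r) R} {L : Matrix (Fin r) ι R}
    (h : L * M = 1) (p : P) : Module.finrank K (rangeAt R M p) = r := by
  have hinj : Function.Injective (M.map (evK R p)).mulVecLin := fun x y hxy => by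
    have := congrArg (L.map (evK R p)).mulVec hxy
    simpa [Matrix.mulVec_mulVec, ← Matrix.map_mul, h] using this
  rw [rangeAt, LinearMap.finrank_range_of_inj hinj, Module.finrank_fin_fun]

include hsurj hker in
/-- Images of constant rank. -/
theorem isRegularFamily_range (M : Matrix ι κ R) {r : ℕ} {W : P → Submodule K (ι → K)}
    (hW : ∀ p, rangeAt R M p ≤ W p) (hr : ∀ p, Module.finrank K (W p) ≤ r)
    (hbar : ∀ p, r ≤ (M.map (evk π R p)).rank) : IsRegularFamily R W := by
  obtain ⟨S, L, hLS⟩ := exists_split π R hsurj hker M r hbar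
  refine ⟨M * S * L, ?_, fun p => ?_⟩
  · rw [Matrix.mul_assoc (M * S) L, ← Matrix.mul_assoc L (M * S), ← Matrix.mul_assoc L M S, hLS,
      Matrix.one_mul]
  · have hLS' : L * (M * S) = 1 := by rw [← Matrix.mul_assoc, hLS]
    have h1 : rangeAt R (M * S) p = W p :=
      Submodule.eq_of_le_of_finrank_le ((rangeAt_mul_le R M S p).trans (hW p))
        ((hr p).trans (finrank_rangeAt_of_left_inverse R hLS' p).ge)
    refine le_antisymm ((rangeAt_mul_le R (M * S) L p).trans h1.le) ?_
    rw [← h1]
    rintro _ ⟨x, rfl⟩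
    refine ⟨((M * S).map (evK R p)).mulVec x, ?_⟩
    simp only [Matrix.mulVecLin_apply, Matrix.mulVec_mulVec, ← Matrix.map_mul, Matrix.mul_assoc, hLS',
      Matrix.mul_one]

include hsurj hker in
/-- Kernels of constant rank. -/
theorem isRegularFamily_ker (Q : Matrix κ ι R) {r : ℕ} {W : P → Submodule K (ι → K)}
    (hW : ∀ p, ∀ x ∈ W p, (Q.map (evK R p)).mulVec x = 0) (hr : ∀ p, r ≤ Module.finrank K (W p))
    (hbar : ∀ p, Module.finrank k (LinearMap.ker (Q.map (evk π R p)).mulVecLin) ≤ r) :
    IsRegularFamily R W := by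
  obtain ⟨S, L, hLS⟩ := exists_split π R hsurj hker Q (Fintype.card ι - r) fun p => by
    have h := LinearMap.finrank_range_add_finrank_ker (Q.map (evk π R p)).mulVecLin
    rw [Module.finrank_pi] at h
    have := hbar p
    rw [Matrix.rank]
    omega
  set T : Matrix ι ι R := S * (L * Q) with hT
  have hLQS : L * Q * S = 1 := hLS
  have hTT : T * T = T := by
    rw [hT, Matrix.mul_assoc S (L * Q), ← Matrix.mul_assoc (L * Q) S, hLQS, Matrix.one_mul]
  refine ⟨1 - T, by rw [Matrix.sub_mul, Matrix.mul_sub, Matrix.mul_sub, Matrix.one_mul,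
    Matrix.mul_one, Matrix.one_mul, hTT]; abel, fun p => ?_⟩
  have hle : W p ≤ rangeAt R (1 - T) p := fun x hx => ⟨x, by
    rw [Matrix.mulVecLin_apply, Matrix.map_sub _ (map_sub _), Matrix.map_one _ (map_zero _) (map_one _),
      Matrix.sub_mulVec, Matrix.one_mulVec, hT, ← Matrix.mul_assoc, Matrix.map_mul,
      ← Matrix.mulVec_mulVec, hW p x hx, Matrix.mulVec_zero, sub_zero]⟩
  refine (Submodule.eq_of_le_of_finrank_le hle ?_).symm
  have hker : rangeAt R (1 - T) p ≤ LinearMap.ker ((L * Q).map (evK R p)).mulVecLin := by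
    rintro _ ⟨x, rfl⟩
    rw [LinearMap.mem_ker, Matrix.mulVecLin_apply, Matrix.mulVecLin_apply, Matrix.mulVec_mulVec,
      ← Matrix.map_mul, Matrix.mul_sub, Matrix.mul_one, hT, ← Matrix.mul_assoc (L * Q) S, hLQS,
      Matrix.one_mul, sub_self, Matrix.map_zero _ (map_zero _), Matrix.zero_mulVec]
  refine (Submodule.finrank_mono hker).trans ?_
  have hsur : Function.Surjective ((L * Q).map (evK R p)).mulVecLin := fun y =>
    ⟨(S.map (evK R p)).mulVec y, by
      rw [Matrix.mulVecLin_apply, Matrix.mulVec_mulVec, ← Matrix.map_mul, hLQS,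
        Matrix.map_one _ (map_zero _) (map_one _), Matrix.one_mulVec]⟩
  have h := LinearMap.finrank_range_add_finrank_ker ((L * Q).map (evK R p)).mulVecLin
  rw [LinearMap.range_eq_top.mpr hsur, finrank_top, Module.finrank_pi, Module.finrank_pi,
    Fintype.card_fin] at h
  have := hr p
  omega

/-- The reduction of the integral vectors of a subspace. -/
def redSub (W : Submodule K (ι → K)) : Submodule k (ι → k) :=
  Submodule.span k {x | ∃ v : ι → A, (fun i => (v i : K)) ∈ W ∧ x = fun i => π (v i)}

include hsurj in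
theorem range_map_evk {e : Matrix ι ι R} (he : e * e = e) (p : P) :
    LinearMap.range (e.map (evk π R p)).mulVecLin = redSub π (rangeAt R e p) := by
  have hmap : ∀ (v : ι → A), (e.map (evK R p)).mulVec (fun i => (v i : K)) =
      fun i => (((e.map (evA R p)).mulVec v) i : K) := fun v => by
    funext i; simp [Matrix.mulVec, dotProduct, evK]
  have hmapk : ∀ (v : ι → A), (e.map (evk π R p)).mulVec (fun i => π (v i)) =
      fun i => π (((e.map (evA R p)).mulVec v) i) := fun v => by
    funext i; simp [Matrix.mulVec, dotProduct, evk]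
  refine le_antisymm ?_ (Submodule.span_le.mpr ?_)
  · rintro _ ⟨x, rfl⟩
    choose v hv using fun i => hsurj (x i)
    refine Submodule.subset_span ⟨(e.map (evA R p)).mulVec v, ⟨fun i => (v i : K), ?_⟩, ?_⟩
    · rw [Matrix.mulVecLin_apply, hmap]
    · rw [Matrix.mulVecLin_apply, ← hmapk, show (fun i => π (v i)) = x from funext hv]
  · rintro _ ⟨v, ⟨x, hx⟩, rfl⟩
    refine ⟨fun i => π (v i), ?_⟩
    rw [Matrix.mulVecLin_apply, hmapk]
    have h : (e.map (evA R p)).mulVec v = v := by
      funext i
      refine Subtype.ext ?_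
      rw [← congrFun (hmap v) i, ← hx, Matrix.mulVecLin_apply, Matrix.mulVec_mulVec, ← Matrix.map_mul,
        he]
      exact congrFun hx i
    rw [h]

include hsurj hker in
/-- The basis of a regular family dual to given functionals has coordinates in `R`. -/
theorem IsRegularFamily.exists_section {W : P → Submodule K (ι → K)} (hW : IsRegularFamily R W)
    {r : ℕ} (Pr : Matrix (Fin r) ι R) (hr : ∀ p, Module.finrank K (W p) ≤ r)
    (hbar : ∀ p, r ≤ Module.finrank k
      ((redSub π (W p)).map (Pr.map (evk π R p)).mulVecLin)) :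
    ∃ Ψ : Matrix ι (Fin r) R, Pr * Ψ = 1 ∧ (∀ p, rangeAt R Ψ p = W p) ∧
      ∀ p, ∀ x ∈ W p, x = (Ψ.map (evK R p)).mulVec ((Pr.map (evK R p)).mulVec x) := by
  obtain ⟨e, he, hWe⟩ := hW
  obtain ⟨S, L, hLS⟩ := exists_split π R hsurj hker (Pr * e) r fun p => by
    rw [Matrix.rank, Matrix.map_mul, Matrix.mulVecLin_mul, LinearMap.range_comp,
      range_map_evk π R hsurj he, hWe]
    exact hbar p
  have hPr : Pr * (e * (S * L)) = 1 := by
    rw [← Matrix.mul_assoc Pr, ← Matrix.mul_assoc]
    exact mul_eq_one_comm.mp (by rw [← Matrix.mul_assoc L, hLS])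
  have hrange : ∀ p, rangeAt R (e * (S * L)) p = W p := fun p =>
    Submodule.eq_of_le_of_finrank_le ((rangeAt_mul_le R e (S * L) p).trans (hWe p).le)
      ((hr p).trans (finrank_rangeAt_of_left_inverse R hPr p).ge)
  refine ⟨e * (S * L), hPr, hrange, fun p x hx => ?_⟩
  obtain ⟨y, hy⟩ : x ∈ rangeAt R (e * (S * L)) p := (hrange p).symm ▸ hx
  rw [← hy, Matrix.mulVecLin_apply, Matrix.mulVec_mulVec, Matrix.mulVec_mulVec, Matrix.mul_assoc,
    ← Matrix.map_mul, hPr, Matrix.map_one _ (map_zero _) (map_one _), Matrix.mul_one]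

end Fermat.Agent.MCurve.Flat
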