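import Fermat.Agent.MCurve.Flat.Setup
import Fermat.Agent.MCurve.Flat.Regular
import Fermat.Agent.MCurve.Flat.Bilinear

/-!
Families of subspaces of spaces of functions over a finite set of points, given by idempotents in
coordinates of bases with independent reductions; their products and colons.
-/

set_option autoImplicit false
set_option linter.unusedSectionVars false

noncomputable section

namespace Fermat.Agent.MCurve.Flat

open IsLocalRing Matrix

variable {K F k F' : Type} [Field K] [Field F] [Algebra K F] [Field k] [Field F'] [Algebra k F']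
  {A : ValuationSubring K} (M : RedModel K F k F' A)

/-- The reductions of the primitive elements of a subspace. -/
def redW (W : Submodule K F) : Submodule k F' :=
  Submodule.span k (M.ρ '' {u : M.V | (u : F) ∈ W})

theorem redW_mono {W W' : Submodule K F} (h : W ≤ W') : redW M W ≤ redW M W' :=
  Submodule.span_mono (Set.image_mono fun _ hu => h hu)

/-- A basis with independent reductions. -/
structure Orth (W : Submodule K F) where
  /-- The rank. -/
  d : ℕ
  /-- The vectors. -/
  b : Fin d → M.V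
  li : LinearIndependent k fun i => M.ρ (b i)
  span_eq : Submodule.span K (Set.range fun i => (b i : F)) = W

variable {M} {W : Submodule K F}

/-- A nonzero vector has an integral multiple with a coordinate `1`. -/
theorem exists_pivot {ι : Type*} [Fintype ι] (A : ValuationSubring K) {v : ι → K} (hv : v ≠ 0) :
    ∃ i, v i ≠ 0 ∧ ∀ j, (v i)⁻¹ * v j ∈ A := by
  obtain ⟨j₀, hj₀⟩ := Function.ne_iff.mp hv
  haveI : Nonempty ι := ⟨j₀⟩
  obtain ⟨i, hi⟩ := Finite.exists_max fun j => A.valuation (v j)
  have hi0 : v i ≠ 0 := fun h => hj₀ (by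
    have := hi j₀
    rw [h, map_zero, le_zero_iff, map_eq_zero] at this
    exact this)
  refine ⟨i, hi0, fun j => (A.valuation_le_one_iff _).mp ?_⟩
  rw [map_mul, map_inv₀, inv_mul_le_one₀ (zero_lt_iff.mpr ((map_ne_zero _).mpr hi0))]
  exact hi j

namespace Orth

variable (O : Orth M W)

/-- The vectors in the field. -/
abbrev bK : Fin O.d → F := fun i => (O.b i : F)

/-- The reductions of the vectors. -/
abbrev bk : Fin O.d → F' := fun i => M.ρ (O.b i)

theorem elem_mem (v : Fin O.d → A) : elem (L := K) O.bK (fun i => (v i : K)) ∈ M.V := by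
  rw [Fintype.linearCombination_apply]
  exact sum_mem fun i _ => by
    rw [Algebra.smul_def]; exact mul_mem (M.const_mem (v i)) (O.b i).2

theorem ρ_elem (v : Fin O.d → A) :
    M.ρ ⟨_, O.elem_mem v⟩ = elem (L := k) O.bk (fun i => M.π (v i)) := by
  rw [show (⟨_, O.elem_mem v⟩ : M.V) = ∑ i, ⟨_, M.const_mem (v i)⟩ * O.b i from Subtype.ext (by
    simp [Fintype.linearCombination_apply, Algebra.smul_def]), map_sum,
    Fintype.linearCombination_apply]
  exact Finset.sum_congr rfl fun i _ => by rw [map_mul, M.ρ_const, Algebra.smul_def]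

/-- Coordinates of primitive vectors are integral. -/
theorem coord_mem {v : Fin O.d → K} (h : elem (L := K) O.bK v ∈ M.V) (j : Fin O.d) : v j ∈ A := by
  by_contra hj
  obtain ⟨i, hi0, hi⟩ := exists_pivot A (v := v) (fun h0 => hj (by simp [h0]))
  have hc : (v i)⁻¹ ∈ A ∧ M.π ⟨(v i)⁻¹ * v i, hi i⟩ = 1 := by
    refine ⟨?_, ?_⟩
    · rcases A.mem_or_inv_mem (v i) with h' | h'
      · exfalso
        refine hj ?_
        have := mul_mem h' (hi j)
        rwa [← mul_assoc, mul_inv_cancel₀ hi0, one_mul] at this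
      · exact h'
    · rw [← map_one M.π]; exact congrArg M.π (Subtype.ext (inv_mul_cancel₀ hi0))
  have hm : M.π ⟨_, hc.1⟩ = 0 := (M.π_eq_zero _).mpr ((mem_maximalIdeal _).mpr fun hu => by
    obtain ⟨u, hu⟩ := hu.exists_right_inv
    have h1 : (v i)⁻¹ * (u : K) = 1 := congrArg Subtype.val hu
    refine hj ?_
    have := mul_mem (u.2) (hi j)
    rwa [← mul_assoc, mul_comm (u : K), h1, one_mul] at this)
  have hsum := O.ρ_elem fun l => ⟨(v i)⁻¹ * v l, hi l⟩
  have hsmul : (fun l => (v i)⁻¹ * v l) = (v i)⁻¹ • v := rfl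
  have h0 : M.ρ ⟨_, O.elem_mem fun l => ⟨(v i)⁻¹ * v l, hi l⟩⟩ = 0 := by
    rw [show (⟨_, O.elem_mem fun l => ⟨(v i)⁻¹ * v l, hi l⟩⟩ : M.V) =
      ⟨_, M.const_mem ⟨_, hc.1⟩⟩ * ⟨_, h⟩ from Subtype.ext (by
        show elem (L := K) O.bK (fun l => (v i)⁻¹ * v l) = _
        rw [hsmul, map_smul, Algebra.smul_def, MulMemClass.coe_mul]), map_mul, M.ρ_const, hm,
      map_zero, zero_mul]
  rw [h0, Fintype.linearCombination_apply] at hsum
  have := Fintype.linearIndependent_iff.mp O.li _ hsum.symm i
  rw [hc.2] at this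
  exact one_ne_zero this

theorem linearIndependent_bK : LinearIndependent K O.bK := by
  rw [Fintype.linearIndependent_iff]
  intro v hv j
  by_contra hj
  obtain ⟨i, hi0, hi⟩ := exists_pivot A (v := v) (fun h0 => hj (by simp [h0]))
  have hsum := O.ρ_elem fun l => ⟨(v i)⁻¹ * v l, hi l⟩
  rw [show (⟨_, O.elem_mem fun l => ⟨(v i)⁻¹ * v l, hi l⟩⟩ : M.V) = 0 from Subtype.ext (by
      show elem (L := K) O.bK ((v i)⁻¹ • v) = 0
      rw [map_smul, Fintype.linearCombination_apply, hv, smul_zero]),
    map_zero, Fintype.linearCombination_apply] at hsum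
  have := Fintype.linearIndependent_iff.mp O.li _ hsum.symm i
  rw [show (⟨(v i)⁻¹ * v i, hi i⟩ : A) = 1 from Subtype.ext (inv_mul_cancel₀ hi0), map_one] at this
  exact one_ne_zero this

theorem range_elem : LinearMap.range (elem (L := K) O.bK) = W := by
  rw [Fintype.range_linearCombination, O.span_eq]

theorem injective_elem : Function.Injective (elem (L := K) O.bK) :=
  O.linearIndependent_bK.fintypeLinearCombination_injective

theorem finrank_eq : Module.finrank K W = O.d := by
  rw [← LinearEquiv.finrank_eq (LinearEquiv.ofEq _ _ O.span_eq),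
    finrank_span_eq_card O.linearIndependent_bK, Fintype.card_fin]

/-- Primitive elements of the space have integral coordinates. -/
theorem exists_coord {u : M.V} (hu : (u : F) ∈ W) :
    ∃ v : Fin O.d → A, elem (L := K) O.bK (fun i => (v i : K)) = u := by
  obtain ⟨v, hv⟩ := O.range_elem.symm ▸ hu
  exact ⟨fun i => ⟨v i, O.coord_mem (hv ▸ u.2) i⟩, hv⟩

theorem redW_self : redW M W = Submodule.span k (Set.range O.bk) := by
  refine le_antisymm (Submodule.span_le.mpr ?_) (Submodule.span_le.mpr ?_)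
  · rintro _ ⟨u, hu, rfl⟩
    obtain ⟨v, hv⟩ := O.exists_coord hu
    rw [show u = ⟨_, O.elem_mem v⟩ from Subtype.ext hv.symm, O.ρ_elem]
    exact Fintype.range_linearCombination k O.bk ▸ LinearMap.mem_range_self _ _
  · rintro _ ⟨i, rfl⟩
    exact Submodule.subset_span ⟨O.b i, O.span_eq.le (Submodule.subset_span ⟨i, rfl⟩), rfl⟩

theorem finrank_redW : Module.finrank k (redW M W) = O.d := by
  rw [O.redW_self, finrank_span_eq_card O.li, Fintype.card_fin]

end Orth

variable {P : Type} [Finite P] (R : Subalgebra A (P → A))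

/-- A family inside the space of `O` given by an idempotent over `R`. -/
def IsFam (O : Orth M W) (U : P → Submodule K F) : Prop :=
  ∃ e : Matrix (Fin O.d) (Fin O.d) R, e * e = e ∧ ∀ p, spanOf (evK R p) O.bK e = U p

theorem IsFam.le {O : Orth M W} {U : P → Submodule K F} (h : IsFam R O U) (p : P) : U p ≤ W := by
  obtain ⟨e, -, he⟩ := h
  rw [← he p]
  exact LinearMap.map_le_range.trans O.range_elem.le

theorem spanOf_redW {O : Orth M W} {e : Matrix (Fin O.d) (Fin O.d) R} (he : e * e = e) (p : P) :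
    spanOf (evk M.π R p) O.bk e = redW M (spanOf (evK R p) O.bK e) := by
  rw [spanOf, range_map_evk M.π R M.π_surjective he, redSub, Submodule.map_span]
  refine le_antisymm (Submodule.span_le.mpr ?_) (Submodule.span_le.mpr ?_)
  · rintro _ ⟨_, ⟨v, hv, rfl⟩, rfl⟩
    exact Submodule.subset_span ⟨⟨_, O.elem_mem v⟩, ⟨_, hv, rfl⟩, O.ρ_elem v⟩
  · rintro _ ⟨u, ⟨w, hw, hwu⟩, rfl⟩
    have hv : ∀ i, w i ∈ A := fun i => O.coord_mem (hwu ▸ u.2) i
    refine Submodule.subset_span ⟨_, ⟨fun i => ⟨w i, hv i⟩, hw, rfl⟩, ?_⟩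
    rw [← O.ρ_elem]
    exact congrArg M.ρ (Subtype.ext hwu)

/-- The whole space. -/
theorem isFam_const (O : Orth M W) : IsFam R O fun _ => W := by
  refine ⟨1, Matrix.one_mul 1, fun p => ?_⟩
  rw [spanOf, Matrix.map_one _ (map_zero _) (map_one _), Matrix.mulVecLin_one, LinearMap.range_id,
    Submodule.map_top, O.range_elem]

variable {W' W'' : Submodule K F} {O : Orth M W} {O' : Orth M W'} {O'' : Orth M W''}

/-- Structure constants of a product of spaces. -/
theorem exists_table (hW : ∀ x ∈ W, ∀ y ∈ W', x * y ∈ W'') :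
    ∃ T : Fin O.d → Fin O'.d → Fin O''.d → A, (∀ a c, O.bK a * O'.bK c = ∑ l, (T a c l : K) • O''.bK l) ∧
      ∀ a c, O.bk a * O'.bk c = ∑ l, M.π (T a c l) • O''.bk l := by
  have hmem : ∀ a c, ((O.b a * O'.b c : M.V) : F) ∈ W'' := fun a c =>
    hW _ (O.span_eq.le (Submodule.subset_span ⟨a, rfl⟩)) _ (O'.span_eq.le (Submodule.subset_span ⟨c, rfl⟩))
  choose T hT using fun a c => O''.exists_coord (hmem a c)
  refine ⟨T, fun a c => ?_, fun a c => ?_⟩
  · rw [← Fintype.linearCombination_apply, hT]; rfl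
  · rw [← Fintype.linearCombination_apply, ← O''.ρ_elem]
    show M.ρ (O.b a) * M.ρ (O'.b c) = _
    rw [← map_mul]
    exact congrArg M.ρ (Subtype.ext (hT a c).symm)

/-- Products of regular families. -/
theorem IsFam.mul {U U' U'' : P → Submodule K F} (hU : IsFam R O U) (hU' : IsFam R O' U')
    (hW : ∀ x ∈ W, ∀ y ∈ W', x * y ∈ W'') (hle : ∀ p, U'' p ≤ W'')
    (hprod : ∀ p, U p * U' p ≤ U'' p) {r : ℕ} (hr : ∀ p, Module.finrank K (U'' p) ≤ r)
    (hbar : ∀ p, r ≤ Module.finrank k ((redW M (U p) * redW M (U' p) : Submodule k F'))) :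
    IsFam R O'' U'' := by
  obtain ⟨e, he, heU⟩ := hU
  obtain ⟨e', he', heU'⟩ := hU'
  obtain ⟨T, hTK, hTk⟩ := exists_table (O := O) (O' := O') (O'' := O'') hW
  set X := mulMat (fun a c l => algebraMap A R (T a c l)) e e'
  have hK : ∀ p, spanOf (evK R p) O''.bK X = U p * U' p := fun p => by
    rw [← heU p, ← heU' p]
    exact spanOf_mulMat (evK R p) _ _ _ _ hTK e e'
  have hk : ∀ p, spanOf (evk M.π R p) O''.bk X = redW M (U p) * redW M (U' p) := fun p => by
    rw [← heU p, ← heU' p, ← spanOf_redW R he, ← spanOf_redW R he']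
    exact spanOf_mulMat (evk M.π R p) _ _ _ _ hTk e e'
  obtain ⟨f, hf, hfW⟩ := isRegularFamily_range M.π R M.π_surjective M.π_eq_zero X
    (r := r) (W := fun p => (U'' p).comap (elem (L := K) O''.bK))
    (fun p => Submodule.map_le_iff_le_comap.mp ((hK p).le.trans (hprod p)))
    (fun p => by
      refine le_trans (le_of_eq ?_) (hr p)
      exact ((Submodule.equivMapOfInjective _ O''.injective_elem _).finrank_eq).trans (by
        rw [Submodule.map_comap_eq, O''.range_elem, inf_eq_right.mpr (hle p)]))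
    (fun p => by
      refine (hbar p).trans (le_of_eq_of_le (congrArg (fun S => Module.finrank k (S : Submodule k F'))
        (hk p).symm) ?_)
      exact Submodule.finrank_map_le _ _)
  refine ⟨f, hf, fun p => ?_⟩
  show (rangeAt R f p).map (elem (L := K) O''.bK) = U'' p
  rw [hfW p, Submodule.map_comap_eq, O''.range_elem, inf_eq_right.mpr (hle p)]

/-- Colons of regular families. -/
theorem IsFam.colon {U' U'' Z : P → Submodule K F} (hU' : IsFam R O' U') (hU'' : IsFam R O'' U'')
    (hW : ∀ x ∈ W, ∀ y ∈ W', x * y ∈ W'') (hle : ∀ p, Z p ≤ W)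
    (hcolon : ∀ p, ∀ x ∈ Z p, ∀ y ∈ U' p, x * y ∈ U'' p) {r : ℕ}
    (hr : ∀ p, r ≤ Module.finrank K (Z p))
    (hbar : ∀ p, ∀ Y : Submodule k F', Y ≤ redW M W →
      (∀ x ∈ Y, ∀ y ∈ redW M (U' p), x * y ∈ redW M (U'' p)) → Module.finrank k Y ≤ r) :
    IsFam R O Z := by
  obtain ⟨e', he', heU'⟩ := hU'
  obtain ⟨e'', he'', heU''⟩ := hU''
  obtain ⟨T, hTK, hTk⟩ := exists_table (O := O) (O' := O') (O'' := O'') hW
  set Q := colonMat (fun a c l => algebraMap A R (T a c l)) e' e''
  obtain ⟨f, hf, hfW⟩ := isRegularFamily_ker M.π R M.π_surjective M.π_eq_zero Q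
    (r := r) (W := fun p => (Z p).comap (elem (L := K) O.bK))
    (fun p x hx => by
      refine (mem_ker_colonMat (evK R p) _ _ _ _ hTK e' he'' O''.linearIndependent_bK x).mpr
        fun z hz => ?_
      rw [heU' p] at hz
      rw [heU'' p]
      exact hcolon p _ hx z hz)
    (fun p => by
      refine (hr p).trans (le_of_eq ?_)
      exact (((Submodule.equivMapOfInjective _ O.injective_elem _).finrank_eq).trans (by
        rw [Submodule.map_comap_eq, O.range_elem, inf_eq_right.mpr (hle p)])).symm)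
    (fun p => by
      refine le_of_eq_of_le ((Submodule.equivMapOfInjective _
        (O.li.fintypeLinearCombination_injective) _).finrank_eq) (hbar p _ ?_ ?_)
      · rw [O.redW_self, ← Fintype.range_linearCombination k O.bk]
        exact LinearMap.map_le_range
      · rintro _ ⟨x, hx, rfl⟩ y hy
        rw [← heU'' p, ← spanOf_redW R he'']
        rw [← heU' p, ← spanOf_redW R he'] at hy
        exact (mem_ker_colonMat (evk M.π R p) _ _ _ _ hTk e' he'' O''.li x).mp hx y hy)
  refine ⟨f, hf, fun p => ?_⟩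
  show (rangeAt R f p).map (elem (L := K) O.bK) = Z p
  rw [hfW p, Submodule.map_comap_eq, O.range_elem, inf_eq_right.mpr (hle p)]

/-- The vectors of a family with prescribed integral coordinates. -/
theorem IsFam.exists_section {U : P → Submodule K F} (hU : IsFam R O U) {r : ℕ}
    (Pr : Matrix (Fin r) (Fin O.d) A) (hr : ∀ p, Module.finrank K (U p) = r)
    (hbar : ∀ p (v : Fin O.d → k), elem (L := k) O.bk v ∈ redW M (U p) →
      (Pr.map M.π).mulVec v = 0 → v = 0)
    (hdim : ∀ p, r ≤ Module.finrank k (redW M (U p))) :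
    ∃ Ψ : Matrix (Fin O.d) (Fin r) R, ∀ p (v : Fin O.d → K), elem (L := K) O.bK v ∈ U p →
      v = (Ψ.map (evK R p)).mulVec ((Pr.map A.subtype).mulVec v) := by
  obtain ⟨e, he, heU⟩ := hU
  obtain ⟨Ψ, -, -, hΨ⟩ := IsRegularFamily.exists_section M.π R M.π_surjective M.π_eq_zero
    (W := fun p => rangeAt R e p) ⟨e, he, fun p => rfl⟩ (Pr.map (algebraMap A R)) (r := r)
    (fun p => by
      rw [(Submodule.equivMapOfInjective _ O.injective_elem (rangeAt R e p)).finrank_eq]
      exact (congrArg (fun S => Module.finrank K (S : Submodule K F)) (heU p)).le.trans (hr p).le)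
    (fun p => by
      have hred : (redSub M.π (rangeAt R e p)).map (elem (L := k) O.bk) = redW M (U p) := by
        rw [← range_map_evk M.π R M.π_surjective he, ← heU p, ← spanOf_redW R he]
      refine (hdim p).trans (le_of_eq_of_le (congrArg
        (fun S => Module.finrank k (S : Submodule k F')) hred.symm) ((Submodule.finrank_map_le _ _).trans ?_))
      refine le_of_eq (LinearEquiv.finrank_eq
        (LinearEquiv.ofInjective (((Pr.map (algebraMap A R)).map (evk M.π R p)).mulVecLin.domRestrict _)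
          ?_ ≪≫ₗ LinearEquiv.ofEq _ _ (by rw [LinearMap.range_domRestrict])))
      rw [← LinearMap.ker_eq_bot, Submodule.eq_bot_iff]
      rintro ⟨v, hv⟩ hv0
      refine Subtype.ext (hbar p v (hred ▸ Submodule.mem_map_of_mem hv) ?_)
      rw [Matrix.map_map] at hv0
      exact hv0)
  refine ⟨Ψ, fun p v hv => ?_⟩
  have := hΨ p v (by
    rw [← heU p] at hv
    obtain ⟨w, hw, hwv⟩ := hv
    rwa [← O.injective_elem hwv])
  rwa [Matrix.map_map] at this

end Fermat.Agent.MCurve.Flat
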