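/-
Lattices of a reduction model: finite dimensional spaces of functions have bases in `V` with
independent reductions; Riemann–Roch spaces reduce into those of the reduced divisors.
-/
import Fermat.Agent.MCurve.Flat.Family

set_option autoImplicit false
set_option linter.unusedSectionVars false

noncomputable section

namespace Fermat.Agent.MCurve.Flat

open AlgebraicCurve IsLocalRing
open Fermat.Agent.MCurve.RR

variable {K : Type} [Field K] {A : ValuationSubring K}

section Echelon

variable {k : Type} [Field k] {π : A →+* k}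

/-- A combination with independent reductions vanishing mod the maximal ideal. -/
theorem linearIndependent_of_red {d r : ℕ} (b : Fin r → Fin d → A)
    (hb : LinearIndependent k fun i j => π (b i j)) (c : Fin r → A)
    (h : ∀ j, π (∑ i, c i * b i j) = 0) (i : Fin r) : π (c i) = 0 :=
  Fintype.linearIndependent_iff.mp hb (fun i => π (c i)) (funext fun j => by
    simpa [Finset.sum_apply, map_sum] using h j) i

/-- An echelon basis of a subspace of `K ^ d`, over `A`. -/
theorem exists_echelon {d : ℕ} (W : Submodule K (Fin d → K)) :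
    ∃ (r : ℕ) (b : Fin r → Fin d → A), LinearIndependent k (fun i j => π (b i j)) ∧
      W = Submodule.span K (Set.range fun i j => (b i j : K)) := by
  classical
  suffices key : ∀ (n : ℕ) (W : Submodule K (Fin d → K)), Module.finrank K W ≤ n →
      ∃ (r : ℕ) (b : Fin r → Fin d → A), LinearIndependent k (fun i j => π (b i j)) ∧
        W = Submodule.span K (Set.range fun i j => (b i j : K)) from key _ W le_rfl
  intro n
  induction n with
  | zero =>
    intro W hW
    refine ⟨0, Fin.elim0, linearIndependent_empty_type, ?_⟩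
    rw [Submodule.finrank_eq_zero.mp (Nat.le_zero.mp hW), Set.range_eq_empty, Submodule.span_empty]
  | succ n ih =>
    intro W hW
    by_cases h0 : W = ⊥
    · exact ⟨0, Fin.elim0, linearIndependent_empty_type, by
        rw [h0, Set.range_eq_empty, Submodule.span_empty]⟩
    obtain ⟨v, hv, hv0⟩ := Submodule.exists_mem_ne_zero_of_ne_bot h0
    obtain ⟨j₀, hj₀⟩ := Function.ne_iff.mp hv0
    obtain ⟨i₀, -, hmax⟩ := Finset.exists_max_image Finset.univ (fun j => A.valuation (v j))
      ⟨j₀, Finset.mem_univ _⟩
    have hvi : v i₀ ≠ 0 := fun h => hj₀ (by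
      have := hmax j₀ (Finset.mem_univ _)
      rw [h, map_zero, le_zero_iff, map_eq_zero] at this
      exact this)
    have hmem : ∀ j, (v i₀)⁻¹ * v j ∈ A := fun j => by
      rw [← A.valuation_le_one_iff, map_mul, map_inv₀]
      exact inv_mul_le_one_of_le₀ (hmax j (Finset.mem_univ _)) zero_le
    let u : Fin d → A := fun j => ⟨(v i₀)⁻¹ * v j, hmem j⟩
    have hu₁ : u i₀ = 1 := Subtype.ext (inv_mul_cancel₀ hvi)
    have hu : (fun j => (u j : K)) ∈ W := W.smul_mem (v i₀)⁻¹ hv
    set W' := W ⊓ LinearMap.ker (LinearMap.proj (R := K) i₀)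
    have hlt : W' < W := lt_of_le_of_ne inf_le_left fun h => by
      have := (inf_eq_left.mp h) hu
      rw [LinearMap.mem_ker, LinearMap.proj_apply, hu₁] at this
      exact one_ne_zero this
    obtain ⟨r, b, hb, hW'⟩ := ih W' (by have := Submodule.finrank_lt_finrank_of_lt hlt; omega)
    have hb0 : ∀ i, b i i₀ = 0 := fun i => by
      have : (fun j => (b i j : K)) ∈ W' := hW' ▸ Submodule.subset_span (Set.mem_range_self i)
      exact Subtype.ext this.2
    refine ⟨r + 1, Fin.cons u b, ?_, ?_⟩
    · refine Fintype.linearIndependent_iff.mpr fun c hc => ?_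
      have hzero : c 0 = 0 := by
        have := congrFun hc i₀
        simpa [Finset.sum_apply, Fin.sum_univ_succ, hu₁, hb0] using this
      refine Fin.cases hzero fun i => Fintype.linearIndependent_iff.mp hb (fun i => c i.succ) ?_ i
      rw [← hc, Fin.sum_univ_succ, hzero, zero_smul, zero_add]
      rfl
    · refine le_antisymm (fun x hx => ?_) (Submodule.span_le.mpr ?_)
      · have hx' : x - x i₀ • (fun j => (u j : K)) ∈ W' :=
          ⟨W.sub_mem hx (W.smul_mem _ hu), by simp [hu₁]⟩
        rw [hW'] at hx'
        rw [← sub_add_cancel x (x i₀ • fun j => (u j : K))]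
        refine add_mem (Submodule.span_mono ?_ hx')
          (Submodule.smul_mem _ _ (Submodule.subset_span ⟨0, rfl⟩))
        rintro _ ⟨i, rfl⟩
        exact ⟨i.succ, by simp⟩
      · rintro _ ⟨i, rfl⟩
        refine Fin.cases ?_ (fun i => ?_) i
        · exact hu
        · have : (fun j => (b i j : K)) ∈ W' := hW' ▸ Submodule.subset_span (Set.mem_range_self i)
          simpa using this.1

end Echelon

namespace RedModel

variable {F k F' : Type} [Field F] [Algebra K F] [Field k] [Field F'] [Algebra k F']
  (M : RedModel K F k F' A)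

/-- A constant as a member of `V`. -/
def constV (a : A) : M.V := ⟨algebraMap K F a, M.const_mem a⟩

theorem ρ_constV_mul (a : A) (u : M.V) : M.ρ (M.constV a * u) = M.π a • M.ρ u := by
  rw [map_mul, Algebra.smul_def, constV, M.ρ_const]

theorem π_inv_eq_zero {c : K} (hc : c ∉ A) : ∃ a : A, (a : K) = c⁻¹ ∧ M.π a = 0 := by
  have hi : c⁻¹ ∈ A := (A.mem_or_inv_mem c).resolve_left hc
  refine ⟨⟨_, hi⟩, rfl, (M.π_eq_zero _).mpr fun hu => hc ?_⟩
  obtain ⟨b, hb⟩ := hu.exists_right_inv
  have := congrArg Subtype.val hb
  push_cast at this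
  rcases eq_or_ne c 0 with rfl | hc0
  · exact zero_mem _
  rw [show c = (b : K) by field_simp at this; exact this.symm]
  exact b.2

/-- Coefficients along primitive functions with independent reductions are integral. -/
theorem coeff_mem {ι : Type} [Fintype ι] {b : ι → M.V} (hb : LinearIndependent k fun i => M.ρ (b i))
    {c : ι → K} (h : ∑ i, c i • (b i : F) ∈ M.V) (i : ι) : c i ∈ A := by
  classical
  obtain ⟨i₀, -, hmax⟩ := Finset.exists_max_image Finset.univ (fun i => A.valuation (c i))
    ⟨i, Finset.mem_univ _⟩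
  by_contra hi
  have hi₀ : c i₀ ∉ A := fun h => hi ((A.valuation_le_one_iff _).mp
    ((hmax i (Finset.mem_univ _)).trans ((A.valuation_le_one_iff _).mpr h)))
  have h0 : c i₀ ≠ 0 := fun h => hi₀ (h ▸ zero_mem _)
  obtain ⟨a, ha, ha0⟩ := M.π_inv_eq_zero hi₀
  have hmem : ∀ j, (c i₀)⁻¹ * c j ∈ A := fun j => by
    rw [← A.valuation_le_one_iff, map_mul, map_inv₀]
    exact inv_mul_le_one_of_le₀ (hmax j (Finset.mem_univ _)) zero_le
  have e : M.constV a * ⟨_, h⟩ = ∑ j, M.constV ⟨_, hmem j⟩ * b j := Subtype.ext (by
    push_cast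
    simp only [constV, ha, map_mul, map_inv₀, Finset.mul_sum, Algebra.smul_def, mul_assoc])
  have e' := congrArg M.ρ e
  simp only [map_sum, ρ_constV_mul, ha0, zero_smul] at e'
  have := Fintype.linearIndependent_iff.mp hb _ e'.symm i₀
  rw [show (⟨_, hmem i₀⟩ : A) = 1 from Subtype.ext (inv_mul_cancel₀ h0), map_one] at this
  exact one_ne_zero this

theorem linearIndependent_of_ρ {ι : Type} [Fintype ι] {b : ι → M.V}
    (hb : LinearIndependent k fun i => M.ρ (b i)) :
    LinearIndependent K fun i => (b i : F) := by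
  refine Fintype.linearIndependent_iff.mpr fun c hc i => ?_
  by_contra hi
  -- scale out of `A`
  obtain ⟨t, ht⟩ : ∃ t : K, t * c i ∉ A := by
    by_contra hall
    push Not at hall
    have h1 : ∀ t : K, t ∈ A := fun t => by simpa [mul_assoc, hi] using hall (t * (c i)⁻¹)
    obtain ⟨a, ha⟩ : ∃ a : A, M.π a = 1 := ⟨1, map_one _⟩
    have hfield : ∀ a : A, a ≠ 0 → IsUnit a := fun a ha0 =>
      .of_mul_eq_one ⟨(a : K)⁻¹, h1 _⟩ (Subtype.ext (mul_inv_cancel₀ fun h => ha0 (Subtype.ext h)))
    let cA : ι → A := fun j => ⟨c j, h1 _⟩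
    have e : ∑ j, M.constV (cA j) * b j = 0 := Subtype.ext (by
      push_cast
      simpa [constV, cA, Algebra.smul_def] using hc)
    have e' := congrArg M.ρ e
    simp only [map_sum, ρ_constV_mul, map_zero] at e'
    have h0 := Fintype.linearIndependent_iff.mp hb _ e' i
    exact (M.π_eq_zero _).mp h0 (hfield _ fun h => hi (congrArg Subtype.val h))
  refine ht (M.coeff_mem hb (c := fun j => t * c j) ?_ i)
  simp only [mul_smul, ← Finset.smul_sum, hc, smul_zero]
  exact zero_mem _

/-- A basis in `V` with independent reductions. -/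
theorem exists_basis (W : Submodule K F) [FiniteDimensional K W] :
    ∃ b : Fin (Module.finrank K W) → M.V, LinearIndependent k (fun i => M.ρ (b i)) ∧
      (∀ i, (b i : F) ∈ W) ∧ W = Submodule.span K (Set.range fun i => ((b i : M.V) : F)) ∧
      redW M W = Submodule.span k (Set.range fun i => M.ρ (b i)) := by
  classical
  let bW := Module.finBasis K W
  obtain ⟨d, w, hw, hsW⟩ := M.exists_orth (Finset.univ.image fun i => (bW i : F))
  let T : (Fin d → K) →ₗ[K] F := Fintype.linearCombination K fun i => (w i : F)
  have hWT : W ≤ LinearMap.range T := by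
    intro f hf
    have hf' : f ∈ Submodule.span K (Set.range fun i => (bW i : F)) := by
      have := congrArg (Submodule.map W.subtype) bW.span_eq
      rw [Submodule.map_span, Submodule.map_subtype_top, ← Set.range_comp] at this
      exact this.symm ▸ hf
    rw [Fintype.range_linearCombination]
    refine Submodule.span_le.mpr ?_ hf'
    rintro _ ⟨i, rfl⟩
    exact hsW (by simp)
  obtain ⟨r, c, hc, hcW⟩ := exists_echelon (π := M.π) (W.comap T)
  let b : Fin r → M.V := fun i => ∑ j, M.constV (c i j) * w j
  have hbT : ∀ i, (b i : F) = T fun j => (c i j : K) := fun i => by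
    simp [b, T, constV, Fintype.linearCombination_apply, Algebra.smul_def]
  have hρb : ∀ i, M.ρ (b i) = ∑ j, M.π (c i j) • M.ρ (w j) := fun i => by
    simp only [b, map_sum, ρ_constV_mul]
  have hli : LinearIndependent k fun i => M.ρ (b i) := by
    have hinj : LinearMap.ker (Fintype.linearCombination k fun j => M.ρ (w j)) = ⊥ :=
      LinearMap.ker_eq_bot.mpr (linearIndependent_iff_injective_fintypeLinearCombination.mp hw)
    
    rw [show (fun i => M.ρ (b i)) = (Fintype.linearCombination k fun j => M.ρ (w j)) ∘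
      (fun i j => M.π (c i j)) from funext fun i => by
        rw [hρb, Function.comp_apply, Fintype.linearCombination_apply]]
    exact hc.map' _ hinj
  have hspan : W = Submodule.span K (Set.range fun i => ((b i : M.V) : F)) := by
    rw [← inf_eq_right.mpr hWT, ← Submodule.map_comap_eq, hcW, Submodule.map_span, ← Set.range_comp]
    exact congrArg (fun f => Submodule.span K (Set.range f)) (funext fun i => (hbT i).symm)
  have hr : Module.finrank K W = r := by
    rw [hspan, finrank_span_eq_card (M.linearIndependent_of_ρ hli), Fintype.card_fin]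
  subst hr
  refine ⟨b, hli, fun i => hspan.symm ▸ Submodule.subset_span (Set.mem_range_self i), hspan,
    le_antisymm ?_ ?_⟩
  · refine Submodule.span_le.mpr ?_
    rintro _ ⟨u, hu, rfl⟩
    rw [Set.mem_ofPred_eq, hspan] at hu
    obtain ⟨a, ha⟩ := (Submodule.mem_span_range_iff_exists_fun K).mp hu
    have hA : ∀ i, a i ∈ A := M.coeff_mem hli (ha ▸ u.2)
    have e : u = ∑ i, M.constV ⟨a i, hA i⟩ * b i := Subtype.ext (by
      push_cast
      simp only [constV, ← Algebra.smul_def]
      exact ha.symm)
    rw [SetLike.mem_coe, e]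
    simp only [map_sum, ρ_constV_mul]
    exact Submodule.sum_mem _ fun i _ =>
      Submodule.smul_mem _ _ (Submodule.subset_span (Set.mem_range_self i))
  · refine Submodule.span_mono ?_
    rintro _ ⟨i, rfl⟩
    exact ⟨b i, show (b i : F) ∈ W from hspan.symm ▸ Submodule.subset_span (Set.mem_range_self i),
      rfl⟩

theorem finrank_redW_eq (W : Submodule K F) [FiniteDimensional K W] :
    Module.finrank k (redW M W) = Module.finrank K W := by
  obtain ⟨b, hli, -, -, hred⟩ := M.exists_basis W
  rw [hred, finrank_span_eq_card hli, Fintype.card_fin]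

/-- Every finite dimensional space has a basis with independent reductions. -/
theorem nonempty_orth (W : Submodule K F) [FiniteDimensional K W] : Nonempty (Orth M W) := by
  obtain ⟨b, hli, -, hspan, -⟩ := M.exists_basis W
  exact ⟨⟨_, b, hli, hspan.symm⟩⟩

/-! ## Divisors -/

/-- The reduction of divisors. -/
abbrev rD (D : Divisor K F) : Divisor k F' := Finsupp.mapDomain M.r D

open Classical in
theorem rD_apply (D : Divisor K F) (Q : Place k F') :
    M.rD D Q = D.sum fun P n => if M.r P = Q then n else 0 := by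
  classical
  rw [rD, Finsupp.mapDomain, Finsupp.sum_apply]
  exact Finsupp.sum_congr fun P _ => Finsupp.single_apply

theorem rD_nonneg {D : Divisor K F} (h : 0 ≤ D) : 0 ≤ M.rD D := by
  classical
  refine Finsupp.le_def.mpr fun Q => ?_
  rw [Finsupp.zero_apply, rD_apply]
  refine Finset.sum_nonneg fun P _ => ?_
  have := Finsupp.le_def.mp h P
  simp only [Finsupp.zero_apply] at this
  show 0 ≤ if M.r P = Q then D P else 0
  split_ifs <;> omega

theorem rD_add (D E : Divisor K F) : M.rD (D + E) = M.rD D + M.rD E := Finsupp.mapDomain_add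
theorem rD_sub (D E : Divisor K F) : M.rD (D - E) = M.rD D - M.rD E :=
  map_sub (Finsupp.mapDomain.addMonoidHom M.r) D E
theorem rD_nsmul (n : ℕ) (D : Divisor K F) : M.rD (n • D) = n • M.rD D :=
  map_nsmul (Finsupp.mapDomain.addMonoidHom M.r) n D

variable [IsAlgClosed K] [IsAlgClosed k] [∀ v : Place K F, v.FiniteResidue]
  [∀ v : Place k F', v.FiniteResidue]

theorem degree_rD (D : Divisor K F) : Divisor.degree (M.rD D) = Divisor.degree D := by
  rw [degree_eq_sum, degree_eq_sum, Finsupp.sum_mapDomain_index (fun _ => rfl) fun _ _ _ => rfl]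

variable [HasPrincipalDivisors K F] [HasPrincipalDivisors k F']

theorem rD_divOf {u : M.V} (h : M.ρ u ≠ 0) : M.rD (divOf K (u : F)) = divOf k (M.ρ u) :=
  Finsupp.ext fun Q => by
    rw [divOf_apply]
    exact M.ord_ρ u h _ (fun P => divOf_apply _ P) Q

theorem rD_principal {D : Divisor K F} (h : D ∈ Divisor.principal (K := K) (F := F)) :
    M.rD D ∈ Divisor.principal (K := k) (F := F') := by
  obtain ⟨f, hf, hD⟩ := h
  obtain ⟨c, u, hu, rfl⟩ := M.scale f hf
  have hc : c ≠ 0 := fun h => hf (by rw [h, map_zero, zero_mul])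
  have hu0 : (u : F) ≠ 0 := fun h => hu (by rw [show u = 0 from Subtype.ext h, map_zero])
  rw [show D = divOf K (u : F) from Finsupp.ext fun v => by
    rw [hD, divOf_apply, ← Algebra.smul_def, ord_smul_const v hc], M.rD_divOf hu]
  exact ⟨M.ρ u, hu, fun Q => divOf_apply _ Q⟩

theorem rD_sub_principal {D E : Divisor K F} (h : E - D ∈ Divisor.principal (K := K) (F := F)) :
    M.rD E - M.rD D ∈ Divisor.principal (K := k) (F := F') :=
  M.rD_sub E D ▸ M.rD_principal h

theorem ρ_mem_space {D : Divisor K F} {u : M.V} (hu : (u : F) ∈ riemannRochSpace D) :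
    M.ρ u ∈ riemannRochSpace (M.rD D) := by
  rcases eq_or_ne (M.ρ u) 0 with h | h
  · rw [h]; exact zero_mem _
  have hu0 : (u : F) ≠ 0 := fun h0 => h (by rw [show u = 0 from Subtype.ext h0, map_zero])
  rw [mem_space_iff_of_ne h, ← M.rD_divOf h, ← rD_add]
  exact M.rD_nonneg ((mem_space_iff_of_ne hu0).mp hu)

theorem redW_le (D : Divisor K F) :
    redW M (riemannRochSpace D) ≤ riemannRochSpace (M.rD D) :=
  Submodule.span_le.mpr fun _ ⟨_, hu, e⟩ => e ▸ M.ρ_mem_space hu

variable [Nonempty (Place K F)] [Nonempty (Place k F')]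

theorem ell_le_rD (D : Divisor K F) : ell D ≤ ell (M.rD D) :=
  (M.finrank_redW_eq _).symm.trans_le (Submodule.finrank_mono (M.redW_le D))

theorem redW_space_eq {D : Divisor K F} (h : ell (M.rD D) ≤ ell D) :
    redW M (riemannRochSpace D) = riemannRochSpace (M.rD D) :=
  Submodule.eq_of_le_of_finrank_le (M.redW_le D) (by
    rw [M.finrank_redW_eq]
    exact h)

variable {g c c' : ℕ}

theorem ell_rD_eq (hK : IsRiemann K F g c) (hk : IsRiemann k F' g c') {D : Divisor K F}
    (h : (c : ℤ) ≤ Divisor.degree D) (h' : (c' : ℤ) ≤ Divisor.degree D) :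
    ell (M.rD D) = ell D := by
  have h1 := hK.eq D h
  have h2 := hk.eq (M.rD D) (by rwa [M.degree_rD])
  rw [M.degree_rD] at h2
  omega

end RedModel

end Fermat.Agent.MCurve.Flat
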