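/-
The genus is preserved by a reduction model whose two charts along a coordinate reduce to the
integral closures: this holds once the reduced charts separate the places and contain uniformisers.
-/
import Fermat.Agent.MCurve.Flat.Lattice

set_option autoImplicit false
set_option linter.unusedSectionVars false

noncomputable section

namespace Fermat.Agent.MCurve.Flat

open AlgebraicCurve IsLocalRing IntermediateField
open Fermat.Agent.MCurve.RR

/-- Triangular elements: a combination vanishing to order `e` at all places has trivial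
coefficients. -/
theorem coeff_eq_zero_of_triangular {k E : Type} [Field k] [Field E] [Algebra k E]
    {T : Finset (Place k E)} {e : Place k E → ℕ} (t : (v : T) × Fin (e v.1) → E)
    (ht : ∀ a, t a ≠ 0 ∧ a.1.1.ord (t a) = (a.2 : ℕ) ∧
      ∀ w ∈ T, w ≠ a.1.1 → (e w : ℤ) ≤ w.ord (t a)) (c : (v : T) × Fin (e v.1) → k)
    (h : ∀ w ∈ T, ∑ a, c a • t a = 0 ∨ (e w : ℤ) ≤ w.ord (∑ a, c a • t a)) : c = 0 := by
  classical
  by_contra hne
  obtain ⟨a₀, ha₀, hmin⟩ := Finset.exists_min_image (Finset.univ.filter fun a => c a ≠ 0)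
    (fun a => (a.2 : ℕ)) (by
      obtain ⟨a, ha⟩ := Function.ne_iff.mp hne
      exact ⟨a, Finset.mem_filter.mpr ⟨Finset.mem_univ _, ha⟩⟩)
  obtain ⟨-, hc₀⟩ := Finset.mem_filter.mp ha₀
  set v := a₀.1.1
  obtain ⟨ht0, htv, -⟩ := ht a₀
  have hbig : ∀ b ∈ (Finset.univ : Finset ((v : T) × Fin (e v.1))).erase a₀, c b • t b = 0 ∨
      ((a₀.2 : ℕ) : ℤ) < v.ord (c b • t b) := by
    intro b hb
    rcases eq_or_ne (c b) 0 with h0 | h0
    · exact Or.inl (by rw [h0, zero_smul])
    refine Or.inr ?_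
    rw [ord_smul_const v h0]
    obtain ⟨-, hbv, hbw⟩ := ht b
    rcases eq_or_ne b.1.1 v with hv | hv
    · have h1 := hmin b (Finset.mem_filter.mpr ⟨Finset.mem_univ _, h0⟩)
      have h2 : (a₀.2 : ℕ) ≠ b.2 := fun h => (Finset.mem_erase.mp hb).1
        (Sigma.ext (Subtype.ext hv) ((Fin.heq_ext_iff (by rw [hv])).mpr h.symm))
      have hbv' : v.ord (t b) = (b.2 : ℕ) := (congrArg (fun P => P.ord (t b)) hv.symm).trans hbv
      omega
    · have := hbw v a₀.1.2 (Ne.symm hv)
      have := a₀.2.2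
      change (a₀.2 : ℕ) < e v at this
      omega
  have hord : v.ord (c a₀ • t a₀) = ((a₀.2 : ℕ) : ℤ) := by rw [ord_smul_const v hc₀, htv]
  have hne0 : c a₀ • t a₀ ≠ 0 := smul_ne_zero hc₀ ht0
  have hsplit := Finset.add_sum_erase _ (fun b => c b • t b) (Finset.mem_univ a₀)
  have hlt : ((a₀.2 : ℕ) : ℤ) < (e v : ℤ) := by exact_mod_cast a₀.2.2
  have hsum : ∑ a, c a • t a ≠ 0 ∧ v.ord (∑ a, c a • t a) = ((a₀.2 : ℕ) : ℤ) := by
    rw [← hsplit]
    rcases lt_ord_sum _ _ v hbig with h0 | h0
    · rw [h0, add_zero]; exact ⟨hne0, hord⟩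
    · rcases eq_or_ne (∑ b ∈ Finset.univ.erase a₀, c b • t b) 0 with h1 | h1
      · rw [h1, add_zero]; exact ⟨hne0, hord⟩
      have hlt' := ord_add_eq v hne0 h1 (hord ▸ h0)
      refine ⟨fun h2 => ?_, hlt'.trans hord⟩
      rw [eq_neg_of_add_eq_zero_left h2, ord_neg] at hord
      omega
  have := (h v a₀.1.2).resolve_left hsum.1
  omega

namespace RedModel

variable {K F k F' : Type} [Field K] [Field F] [Algebra K F] [Field k] [Field F'] [Algebra k F']
  {A : ValuationSubring K} (M : RedModel K F k F' A) [IsAlgClosed K] [IsAlgClosed k]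
  [∀ v : Place K F, v.FiniteResidue] [∀ v : Place k F', v.FiniteResidue]
  [HasPrincipalDivisors K F] [HasPrincipalDivisors k F']

/-- The reductions of the functions regular off the poles of `x`. -/
def RegRed (x : F) (y : F') : Prop :=
  ∃ (n : ℕ) (u : M.V), (u : F) ∈ riemannRochSpace (n • poleDiv K x) ∧ M.ρ u = y

theorem poleDiv_nonneg (x : F) : 0 ≤ poleDiv K x :=
  Finsupp.le_def.mpr fun v => by rw [poleDiv_apply]; exact le_max_right _ _

theorem self_mem_space (x : F) : x ∈ riemannRochSpace (poleDiv K x) :=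
  mem_space_iff.mpr (Or.inr fun v => by rw [poleDiv_apply]; omega)

namespace RegRed

variable {M} {x : F} {y y' : F'}

theorem add (h : M.RegRed x y) (h' : M.RegRed x y') : M.RegRed x (y + y') := by
  obtain ⟨n, u, hu, rfl⟩ := h
  obtain ⟨n', u', hu', rfl⟩ := h'
  exact ⟨n + n', u + u', add_mem
    (space_mono (nsmul_le_nsmul_left (poleDiv_nonneg x) (Nat.le_add_right n n')) hu)
    (space_mono (nsmul_le_nsmul_left (poleDiv_nonneg x) (Nat.le_add_left n' n)) hu'),
    map_add _ _ _⟩

theorem mul (h : M.RegRed x y) (h' : M.RegRed x y') : M.RegRed x (y * y') := by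
  obtain ⟨n, u, hu, rfl⟩ := h
  obtain ⟨n', u', hu', rfl⟩ := h'
  exact ⟨n + n', u * u', by rw [add_nsmul]; exact mul_mem_space hu hu', map_mul _ _ _⟩

theorem const (a : k) : M.RegRed x (algebraMap k F' a) := by
  obtain ⟨a', rfl⟩ := M.π_surjective a
  refine ⟨0, M.constV a', ?_, by rw [constV, M.ρ_const]⟩
  exact mem_space_iff.mpr (Or.inr fun v => by simp [constV, ord_algebraMap v])

theorem zero : M.RegRed x 0 := by simpa using (RegRed.const (M := M) (x := x) 0)

theorem one : M.RegRed x 1 := by simpa using (RegRed.const (M := M) (x := x) 1)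

theorem pow (h : M.RegRed x y) : ∀ n : ℕ, M.RegRed x (y ^ n)
  | 0 => by simpa using RegRed.one
  | n + 1 => by rw [pow_succ]; exact (h.pow n).mul h

theorem smul (a : k) (h : M.RegRed x y) : M.RegRed x (a • y) := by
  rw [Algebra.smul_def]; exact (RegRed.const a).mul h

theorem sum {ι : Type*} (s : Finset ι) (f : ι → F') (h : ∀ i ∈ s, M.RegRed x (f i)) :
    M.RegRed x (∑ i ∈ s, f i) := by
  classical
  induction s using Finset.induction with
  | empty => exact RegRed.zero
  | insert i s hi ih =>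
    rw [Finset.sum_insert hi]
    exact (h i (Finset.mem_insert_self i s)).add (ih fun j hj => h j (Finset.mem_insert_of_mem hj))

theorem prod {ι : Type*} (s : Finset ι) (f : ι → F') (h : ∀ i ∈ s, M.RegRed x (f i)) :
    M.RegRed x (∏ i ∈ s, f i) := by
  classical
  induction s using Finset.induction with
  | empty => exact RegRed.one
  | insert i s hi ih =>
    rw [Finset.prod_insert hi]
    exact (h i (Finset.mem_insert_self i s)).mul (ih fun j hj => h j (Finset.mem_insert_of_mem hj))

end RegRed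

variable {x : M.V}

theorem regRed_aeval (p : Polynomial k) : M.RegRed (x : F) (Polynomial.aeval (M.ρ x) p) := by
  rw [Polynomial.aeval_eq_sum_range]
  exact RegRed.sum _ _ fun i _ =>
    RegRed.smul _ (RegRed.pow ⟨1, x, by rw [one_nsmul]; exact self_mem_space _, rfl⟩ i)

theorem rD_poleDiv (hx : M.ρ x ≠ 0)
    (hdeg : Divisor.degree (poleDiv K (x : F)) = Divisor.degree (poleDiv k (M.ρ x))) :
    M.rD (poleDiv K (x : F)) = poleDiv k (M.ρ x) := by
  refine (eq_of_le_of_degree (Finsupp.le_def.mpr fun Q => ?_) ?_).symm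
  · have h1 := M.rD_nonneg (poleDiv_nonneg (x : F))
    have h2 : 0 ≤ M.rD (poleDiv K (x : F) + divOf K (x : F)) :=
      M.rD_nonneg (Finsupp.le_def.mpr fun v => by
        rw [Finsupp.add_apply, poleDiv_apply, divOf_apply, Finsupp.zero_apply]; omega)
    rw [rD_add, M.rD_divOf hx] at h2
    have h1' := Finsupp.le_def.mp h1 Q
    have h2' := Finsupp.le_def.mp h2 Q
    rw [Finsupp.zero_apply] at h1' h2'
    rw [Finsupp.add_apply, divOf_apply] at h2'
    rw [poleDiv_apply]
    omega
  · rw [M.degree_rD, hdeg]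

/-- The hypotheses on one reduced chart: separation of places and uniformisers. -/
structure ChartSmooth (x : M.V) : Prop where
  unif : ∀ Q : Place k F', 0 ≤ Q.ord (M.ρ x) →
    ∃ b, M.RegRed (x : F) b ∧ b ≠ 0 ∧ Q.ord b = 1
  sep : ∀ Q Q' : Place k F', 0 ≤ Q.ord (M.ρ x) → 0 ≤ Q'.ord (M.ρ x) → Q ≠ Q' →
    ∃ b, M.RegRed (x : F) b ∧ b ≠ 0 ∧ Q.ord b = 0 ∧ 0 < Q'.ord b

variable [Nonempty (Place K F)] [Nonempty (Place k F')]

theorem ord_nonneg_of_regRed (hx : M.ρ x ≠ 0)
    (hdeg : Divisor.degree (poleDiv K (x : F)) = Divisor.degree (poleDiv k (M.ρ x))) {y : F'}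
    (hy : M.RegRed (x : F) y) {Q : Place k F'} (hQ : 0 ≤ Q.ord (M.ρ x)) : 0 ≤ Q.ord y := by
  obtain ⟨n, u, hu, rfl⟩ := hy
  rcases eq_or_ne (M.ρ u) 0 with h0 | h0
  · rw [h0, Q.ord_zero]
  have := ((mem_space_iff.mp (M.ρ_mem_space hu)).resolve_left h0) Q
  rw [M.rD_nsmul, M.rD_poleDiv hx hdeg, Finsupp.smul_apply, poleDiv_apply, nsmul_eq_mul,
    max_eq_right (by omega), mul_zero, neg_zero] at this
  exact this

/-- Elements with prescribed orders at finitely many places of the chart. -/
theorem exists_triangular (hx : M.ρ x ≠ 0)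
    (hdeg : Divisor.degree (poleDiv K (x : F)) = Divisor.degree (poleDiv k (M.ρ x)))
    (hs : M.ChartSmooth x) (T : Finset (Place k F')) (hT : ∀ Q ∈ T, 0 ≤ Q.ord (M.ρ x))
    (e : Place k F' → ℕ) :
    ∃ t : (v : T) × Fin (e v.1) → F', ∀ a, M.RegRed (x : F) (t a) ∧
      (t a ≠ 0 ∧ a.1.1.ord (t a) = (a.2 : ℕ) ∧
        ∀ w ∈ T, w ≠ a.1.1 → (e w : ℤ) ≤ w.ord (t a)) := by
  classical
  have key : ∀ a : (v : T) × Fin (e v.1), ∃ b, M.RegRed (x : F) b ∧
      (b ≠ 0 ∧ a.1.1.ord b = (a.2 : ℕ) ∧ ∀ w ∈ T, w ≠ a.1.1 → (e w : ℤ) ≤ w.ord b) := by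
    intro a
    set v := a.1.1 with hv
    have hvx := hT v a.1.2
    obtain ⟨b₁, hb₁, hb₁0, hb₁v⟩ := hs.unif v hvx
    have hsep : ∀ w : Place k F', ∃ b, M.RegRed (x : F) b ∧ b ≠ 0 ∧ v.ord b = 0 ∧
        (w ∈ T → w ≠ v → 0 < w.ord b) := fun w => by
      by_cases hw : w ∈ T ∧ w ≠ v
      · obtain ⟨b, h1, h2, h3, h4⟩ := hs.sep v w hvx (hT w hw.1) (Ne.symm hw.2)
        exact ⟨b, h1, h2, h3, fun _ _ => h4⟩
      · exact ⟨1, RegRed.one, one_ne_zero, v.ord_one, fun h1 h2 => absurd ⟨h1, h2⟩ hw⟩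
    choose s hsR hs0 hsv hsw using hsep
    set u := ∏ w ∈ T, s w with hu
    have hu0 : u ≠ 0 := Finset.prod_ne_zero_iff.mpr fun w _ => hs0 w
    have huR : M.RegRed (x : F) u := RegRed.prod _ _ fun w _ => hsR w
    have hord : ∀ (P : Place k F') (S : Finset (Place k F')),
        P.ord (∏ w ∈ S, s w) = ∑ w ∈ S, P.ord (s w) := fun P S => by
      induction S using Finset.induction with
      | empty => simp
      | insert w S hw ih =>
        rw [Finset.prod_insert hw, Finset.sum_insert hw,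
          P.ord_mul (hs0 w) (Finset.prod_ne_zero_iff.mpr fun w _ => hs0 w), ih]
    obtain ⟨N, hN⟩ : ∃ N : ℕ, ∀ w ∈ T, e w ≤ N :=
      ⟨T.sup e, fun w hw => Finset.le_sup hw⟩
    refine ⟨b₁ ^ (a.2 : ℕ) * u ^ N, (hb₁.pow _).mul (huR.pow _),
      mul_ne_zero (pow_ne_zero _ hb₁0) (pow_ne_zero _ hu0), ?_, fun w hw hne => ?_⟩
    · rw [v.ord_mul (pow_ne_zero _ hb₁0) (pow_ne_zero _ hu0), ord_pow, ord_pow, hb₁v, hord,
        Finset.sum_eq_zero fun w _ => hsv w, mul_zero, add_zero, mul_one]
    · rw [w.ord_mul (pow_ne_zero _ hb₁0) (pow_ne_zero _ hu0), ord_pow, ord_pow, hord]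
      have hwx := hT w hw
      have h1 : (0 : ℤ) ≤ ((a.2 : ℕ) : ℤ) * w.ord b₁ :=
        mul_nonneg (Int.natCast_nonneg _) (M.ord_nonneg_of_regRed hx hdeg hb₁ hwx)
      have h2 : (1 : ℤ) ≤ ∑ z ∈ T, w.ord (s z) :=
        le_trans (hsw w hw hne) (Finset.single_le_sum
          (fun z _ => M.ord_nonneg_of_regRed hx hdeg (hsR z) hwx) hw)
      have h3 : (N : ℤ) * 1 ≤ (N : ℤ) * ∑ z ∈ T, w.ord (s z) :=
        mul_le_mul_of_nonneg_left h2 (Int.natCast_nonneg N)
      have := hN w hw
      omega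
  choose t ht using key
  exact ⟨t, ht⟩

/-- A reduced chart is integrally closed at one value of the coordinate. -/
theorem exists_div_sub (hx : Transcendental k (M.ρ x)) [FiniteDimensional k⟮M.ρ x⟯ F']
    (hdeg : Divisor.degree (poleDiv K (x : F)) = Divisor.degree (poleDiv k (M.ρ x)))
    (hs : M.ChartSmooth x) (c : k) {z : F'} (hz : M.RegRed (x : F) z)
    (hzord : ∀ Q : Place k F', 0 < Q.ord (M.ρ x - algebraMap k F' c) →
      z = 0 ∨ Q.ord (M.ρ x - algebraMap k F' c) ≤ Q.ord z) :
    ∃ z', M.RegRed (x : F) z' ∧ z = (M.ρ x - algebraMap k F' c) * z' := by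
  classical
  set y := M.ρ x - algebraMap k F' c with hy
  have hx0 : M.ρ x ≠ 0 := fun h => hx (h ▸ isAlgebraic_zero)
  have hy0 : y ≠ 0 := fun h => hx ((sub_eq_zero.mp h).symm ▸ isAlgebraic_algebraMap c)
  have hyt : Transcendental k y⁻¹ := fun h => by
    have h' := h.inv
    rw [inv_inv] at h'
    exact hx (by simpa [hy] using h'.add (isAlgebraic_algebraMap c))
  have hadj : k⟮y⁻¹⟯ = k⟮M.ρ x⟯ := by
    refine le_antisymm (adjoin_simple_le_iff.mpr (inv_mem (sub_mem (mem_adjoin_simple_self k _)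
      (IntermediateField.algebraMap_mem _ c)))) (adjoin_simple_le_iff.mpr ?_)
    have h1 : y ∈ k⟮y⁻¹⟯ := by simpa using inv_mem (mem_adjoin_simple_self k y⁻¹)
    simpa [hy] using add_mem h1 (IntermediateField.algebraMap_mem k⟮y⁻¹⟯ c)
  obtain ⟨Z, hZ, hdZ⟩ := exists_pole_divisor (K := k) (x := y⁻¹) ⟨hyt, hadj ▸ ‹_›⟩
  rw [hadj] at hdZ
  set T := Z.support
  let e : Place k F' → ℕ := fun Q => (Z Q).toNat
  have hTy : ∀ Q ∈ T, 0 < Q.ord y ∧ (e Q : ℤ) = Q.ord y := fun Q hQ => by
    rw [Finsupp.mem_support_iff, hZ, Q.ord_inv] at hQ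
    simp only [e, hZ, Q.ord_inv]
    omega
  have hTx : ∀ Q ∈ T, 0 ≤ Q.ord (M.ρ x) := fun Q hQ => by
    refine (mem_iff_ord_nonneg Q hx0).mp ?_
    have h1 : y ∈ Q.toValuationSubring := (mem_iff_ord_nonneg Q hy0).mpr (hTy Q hQ).1.le
    simpa [hy] using add_mem h1 (Q.algebraMap_mem' c)
  obtain ⟨t, ht⟩ := M.exists_triangular hx0 hdeg hs T hTx e
  let v : Option ((v : T) × Fin (e v.1)) → F' := fun o => o.elim z t
  have hvR : ∀ o, M.RegRed (x : F) (v o) := fun o => by
    rcases o with _ | a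
    exacts [hz, (ht a).1]
  -- a relation over `k(x)`
  obtain ⟨p, hp, hpne⟩ : ∃ p : Option ((v : T) × Fin (e v.1)) → Polynomial k,
      ∑ o, Polynomial.aeval (M.ρ x) (p o) * v o = 0 ∧ p ≠ 0 := by
    have hli : ¬ LinearIndependent k⟮M.ρ x⟯ v := fun h => by
      have h1 := h.fintype_card_le_finrank
      rw [Fintype.card_option, Fintype.card_sigma] at h1
      simp only [Fintype.card_fin] at h1
      rw [Finset.sum_coe_sort T e] at h1
      have h2 : ((∑ Q ∈ T, e Q : ℕ) : ℤ) = Module.finrank k⟮M.ρ x⟯ F' := by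
        rw [← hdZ, degree_eq_sum, Finsupp.sum, Nat.cast_sum]
        exact Finset.sum_congr rfl fun Q _ =>
          Int.toNat_of_nonneg (by rw [hZ]; exact le_max_right _ _)
      omega
    obtain ⟨a, ha, o₀, ho₀⟩ := Fintype.not_linearIndependent_iff.mp hli
    choose P R hPR using fun o => (mem_adjoin_simple_iff k ((a o : k⟮M.ρ x⟯) : F')).mp (a o).2
    have hev : ∀ q : Polynomial k, q ≠ 0 → Polynomial.aeval (M.ρ x) q ≠ 0 := fun q hq h0 =>
      hq (transcendental_iff.mp hx q h0)
    let R' : Option ((v : T) × Fin (e v.1)) → Polynomial k := fun o => if R o = 0 then 1 else R o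
    have hR' : ∀ o, R' o ≠ 0 ∧ (a o : F') * Polynomial.aeval (M.ρ x) (R' o) =
        Polynomial.aeval (M.ρ x) (if R o = 0 then 0 else P o) := fun o => by
      simp only [R']
      by_cases h0 : R o = 0
      · simp [h0, hPR o]
      · rw [if_neg h0, if_neg h0]
        exact ⟨h0, by rw [hPR o, div_mul_cancel₀ _ (hev _ h0)]⟩
    refine ⟨fun o => (if R o = 0 then 0 else P o) * ∏ o' ∈ Finset.univ.erase o, R' o', ?_, ?_⟩
    · have e1 : ∀ o, Polynomial.aeval (M.ρ x) ((if R o = 0 then 0 else P o) *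
          ∏ o' ∈ Finset.univ.erase o, R' o') * v o =
          Polynomial.aeval (M.ρ x) (∏ o', R' o') * ((a o : F') * v o) := fun o => by
        rw [map_mul, ← (hR' o).2, ← Finset.mul_prod_erase _ R' (Finset.mem_univ o), map_mul]
        ring
      simp only [e1, ← Finset.mul_sum]
      rw [show ∑ o, (a o : F') * v o = 0 from ha, mul_zero]
    · refine Function.ne_iff.mpr ⟨o₀, mul_ne_zero (fun h0 => ho₀ ?_)
        (Finset.prod_ne_zero_iff.mpr fun o _ => (hR' o).1)⟩
      have := (hR' o₀).2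
      rw [h0, map_zero, mul_eq_zero] at this
      exact Subtype.ext (this.resolve_right (hev _ (hR' o₀).1))
  -- cancel the common zero at `c`
  obtain ⟨a, w, hw, ha, hane⟩ : ∃ (a : Option ((v : T) × Fin (e v.1)) → k) (w : F'),
      M.RegRed (x : F) w ∧ ∑ o, a o • v o = y * w ∧ a ≠ 0 := by
    induction hd : ∑ o, (p o).natDegree using Nat.strong_induction_on generalizing p with
    | _ d ih =>
      by_cases hc : ∀ o, (p o).IsRoot c
      · obtain ⟨q, hq⟩ : ∃ q : Option ((v : T) × Fin (e v.1)) → Polynomial k,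
            ∀ o, p o = (Polynomial.X - Polynomial.C c) * q o :=
          ⟨fun o => (Polynomial.dvd_iff_isRoot.mpr (hc o)).choose,
            fun o => (Polynomial.dvd_iff_isRoot.mpr (hc o)).choose_spec⟩
        have hqne : q ≠ 0 := fun h => hpne (funext fun o => by simp [hq o, h])
        obtain ⟨o₀, ho₀⟩ := Function.ne_iff.mp hqne
        refine ih (∑ o, (q o).natDegree) ?_ q ?_ hqne rfl
        · rw [← hd]
          refine Finset.sum_lt_sum (fun o _ => ?_) ⟨o₀, Finset.mem_univ _, ?_⟩
          · rcases eq_or_ne (q o) 0 with h0 | h0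
            · simp [h0]
            · rw [hq o, Polynomial.natDegree_mul (Polynomial.X_sub_C_ne_zero c) h0]; omega
          · rw [hq o₀, Polynomial.natDegree_mul (Polynomial.X_sub_C_ne_zero c) ho₀,
              Polynomial.natDegree_X_sub_C]
            omega
        · refine mul_left_cancel₀ hy0 ?_
          rw [mul_zero, ← hp, Finset.mul_sum]
          exact Finset.sum_congr rfl fun o _ => by
            rw [hq o, map_mul, map_sub, Polynomial.aeval_X, Polynomial.aeval_C, hy, mul_assoc]
      · push Not at hc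
        obtain ⟨o₀, ho₀⟩ := hc
        have hdvd : ∀ o, ∃ r : Polynomial k,
            p o - Polynomial.C ((p o).eval c) = (Polynomial.X - Polynomial.C c) * r := fun o =>
          Polynomial.X_sub_C_dvd_sub_C_eval
        choose r hr using hdvd
        refine ⟨fun o => (p o).eval c, -∑ o, Polynomial.aeval (M.ρ x) (r o) * v o, ?_, ?_,
          Function.ne_iff.mpr ⟨o₀, ho₀⟩⟩
        · rw [neg_eq_neg_one_mul]
          exact (show M.RegRed (x : F) (-1 : F') by
            simpa using RegRed.const (M := M) (x := (x : F)) (-1 : k)).mul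
            (RegRed.sum _ _ fun o _ => (M.regRed_aeval _).mul (hvR o))
        · rw [mul_neg, eq_neg_iff_add_eq_zero, ← hp, Finset.mul_sum, ← Finset.sum_add_distrib]
          refine Finset.sum_congr rfl fun o _ => ?_
          have e2 := congrArg (Polynomial.aeval (M.ρ x)) (hr o)
          rw [map_sub, map_mul, map_sub, Polynomial.aeval_X, Polynomial.aeval_C,
            Polynomial.aeval_C, sub_eq_iff_eq_add] at e2
          rw [e2, hy, Algebra.smul_def]
          ring
  -- the triangular part vanishes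
  rw [Fintype.sum_option] at ha
  have ha0 : (fun b => a (some b)) = 0 := by
    refine coeff_eq_zero_of_triangular t (fun b => (ht b).2) _ fun Q hQ => ?_
    have e3 : ∑ b, a (some b) • t b = y * w - a none • z := eq_sub_of_add_eq' ha
    rw [e3]
    rcases eq_or_ne (y * w - a none • z) 0 with h0 | h0
    · exact Or.inl h0
    refine Or.inr ?_
    rw [(hTy Q hQ).2]
    have hyw : y * w = 0 ∨ Q.ord y ≤ Q.ord (y * w) := by
      rcases eq_or_ne w 0 with h1 | h1
      · exact Or.inl (by rw [h1, mul_zero])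
      · refine Or.inr ?_
        have := M.ord_nonneg_of_regRed hx0 hdeg hw (hTx Q hQ)
        rw [Q.ord_mul hy0 h1]
        omega
    have haz : a none • z = 0 ∨ Q.ord y ≤ Q.ord (a none • z) := by
      rcases eq_or_ne (a none) 0 with h1 | h1
      · exact Or.inl (by rw [h1, zero_smul])
      · rcases hzord Q (hTy Q hQ).1 with h2 | h2
        · exact Or.inl (by rw [h2, smul_zero])
        · exact Or.inr (by rw [ord_smul_const Q h1]; exact h2)
    rcases hyw with h1 | h1
    · rw [h1, zero_sub, ord_neg]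
      exact haz.resolve_left fun h2 => h0 (by rw [h1, h2, sub_zero])
    rcases haz with h2 | h2
    · rwa [h2, sub_zero]
    rcases eq_or_ne (a none • z) 0 with h3 | h3
    · rwa [h3, sub_zero]
    rcases eq_or_ne (y * w) 0 with h4 | h4
    · rwa [h4, zero_sub, ord_neg]
    have := ord_add_le Q h4 (neg_ne_zero.mpr h3) (by rwa [← sub_eq_add_neg])
    rw [ord_neg, ← sub_eq_add_neg] at this
    omega
  have hnone : a none ≠ 0 := fun h => hane (funext fun o => by
    cases o with
    | none => exact h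
    | some b => exact congrFun ha0 b)
  have hz' : a none • z = y * w := by
    rw [← ha]
    refine (add_eq_left.mpr (Finset.sum_eq_zero fun b _ => ?_)).symm
    show a (some b) • v (some b) = 0
    rw [show a (some b) = 0 from congrFun ha0 b, zero_smul]
  exact ⟨(a none)⁻¹ • w, RegRed.smul _ hw, by
    rw [mul_smul_comm, ← hz', smul_smul, inv_mul_cancel₀ hnone, one_smul]⟩

/-- A smooth reduced chart is the integral closure. -/
theorem regRed_of_regular (hx : Transcendental k (M.ρ x)) [FiniteDimensional k⟮M.ρ x⟯ F']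
    (hdeg : Divisor.degree (poleDiv K (x : F)) = Divisor.degree (poleDiv k (M.ρ x)))
    (hs : M.ChartSmooth x)
    (hden : ∀ y : F', ∃ p : Polynomial k, p ≠ 0 ∧
      M.RegRed (x : F) (Polynomial.aeval (M.ρ x) p * y))
    {y : F'} (hy : ∀ Q : Place k F', 0 ≤ Q.ord (M.ρ x) → 0 ≤ Q.ord y) :
    M.RegRed (x : F) y := by
  obtain ⟨p, hp0, hp⟩ := hden y
  induction hd : p.natDegree using Nat.strong_induction_on generalizing p with
  | _ d ih =>
    rcases Nat.eq_zero_or_pos p.natDegree with h0 | h0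
    · obtain ⟨a, ha⟩ := Polynomial.natDegree_eq_zero.mp h0
      have ha0 : a ≠ 0 := fun h => hp0 (by rw [← ha, h, Polynomial.C_0])
      rw [← ha, Polynomial.aeval_C] at hp
      have h' := RegRed.smul a⁻¹ hp
      rwa [Algebra.smul_def, ← mul_assoc, ← map_mul, inv_mul_cancel₀ ha0, map_one, one_mul] at h'
    obtain ⟨c, hc⟩ := IsAlgClosed.exists_root p
      (Polynomial.natDegree_pos_iff_degree_pos.mp h0).ne'
    obtain ⟨q, hq⟩ := Polynomial.dvd_iff_isRoot.mpr hc
    have hq0 : q ≠ 0 := fun h => hp0 (by rw [hq, h, mul_zero])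
    set t := M.ρ x - algebraMap k F' c
    have hpq : Polynomial.aeval (M.ρ x) p * y = t * (Polynomial.aeval (M.ρ x) q * y) := by
      rw [hq, map_mul, map_sub, Polynomial.aeval_X, Polynomial.aeval_C, mul_assoc]
    have ht0 : t ≠ 0 := fun h => hx ((sub_eq_zero.mp h).symm ▸ isAlgebraic_algebraMap c)
    have hx0 : M.ρ x ≠ 0 := fun h => hx (h ▸ isAlgebraic_zero)
    obtain ⟨z', hz', hzz⟩ := M.exists_div_sub hx hdeg hs c hp fun Q hQ => by
      rcases eq_or_ne (Polynomial.aeval (M.ρ x) q * y) 0 with h1 | h1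
      · exact Or.inl (by rw [hpq, h1, mul_zero])
      refine Or.inr ?_
      have hQx : 0 ≤ Q.ord (M.ρ x) := by
        refine (mem_iff_ord_nonneg Q hx0).mp ?_
        have h2 : t ∈ Q.toValuationSubring := (mem_iff_ord_nonneg Q ht0).mpr hQ.le
        simpa [t] using add_mem h2 (Q.algebraMap_mem' c)
      rw [hpq, Q.ord_mul ht0 h1, Q.ord_mul (left_ne_zero_of_mul h1) (right_ne_zero_of_mul h1)]
      have := hy Q hQx
      have := M.ord_nonneg_of_regRed hx0 hdeg (M.regRed_aeval q) hQx
      have : Q.ord t = Q.ord (M.ρ x - algebraMap k F' c) := rfl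
      omega
    rw [hpq] at hzz
    refine ih q.natDegree ?_ q hq0 (mul_left_cancel₀ ht0 hzz ▸ hz') rfl
    rw [← hd, hq, Polynomial.natDegree_mul (Polynomial.X_sub_C_ne_zero c) hq0,
      Polynomial.natDegree_X_sub_C]
    omega

theorem exists_lift_redW {W : Submodule K F} {y : F'} (hy : y ∈ redW M W) :
    ∃ u : M.V, (u : F) ∈ W ∧ M.ρ u = y := by
  induction hy using Submodule.span_induction with
  | mem y hy => exact hy
  | zero => exact ⟨0, zero_mem _, map_zero _⟩
  | add a b _ _ ha hb =>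
    obtain ⟨u, hu, rfl⟩ := ha
    obtain ⟨u', hu', rfl⟩ := hb
    exact ⟨u + u', add_mem hu hu', map_add _ _ _⟩
  | smul a b _ hb =>
    obtain ⟨u, hu, rfl⟩ := hb
    obtain ⟨a', rfl⟩ := M.π_surjective a
    refine ⟨M.constV a' * u, ?_, M.ρ_constV_mul a' u⟩
    show algebraMap K F a' * (u : F) ∈ W
    rw [← Algebra.smul_def]
    exact W.smul_mem _ hu

/-- The genus is preserved when the two reduced charts along a coordinate are smooth. -/
theorem genus_eq_of_charts {x x' : M.V} (hxx : (x' : F) = (x : F)⁻¹)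
    (hxK : Transcendental K (x : F)) (hx : Transcendental k (M.ρ x))
    [FiniteDimensional K⟮(x : F)⟯ F] [FiniteDimensional k⟮M.ρ x⟯ F']
    (hn : Module.finrank K⟮(x : F)⟯ F = Module.finrank k⟮M.ρ x⟯ F')
    (hs : M.ChartSmooth x) (hs' : M.ChartSmooth x')
    (hden : ∀ y : F', ∃ p : Polynomial k, p ≠ 0 ∧
      M.RegRed (x : F) (Polynomial.aeval (M.ρ x) p * y))
    {g c g' c' : ℕ} (hK : IsRiemann K F g c) (hk : IsRiemann k F' g' c') : g = g' := by
  classical
  have hx0 : M.ρ x ≠ 0 := fun h => hx (h ▸ isAlgebraic_zero)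
  have hxF0 : (x : F) ≠ 0 := fun h => hxK (h ▸ isAlgebraic_zero)
  have hρx' : M.ρ x' = (M.ρ x)⁻¹ := by
    refine eq_inv_of_mul_eq_one_left ?_
    rw [← map_mul, show x' * x = 1 from Subtype.ext (by
      rw [MulMemClass.coe_mul, hxx]; exact inv_mul_cancel₀ hxF0), map_one]
  set P := poleDiv K (x : F) with hP
  set P' := poleDiv k (M.ρ x) with hP'
  obtain ⟨PK, hPK, hdK⟩ := exists_pole_divisor (K := K) (x := (x : F)) ⟨hxK, ‹_›⟩
  obtain ⟨Pk, hPk, hdk⟩ := exists_pole_divisor (K := k) (x := M.ρ x) ⟨hx, ‹_›⟩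
  have hPK' : PK = P := Finsupp.ext fun v => by rw [hPK, hP, poleDiv_apply]
  have hPk' : Pk = P' := Finsupp.ext fun v => by rw [hPk, hP', poleDiv_apply]
  rw [hPK'] at hdK
  rw [hPk', ← hn, ← hdK] at hdk
  have hdeg : Divisor.degree P = Divisor.degree P' := hdk.symm
  have hrP : M.rD P = P' := M.rD_poleDiv hx0 hdeg
  have hdeg' : Divisor.degree (poleDiv K (x' : F)) = Divisor.degree (poleDiv k (M.ρ x')) := by
    have e1 : poleDiv K (x' : F) = P + divOf K (x : F) := Finsupp.ext fun v => by
      rw [Finsupp.add_apply, hP, poleDiv_apply, poleDiv_apply, divOf_apply, hxx, v.ord_inv]; omega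
    have e2 : poleDiv k (M.ρ x') = P' + divOf k (M.ρ x) := Finsupp.ext fun v => by
      rw [Finsupp.add_apply, hP', poleDiv_apply, poleDiv_apply, divOf_apply, hρx', v.ord_inv]
      omega
    rw [e1, e2, map_add, map_add, degree_divOf, degree_divOf, hdeg]
  have hd1 : 1 ≤ Divisor.degree P' := by
    obtain ⟨v, hv⟩ := exists_pole hx
    refine le_trans (by rw [degree_single_one])
      (degree_le_of_le (D := Finsupp.single v 1) (Finsupp.le_def.mpr fun w => ?_))
    rw [Finsupp.single_apply, hP', poleDiv_apply]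
    split_ifs with h
    · subst h; omega
    · omega
  -- triangular elements at the poles
  set T := P'.support
  let e : Place k F' → ℕ := fun Q => (P' Q).toNat
  have hT : ∀ Q ∈ T, Q.ord (M.ρ x) < 0 ∧ (e Q : ℤ) = -Q.ord (M.ρ x) := fun Q hQ => by
    rw [Finsupp.mem_support_iff, hP', poleDiv_apply] at hQ
    simp only [e, hP', poleDiv_apply]
    omega
  obtain ⟨t, ht⟩ := M.exists_triangular (x := x') (by rw [hρx']; exact inv_ne_zero hx0) hdeg' hs' T
    (fun Q hQ => by rw [hρx', Q.ord_inv]; have := (hT Q hQ).1; omega) e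
  choose n u hu huρ using fun a => (ht a).1
  set M₀ := Finset.univ.sup n with hM₀
  have hlift : ∀ (a : (v : T) × Fin (e v.1)) (N : ℕ), M₀ ≤ N →
      (M.ρ x) ^ N * t a ∈ redW M (riemannRochSpace (N • P)) := fun a N hN => by
    refine Submodule.subset_span ⟨x ^ N * u a, ?_, by rw [map_mul, map_pow, huρ]⟩
    show (x : F) ^ N * (u a : F) ∈ riemannRochSpace (N • P)
    rcases eq_or_ne (u a : F) 0 with h0 | h0
    · rw [h0, mul_zero]; exact zero_mem _
    refine mem_space_iff.mpr (Or.inr fun v => ?_)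
    rw [v.ord_mul (pow_ne_zero N hxF0) h0, ord_pow, Finsupp.smul_apply, nsmul_eq_mul, hP,
      poleDiv_apply]
    have h1 := ((mem_space_iff.mp (hu a)).resolve_left h0) v
    rw [Finsupp.smul_apply, nsmul_eq_mul, poleDiv_apply, hxx, v.ord_inv, neg_neg] at h1
    have hna : n a ≤ M₀ := Finset.le_sup (Finset.mem_univ a)
    rcases le_or_gt 0 (v.ord (x : F)) with hv | hv
    · rw [max_eq_left hv] at h1
      rw [max_eq_right (by omega : -v.ord (x : F) ≤ 0)]
      have : (n a : ℤ) * v.ord (x : F) ≤ (N : ℤ) * v.ord (x : F) :=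
        mul_le_mul_of_nonneg_right (by exact_mod_cast (hna.trans hN)) hv
      omega
    · rw [max_eq_right (le_of_lt hv), mul_zero, neg_zero] at h1
      rw [max_eq_left (by omega : (0 : ℤ) ≤ -v.ord (x : F)), mul_neg, neg_neg]
      omega
  have hRle : ∀ N, redW M (riemannRochSpace (N • P)) ≤ riemannRochSpace (N • P') := fun N => by
    rw [← hrP, ← M.rD_nsmul]; exact M.redW_le _
  have hsup : ∀ N, M₀ ≤ N → 0 < N → riemannRochSpace (N • P') ≤
      redW M (riemannRochSpace (N • P)) ⊔ riemannRochSpace ((N - 1) • P') := by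
    intro N hN hN0 y hy
    let Φ : (((v : T) × Fin (e v.1)) → k) →ₗ[k] F' :=
      Fintype.linearCombination k fun a => (M.ρ x) ^ N * t a
    have hΦ : ∀ c, Φ c = (M.ρ x) ^ N * ∑ a, c a • t a := fun c => by
      rw [Fintype.linearCombination_apply, Finset.mul_sum]
      exact Finset.sum_congr rfl fun a _ => (mul_smul_comm _ _ _).symm
    set S := riemannRochSpace (N • P')
    set S' := riemannRochSpace ((N - 1) • P')
    have hS'S : S' ≤ S :=
      space_mono (nsmul_le_nsmul_left (poleDiv_nonneg _) (Nat.sub_le N 1))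
    have hΦS : ∀ c, Φ c ∈ S := fun c => hRle N (by
      rw [Fintype.linearCombination_apply]
      exact Submodule.sum_mem _ fun a _ => Submodule.smul_mem _ _ (hlift a N hN))
    have hinj : ∀ c, Φ c ∈ S' → c = 0 := fun c hc => by
      refine coeff_eq_zero_of_triangular t (fun a => (ht a).2) c fun Q hQ => ?_
      rcases eq_or_ne (∑ a, c a • t a) 0 with h0 | h0
      · exact Or.inl h0
      refine Or.inr ?_
      rw [hΦ] at hc
      have h1 := ((mem_space_iff.mp hc).resolve_left
        (mul_ne_zero (pow_ne_zero N hx0) h0)) Q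
      rw [Q.ord_mul (pow_ne_zero N hx0) h0, ord_pow, Finsupp.smul_apply, nsmul_eq_mul, hP',
        poleDiv_apply, max_eq_left (by have := (hT Q hQ).1; omega), Nat.cast_sub (by omega),
        Nat.cast_one] at h1
      rw [(hT Q hQ).2]
      linarith
    have hcard : Module.finrank k (((v : T) × Fin (e v.1)) → k) = (Divisor.degree P').toNat := by
      rw [Module.finrank_pi, Fintype.card_sigma]
      simp only [Fintype.card_fin]
      rw [Finset.sum_coe_sort T e, degree_eq_sum, Finsupp.sum]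
      apply Int.ofNat_inj.mp
      rw [Nat.cast_sum, Int.toNat_of_nonneg (Finset.sum_nonneg fun Q _ => by
        rw [hP', poleDiv_apply]; exact le_max_right _ _)]
      exact Finset.sum_congr rfl fun Q _ =>
        Int.toNat_of_nonneg (by rw [hP', poleDiv_apply]; exact le_max_right _ _)
    have hΦinj : Function.Injective Φ := LinearMap.ker_eq_bot.mp ((Submodule.eq_bot_iff _).mpr
      fun c hc => hinj c (by rw [LinearMap.mem_ker.mp hc]; exact zero_mem _))
    have hrange : LinearMap.range Φ ⊔ S' ≤ S :=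
      sup_le (LinearMap.range_le_iff_comap.mpr (Submodule.eq_top_iff'.mpr hΦS)) hS'S
    have heq : LinearMap.range Φ ⊔ S' = S := by
      refine Submodule.eq_of_le_of_finrank_le hrange ?_
      have hdis : LinearMap.range Φ ⊓ S' = ⊥ := (Submodule.eq_bot_iff _).mpr fun z hz => by
        obtain ⟨⟨c, rfl⟩, hz2⟩ := hz
        rw [hinj c hz2, map_zero]
      have h1 := Submodule.finrank_sup_add_finrank_inf_eq (LinearMap.range Φ) S'
      rw [hdis, finrank_bot, LinearMap.finrank_range_of_inj hΦinj, hcard] at h1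
      have h2 := ell_le_add (nsmul_le_nsmul_left (poleDiv_nonneg (K := k) (M.ρ x)) (Nat.sub_le N 1))
      rw [map_nsmul, map_nsmul, nsmul_eq_mul, nsmul_eq_mul, Nat.cast_sub (by omega), ← hP'] at h2
      push_cast at h2
      rw [sub_mul, one_mul] at h2
      change (Module.finrank k S : ℤ) ≤ Module.finrank k S' + _ at h2
      omega
    rw [← heq] at hy
    refine (show LinearMap.range Φ ⊔ S' ≤ _ from sup_le_sup_right ?_ _) hy
    rintro _ ⟨c, rfl⟩
    rw [Fintype.linearCombination_apply]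
    exact Submodule.sum_mem _ fun a _ => Submodule.smul_mem _ _ (hlift a N hN)
  -- descent to a small degree
  set m := M₀ + c + c' + 1 with hm
  have hdm : ∀ N : ℕ, m ≤ N → (c : ℤ) ≤ N * Divisor.degree P' ∧ (c' : ℤ) ≤ N * Divisor.degree P' :=
    fun N hN => by
      have : (N : ℤ) * 1 ≤ N * Divisor.degree P' :=
        mul_le_mul_of_nonneg_left hd1 (Int.natCast_nonneg N)
      omega
  have heqK : ∀ N, m ≤ N → (ell (N • P) : ℤ) = N * Divisor.degree P' + 1 - g := fun N hN => by
    have := hK.eq (N • P) (by rw [map_nsmul, hdeg, nsmul_eq_mul]; exact (hdm N hN).1)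
    rwa [map_nsmul, hdeg, nsmul_eq_mul] at this
  have heqk : ∀ N, m ≤ N → (ell (N • P') : ℤ) = N * Divisor.degree P' + 1 - g' := fun N hN => by
    have := hk.eq (N • P') (by rw [map_nsmul, nsmul_eq_mul]; exact (hdm N hN).2)
    rwa [map_nsmul, nsmul_eq_mul] at this
  have hdesc : ∀ N, m < N → redW M (riemannRochSpace (N • P)) ⊓ riemannRochSpace ((N - 1) • P') ≤
      redW M (riemannRochSpace ((N - 1) • P)) := fun N hN => by
    have hle : redW M (riemannRochSpace ((N - 1) • P)) ≤
        redW M (riemannRochSpace (N • P)) ⊓ riemannRochSpace ((N - 1) • P') :=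
      le_inf (redW_mono M (space_mono (nsmul_le_nsmul_left (poleDiv_nonneg _) (Nat.sub_le N 1))))
        (hRle _)
    haveI : FiniteDimensional k (redW M (riemannRochSpace (N • P))) :=
      Submodule.finiteDimensional_of_le (hRle N)
    refine (Submodule.eq_of_le_of_finrank_le hle ?_).ge
    rw [M.finrank_redW_eq]
    have h1 := Submodule.finrank_sup_add_finrank_inf_eq (redW M (riemannRochSpace (N • P)))
      (riemannRochSpace ((N - 1) • P'))
    have hs1 : Module.finrank k ↥(redW M (riemannRochSpace (N • P)) ⊔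
        riemannRochSpace ((N - 1) • P')) = ell (N • P') := by
      rw [le_antisymm (sup_le (hRle N) (space_mono (nsmul_le_nsmul_left (poleDiv_nonneg _)
        (Nat.sub_le N 1)))) (hsup N (by omega) (by omega))]
    rw [hs1, M.finrank_redW_eq] at h1
    have e1 := heqK N (by omega)
    have e2 := heqK (N - 1) (by omega)
    have e3 := heqk N (by omega)
    have e4 := heqk (N - 1) (by omega)
    rw [Nat.cast_sub (by omega), Nat.cast_one, sub_mul, one_mul] at e2 e4
    simp only [ell] at *
    omega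
  have hle : riemannRochSpace (m • P') ≤ redW M (riemannRochSpace (m • P)) := by
    intro y hy
    obtain ⟨N, w, hw, hwy⟩ := M.regRed_of_regular hx hdeg hs hden (y := y) fun Q hQ => by
      rcases eq_or_ne y 0 with rfl | hy0
      · rw [Q.ord_zero]
      have := ((mem_space_iff.mp hy).resolve_left hy0) Q
      rw [Finsupp.smul_apply, hP', poleDiv_apply, max_eq_right (by omega), nsmul_zero,
        neg_zero] at this
      exact this
    have hin : ∀ d, m + d ≥ N → y ∈ redW M (riemannRochSpace ((m + d) • P)) := fun d hd =>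
      Submodule.subset_span ⟨w, space_mono (nsmul_le_nsmul_left (poleDiv_nonneg _) hd) hw, hwy⟩
    suffices hkey : ∀ d, y ∈ redW M (riemannRochSpace ((m + d) • P)) →
        y ∈ redW M (riemannRochSpace (m • P)) from hkey N (hin N (Nat.le_add_left N m))
    intro d
    induction d with
    | zero => exact id
    | succ d ih =>
      intro hmem
      refine ih ?_
      have := hdesc (m + (d + 1)) (by omega) ⟨hmem, by
        rw [show m + (d + 1) - 1 = m + d by omega]
        exact space_mono (nsmul_le_nsmul_left (poleDiv_nonneg _) (Nat.le_add_right m d)) hy⟩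
      rwa [show m + (d + 1) - 1 = m + d by omega] at this
  have hmono := Submodule.finrank_mono (R := k) (hRle m)
  haveI : FiniteDimensional k (redW M (riemannRochSpace (m • P))) :=
    Submodule.finiteDimensional_of_le (hRle m)
  have hmono' := Submodule.finrank_mono hle
  rw [M.finrank_redW_eq] at hmono hmono'
  have e1 := heqK m le_rfl
  have e2 := heqk m le_rfl
  simp only [ell] at *
  omega

end RedModel

end Fermat.Agent.MCurve.Flat
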