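/-
Rigidification by good places on the reduced curve, and evaluation of integral functions at them.
-/
import Fermat.Agent.MCurve.Flat.Lattice
import Fermat.Agent.MCurve.Spec.NormValue

set_option autoImplicit false
set_option linter.unusedSectionVars false

noncomputable section

namespace Fermat.Agent.MCurve.Flat

open AlgebraicCurve IsLocalRing
open Fermat.Agent.MCurve.RR

section Eval

variable {K F : Type} [Field K] [Field F] [Algebra K F] [IsAlgClosed K]
  [hR : ∀ v : Place K F, v.FiniteResidue]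

instance instFiniteResidueModule (v : Place K F) : Module.Finite K v.ResidueField := (hR v).finite

theorem mem_place_of_space {D : Divisor K F} {f : F} (hf : f ∈ riemannRochSpace D) {P : Place K F}
    (hP : D P ≤ 0) : f ∈ P.toValuationSubring := by
  rcases eq_or_ne f 0 with rfl | h0
  · exact zero_mem _
  refine (mem_iff_ord_nonneg P h0).mpr ?_
  have := ((mem_space_iff.mp hf).resolve_left h0) P
  omega

/-- The value at a place of the functions of a space regular there. -/
def evalAtPlace (D : Divisor K F) (P : Place K F) (hP : D P ≤ 0) : riemannRochSpace D →ₗ[K] K where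
  toFun f := placeVal P ⟨f, mem_place_of_space f.2 hP⟩
  map_add' f f' := by rw [← map_add]; rfl
  map_smul' a f := by
    rw [RingHom.id_apply, smul_eq_mul]
    refine (congrArg (placeVal P) (?_ : _ = algebraMap K P.toValuationSubring a *
      ⟨f, mem_place_of_space f.2 hP⟩)).trans (by rw [map_mul, placeVal_algebraMap])
    exact Subtype.ext (Algebra.smul_def a (f : F))

theorem ord_sub_evalAtPlace {D : Divisor K F} {P : Place K F} (hP : D P ≤ 0)
    (f : riemannRochSpace D) : (f : F) - algebraMap K F (evalAtPlace D P hP f) = 0 ∨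
      0 < P.ord ((f : F) - algebraMap K F (evalAtPlace D P hP f)) := by
  have h : placeVal P ((⟨f, mem_place_of_space f.2 hP⟩ : P.toValuationSubring) -
      algebraMap K P.toValuationSubring (evalAtPlace D P hP f)) = 0 := by
    rw [map_sub (placeVal P), placeVal_algebraMap]
    exact sub_self _
  exact (placeVal_eq_zero_iff P _).mp h

/-- The values at a family of places. -/
def evalPts {ι : Type} (D : Divisor K F) (Q : ι → Place K F) (hQ : ∀ j, D (Q j) ≤ 0) :
    riemannRochSpace D →ₗ[K] ι → K :=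
  LinearMap.pi fun j => evalAtPlace D (Q j) (hQ j)

theorem mem_sub_single {D : Divisor K F} {v : Place K F} (hv : D v = 0) {f : F}
    (hf : f ∈ riemannRochSpace D) (h : f = 0 ∨ 0 < v.ord f) :
    f ∈ riemannRochSpace (D - Finsupp.single v 1) := by
  classical
  rcases eq_or_ne f 0 with rfl | h0
  · exact zero_mem _
  refine mem_space_iff.mpr (Or.inr fun w => ?_)
  have := ((mem_space_iff.mp hf).resolve_left h0) w
  rw [Finsupp.sub_apply, Finsupp.single_apply]
  split_ifs with hw
  · subst hw
    have := h.resolve_left h0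
    omega
  · omega

theorem mem_sub_pts {D : Divisor K F} {ι : Type} (s : Finset ι) {v : ι → Place K F}
    (hinj : Function.Injective v) (hv : ∀ j, D (v j) = 0) {f : F} (hf : f ∈ riemannRochSpace D)
    (h : ∀ j ∈ s, f = 0 ∨ 0 < (v j).ord f) :
    f ∈ riemannRochSpace (D - ∑ j ∈ s, Finsupp.single (v j) 1) := by
  classical
  induction s using Finset.induction with
  | empty => simpa using hf
  | insert j s hj ih =>
    rw [Finset.sum_insert hj, add_comm, ← sub_sub]
    refine mem_sub_single ?_ (ih fun i hi => h i (Finset.mem_insert_of_mem hi))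
      (h j (Finset.mem_insert_self j s))
    rw [Finsupp.sub_apply, hv, Finsupp.finsetSum_apply, Finset.sum_eq_zero, sub_zero]
    intro i hi
    exact Finsupp.single_eq_of_ne' fun he => hj (hinj he ▸ hi)

end Eval

namespace RedModel

variable {K F k F' : Type} [Field K] [Field F] [Algebra K F] [Field k] [Field F'] [Algebra k F']
  {A : ValuationSubring K} (M : RedModel K F k F' A) [IsAlgClosed K] [IsAlgClosed k]
  [∀ v : Place K F, v.FiniteResidue] [∀ v : Place k F', v.FiniteResidue]
  [HasPrincipalDivisors K F] [HasPrincipalDivisors k F'] [Nonempty (Place K F)]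
  [Nonempty (Place k F')]

/-- The value of an integral function at a place where the fibre of the reduction is free of poles is
integral, and reduces to the value of the reduction. -/
theorem evalAtPlace_spec {D : Divisor K F} {P : Place K F}
    (hfib : ∀ P', M.r P' = M.r P → D P' ≤ 0) (u : M.V) (hu : (u : F) ∈ riemannRochSpace D) :
    ∃ ha : evalAtPlace D P (hfib P rfl) ⟨u, hu⟩ ∈ A,
      M.ρ u - algebraMap k F' (M.π ⟨_, ha⟩) = 0 ∨
        0 < (M.r P).ord (M.ρ u - algebraMap k F' (M.π ⟨_, ha⟩)) := by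
  classical
  set a := evalAtPlace D P (hfib P rfl) ⟨u, hu⟩
  have hord := ord_sub_evalAtPlace (hfib P rfl) (⟨u, hu⟩ : riemannRochSpace D)
  have hreg : ∀ P', M.r P' = M.r P → (u : F) = 0 ∨ 0 ≤ P'.ord (u : F) := fun P' hP' =>
    (mem_space_iff.mp hu).imp id fun h => by
      have := h P'
      have := hfib P' hP'
      omega
  have key : ∀ w : M.V, M.ρ w ≠ 0 → (∀ P', M.r P' = M.r P → 0 ≤ P'.ord (w : F)) →
      0 < P.ord (w : F) → 0 < (M.r P).ord (M.ρ w) := by
    intro w hw hnn hpos
    rw [← M.ord_ρ w hw _ (fun P' => divOf_apply _ P') (M.r P), ← rD, rD_apply]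
    refine Finset.sum_pos' (fun P' _ => ?_) ⟨P, ?_, ?_⟩
    · show (0 : ℤ) ≤ if M.r P' = M.r P then divOf K (w : F) P' else 0
      split_ifs with h
      · rw [divOf_apply]; exact hnn P' h
      · rfl
    · rw [Finsupp.mem_support_iff, divOf_apply]; omega
    · show (0 : ℤ) < if M.r P = M.r P then divOf K (w : F) P else 0
      rw [if_pos rfl, divOf_apply]; exact hpos
  have hnn : ∀ (b : K) (P' : Place K F), M.r P' = M.r P → 0 ≤ P'.ord ((u : F) - algebraMap K F b) := by
    intro b P' hP'
    rcases eq_or_ne ((u : F) - algebraMap K F b) 0 with h0 | h0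
    · rw [h0, P'.ord_zero]
    refine (mem_iff_ord_nonneg P' h0).mp (sub_mem ?_ (P'.algebraMap_mem' b))
    rcases hreg P' hP' with h | h
    · rw [h]; exact zero_mem _
    · rcases eq_or_ne (u : F) 0 with h1 | h1
      · rw [h1]; exact zero_mem _
      · exact (mem_iff_ord_nonneg P' h1).mpr h
  by_cases ha : a ∈ A
  · refine ⟨ha, ?_⟩
    set w : M.V := u - M.constV ⟨a, ha⟩
    have hρw : M.ρ w = M.ρ u - algebraMap k F' (M.π ⟨a, ha⟩) := by
      rw [map_sub, constV, M.ρ_const]
    rw [← hρw]
    rcases eq_or_ne (M.ρ w) 0 with h0 | h0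
    · exact Or.inl h0
    refine Or.inr (key w h0 (fun P' hP' => hnn a P' hP') (hord.resolve_left fun h => h0 ?_))
    rw [show w = 0 from Subtype.ext h, map_zero]
  · exfalso
    obtain ⟨t, ht, ht0⟩ := M.π_inv_eq_zero ha
    have ha0 : a ≠ 0 := fun h => ha (h ▸ zero_mem _)
    set w : M.V := M.constV t * u - 1
    have hρw : M.ρ w = -1 := by rw [map_sub, ρ_constV_mul, ht0, zero_smul, map_one, zero_sub]
    have hwF : (w : F) = algebraMap K F a⁻¹ * ((u : F) - algebraMap K F a) := by
      rw [show ((w : M.V) : F) = algebraMap K F (t : K) * u - 1 from rfl, ht, mul_sub, ← map_mul,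
        inv_mul_cancel₀ ha0, map_one]
    have hconst : algebraMap K F a⁻¹ ≠ 0 := by simpa using ha0
    have hua : (u : F) - algebraMap K F a ≠ 0 := fun h => by
      have : w = 0 := Subtype.ext (by rw [hwF, h, mul_zero]; rfl)
      rw [this, map_zero] at hρw
      exact one_ne_zero (neg_eq_zero.mp hρw.symm)
    have hwo : ∀ P' : Place K F, P'.ord (w : F) = P'.ord ((u : F) - algebraMap K F a) := fun P' => by
      rw [hwF, P'.ord_mul hconst hua, ord_algebraMap P', zero_add]
    have := key w (by rw [hρw]; simp) (fun P' hP' => hwo P' ▸ hnn a P' hP')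
      (hwo P ▸ hord.resolve_left hua)
    rw [hρw, ord_neg, Place.ord_one] at this
    omega

/-- Functions with integral values at enough places are integral. -/
theorem mem_V_of_eval {D : Divisor K F} {ι : Type} [Fintype ι] {Q : ι → Place K F}
    (hinj : Function.Injective fun j => M.r (Q j))
    (hfib : ∀ j P', M.r P' = M.r (Q j) → D P' = 0)
    (hkill : ell (M.rD D - ∑ j, Finsupp.single (M.r (Q j)) 1) = 0)
    (f : riemannRochSpace D)
    (hf : ∀ j, evalPts D Q (fun j => (hfib j _ rfl).le) f j ∈ A) : (f : F) ∈ M.V := by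
  classical
  obtain ⟨b, hli, hbD, hspan, -⟩ := M.exists_basis (riemannRochSpace D)
  obtain ⟨c, hc⟩ := (Submodule.mem_span_range_iff_exists_fun K).mp
    (show (f : F) ∈ _ from hspan.le f.2)
  by_cases hall : ∀ i, c i ∈ A
  · rw [← hc]
    refine Subring.sum_mem M.V.toSubring fun i _ => ?_
    rw [Algebra.smul_def]
    exact mul_mem (M.const_mem ⟨c i, hall i⟩) (b i).2
  exfalso
  push Not at hall
  obtain ⟨i, hi⟩ := hall
  obtain ⟨i₀, -, hmax⟩ := Finset.exists_max_image Finset.univ (fun j => A.valuation (c j))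
    ⟨i, Finset.mem_univ _⟩
  have hi₀ : c i₀ ∉ A := fun h => hi ((A.valuation_le_one_iff _).mp
    ((hmax i (Finset.mem_univ _)).trans ((A.valuation_le_one_iff _).mpr h)))
  have h0 : c i₀ ≠ 0 := fun h => hi₀ (h ▸ zero_mem _)
  obtain ⟨t, ht, ht0⟩ := M.π_inv_eq_zero hi₀
  have hmem : ∀ j, (c i₀)⁻¹ * c j ∈ A := fun j => by
    rw [← A.valuation_le_one_iff, map_mul, map_inv₀]
    exact inv_mul_le_one_of_le₀ (hmax j (Finset.mem_univ _)) zero_le
  set u : M.V := ∑ j, M.constV ⟨_, hmem j⟩ * b j
  have huF : (u : F) = (c i₀)⁻¹ • (f : F) := by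
    rw [← hc, Finset.smul_sum]
    refine (map_sum (M.V.subtype) (fun j => M.constV ⟨_, hmem j⟩ * b j) _).trans ?_
    exact Finset.sum_congr rfl fun j _ => by rw [smul_smul, Algebra.smul_def]; rfl
  have hu : (u : F) ∈ riemannRochSpace D := huF ▸ Submodule.smul_mem _ _ f.2
  have hρu : M.ρ u ≠ 0 := fun h => by
    simp only [u, map_sum, ρ_constV_mul] at h
    have := Fintype.linearIndependent_iff.mp hli _ h i₀
    rw [show (⟨_, hmem i₀⟩ : A) = 1 from Subtype.ext (inv_mul_cancel₀ h0), map_one] at this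
    exact one_ne_zero this
  have hrD : ∀ j, M.rD D (M.r (Q j)) = 0 := fun j => by
    rw [rD_apply]
    exact Finset.sum_eq_zero fun P' _ => by
      show (if M.r P' = M.r (Q j) then D P' else 0) = 0
      split_ifs with h
      · exact hfib j P' h
      · rfl
  have hbot : riemannRochSpace (M.rD D - ∑ j, Finsupp.single (M.r (Q j)) 1) = ⊥ :=
    Submodule.finrank_eq_zero.mp hkill
  refine hρu ((Submodule.mem_bot k).mp (hbot ▸ mem_sub_pts Finset.univ hinj hrD (M.ρ_mem_space hu)
    fun j _ => ?_))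
  obtain ⟨ha, h⟩ := M.evalAtPlace_spec (fun P' hP' => (hfib j P' hP').le) u hu
  have hz : M.π ⟨_, ha⟩ = 0 := by
    have e : (⟨_, ha⟩ : A) = t * ⟨_, hf j⟩ := Subtype.ext (by
      show evalAtPlace D (Q j) ((hfib j _ rfl).le) ⟨u, hu⟩ =
        (t : K) * evalAtPlace D (Q j) ((hfib j _ rfl).le) f
      rw [ht, ← smul_eq_mul, ← map_smul]
      exact congrArg _ (Subtype.ext huF))
    rw [e, map_mul, ht0, zero_mul]
  rwa [hz, map_zero, sub_zero] at h

theorem evalPts_injective {D : Divisor K F} {ι : Type} [Fintype ι] {Q : ι → Place K F}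
    (hinj : Function.Injective fun j => M.r (Q j)) (hQ : ∀ j, D (Q j) = 0)
    (hkill : ell (M.rD D - ∑ j, Finsupp.single (M.r (Q j)) 1) = 0) :
    Function.Injective (evalPts D Q fun j => (hQ j).le) := by
  classical
  rw [← LinearMap.ker_eq_bot, Submodule.eq_bot_iff]
  intro f hf
  have hmem : (f : F) ∈ riemannRochSpace (D - ∑ j, Finsupp.single (Q j) 1) :=
    mem_sub_pts Finset.univ (fun a b h => hinj (congrArg M.r h)) hQ f.2 fun j _ => by
      have := ord_sub_evalAtPlace (hQ j).le f
      rwa [show evalAtPlace D (Q j) (hQ j).le f = 0 from congrFun hf j, map_zero, sub_zero] at this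
  have h0 : ell (D - ∑ j, Finsupp.single (Q j) 1) = 0 := by
    refine Nat.le_zero.mp ((M.ell_le_rD _).trans (le_of_eq ?_))
    rw [rD_sub, show M.rD (∑ j, Finsupp.single (Q j) 1) = ∑ j, Finsupp.single (M.r (Q j)) 1 from
      (map_sum (Finsupp.mapDomain.addMonoidHom M.r) _ _).trans
        (Finset.sum_congr rfl fun j _ => Finsupp.mapDomain_single)]
    exact hkill
  exact Subtype.ext ((Submodule.mem_bot K).mp (Submodule.finrank_eq_zero.mp h0 ▸ hmem))

theorem evalPts_bijective {D : Divisor K F} {ι : Type} [Fintype ι] {Q : ι → Place K F}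
    (hinj : Function.Injective fun j => M.r (Q j)) (hQ : ∀ j, D (Q j) = 0)
    (hkill : ell (M.rD D - ∑ j, Finsupp.single (M.r (Q j)) 1) = 0)
    (hcard : Fintype.card ι = ell D) :
    Function.Bijective (evalPts D Q fun j => (hQ j).le) :=
  ⟨M.evalPts_injective hinj hQ hkill, (LinearMap.injective_iff_surjective_of_finrank_eq_finrank
    (by rw [Module.finrank_pi]; exact hcard.symm)).mp (M.evalPts_injective hinj hQ hkill)⟩

/-- The rigidifying data: a divisor `G` of degree `g` and `m = ell (n G)` good points. -/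
theorem exists_rigid {g cK ck : ℕ} (hK : IsRiemann K F g cK) (hk : IsRiemann k F' g ck)
    {good : Place K F → Prop} (hgood : ∀ s : Finset (Place k F'), ∃ P, good P ∧ M.r P ∉ s)
    (P₀ : Place K F) {ι : Type} [Finite ι] (D : ι → Divisor K F)
    (hD : ∀ i, Divisor.degree (D i) = 0) {n : ℕ} (hnK : (cK : ℤ) ≤ n * g)
    (hnk : (ck : ℤ) + g ≤ n * g) :
    ∃ (G : Divisor K F) (m : ℕ) (Q : Fin m → Place K F),
      (∃ (a : ℕ) (T : Finset (Place K F)), (∀ P ∈ T, good P) ∧
        G = Finsupp.single P₀ (a : ℤ) - ∑ P ∈ T, Finsupp.single P 1) ∧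
      Divisor.degree G = g ∧ m = ell (n • G) ∧ g ≤ m ∧
      (∀ i, ell (D i + G) = 1 ∧ ell (M.rD (D i + G)) = 1) ∧
      (∀ j, good (Q j)) ∧ Function.Injective (fun j => M.r (Q j)) ∧
      (∀ j P', M.r P' = M.r (Q j) → G P' = 0) ∧
      (∀ i j E, 0 ≤ E → E - M.rD (D i + G) ∈ Divisor.principal (K := k) (F := F') →
        E (M.r (Q j)) = 0) ∧
      (∀ i E, E - M.rD (D i + G) ∈ Divisor.principal (K := k) (F := F') →
        ell (n • M.rD G - E -
          ∑ j ∈ Finset.univ.filter (fun j : Fin m => (j : ℕ) < m - g),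
            Finsupp.single (M.r (Q j)) 1) = 0) ∧
      ell (M.rD (n • G) - ∑ j, Finsupp.single (M.r (Q j)) 1) = 0 := by
  classical
  let p : Place k F' → Prop := fun v => ∃ P, good P ∧ M.r P = v
  have hp : ∀ s : Finset (Place k F'), ∃ v, p v ∧ v ∉ s := fun s => by
    obtain ⟨P, hP, hs⟩ := hgood s
    exact ⟨M.r P, ⟨P, hP, rfl⟩, hs⟩
  let lift : Place k F' → Place K F := fun v => if h : p v then h.choose else P₀
  have hlift : ∀ v, p v → good (lift v) ∧ M.r (lift v) = v := fun v h => by
    simp only [lift, dif_pos h]; exact h.choose_spec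
  have hsum : ∀ T : Finset (Place k F'), (∀ v ∈ T, p v) →
      M.rD (∑ v ∈ T, Finsupp.single (lift v) 1) = ∑ v ∈ T, Finsupp.single v 1 := fun T hT =>
    (map_sum (Finsupp.mapDomain.addMonoidHom M.r) _ _).trans (Finset.sum_congr rfl fun v hv =>
      Finsupp.mapDomain_single.trans (by rw [(hlift v (hT v hv)).2]))
  -- the divisor `G`
  set B : Divisor K F := Finsupp.single P₀ ((ck + g : ℕ) : ℤ) with hB
  have hdB : Divisor.degree B = (ck : ℤ) + g := by
    rw [hB, Divisor.degree_single, deg_one]; push_cast; ring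
  have hell : ∀ i, (ell (M.rD (D i + B)) : ℤ) = ck + 1 := fun i => by
    have := hk.eq (M.rD (D i + B)) (by rw [M.degree_rD, map_add, hD, hdB]; omega)
    rw [M.degree_rD, map_add, hD, hdB] at this
    omega
  obtain ⟨T, hT, -, hTp, hTdrop⟩ := exists_subtract_of hp (fun i => M.rD (D i + B)) ck
    (fun i => by have := hell i; omega) ∅
  set G : Divisor K F := B - ∑ v ∈ T, Finsupp.single (lift v) 1 with hG
  have hdG : Divisor.degree G = g := by
    rw [hG, map_sub, hdB, map_sum]
    simp only [degree_single_one, Finset.sum_const, hT]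
    simp
  have hrG : M.rD G = M.rD B - ∑ v ∈ T, Finsupp.single v 1 := by rw [hG, rD_sub, hsum T hTp]
  have h1 : ∀ i, ell (M.rD (D i + G)) = 1 := fun i => by
    have e : M.rD (D i + G) = M.rD (D i + B) - ∑ v ∈ T, Finsupp.single v 1 := by
      rw [rD_add, hrG, rD_add, add_sub_assoc]
    have := hTdrop i
    have := hell i
    rw [e]
    omega
  -- the points
  have hnG : (ell (n • G) : ℤ) = n * g + 1 - g := by
    have := hK.eq (n • G) (by rw [map_nsmul, hdG, nsmul_eq_mul]; exact hnK)
    rwa [map_nsmul, hdG, nsmul_eq_mul] at this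
  have hnrG : (ell (M.rD (n • G)) : ℤ) = n * g + 1 - g := by
    have := hk.eq (M.rD (n • G)) (by
      rw [M.degree_rD, map_nsmul, hdG, nsmul_eq_mul]; omega)
    rwa [M.degree_rD, map_nsmul, hdG, nsmul_eq_mul] at this
  set m := ell (n • G) with hm
  have hgm : g ≤ m := by
    have h := hk.eq (M.rD (n • G - G)) (by
      rw [M.degree_rD, map_sub, map_nsmul, hdG, nsmul_eq_mul]; omega)
    rw [M.degree_rD, map_sub, map_nsmul, hdG, nsmul_eq_mul] at h
    omega
  have hdiff : ∀ i, (ell (M.rD (n • G) - M.rD (D i + G)) : ℤ) = (m : ℤ) - g := fun i => by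
    have := hk.eq (M.rD (n • G) - M.rD (D i + G)) (by
      rw [map_sub, M.degree_rD, M.degree_rD, map_add, hD, map_nsmul, hdG, nsmul_eq_mul]; omega)
    rw [map_sub, M.degree_rD, M.degree_rD, map_add, hD, map_nsmul, hdG, nsmul_eq_mul] at this
    omega
  cases nonempty_fintype ι
  choose Ei hEi0 hEip using fun i => exists_effective (D := M.rD (D i + G)) (by rw [h1 i]; norm_num)
  set S : Finset (Place k F') :=
    G.support.image M.r ∪ Finset.univ.biUnion fun i => (Ei i).support with hS
  let fam : Option ι → Divisor k F' := fun o =>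
    o.elim (M.rD (n • G)) fun i => M.rD (n • G) - M.rD (D i + G)
  obtain ⟨T₁, hT₁, hT₁S, hT₁p, hT₁drop⟩ := exists_subtract_of hp fam (m - g) (fun o => by
    rcases o with _ | i
    · show m - g ≤ ell (M.rD (n • G)); omega
    · show m - g ≤ ell (M.rD (n • G) - M.rD (D i + G)); have := hdiff i; omega) S
  obtain ⟨T₂, hT₂, hT₂S, hT₂p, hT₂drop⟩ := exists_subtract_of hp
    (fun _ : Unit => M.rD (n • G) - ∑ v ∈ T₁, Finsupp.single v 1) g (fun _ => by
      have : ell (M.rD (n • G) - ∑ v ∈ T₁, Finsupp.single v 1) + (m - g) = ell (M.rD (n • G)) :=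
        hT₁drop none
      omega) (S ∪ T₁)
  obtain ⟨hT₂S', hT₂T₁⟩ := Finset.disjoint_union_right.mp hT₂S
  let e₁ := T₁.equivFinOfCardEq hT₁
  let e₂ := T₂.equivFinOfCardEq hT₂
  have hmm : m - g + g = m := Nat.sub_add_cancel hgm
  let R : Fin m → Place k F' := fun j =>
    Fin.addCases (fun a => (e₁.symm a : Place k F')) (fun a => (e₂.symm a : Place k F'))
      (Fin.cast hmm.symm j)
  have hRp : ∀ j, p (R j) ∧ R j ∉ S := fun j => by
    obtain ⟨a, rfl⟩ : ∃ a, Fin.cast hmm a = j := ⟨Fin.cast hmm.symm j, by simp⟩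
    induction a using Fin.addCases with
    | left a => simpa [R] using ⟨hT₁p _ (e₁.symm a).2, Finset.disjoint_left.mp hT₁S (e₁.symm a).2⟩
    | right a => simpa [R] using ⟨hT₂p _ (e₂.symm a).2, Finset.disjoint_left.mp hT₂S' (e₂.symm a).2⟩
  have hRinj : Function.Injective R := fun j j' h => by
    obtain ⟨a, rfl⟩ : ∃ a, Fin.cast hmm a = j := ⟨Fin.cast hmm.symm j, by simp⟩
    obtain ⟨b, rfl⟩ : ∃ a, Fin.cast hmm a = j' := ⟨Fin.cast hmm.symm j', by simp⟩
    induction a using Fin.addCases with
    | left a =>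
      induction b using Fin.addCases with
      | left b => simp [R] at h; simp [h]
      | right b =>
        simp [R] at h
        exact absurd (h ▸ (e₁.symm a).2) (Finset.disjoint_left.mp hT₂T₁ (e₂.symm b).2)
    | right a =>
      induction b using Fin.addCases with
      | left b =>
        simp [R] at h
        exact absurd (h.symm ▸ (e₁.symm b).2) (Finset.disjoint_left.mp hT₂T₁ (e₂.symm a).2)
      | right b => simp [R] at h; simp [h]
  have hsum₁ : ∑ j ∈ Finset.univ.filter (fun j : Fin m => (j : ℕ) < m - g),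
      Finsupp.single (R j) (1 : ℤ) = ∑ v ∈ T₁, Finsupp.single v 1 := by
    rw [Finset.sum_filter, ← (finCongr hmm).sum_comp, Fin.sum_univ_add, ← Finset.sum_coe_sort T₁,
      ← e₁.symm.sum_comp]
    simp [R]
  have hsum₂ : ∑ j, Finsupp.single (R j) (1 : ℤ) =
      ∑ v ∈ T₁, Finsupp.single v 1 + ∑ v ∈ T₂, Finsupp.single v 1 := by
    rw [← (finCongr hmm).sum_comp, Fin.sum_univ_add, ← Finset.sum_coe_sort T₁, ← e₁.symm.sum_comp,
      ← Finset.sum_coe_sort T₂, ← e₂.symm.sum_comp]
    simp [R]
  refine ⟨G, m, fun j => lift (R j), ⟨ck + g, T.image lift, ?_, ?_⟩, hdG, rfl, hgm,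
    fun i => ⟨?_, h1 i⟩, fun j => (hlift _ (hRp j).1).1, ?_, ?_, ?_, ?_, ?_⟩
  · simp only [Finset.forall_mem_image]
    exact fun v hv => (hlift v (hTp v hv)).1
  · rw [hG, Finset.sum_image fun v hv w hw h => by
      rw [← (hlift v (hTp v hv)).2, h, (hlift w (hTp w hw)).2]]
  · have h := M.ell_le_rD (D i + G)
    have h' := hK.le (D i + G)
    rw [map_add, hD, hdG] at h'
    rw [h1] at h
    omega
  · intro a b h
    simp only [(hlift _ (hRp _).1).2] at h
    exact hRinj h
  · intro j P' hP'
    rw [(hlift _ (hRp j).1).2] at hP'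
    by_contra hne
    exact (hRp j).2 (hP' ▸ Finset.mem_union_left _
      (Finset.mem_image_of_mem _ (Finsupp.mem_support_iff.mpr hne)))
  · intro i j E hE0 hE
    rw [(hlift _ (hRp j).1).2, effective_unique (h1 i) hE0 (hEi0 i) hE (hEip i)]
    by_contra hne
    exact (hRp j).2 (Finset.mem_union_right _
      (Finset.mem_biUnion.mpr ⟨i, Finset.mem_univ _, Finsupp.mem_support_iff.mpr hne⟩))
  · intro i E hE
    simp only [(hlift _ (hRp _).1).2]
    rw [hsum₁]
    have heq : ell (n • M.rD G - E - ∑ v ∈ T₁, Finsupp.single v 1) =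
        ell (fam (some i) - ∑ v ∈ T₁, Finsupp.single v 1) := by
      refine ell_eq_of_principal ?_
      show (n • M.rD G - E - _) - (M.rD (n • G) - M.rD (D i + G) - _) ∈ _
      rw [rD_nsmul, show n • M.rD G - E - ∑ v ∈ T₁, Finsupp.single v 1 -
          (n • M.rD G - M.rD (D i + G) - ∑ v ∈ T₁, Finsupp.single v 1) =
          -(E - M.rD (D i + G)) by abel]
      exact neg_mem hE
    have h2 : ell (fam (some i) - ∑ v ∈ T₁, Finsupp.single v 1) + (m - g) = ell (fam (some i)) :=
      hT₁drop (some i)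
    have h3 : ell (fam (some i)) = m - g := by
      show ell (M.rD (n • G) - M.rD (D i + G)) = _
      have := hdiff i
      omega
    omega
  · simp only [(hlift _ (hRp _).1).2]
    rw [hsum₂, ← sub_sub]
    have h2 : ell (M.rD (n • G) - ∑ v ∈ T₁, Finsupp.single v 1) + (m - g) = ell (M.rD (n • G)) :=
      hT₁drop none
    have h3 : ell (M.rD (n • G) - ∑ v ∈ T₁, Finsupp.single v 1 - ∑ v ∈ T₂, Finsupp.single v 1) + g =
        ell (M.rD (n • G) - ∑ v ∈ T₁, Finsupp.single v 1) := hT₂drop ()
    omega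

end RedModel

end Fermat.Agent.MCurve.Flat
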