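/-
Smoothness of a reduced chart of a reduction model from functions with a single zero at each centre.
-/
import Fermat.Agent.MCurve.Flat.Genus
import Fermat.Agent.MCurve.Flat.Rigid

set_option autoImplicit false
set_option linter.unusedSectionVars false

noncomputable section

namespace Fermat.Agent.MCurve.Flat

open AlgebraicCurve IsLocalRing IntermediateField
open Fermat.Agent.MCurve.RR

/-- `a` is the value of `f` at `P`. -/
def ValAt {K F : Type} [Field K] [Field F] [Algebra K F] (P : Place K F) (f : F) (a : K) : Prop :=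
  f = algebraMap K F a ∨ 0 < P.ord (f - algebraMap K F a)

theorem ValAt.unique {K F : Type} [Field K] [Field F] [Algebra K F] {P : Place K F} {f : F}
    {a b : K} (ha : ValAt P f a) (hb : ValAt P f b) : a = b := by
  by_contra hne
  have h0 : algebraMap K F (b - a) ≠ 0 := (_root_.map_ne_zero _).mpr (sub_ne_zero.mpr (Ne.symm hne))
  have hord := ord_algebraMap P (b - a)
  rcases ha with ha | ha <;> rcases hb with hb | hb
  · exact hne ((algebraMap K F).injective (ha.symm.trans hb))
  · rw [ha, ← map_sub, ord_algebraMap] at hb; omega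
  · rw [hb, ← map_sub, ord_algebraMap] at ha; omega
  · have e : (f - algebraMap K F a) + -(f - algebraMap K F b) = algebraMap K F (b - a) := by
      rw [map_sub]; ring
    have h1 : f - algebraMap K F a ≠ 0 := fun h => by simp [h] at ha
    have h2 : -(f - algebraMap K F b) ≠ 0 := neg_ne_zero.mpr fun h => by simp [h] at hb
    have h3 := ord_add_le P h1 h2 (by rw [e]; exact h0)
    rw [e, hord, ord_neg] at h3
    omega

namespace RedModel

variable {K F k F' : Type} [Field K] [Field F] [Algebra K F] [Field k] [Field F'] [Algebra k F']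
  {A : ValuationSubring K} (M : RedModel K F k F' A) [IsAlgClosed K] [IsAlgClosed k]
  [∀ v : Place K F, v.FiniteResidue] [∀ v : Place k F', v.FiniteResidue]
  [HasPrincipalDivisors K F] [HasPrincipalDivisors k F'] [Nonempty (Place K F)]
  [Nonempty (Place k F')]

theorem le_rD_apply {D : Divisor K F} (h : 0 ≤ D) (P : Place K F) : D P ≤ M.rD D (M.r P) := by
  classical
  have h1 : 0 ≤ D - Finsupp.single P (D P) := Finsupp.le_def.mpr fun v => by
    have := Finsupp.le_def.mp h v
    simp only [Finsupp.zero_apply] at this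
    rw [Finsupp.zero_apply, Finsupp.sub_apply, Finsupp.single_apply]
    split_ifs with hv
    · subst hv; omega
    · omega
  have h2 := Finsupp.le_def.mp (M.rD_nonneg h1) (M.r P)
  rw [rD_sub, Finsupp.zero_apply, Finsupp.sub_apply, rD, rD, Finsupp.mapDomain_single,
    Finsupp.single_eq_same] at h2
  rw [rD]
  omega

theorem rD_filter_apply (D : Divisor K F) (T : Set (Place k F')) [DecidablePred (· ∈ T)]
    [DecidablePred fun P => M.r P ∈ T] (Q : Place k F') :
    M.rD (D.filter fun P => M.r P ∈ T) Q = if Q ∈ T then M.rD D Q else 0 := by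
  classical
  rw [rD_apply, rD_apply, Finsupp.sum, Finsupp.sum, Finsupp.support_filter, Finset.sum_filter]
  split_ifs with hQ
  · refine Finset.sum_congr rfl fun P _ => ?_
    by_cases h : M.r P = Q
    · rw [if_pos h, if_pos h, if_pos (h ▸ hQ), Finsupp.filter_apply_pos _ _ (h ▸ hQ)]
    · rw [if_neg h, if_neg h, ite_self]
  · refine Finset.sum_eq_zero fun P _ => ?_
    by_cases h : M.r P ∈ T
    · rw [if_pos h, if_neg fun (h' : M.r P = Q) => hQ (h' ▸ h)]
    · rw [if_neg h]

variable {x : M.V} (hx : Transcendental k (M.ρ x))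
  (hdeg : Divisor.degree (poleDiv K (x : F)) = Divisor.degree (poleDiv k (M.ρ x)))

include hx hdeg

theorem poleDiv_eq_zero_of_fin {P : Place K F} (h : 0 ≤ (M.r P).ord (M.ρ x)) :
    poleDiv K (x : F) P = 0 := by
  have hx0 : M.ρ x ≠ 0 := fun h0 => hx (h0 ▸ isAlgebraic_zero)
  have h1 := M.le_rD_apply (poleDiv_nonneg (x : F)) P
  rw [M.rD_poleDiv hx0 hdeg, poleDiv_apply (M.ρ x)] at h1
  have := Finsupp.le_def.mp (poleDiv_nonneg (K := K) (x : F)) P
  simp only [Finsupp.zero_apply] at this
  omega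

/-- The values of the functions regular off the poles of the coordinate are integral. -/
theorem exists_valAt {P : Place K F} (hP : 0 ≤ (M.r P).ord (M.ρ x)) {u : M.V} {n : ℕ}
    (hu : (u : F) ∈ riemannRochSpace (n • poleDiv K (x : F))) :
    ∃ a : A, ValAt P (u : F) (a : K) ∧
      (M.ρ u - algebraMap k F' (M.π a) = 0 ∨ 0 < (M.r P).ord (M.ρ u - algebraMap k F' (M.π a))) := by
  have hfib : ∀ P', M.r P' = M.r P → (n • poleDiv K (x : F)) P' ≤ 0 := fun P' hP' => by
    rw [Finsupp.smul_apply, M.poleDiv_eq_zero_of_fin hx hdeg (hP'.symm ▸ hP), smul_zero]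
  obtain ⟨ha, hred⟩ := M.evalAtPlace_spec hfib u hu
  exact ⟨⟨_, ha⟩, (ord_sub_evalAtPlace (hfib P rfl) ⟨u, hu⟩).imp sub_eq_zero.mp id, hred⟩

/-- A place where the coordinate has an integral value reduces off the poles. -/
theorem fin_of_valAt {P : Place K F} {a : A} (h : ValAt P (x : F) (a : K)) :
    0 ≤ (M.r P).ord (M.ρ x) := by
  have hx0 : M.ρ x ≠ 0 := fun h0 => hx (h0 ▸ isAlgebraic_zero)
  by_contra hneg
  push Not at hneg
  set w : M.V := x - M.constV a
  have hρw : M.ρ w = M.ρ x - algebraMap k F' (M.π a) := by rw [map_sub, constV, M.ρ_const]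
  have hwc : (w : F) = (x : F) - algebraMap K F (a : K) := rfl
  have hρw0 : M.ρ w ≠ 0 := fun h0 => by
    rw [hρw, sub_eq_zero] at h0
    rw [h0, ord_algebraMap] at hneg
    omega
  have hw0 : (w : F) ≠ 0 := fun h0 => hρw0 (by rw [show w = 0 from Subtype.ext h0, map_zero])
  have hpos : 0 < P.ord (w : F) := hwc ▸ h.resolve_left fun h' => hw0 (hwc ▸ sub_eq_zero.mpr h')
  have hPx : poleDiv K (x : F) P = 0 := by
    rw [poleDiv_apply]
    have hw' : (w : F) ∈ P.toValuationSubring := (mem_iff_ord_nonneg P hw0).mpr hpos.le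
    rcases eq_or_ne (x : F) 0 with h0 | h0
    · rw [h0, P.ord_zero]; rfl
    have : (x : F) ∈ P.toValuationSubring := by
      rw [show (x : F) = (w : F) + algebraMap K F (a : K) by rw [hwc, sub_add_cancel]]
      exact add_mem hw' (P.algebraMap_mem' _)
    have := (mem_iff_ord_nonneg P h0).mp this
    omega
  have hw : (w : F) ∈ riemannRochSpace (poleDiv K (x : F)) := by
    rw [hwc]
    refine sub_mem (self_mem_space _) (mem_space_iff.mpr (Or.inr fun v => ?_))
    rw [ord_algebraMap, neg_nonpos]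
    exact Finsupp.le_def.mp (poleDiv_nonneg (x : F)) v
  have hZ := (mem_space_iff_of_ne hw0).mp hw
  have h1 := M.le_rD_apply hZ P
  rw [rD_add, M.rD_divOf hρw0, M.rD_poleDiv hx0 hdeg, Finsupp.add_apply, Finsupp.add_apply,
    divOf_apply, divOf_apply, poleDiv_apply (M.ρ x), hPx] at h1
  have h2 : (M.r P).ord (M.ρ w) = (M.r P).ord (M.ρ x) := by
    rw [hρw]
    rcases eq_or_ne (M.π a) 0 with h0 | h0
    · rw [h0, map_zero, sub_zero]
    · rw [sub_eq_add_neg]
      exact ord_add_eq _ hx0 (neg_ne_zero.mpr ((_root_.map_ne_zero _).mpr h0))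
        (by rwa [ord_neg, ord_algebraMap])
  omega

/-- Every finite place of the reduction is the reduction of a place. -/
theorem exists_fibre (hden : ∀ y : F', ∃ p : Polynomial k, p ≠ 0 ∧
      M.RegRed (x : F) (Polynomial.aeval (M.ρ x) p * y)) (Q : Place k F') :
    ∃ P : Place K F, M.r P = Q := by
  classical
  by_contra hno
  push Not at hno
  have h0 : ∀ u : M.V, M.ρ u ≠ 0 → Q.ord (M.ρ u) = 0 := fun u hu => by
    rw [← divOf_apply (M.ρ u) Q, ← M.rD_divOf hu, rD_apply]
    exact Finset.sum_eq_zero fun P _ => if_neg (hno P)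
  obtain ⟨t, ht0, ht⟩ := exists_ord_eq_one Q
  obtain ⟨p, hp, n, u, -, hu⟩ := hden t
  obtain ⟨m, v, -, hv⟩ := M.regRed_aeval (x := x) p
  have hp0 : Polynomial.aeval (M.ρ x) p ≠ 0 := fun h => hp (transcendental_iff.mp hx p h)
  have h1 := h0 u (hu ▸ mul_ne_zero hp0 ht0)
  have h2 := h0 v (hv ▸ hp0)
  rw [hu, Q.ord_mul hp0 ht0, ht] at h1
  rw [hv] at h2
  omega

omit hx hdeg

variable (x) in
/-- The places over the centre of `P` on a set of functions. -/
def InCen (B : Set F) (P P' : Place K F) : Prop :=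
  0 ≤ (M.r P').ord (M.ρ x) ∧
    ∀ y ∈ B, ∀ a a' : A, ValAt P' y (a : K) → ValAt P y (a' : K) → M.π a = M.π a'

include hx hdeg

/-- A reduced chart is smooth when each centre has a function with a single zero. -/
theorem chartSmooth_of_centres
    (hsurj : Function.Surjective M.r)
    (B : Set F) (hB : ∀ y ∈ B, ∃ (u : M.V) (n : ℕ),
      (u : F) = y ∧ (u : F) ∈ riemannRochSpace (n • poleDiv K (x : F)))
    (hone : ∀ P : Place K F, 0 ≤ (M.r P).ord (M.ρ x) → ∃ y ∈ B,
      (∃ a : A, ValAt P y (a : K) ∧ M.π a = 0) ∧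
      (∃ P₁ : Place K F, 0 ≤ (M.r P₁).ord (M.ρ x) ∧ ∃ a : A, ValAt P₁ y (a : K) ∧ M.π a ≠ 0) ∧
      ∀ E : Divisor K F, (∀ P', M.InCen x B P P' → E P' = P'.ord y) →
        (∀ P', ¬ M.InCen x B P P' → E P' = 0) → Divisor.degree E = 1) :
    M.ChartSmooth x := by
  classical
  -- the orders at places over one centre
  have key : ∀ P : Place K F, 0 ≤ (M.r P).ord (M.ρ x) →
      ∃ b, M.RegRed (x : F) b ∧ b ≠ 0 ∧ (∀ P', M.InCen x B P P' → 0 < (M.r P').ord b) ∧
        ∀ T : Finset (Place k F'), (∀ P', M.r P' ∈ T → M.InCen x B P P') →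
          ∑ Q ∈ T, Q.ord b ≤ 1 := by
    intro P hP
    obtain ⟨y, hy, ⟨a, ha, ha0⟩, ⟨P₁, hP₁, a₁, ha₁, ha₁0⟩, hE⟩ := hone P hP
    obtain ⟨u, n, rfl, hu⟩ := hB y hy
    have hρu : M.ρ u ≠ 0 := fun h0 => ha₁0 (by
      obtain ⟨b, hb, hbr⟩ := M.exists_valAt hx hdeg hP₁ hu
      obtain rfl : b = a₁ := Subtype.ext (hb.unique ha₁)
      rw [h0, zero_sub, neg_eq_zero, ord_neg, ord_algebraMap] at hbr
      exact ((algebraMap k F').injective.eq_iff' (map_zero _)).mp (hbr.resolve_right (lt_irrefl 0)))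
    have hu0 : (u : F) ≠ 0 := fun h => hρu (by rw [show u = 0 from Subtype.ext h, map_zero])
    refine ⟨M.ρ u, ⟨n, u, hu, rfl⟩, hρu, fun P' hP' => ?_, fun T hT => ?_⟩
    · obtain ⟨b, hb, hbr⟩ := M.exists_valAt hx hdeg hP'.1 hu
      rw [hP'.2 _ hy b a hb ha, ha0, map_zero, sub_zero] at hbr
      exact hbr.resolve_left hρu
    · set E := (divOf K (u : F)).filter (M.InCen x B P)
      have hE1 : Divisor.degree E = 1 := hE E
        (fun P' hP' => by rw [Finsupp.filter_apply_pos _ _ hP', divOf_apply])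
        (fun P' hP' => Finsupp.filter_apply_neg _ _ hP')
      have hle : (divOf K (u : F)).filter (fun P' => M.r P' ∈ T) ≤ E := Finsupp.le_def.mpr fun P' => by
        simp only [E, Finsupp.filter_apply]
        split_ifs with h1 h2 h2
        · exact le_rfl
        · exact absurd (hT P' h1) h2
        · have h3 := ((mem_space_iff.mp hu).resolve_left hu0) P'
          rw [Finsupp.smul_apply, M.poleDiv_eq_zero_of_fin hx hdeg h2.1, smul_zero, neg_zero] at h3
          rwa [divOf_apply]
        · exact le_rfl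
      rw [← hE1]
      refine le_trans (le_of_eq ?_) (degree_le_of_le hle)
      have hfil : ∀ Q, M.rD ((divOf K (u : F)).filter fun P' => M.r P' ∈ T) Q =
          if Q ∈ T then M.rD (divOf K (u : F)) Q else 0 := fun Q =>
        M.rD_filter_apply _ (T : Set (Place k F')) Q
      rw [← M.degree_rD, RR.degree_eq_sum,
        Finsupp.sum_of_support_subset _ (s := T) ?_ _ (fun _ _ => rfl)]
      · refine Finset.sum_congr rfl fun Q hQ => ?_
        rw [hfil, if_pos hQ, M.rD_divOf hρu, divOf_apply]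
      · intro Q hQ
        rw [Finsupp.mem_support_iff, hfil] at hQ
        exact not_not.mp fun h => hQ (if_neg h)
  -- values on one fibre agree
  have hfibre : ∀ P P' : Place K F, 0 ≤ (M.r P).ord (M.ρ x) → M.r P' = M.r P →
      ∀ y ∈ B, ∀ a a' : A, ValAt P' y (a : K) → ValAt P y (a' : K) → M.π a = M.π a' := by
    intro P P' hP hr y hy a a' ha ha'
    obtain ⟨u, n, rfl, hu⟩ := hB y hy
    obtain ⟨c, hc, hcr⟩ := M.exists_valAt hx hdeg (hr.symm ▸ hP : 0 ≤ (M.r P').ord _) hu
    obtain ⟨c', hc', hcr'⟩ := M.exists_valAt hx hdeg hP hu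
    obtain rfl : c = a := Subtype.ext (hc.unique ha)
    obtain rfl : c' = a' := Subtype.ext (hc'.unique ha')
    rw [hr] at hcr
    exact ValAt.unique (P := M.r P) (hcr.imp sub_eq_zero.mp id) (hcr'.imp sub_eq_zero.mp id)
  refine ⟨fun Q hQ => ?_, fun Q Q' hQ hQ' hne => ?_⟩
  · obtain ⟨P, rfl⟩ := hsurj Q
    obtain ⟨b, hb, hb0, hpos, hsum⟩ := key P hQ
    have h1 := hpos P ⟨hQ, hfibre P P hQ rfl⟩
    have h2 := hsum {M.r P} fun P' hP' => by
      rw [Finset.mem_singleton] at hP'
      exact ⟨hP'.symm ▸ hQ, hfibre P P' hQ hP'⟩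
    rw [Finset.sum_singleton] at h2
    exact ⟨b, hb, hb0, by omega⟩
  · obtain ⟨P, rfl⟩ := hsurj Q
    obtain ⟨P', rfl⟩ := hsurj Q'
    by_cases hsame : ∀ y ∈ B, ∀ a a' : A, ValAt P' y (a : K) → ValAt P y (a' : K) → M.π a = M.π a'
    · obtain ⟨b, -, -, hpos, hsum⟩ := key P hQ
      have h1 := hpos P ⟨hQ, hfibre P P hQ rfl⟩
      have h2 := hpos P' ⟨hQ', hsame⟩
      have h3 := hsum {M.r P, M.r P'} fun R hR => by
        rcases Finset.mem_insert.mp hR with hR | hR
        · exact ⟨hR.symm ▸ hQ, hfibre P R hQ hR⟩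
        · rw [Finset.mem_singleton] at hR
          refine ⟨hR.symm ▸ hQ', fun y hy c c' hc hc' => ?_⟩
          obtain ⟨u, n, rfl, hu⟩ := hB y hy
          obtain ⟨d, hd, -⟩ := M.exists_valAt hx hdeg hQ' hu
          exact (hfibre P' R hQ' hR _ hy c d hc hd).trans (hsame _ hy d c' hd hc')
      rw [Finset.sum_insert (by simpa using hne), Finset.sum_singleton] at h3
      omega
    · push Not at hsame
      obtain ⟨y, hy, a, a', ha, ha', hne'⟩ := hsame
      obtain ⟨u, n, rfl, hu⟩ := hB y hy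
      obtain ⟨c, hc, hcr⟩ := M.exists_valAt hx hdeg hQ' hu
      obtain ⟨c', hc', hcr'⟩ := M.exists_valAt hx hdeg hQ hu
      obtain rfl : c = a := Subtype.ext (hc.unique ha)
      obtain rfl : c' = a' := Subtype.ext (hc'.unique ha')
      have hnz : algebraMap k F' (M.π c' - M.π c) ≠ 0 :=
        (_root_.map_ne_zero _).mpr (sub_ne_zero.mpr (Ne.symm hne'))
      set b := M.ρ u - algebraMap k F' (M.π c)
      have hbreg : M.RegRed (x : F) b := by
        have h1 : M.RegRed (x : F) (M.ρ u) := ⟨n, u, hu, rfl⟩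
        have h2 := RegRed.const (M := M) (x := (x : F)) (-M.π c)
        rw [map_neg] at h2
        simpa [b, sub_eq_add_neg] using h1.add h2
      have hb : b = algebraMap k F' (M.π c' - M.π c) + (M.ρ u - algebraMap k F' (M.π c')) := by
        simp only [b, map_sub]; ring
      have hord : (M.r P).ord b = 0 := by
        rw [hb]
        rcases hcr' with h | h
        · rw [h, add_zero, ord_algebraMap]
        · rw [ord_add_eq _ hnz (fun h0 => by simp [h0] at h) (by rwa [ord_algebraMap]), ord_algebraMap]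
      have hb0 : b ≠ 0 := fun h0 => by
        rcases hcr' with h | h
        · rw [hb, h, add_zero] at h0; exact hnz h0
        · rw [hb, add_eq_zero_iff_neg_eq] at h0
          rw [← h0, ord_neg, ord_algebraMap] at h
          omega
      exact ⟨b, hbreg, hb0, hord, hcr.resolve_left hb0⟩

omit hx hdeg

theorem degree_poleDiv_inv {K F : Type} [Field K] [Field F] [Algebra K F] [IsAlgClosed K]
    [∀ v : Place K F, v.FiniteResidue] [HasPrincipalDivisors K F] [Nonempty (Place K F)] (y : F) :
    Divisor.degree (poleDiv K y⁻¹) = Divisor.degree (poleDiv K y) := by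
  have e : poleDiv K y⁻¹ = poleDiv K y + divOf K y := Finsupp.ext fun v => by
    rw [Finsupp.add_apply, poleDiv_apply, poleDiv_apply, divOf_apply, v.ord_inv]; omega
  rw [e, map_add, degree_divOf, add_zero]

end RedModel

end Fermat.Agent.MCurve.Flat
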