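/-
The genus of `X₀(N)` is preserved by the reduction through the series at a prime not dividing `N`.
-/
import Fermat.Agent.MCurve.Flat.Smooth
import Fermat.Agent.MCurve.Flat.ChartN

set_option autoImplicit false
set_option linter.style.haveILetI false
set_option linter.unusedSectionVars false
set_option synthInstance.maxHeartbeats 400000
set_option maxHeartbeats 1000000

noncomputable section

namespace Fermat.Agent.MCurve.Flat

open AlgebraicCurve ModularCurve IsLocalRing CongruenceSubgroup IntermediateField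
open Fermat.Agent.MCurve.Spec
open Fermat.Agent.MCurve.RR
open Fermat.Agent.MCurve.SpecialDifferential (etaF)

local notation "Q̄" => AlgebraicClosure ℚ

variable {A : ValuationSubring Q̄}

theorem RedModel.regRed_of_mem_space {K F k F' : Type} [Field K] [Field F] [Algebra K F] [Field k]
    [Field F'] [Algebra k F'] {A : ValuationSubring K} (M : RedModel K F k F' A) [IsAlgClosed K]
    [IsAlgClosed k] [∀ v : Place K F, v.FiniteResidue] [∀ v : Place k F', v.FiniteResidue]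
    [HasPrincipalDivisors K F] [HasPrincipalDivisors k F'] {x : F} {u : M.V} {n : ℕ}
    (hu : (u : F) ∈ riemannRochSpace (n • poleDiv K x)) : M.RegRed x (M.ρ u) :=
  ⟨n, u, hu, rfl⟩

theorem mem_space_of_mem_chart {F : Type} [Field F] [Algebra Q̄ F] [HasPrincipalDivisors Q̄ F]
    [∀ v : Place Q̄ F, v.FiniteResidue] {t y : F} (hy : y ∈ chart A t) :
    ∃ n : ℕ, y ∈ riemannRochSpace (n • poleDiv Q̄ t) := by
  rcases eq_or_ne y 0 with rfl | hy0
  · exact ⟨0, zero_mem _⟩
  refine ⟨(finite_ord_support y).toFinset.sum fun v => (v.ord y).natAbs,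
    mem_space_iff.mpr (Or.inr fun v => ?_)⟩
  set n := (finite_ord_support y).toFinset.sum fun v => (v.ord y).natAbs
  rw [Finsupp.smul_apply, poleDiv_apply, nsmul_eq_mul]
  have hn0 : (0 : ℤ) ≤ n := Int.natCast_nonneg n
  by_cases ht : t ∈ v.toValuationSubring
  · have := (mem_iff_ord_nonneg v hy0).mp (mem_chart_place v ht hy)
    have h2 : 0 ≤ (n : ℤ) * max (-v.ord t) 0 := mul_nonneg hn0 (le_max_right _ _)
    omega
  have ht0 : t ≠ 0 := fun h => ht (h ▸ zero_mem _)
  have hneg : v.ord t < 0 := not_le.mp fun h => ht ((mem_iff_ord_nonneg v ht0).mpr h)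
  have h2 : (n : ℤ) * 1 ≤ (n : ℤ) * max (-v.ord t) 0 :=
    mul_le_mul_of_nonneg_left (le_max_of_le_left (by omega)) hn0
  rcases eq_or_ne (v.ord y) 0 with h | h
  · omega
  have := Finset.single_le_sum (f := fun v : Place Q̄ F => (v.ord y).natAbs)
    (fun _ _ => Nat.zero_le _) ((Set.Finite.mem_toFinset (finite_ord_support y)).mpr h)
  simp only [n] at *
  omega

/-- The chart of a coordinate of a reduction model over a valuation ring of `ℚ̄` is smooth when
each centre has a function with a single zero. -/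
theorem chartSmooth_of_hasOne {F k F' : Type} [Field F] [Algebra Q̄ F] [Field k] [Field F']
    [Algebra k F'] (M : RedModel Q̄ F k F' A) (hπ : ∀ a b : A, M.π a = M.π b ↔ residue A a = residue A b)
    [IsAlgClosed k] [∀ v : Place Q̄ F, v.FiniteResidue] [∀ v : Place k F', v.FiniteResidue]
    [HasPrincipalDivisors Q̄ F] [HasPrincipalDivisors k F'] [Nonempty (Place Q̄ F)]
    [Nonempty (Place k F')] [∀ P : Place Q̄ F, Module.Finite Q̄ P.ResidueField] (x : M.V)
    (hx : Transcendental k (M.ρ x))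
    (hdeg : Divisor.degree (poleDiv Q̄ (x : F)) = Divisor.degree (poleDiv k (M.ρ x)))
    (hsurj : Function.Surjective M.r)
    (hone : ∀ (P : Place Q̄ F) (a : A), HasVal P (x : F) (a : Q̄) → HasOne A (x : F) P) :
    M.ChartSmooth x := by
  have hint : ∀ P : Place Q̄ F, IsIntAt A P (x : F) ↔ 0 ≤ (M.r P).ord (M.ρ x) := fun P => by
    constructor
    · intro h
      obtain ⟨a, ha⟩ := isIntAt_iff.mp h
      exact M.fin_of_valAt hx hdeg ha
    · intro h
      obtain ⟨a, ha, -⟩ := M.exists_valAt hx hdeg h (u := x) (n := 1)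
        (by rw [one_nsmul]; exact RedModel.self_mem_space _)
      exact isIntAt_of_hasVal P ha
  have hπ0 : ∀ a : A, M.π a = 0 ↔ residue A a = 0 := fun a => by
    rw [← map_zero M.π, hπ, map_zero]
  refine M.chartSmooth_of_centres hx hdeg hsurj (chart A (x : F)) (fun y hy => ?_) fun P hP => ?_
  · obtain ⟨n, hn⟩ := mem_space_of_mem_chart hy
    exact ⟨⟨y, chart_le_valuationSubring M.const_mem x.2 hy⟩, n, rfl, hn⟩
  obtain ⟨a, ha, -⟩ := M.exists_valAt hx hdeg hP (u := x) (n := 1)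
    (by rw [one_nsmul]; exact RedModel.self_mem_space _)
  obtain ⟨y, hy, ⟨b, hb, hb0⟩, ⟨P₁, hP₁, b₁, hb₁, hb₁0⟩, hE⟩ := hone P a ha
  have hcen : ∀ P', M.InCen x (chart A (x : F)) P P' ↔ SameCen A (x : F) P P' := fun P' =>
    and_congr (hint P').symm ⟨fun h y hy a a' h1 h2 => (hπ a a').mp (h y hy a a' h1 h2),
      fun h y hy a a' h1 h2 => (hπ a a').mpr (h y hy a a' h1 h2)⟩
  exact ⟨y, hy, ⟨b, hb, (hπ0 b).mpr hb0⟩,
    ⟨P₁, (hint P₁).mp hP₁, b₁, hb₁, mt (hπ0 b₁).mp hb₁0⟩,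
    fun E h1 h2 => hE E (fun P' hP' => h1 P' ((hcen P').mpr hP'))
      fun P' hP' => h2 P' (mt (hcen P').mp hP')⟩

variable (A) (N : ℕ) [NeZero N] {ℓ : ℕ} [Fact ℓ.Prime]
  (hA : A.LiesOverPrime ℓ) (hℓN : ¬ ℓ ∣ N)

local notation "𝕜" => ResidueField A
local notation "𝔽" => modularFunctionFieldBar N
local notation "𝔽'" => modularFunctionFieldFullC (ResidueField A) N

theorem jBar_inv_mem_redV : (jBar N Q̄)⁻¹ ∈ redV A N hA hℓN := by
  refine ⟨1, jqModC A, ?_, ?_⟩
  · rw [sk, MCurve.coeffMap_jqModC]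
    exact fun h => by
      have := congrArg (fun s : LaurentSeries 𝕜 => s.coeff (-1)) h
      simp [coeff_jqModC_neg_one] at this
  · show ((modularFunctionFieldBar N).val : 𝔽 →+* LaurentSeries Q̄) (jBar N Q̄)⁻¹ * _ = _
    rw [map_inv₀, map_one, sQ, MCurve.coeffMap_jqModC,
      show ((modularFunctionFieldBar N).val : 𝔽 →+* LaurentSeries Q̄) (jBar N Q̄) = jqModC Q̄ from
        Spec.coe_jBar' (N := N)]
    refine inv_mul_cancel₀ fun h => ?_
    have := congrArg (fun s : LaurentSeries Q̄ => s.coeff (-1)) h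
    simp [coeff_jqModC_neg_one] at this

include hA hℓN in
theorem jNb_mem_redV : jNb N ∈ redV A N hA hℓN :=
  chart_le_valuationSubring (algebraMap_mem_redV A N hA hℓN) (jBar_mem_redV A N hA hℓN)
    (jNb_mem_chart A N hA hℓN)

theorem redρ_jNb : redρ A N hA hℓN ⟨jNb N, jNb_mem_redV A N hA hℓN⟩ = etaF 𝕜 N := by
  refine Subtype.ext ?_
  rw [redρ_eq A N hA hℓN _ (S := qExpand A N (jqModC A)) (E := 1) (by rw [map_one]; exact one_ne_zero)
    (by rw [map_one, mul_one, sQ, qExpand_coeffMap, MCurve.coeffMap_jqModC]; rfl),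
    map_one, div_one, sk, qExpand_coeffMap, MCurve.coeffMap_jqModC]
  rfl

/-- Every reduction model of `X₀(N)` through the series preserves the genus. -/
theorem genus_eq_redModel (r : Place Q̄ 𝔽 → Place 𝕜 𝔽')
    (hr : ∀ u : redV A N hA hℓN, redρ A N hA hℓN u ≠ 0 → ∀ D : Divisor Q̄ 𝔽,
      (∀ P, D P = P.ord (u : 𝔽)) →
      ∀ Q, Finsupp.mapDomain r D Q = Q.ord (redρ A N hA hℓN u))
    (g c g' c' : ℕ) (hK : IsRiemann Q̄ 𝔽 g c) (hk : IsRiemann 𝕜 𝔽' g' c') : g = g' := by
  classical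
  letI : Algebra Q̄ ℂ := GalRep.qbarToC.toAlgebra
  set M := redModelOf A N hA hℓN r hr
  have hfK := jBar_isFinOver A N hA hℓN
  have hfk := isFinOver_red A N hA hℓN
  obtain ⟨h1, h2, h3⟩ := curve_props hfK
  obtain ⟨h4, h5, h6⟩ := curve_props hfk
  haveI : ∀ P : Place Q̄ 𝔽, Module.Finite Q̄ P.ResidueField := fun P => (h2 P).finite
  haveI := hfK.finite
  haveI := hfk.finite
  obtain ⟨hψ, hηalg, hηtop⟩ := finrank_red A N hA hℓN
  let x : M.V := ⟨jBar N Q̄, jBar_mem_redV A N hA hℓN⟩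
  let x' : M.V := ⟨(jBar N Q̄)⁻¹, jBar_inv_mem_redV A N hA hℓN⟩
  have hρx : M.ρ x = jFullC 𝕜 N := redρ_jBar A N hA hℓN
  have hj0 := jBar_ne_zero A N hA hℓN
  have hρx' : M.ρ x' = (jFullC 𝕜 N)⁻¹ := by
    refine eq_inv_of_mul_eq_one_left ?_
    rw [← hρx, ← map_mul, show x' * x = 1 from Subtype.ext (inv_mul_cancel₀ hj0), map_one]
  have hx : Transcendental 𝕜 (M.ρ x) := hρx ▸ hfk.transcendental
  have hx' : Transcendental 𝕜 (M.ρ x') := fun h => hfk.transcendental (by
    rw [hρx'] at h; simpa using h.inv)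
  -- the degrees
  obtain ⟨D₁, hD₁, hd₁⟩ := exists_pole_divisor hfK
  obtain ⟨D₂, hD₂, hd₂⟩ := exists_pole_divisor hfk
  rw [show D₁ = poleDiv Q̄ (jBar N Q̄) from Finsupp.ext fun v => by rw [hD₁, poleDiv_apply],
    (bar_isFinOver_and_finrank N Q̄).2] at hd₁
  rw [show D₂ = poleDiv 𝕜 (jFullC 𝕜 N) from Finsupp.ext fun v => by rw [hD₂, poleDiv_apply],
    hψ] at hd₂
  have hdeg : Divisor.degree (poleDiv Q̄ (x : 𝔽)) = Divisor.degree (poleDiv 𝕜 (M.ρ x)) := by
    rw [hρx, hd₂]; exact hd₁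
  have hdeg' : Divisor.degree (poleDiv Q̄ (x' : 𝔽)) = Divisor.degree (poleDiv 𝕜 (M.ρ x')) := by
    rw [hρx', RedModel.degree_poleDiv_inv (jFullC 𝕜 N), hd₂]
    exact (RedModel.degree_poleDiv_inv (jBar N Q̄)).trans hd₁
  -- the generic fibre of the reduced chart
  let S : Set 𝔽' := {y | ∃ p : Polynomial 𝕜, p ≠ 0 ∧
    M.RegRed (x : 𝔽) (Polynomial.aeval (M.ρ x) p * y)}
  have hadd : ∀ y z, y ∈ S → z ∈ S → y + z ∈ S := fun y z ⟨p, hp, hy⟩ ⟨q, hq, hz⟩ =>
    ⟨p * q, mul_ne_zero hp hq, by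
      have := ((M.regRed_aeval q).mul hy).add ((M.regRed_aeval p).mul hz)
      convert this using 1
      rw [map_mul]; ring⟩
  have hmul : ∀ y z, y ∈ S → z ∈ S → y * z ∈ S := fun y z ⟨p, hp, hy⟩ ⟨q, hq, hz⟩ =>
    ⟨p * q, mul_ne_zero hp hq, by
      have := hy.mul hz
      convert this using 1
      rw [map_mul]; ring⟩
  have hden : ∀ y : 𝔽', y ∈ S := fun y => by
    have hy : y ∈ Algebra.adjoin 𝕜⟮jFullC 𝕜 N⟯ ({etaF 𝕜 N} : Set 𝔽') := by
      rw [← adjoin_simple_toSubalgebra_of_isAlgebraic hηalg, hηtop]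
      trivial
    induction hy using Algebra.adjoin_induction with
    | mem z hz =>
      rw [Set.mem_singleton_iff.mp hz, ← redρ_jNb A N hA hℓN]
      refine ⟨1, one_ne_zero, ?_⟩
      rw [map_one, one_mul]
      obtain ⟨n, hn⟩ := mem_space_of_mem_chart (jNb_mem_chart A N hA hℓN)
      exact RedModel.regRed_of_mem_space M (u := ⟨jNb N, jNb_mem_redV A N hA hℓN⟩) hn
    | algebraMap a =>
      obtain ⟨p, q, hpq⟩ := (mem_adjoin_simple_iff 𝕜 _).mp a.2
      replace hpq : (a : 𝔽') = Polynomial.aeval (M.ρ x) p / Polynomial.aeval (M.ρ x) q :=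
        hpq.trans (by rw [hρx])
      rcases eq_or_ne q 0 with rfl | hq
      · refine ⟨1, one_ne_zero, ?_⟩
        rw [map_zero, div_zero] at hpq
        show M.RegRed _ (_ * (a : 𝔽'))
        rw [hpq, mul_zero]
        exact RedModel.RegRed.zero
      · refine ⟨q, hq, ?_⟩
        show M.RegRed _ (_ * (a : 𝔽'))
        rw [hpq, mul_div_cancel₀ _ (fun h => hq (transcendental_iff.mp hx q h))]
        exact M.regRed_aeval p
    | add y z _ _ hy hz => exact hadd y z hy hz
    | mul y z _ _ hy hz => exact hmul y z hy hz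
  have hsurj : Function.Surjective M.r := M.exists_fibre hx hdeg hden
  have hπ : ∀ a b : A, M.π a = M.π b ↔ residue A a = residue A b := fun _ _ => Iff.rfl
  have hs : M.ChartSmooth x := chartSmooth_of_hasOne M hπ x hx hdeg hsurj
    fun P a ha => hasOne_jBar A N hA hℓN P ha
  have hs' : M.ChartSmooth x' := chartSmooth_of_hasOne M hπ x' hx' hdeg' hsurj
    fun P a ha => hasOne_jBar_inv A N hA hℓN P ha
  haveI : FiniteDimensional 𝕜⟮M.ρ x⟯ 𝔽' := by rw [hρx]; exact hfk.finite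
  refine M.genus_eq_of_charts (x := x) (x' := x') rfl hfK.transcendental hx ?_ hs hs' hden hK hk
  rw [hρx, hψ]
  exact (bar_isFinOver_and_finrank N Q̄).2

end Fermat.Agent.MCurve.Flat
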