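import Fermat.Agent.MCurve.Flat.Family
import Fermat.Agent.MCurve.Flat.Rigid

/-!
Bases of the spaces of functions of a reduction model, products of sections of large degree, and the
families cut out by the values at good points.
-/

set_option autoImplicit false
set_option linter.unusedSectionVars false

noncomputable section

namespace Fermat.Agent.MCurve.Flat

open AlgebraicCurve IsLocalRing Matrix
open Fermat.Agent.MCurve.RR

section Curve

variable {K F : Type} [Field K] [Field F] [Algebra K F] [IsAlgClosed K]
  [∀ v : Place K F, v.FiniteResidue] [HasPrincipalDivisors K F] [Nonempty (Place K F)] {g c : ℕ}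

theorem isRiemann_mono {c' : ℕ} (hR : IsRiemann K F g c) (h : c ≤ c') : IsRiemann K F g c' :=
  ⟨hR.le, fun D hD => hR.eq D (le_trans (by exact_mod_cast h) hD)⟩

/-- Products of sections of two large degrees. -/
theorem space_mul_large (hR : IsRiemann K F g c) {U W : Divisor K F}
    (hU : (c : ℤ) + 1 ≤ Divisor.degree U) (hW : 2 * (c : ℤ) + 1 ≤ Divisor.degree W) :
    riemannRochSpace U * riemannRochSpace W = riemannRochSpace (U + W) := by
  classical
  suffices key : ∀ (t : ℕ) (U : Divisor K F), Divisor.degree U = (c : ℤ) + 1 + t →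
      riemannRochSpace U * riemannRochSpace W = riemannRochSpace (U + W) from
    key (Divisor.degree U - ((c : ℤ) + 1)).toNat U (by omega)
  intro t
  induction t with
  | zero => exact fun U hd => hR.space_mul (by omega) (by push_cast at hd; omega)
  | succ t ih =>
    intro U hd
    refine le_antisymm (Submodule.mul_le.mpr fun f hf h hh => mul_mem_space hf hh) ?_
    obtain ⟨v⟩ := ‹Nonempty (Place K F)›
    have hd1 : Divisor.degree (U - Finsupp.single v 1) = (c : ℤ) + 1 + t := by
      rw [map_sub, degree_single_one]; push_cast at hd; omega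
    have hlow : riemannRochSpace (U + W - Finsupp.single v 1) ≤
        riemannRochSpace U * riemannRochSpace W := by
      rw [show U + W - Finsupp.single v 1 = U - Finsupp.single v 1 + W by abel, ← ih _ hd1]
      refine Submodule.mul_le.mpr fun a ha b hb => Submodule.mul_mem_mul
        (space_mono (Finsupp.le_def.mpr fun w => ?_) ha) hb
      rw [Finsupp.sub_apply, Finsupp.single_apply]
      split_ifs <;> omega
    obtain ⟨f, hf, hf0, hfv⟩ := hR.exists_ord_eq (D := U) (by omega) v
    obtain ⟨h, hh, hh0, hhv⟩ := hR.exists_ord_eq (D := W) (by omega) v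
    have hfh : f * h ∈ riemannRochSpace (U + W) := mul_mem_space hf hh
    have hnot : f * h ∉ riemannRochSpace (U + W - Finsupp.single v 1) := fun hm => by
      have := ((mem_space_iff.mp hm).resolve_left (mul_ne_zero hf0 hh0)) v
      rw [v.ord_mul hf0 hh0, hfv, hhv, Finsupp.sub_apply, Finsupp.single_eq_same,
        Finsupp.add_apply] at this
      omega
    have hlt : riemannRochSpace (U + W - Finsupp.single v 1) <
        riemannRochSpace (U + W - Finsupp.single v 1) ⊔ (K ∙ (f * h)) :=
      lt_of_le_of_ne le_sup_left fun e =>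
        hnot (e.symm.le (Submodule.mem_sup_right (Submodule.mem_span_singleton_self _)))
    have hle : riemannRochSpace (U + W - Finsupp.single v 1) ⊔ (K ∙ (f * h)) ≤
        riemannRochSpace (U + W) :=
      sup_le (space_mono (Finsupp.le_def.mpr fun w => by
        rw [Finsupp.sub_apply, Finsupp.single_apply]; split_ifs <;> omega))
        ((Submodule.span_singleton_le_iff_mem _ _).mpr hfh)
    haveI : Module.Finite K
        ↥(riemannRochSpace (U + W - Finsupp.single v 1) ⊔ (K ∙ (f * h)) : Submodule K F) :=
      Submodule.finiteDimensional_of_le hle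
    have h1 := ell_le_succ (U + W) v
    have h2 := Submodule.finrank_lt_finrank_of_lt hlt
    rw [← Submodule.eq_of_le_of_finrank_le hle (by simp only [ell] at h1; omega)]
    exact sup_le hlow ((Submodule.span_singleton_le_iff_mem _ _).mpr (Submodule.mul_mem_mul hf hh))

end Curve

variable {K F k F' : Type} [Field K] [Field F] [Algebra K F] [Field k] [Field F'] [Algebra k F']
  {A : ValuationSubring K} (M : RedModel K F k F' A)

/-- A basis with independent reductions. -/
def orthOf (W : Submodule K F) [FiniteDimensional K W] : Orth M W :=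
  { d := Module.finrank K W
    b := (M.exists_basis W).choose
    li := (M.exists_basis W).choose_spec.1
    span_eq := (M.exists_basis W).choose_spec.2.2.1.symm }

/-- A primitive multiple of a nonzero function of a subspace. -/
theorem exists_primitive_mem {W : Submodule K F} {f : F} (hf : f ∈ W) (hf0 : f ≠ 0) :
    ∃ u : M.V, M.ρ u ≠ 0 ∧ (u : F) ∈ W := by
  obtain ⟨c, u, hu, rfl⟩ := M.scale f hf0
  have hc : c ≠ 0 := fun h => hf0 (by rw [h, map_zero, zero_mul])
  refine ⟨u, hu, ?_⟩
  have := W.smul_mem c⁻¹ hf
  rwa [Algebra.smul_def, ← mul_assoc, ← map_mul, inv_mul_cancel₀ hc, map_one, one_mul] at this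

/-- The cofactor of a primitive function in a primitive product is primitive. -/
theorem cofactor_mem {s : M.V} (hs : M.ρ s ≠ 0) {v : F} (h : (s : F) * v ∈ M.V) : v ∈ M.V := by
  rcases eq_or_ne v 0 with rfl | hv0
  · exact zero_mem _
  obtain ⟨c, w, hw, rfl⟩ := M.scale v hv0
  suffices hc : c ∈ A from mul_mem (M.const_mem ⟨c, hc⟩) w.2
  by_contra hc
  obtain ⟨a, ha, ha0⟩ := M.π_inv_eq_zero hc
  have hc0 : c ≠ 0 := fun h0 => hc (h0 ▸ zero_mem _)
  have e : M.constV a * ⟨_, h⟩ = s * w := Subtype.ext (by
    show algebraMap K F a * ((s : F) * (algebraMap K F c * w)) = s * w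
    rw [ha, map_inv₀]
    field_simp [(map_ne_zero (algebraMap K F)).mpr hc0])
  have := congrArg M.ρ e
  rw [M.ρ_constV_mul, ha0, zero_smul, map_mul] at this
  exact mul_ne_zero hs hw this.symm

variable [IsAlgClosed K] [IsAlgClosed k] [∀ v : Place K F, v.FiniteResidue]
  [∀ v : Place k F', v.FiniteResidue] [HasPrincipalDivisors K F] [HasPrincipalDivisors k F']
  [Nonempty (Place K F)] [Nonempty (Place k F')]

section Points

variable {D : Divisor K F} {m : ℕ} (Q : Fin m → Place K F) (hinj : Function.Injective fun j => M.r (Q j))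
  (hfib : ∀ j P', M.r P' = M.r (Q j) → D P' = 0)

/-- The values at the points. -/
abbrev val (j : Fin m) : riemannRochSpace D →ₗ[K] K :=
  evalAtPlace D (Q j) (hfib j _ rfl).le

include hfib in
theorem rD_point (j : Fin m) : M.rD D (M.r (Q j)) = 0 := by
  classical
  rw [M.rD_apply]
  exact Finset.sum_eq_zero fun P' _ => by
    show (if M.r P' = M.r (Q j) then D P' else 0) = 0
    split_ifs with h
    · exact hfib j P' h
    · rfl

include hinj in
/-- Integral functions with small values at some points reduce into the smaller space. -/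
theorem kill {D' : Divisor k F'} (s : Finset (Fin m)) (hD' : ∀ j, D' (M.r (Q j)) = 0) {u : M.V}
    (hu : (u : F) ∈ riemannRochSpace D) (hu' : M.ρ u ∈ riemannRochSpace D')
    (h : ∀ j ∈ s, val M Q hfib j ⟨u, hu⟩ ∈ A.nonunits) :
    M.ρ u ∈ riemannRochSpace (D' - ∑ j ∈ s, Finsupp.single (M.r (Q j)) 1) := by
  refine mem_sub_pts s hinj hD' hu' fun j hj => ?_
  obtain ⟨ha, h'⟩ := M.evalAtPlace_spec (fun P' hP' => (hfib j P' hP').le) u hu
  have hz : M.π ⟨_, ha⟩ = 0 :=
    (M.π_eq_zero _).mpr ((ValuationSubring.coe_mem_nonunits_iff (a := (⟨_, ha⟩ : A))).mp (h j hj))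
  rwa [hz, map_zero, sub_zero] at h'

theorem val_mem_A {u : M.V} (hu : (u : F) ∈ riemannRochSpace D) (j : Fin m) :
    val M Q hfib j ⟨u, hu⟩ ∈ A :=
  (M.evalAtPlace_spec (fun P' hP' => (hfib j P' hP').le) u hu).1

variable (O : Orth M (riemannRochSpace D))

/-- The values of the basis. -/
def valMat : Matrix (Fin m) (Fin O.d) A :=
  Matrix.of fun j i => ⟨val M Q hfib j ⟨(O.b i : F), O.span_eq.le (Submodule.subset_span ⟨i, rfl⟩)⟩,
    val_mem_A M Q hfib _ j⟩

theorem valMat_mulVec (v : Fin O.d → K) (h : elem (L := K) O.bK v ∈ riemannRochSpace D) (j : Fin m) :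
    ((valMat M Q hfib O).map A.subtype).mulVec v j = val M Q hfib j ⟨_, h⟩ := by
  have e : (⟨_, h⟩ : riemannRochSpace D) =
      ∑ i, v i • ⟨(O.b i : F), O.span_eq.le (Submodule.subset_span ⟨i, rfl⟩)⟩ :=
    Subtype.ext (by simp [Fintype.linearCombination_apply])
  rw [e, map_sum, Matrix.mulVec, dotProduct]
  exact Finset.sum_congr rfl fun i _ => by
    rw [map_smul, smul_eq_mul, mul_comm]; rfl

theorem valMat_red (v : Fin O.d → A) (j : Fin m) :
    ((valMat M Q hfib O).map M.π).mulVec (fun i => M.π (v i)) j =
      M.π ⟨val M Q hfib j ⟨_, O.range_elem.le ⟨fun i => (v i : K), rfl⟩⟩,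
        val_mem_A M Q hfib (u := ⟨_, O.elem_mem v⟩) _ j⟩ := by
  rw [Matrix.mulVec, dotProduct]
  simp only [Matrix.map_apply, ← map_mul, ← map_sum]
  congr 1
  refine Subtype.ext ?_
  refine Eq.trans ?_ (valMat_mulVec M Q hfib O (fun i => (v i : K)) _ j)
  rw [Matrix.mulVec, dotProduct]
  push_cast
  rfl

include hinj in
/-- An integral left inverse of the values. -/
theorem exists_leftInverse_valMat
    (hkill : ell (M.rD D - ∑ j, Finsupp.single (M.r (Q j)) 1) = 0) :
    ∃ L : Matrix (Fin O.d) (Fin m) A, L * valMat M Q hfib O = 1 := by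
  classical
  have hsurj := M.π_surjective
  have hrank : O.d ≤ ((valMat M Q hfib O).map M.π).rank := by
    rw [Matrix.rank, LinearMap.finrank_range_of_inj, Module.finrank_fin_fun]
    rw [← LinearMap.ker_eq_bot, Submodule.eq_bot_iff]
    intro v hv
    choose w hw using fun i => hsurj (v i)
    obtain rfl : (fun i => M.π (w i)) = v := funext hw
    have hu : ((⟨_, O.elem_mem w⟩ : M.V) : F) ∈ riemannRochSpace D := O.range_elem.le ⟨_, rfl⟩
    have h := kill M Q hinj hfib Finset.univ (rD_point M Q hfib) hu (M.ρ_mem_space hu) fun j _ => by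
      refine (ValuationSubring.coe_mem_nonunits_iff
        (a := (⟨_, val_mem_A M Q hfib hu j⟩ : A))).mpr ((M.π_eq_zero _).mp ?_)
      rw [← valMat_red]
      exact congrFun hv j
    rw [Submodule.finrank_eq_zero.mp hkill, Submodule.mem_bot, O.ρ_elem] at h
    exact (O.li.fintypeLinearCombination_injective (h.trans (map_zero _).symm))
  obtain ⟨S, L, hLS⟩ := exists_compress hrank
  choose lift hlift using hsurj
  set L' : Matrix (Fin O.d) (Fin m) A := L.map lift
  set S' : Matrix (Fin O.d) (Fin O.d) A := S.map lift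
  set X := L' * valMat M Q hfib O with hX
  have hdet : IsUnit (X * S').det := by
    have : M.π (X * S').det = 1 := by
      rw [RingHom.map_det, RingHom.mapMatrix_apply, Matrix.map_mul, hX, Matrix.map_mul]
      simp only [L', S', Matrix.map_map]
      rw [show M.π ∘ lift = id from funext hlift, Matrix.map_id, Matrix.map_id, hLS, Matrix.det_one]
    by_contra hn
    rw [(M.π_eq_zero _).mpr ((mem_maximalIdeal _).mpr hn)] at this
    exact zero_ne_one this
  have hXdet : IsUnit X.det := by
    rw [Matrix.det_mul] at hdet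
    exact isUnit_of_mul_isUnit_left hdet
  exact ⟨X⁻¹ * L', by rw [Matrix.mul_assoc, ← hX, Matrix.nonsing_inv_mul _ hXdet]⟩

end Points

end Fermat.Agent.MCurve.Flat
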