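import Fermat.Agent.MCurve.Flat.Coords

/-!
The law of Khuri-Makdisi on a rigidified finite family of classes: the coordinates of the third class
are integral polynomials in those of the first two.
-/

set_option autoImplicit false
set_option linter.unusedSectionVars false

noncomputable section

namespace Fermat.Agent.MCurve.Flat

open AlgebraicCurve IsLocalRing Matrix
open Fermat.Agent.MCurve.RR

section Curve

variable {K F : Type} [Field K] [Field F] [Algebra K F] [IsAlgClosed K]
  [∀ v : Place K F, v.FiniteResidue] [HasPrincipalDivisors K F] [Nonempty (Place K F)]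

/-- The effective divisor of the class of a single section. -/
theorem divOf_add_eq {D E : Divisor K F} (h : ell D = 1) (hE : 0 ≤ E)
    (he : E - D ∈ Divisor.principal (K := K) (F := F)) {s : F} (hs : s ∈ riemannRochSpace D)
    (hs0 : s ≠ 0) : divOf K s + D = E :=
  effective_unique h (add_comm D (divOf K s) ▸ (mem_space_iff_of_ne hs0).mp hs) hE
    ⟨s, hs0, fun v => by rw [add_sub_cancel_right, divOf_apply]⟩ he

theorem div_mem_space {D : Divisor K F} {x s : F} (hx : x ∈ riemannRochSpace D) (hs : s ≠ 0) :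
    x / s ∈ riemannRochSpace (D + divOf K s) := by
  rcases eq_or_ne x 0 with rfl | hx0
  · rw [zero_div]; exact zero_mem _
  have hd : x / s ≠ 0 := div_ne_zero hx0 hs
  rw [mem_space_iff_of_ne hd, show D + divOf K s + divOf K (x / s) = D + divOf K x by
    rw [div_eq_mul_inv, divOf_mul hx0 (inv_ne_zero hs), divOf_inv]; abel]
  exact (mem_space_iff_of_ne hx0).mp hx

end Curve

variable {K F k F' : Type} [Field K] [Field F] [Algebra K F] [Field k] [Field F'] [Algebra k F']
  {A : ValuationSubring K} [IsAlgClosed K] [IsAlgClosed k] [∀ v : Place K F, v.FiniteResidue]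
  [∀ v : Place k F', v.FiniteResidue] [HasPrincipalDivisors K F] [HasPrincipalDivisors k F']
  [Nonempty (Place K F)] [Nonempty (Place k F')]

theorem flip_ident₁ {α : Type} [AddCommGroup α] (a b c d : α) : a + b + c - d = c - (d - a - b) := by
  abel

theorem flip_ident₂ {α : Type} [AddCommGroup α] (a b u w : α) :
    u - a - b + (w + w - u) = w - a + (w - b) := by abel

theorem flip_ident₃ {α : Type} [AddCommGroup α] (a b u w d : α) :
    w - (d + (u - a - b)) + (w - a + (w - b)) + d = w + w + w - u := by abel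

theorem flip_ident₄ {α : Type} [AddCommGroup α] (a b e u w : α) :
    u - a - b - e + (w + w + w - u) = w - e + (w - a + (w - b)) := by abel

/-- A rigidified family of effective divisors with a law. -/
structure RigData (M : RedModel K F k F' A) (X : Type) where
  /-- The genus. -/
  g : ℕ
  /-- The bound. -/
  c : ℕ
  hK : IsRiemann K F g c
  hk : IsRiemann k F' g c
  /-- The base divisor. -/
  G : Divisor K F
  deg_G : Divisor.degree G = g
  /-- The multiple. -/
  n : ℕ
  hn : 2 * (c : ℤ) + 1 + g ≤ n * g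
  hn3 : 3 * (g : ℤ) ≤ n * g
  /-- The divisors. -/
  E : X → Divisor K F
  E_nonneg : ∀ x, 0 ≤ E x
  deg_E : ∀ x, Divisor.degree (E x) = g
  ell_E : ∀ x, ell (E x) = 1
  ell_rE : ∀ x, ell (M.rD (E x)) = 1
  /-- The law. -/
  third : X → X → X
  rel : ∀ x y, E x + E y + E (third x y) - 3 • G ∈ Divisor.principal (K := K) (F := F)
  /-- The number of points. -/
  m : ℕ
  m_eq : m = ell (n • G)
  /-- The points. -/
  Q : Fin m → Place K F
  Q_inj : Function.Injective fun j => M.r (Q j)
  G_fib : ∀ j P', M.r P' = M.r (Q j) → G P' = 0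
  E_avoid : ∀ x j, M.rD (E x) (M.r (Q j)) = 0
  kill_all : ell (M.rD (n • G) - ∑ j, Finsupp.single (M.r (Q j)) 1) = 0
  kill_E : ∀ x, ell (M.rD (n • G - E x) -
    ∑ j ∈ Finset.univ.filter (fun j : Fin m => (j : ℕ) < m - g), Finsupp.single (M.r (Q j)) 1) = 0

namespace RigData

variable {M : RedModel K F k F' A} {X : Type} (T : RigData M X)

theorem nG_fib (j : Fin T.m) (P' : Place K F) (h : M.r P' = M.r (T.Q j)) : (T.n • T.G) P' = 0 := by
  rw [Finsupp.smul_apply, T.G_fib j P' h, smul_zero]

/-- The values at the points. -/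
abbrev ev (j : Fin T.m) : riemannRochSpace (T.n • T.G) →ₗ[K] K := val M T.Q T.nG_fib j

/-- The number of values fixing a member of a space of the family. -/
abbrev r : ℕ := T.m - T.g

/-- The first points. -/
abbrev j₀ (a : Fin T.r) : Fin T.m := Fin.castLE (Nat.sub_le _ _) a

theorem deg_nG : Divisor.degree (T.n • T.G) = (T.n : ℤ) * T.g := by
  rw [map_nsmul, T.deg_G, nsmul_eq_mul]

theorem deg_space (x : X) : Divisor.degree (T.n • T.G - T.E x) = (T.n : ℤ) * T.g - T.g := by
  rw [map_sub, T.deg_nG, T.deg_E]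

theorem ell_space (x : X) : ell (T.n • T.G - T.E x) = T.r := by
  have h1 := T.hK.eq (T.n • T.G - T.E x) (by rw [T.deg_space]; have := T.hn; omega)
  have h2 := T.hK.eq (T.n • T.G) (by rw [T.deg_nG]; have := T.hn; omega)
  rw [T.deg_space] at h1
  rw [T.deg_nG, ← T.m_eq] at h2
  show _ = T.m - T.g
  omega

theorem space_le (x : X) :
    riemannRochSpace (T.n • T.G - T.E x) ≤ riemannRochSpace (T.n • T.G) :=
  space_mono (sub_le_self _ (T.E_nonneg x))

/-- Integral functions of a space of the family vanishing mod the maximal ideal at the first points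
reduce to zero. -/
theorem ρ_eq_zero_of_first {x : X} {u : M.V} (hu : (u : F) ∈ riemannRochSpace (T.n • T.G))
    (hu' : M.ρ u ∈ riemannRochSpace (M.rD (T.n • T.G - T.E x)))
    (h : ∀ a : Fin T.r, T.ev (T.j₀ a) ⟨u, hu⟩ ∈ A.nonunits) : M.ρ u = 0 := by
  have := kill M T.Q T.Q_inj T.nG_fib (Finset.univ.filter fun j : Fin T.m => (j : ℕ) < T.m - T.g)
    (fun j => by
      rw [M.rD_sub, Finsupp.sub_apply, rD_point M T.Q T.nG_fib j, T.E_avoid, sub_zero]) hu hu'
    fun j hj => h ⟨j, (Finset.mem_filter.mp hj).2⟩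
  rwa [Submodule.finrank_eq_zero.mp (T.kill_E x), Submodule.mem_bot] at this

theorem eq_zero_of_first {x : X} (f : riemannRochSpace (T.n • T.G))
    (hf : (f : F) ∈ riemannRochSpace (T.n • T.G - T.E x))
    (h : ∀ a : Fin T.r, T.ev (T.j₀ a) f = 0) : f = 0 := by
  by_contra h0
  have hf0 : (f : F) ≠ 0 := fun e => h0 (Subtype.ext e)
  obtain ⟨c, u, hu, hcu⟩ := M.scale _ hf0
  have hc : c ≠ 0 := fun e => hf0 (by rw [hcu, e, map_zero, zero_mul])
  have huf : (u : F) = c⁻¹ • (f : F) := by
    rw [hcu, Algebra.smul_def, ← mul_assoc, ← map_mul, inv_mul_cancel₀ hc, map_one, one_mul]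
  refine hu (T.ρ_eq_zero_of_first (x := x) (huf ▸ Submodule.smul_mem _ _ f.2)
    (M.ρ_mem_space (huf ▸ Submodule.smul_mem _ _ hf)) fun a => ?_)
  rw [show (⟨u, huf ▸ Submodule.smul_mem _ _ f.2⟩ : riemannRochSpace (T.n • T.G)) = c⁻¹ • f from
    Subtype.ext huf, map_smul, h a, smul_zero]
  exact A.nonunits.zero_mem

theorem exists_psi (x : X) (a : Fin T.r) : ∃ f : riemannRochSpace (T.n • T.G),
    (f : F) ∈ riemannRochSpace (T.n • T.G - T.E x) ∧
      ∀ b, T.ev (T.j₀ b) f = if b = a then 1 else 0 := by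
  classical
  let L : riemannRochSpace (T.n • T.G - T.E x) →ₗ[K] Fin T.r → K :=
    LinearMap.pi fun b => (T.ev (T.j₀ b)).comp (Submodule.inclusion (T.space_le x))
  have hinj : Function.Injective L := by
    rw [← LinearMap.ker_eq_bot, Submodule.eq_bot_iff]
    intro f hf
    have := T.eq_zero_of_first (Submodule.inclusion (T.space_le x) f) f.2 fun b => congrFun hf b
    exact Submodule.inclusion_injective (T.space_le x) (this.trans (map_zero _).symm)
  obtain ⟨f, hf⟩ := (LinearMap.injective_iff_surjective_of_finrank_eq_finrank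
    (by rw [Module.finrank_fin_fun]; exact T.ell_space x)).mp hinj fun b => if b = a then 1 else 0
  exact ⟨Submodule.inclusion (T.space_le x) f, f.2, fun b => congrFun hf b⟩

/-- The echelon basis at the first points. -/
def psi (x : X) (a : Fin T.r) : riemannRochSpace (T.n • T.G) := (T.exists_psi x a).choose

theorem psi_mem (x : X) (a : Fin T.r) :
    (T.psi x a : F) ∈ riemannRochSpace (T.n • T.G - T.E x) := (T.exists_psi x a).choose_spec.1

theorem ev_psi (x : X) (a b : Fin T.r) : T.ev (T.j₀ b) (T.psi x a) = if b = a then 1 else 0 :=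
  (T.exists_psi x a).choose_spec.2 b

theorem sum_ev_psi {x : X} (f : riemannRochSpace (T.n • T.G))
    (hf : (f : F) ∈ riemannRochSpace (T.n • T.G - T.E x)) :
    f = ∑ a, T.ev (T.j₀ a) f • T.psi x a := by
  classical
  refine sub_eq_zero.mp (T.eq_zero_of_first (x := x) _ ?_ fun b => ?_)
  · rw [Submodule.coe_sub, Submodule.coe_sum]
    exact sub_mem hf (Submodule.sum_mem _ fun a _ => Submodule.smul_mem _ _ (T.psi_mem x a))
  · simp [map_sum, T.ev_psi]

theorem psi_integral (x : X) (a : Fin T.r) : (T.psi x a : F) ∈ M.V := by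
  have hne : (T.psi x a : F) ≠ 0 := fun e => by
    have := T.ev_psi x a a
    rw [show T.psi x a = 0 from Subtype.ext e, map_zero, if_pos rfl] at this
    exact zero_ne_one this
  obtain ⟨c, u, hu, hcu⟩ := M.scale _ hne
  suffices hc : c ∈ A by rw [hcu]; exact mul_mem (M.const_mem ⟨c, hc⟩) u.2
  by_contra hc
  have hc0 : c ≠ 0 := fun e => hc (e ▸ zero_mem _)
  obtain ⟨t, ht, ht0⟩ := M.π_inv_eq_zero hc
  have huf : (u : F) = c⁻¹ • (T.psi x a : F) := by
    rw [hcu, Algebra.smul_def, ← mul_assoc, ← map_mul, inv_mul_cancel₀ hc0, map_one, one_mul]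
  refine hu (T.ρ_eq_zero_of_first (x := x) (huf ▸ Submodule.smul_mem _ _ (T.psi x a).2)
    (M.ρ_mem_space (huf ▸ Submodule.smul_mem _ _ (T.psi_mem x a))) fun b => ?_)
  rw [show (⟨u, huf ▸ Submodule.smul_mem _ _ (T.psi x a).2⟩ : riemannRochSpace (T.n • T.G)) =
    c⁻¹ • T.psi x a from Subtype.ext huf, map_smul, T.ev_psi, smul_eq_mul, ← ht]
  split_ifs
  · rw [mul_one]
    exact (ValuationSubring.coe_mem_nonunits_iff (a := t)).mpr ((M.π_eq_zero t).mp ht0)
  · rw [mul_zero]
    exact A.nonunits.zero_mem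

/-- The coordinates. -/
def phi (i : Fin T.m × Fin T.r) (x : X) : A :=
  ⟨T.ev i.1 (T.psi x i.2),
    val_mem_A M T.Q T.nG_fib (u := ⟨_, T.psi_integral x i.2⟩) (T.psi x i.2).2 i.1⟩

/-- The algebra generated by the coordinates of the first two classes. -/
abbrev coordAlg : Subalgebra A (X × X → A) :=
  Algebra.adjoin A (Set.range (fun i => fun p : X × X => T.phi i p.1) ∪
    Set.range fun i => fun p : X × X => T.phi i p.2)

variable [Finite X]

theorem isFam_pr (O : Orth M (riemannRochSpace (T.n • T.G))) (pr : X × X → X)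
    (hpr : ∀ i, (fun p => T.phi i (pr p)) ∈ T.coordAlg) :
    IsFam T.coordAlg O fun p => riemannRochSpace (T.n • T.G - T.E (pr p)) := by
  classical
  set R := T.coordAlg
  obtain ⟨L, hL⟩ := exists_leftInverse_valMat M T.Q T.Q_inj T.nG_fib O T.kill_all
  set V := valMat M T.Q T.nG_fib O
  set Φ : Matrix (Fin T.m) (Fin T.r) R := Matrix.of fun j a => ⟨_, hpr (j, a)⟩ with hΦ
  set Pr : Matrix (Fin T.r) (Fin O.d) R :=
    (V.submatrix T.j₀ id).map (algebraMap A R) with hPr
  set C : Matrix (Fin O.d) (Fin T.r) R := L.map (algebraMap A R) * Φ with hC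
  choose v hv using fun p a => O.exists_coord (u := ⟨_, T.psi_integral (pr p) a⟩) (T.psi (pr p) a).2
  have hVv : ∀ p a j, (∑ i, V j i * v p a i) = T.phi (j, a) (pr p) := fun p a j => Subtype.ext (by
    have h := valMat_mulVec M T.Q T.nG_fib O (fun i => (v p a i : K))
      (O.range_elem.le ⟨_, rfl⟩) j
    rw [Matrix.mulVec, dotProduct] at h
    push_cast
    refine h.trans ?_
    exact congrArg (T.ev j) (Subtype.ext (hv p a)))
  have hCv : ∀ p i a, evA R p (C i a) = v p a i := fun p i a => by
    have h1 : evA R p (C i a) = ∑ j, L i j * T.phi (j, a) (pr p) := by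
      rw [hC, Matrix.mul_apply, map_sum]
      exact Finset.sum_congr rfl fun j _ => by rw [map_mul]; rfl
    rw [h1]
    calc ∑ j, L i j * T.phi (j, a) (pr p) = (L * V).mulVec (v p a) i := by
          rw [← Matrix.mulVec_mulVec]
          exact Finset.sum_congr rfl fun j _ => by rw [← hVv p a j]; rfl
      _ = v p a i := by rw [hL, Matrix.one_mulVec]
  have hPC : Pr * C = 1 := Matrix.ext fun b a => evA_ext R fun p => by
    have h1 : evA R p ((Pr * C) b a) = ∑ i, V (T.j₀ b) i * v p a i := by
      rw [Matrix.mul_apply, map_sum]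
      exact Finset.sum_congr rfl fun i _ => by rw [map_mul, hCv]; rfl
    rw [h1, hVv]
    refine Subtype.ext ((T.ev_psi _ a b).trans ?_)
    rw [Matrix.one_apply]
    split_ifs <;> simp
  have hcol : ∀ p a, elem (L := K) O.bK (fun i => evK R p (C i a)) = T.psi (pr p) a := fun p a => by
    refine Eq.trans ?_ (hv p a)
    exact congrArg _ (funext fun i => congrArg Subtype.val (hCv p i a))
  refine ⟨C * Pr, by rw [Matrix.mul_assoc C Pr, ← Matrix.mul_assoc Pr C Pr, hPC, Matrix.one_mul],
    fun p => le_antisymm ?_ fun f hf => ?_⟩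
  · refine (Submodule.map_mono (rangeAt_mul_le R C Pr p)).trans ?_
    show spanOf (evK R p) O.bK C ≤ _
    rw [spanOf_eq_span]
    refine Submodule.span_le.mpr ?_
    rintro _ ⟨a, rfl⟩
    show elem (L := K) O.bK (fun i => evK R p (C i a)) ∈ riemannRochSpace _
    rw [hcol]
    exact T.psi_mem _ a
  · have hC_le : spanOf (evK R p) O.bK C ≤ spanOf (evK R p) O.bK (C * Pr) := by
      refine Submodule.map_mono ?_
      have h := rangeAt_mul_le R (C * Pr) C p
      rwa [Matrix.mul_assoc, hPC, Matrix.mul_one] at h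
    refine hC_le ?_
    have hsum := congrArg Subtype.val (T.sum_ev_psi ⟨f, T.space_le _ hf⟩ hf)
    rw [spanOf_eq_span, show f = _ from hsum, Submodule.coe_sum]
    exact Submodule.sum_mem _ fun a _ => Submodule.smul_mem _ _
      (Submodule.subset_span ⟨a, hcol p a⟩)

/-- The coordinates of the third class lie in the algebra of those of the first two. -/
theorem phi_third_mem (i : Fin T.m × Fin T.r) :
    (fun p : X × X => T.phi i (T.third p.1 p.2)) ∈ T.coordAlg := by
  classical
  set R := T.coordAlg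
  have hn := T.hn
  have hn3 := T.hn3
  have hdG := T.deg_G
  set G1 : Divisor K F := T.n • T.G with hG1
  set G3 : Divisor K F := 3 • T.G with hG3
  have hd1 : Divisor.degree G1 = (T.n : ℤ) * T.g := T.deg_nG
  have hd3 : Divisor.degree G3 = 3 * (T.g : ℤ) := by rw [hG3, map_nsmul, hdG, nsmul_eq_mul]; rfl
  let O1 := orthOf M (riemannRochSpace G1)
  let O2 := orthOf M (riemannRochSpace (G1 + G1))
  let O3 := orthOf M (riemannRochSpace G3)
  let OB := orthOf M (riemannRochSpace (G1 + G1 - G3))
  let OC := orthOf M (riemannRochSpace (G1 + G1 + G1 - G3))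
  let O4 := orthOf M (riemannRochSpace (G1 + G1 + G1))
  have hU1 : IsFam R O1 fun p : X × X => riemannRochSpace (G1 - T.E p.1) :=
    T.isFam_pr O1 (fun p => p.1) fun i => Algebra.subset_adjoin (Or.inl ⟨i, rfl⟩)
  have hU2 : IsFam R O1 fun p : X × X => riemannRochSpace (G1 - T.E p.2) :=
    T.isFam_pr O1 (fun p => p.2) fun i => Algebra.subset_adjoin (Or.inr ⟨i, rfl⟩)
  -- degrees and reductions
  have hdx : ∀ x, Divisor.degree (G1 - T.E x) = (T.n : ℤ) * T.g - T.g := T.deg_space
  have hred : ∀ x, redW M (riemannRochSpace (G1 - T.E x)) = riemannRochSpace (M.rD (G1 - T.E x)) :=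
    fun x => M.redW_space_eq (le_of_eq (M.ell_rD_eq T.hK T.hk (by rw [hdx]; omega)
      (by rw [hdx]; omega)))
  set D12 : X × X → Divisor K F := fun p => (G1 - T.E p.1) + (G1 - T.E p.2) with hD12
  have hd12 : ∀ p, Divisor.degree (D12 p) = 2 * ((T.n : ℤ) * T.g) - 2 * T.g := fun p => by
    rw [hD12, map_add, hdx, hdx]; ring
  have hred12 : ∀ p, redW M (riemannRochSpace (D12 p)) = riemannRochSpace (M.rD (D12 p)) :=
    fun p => M.redW_space_eq (le_of_eq (M.ell_rD_eq T.hK T.hk (by rw [hd12]; omega)
      (by rw [hd12]; omega)))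
  -- products
  have hU12 : IsFam R O2 fun p : X × X => riemannRochSpace (D12 p) := by
    refine hU1.mul R hU2 (fun x hx y hy => mul_mem_space hx hy) (fun p => space_mono ?_)
      (fun p => Submodule.mul_le.mpr fun a ha b hb => mul_mem_space ha hb)
      (r := (2 * ((T.n : ℤ) * T.g) - 2 * T.g + 1 - T.g).toNat) (fun p => ?_) fun p => ?_
    · exact add_le_add (sub_le_self _ (T.E_nonneg _)) (sub_le_self _ (T.E_nonneg _))
    · have h := T.hK.eq (D12 p) (by rw [hd12]; omega)
      rw [hd12] at h
      simp only [ell] at h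
      omega
    · rw [hred, hred, space_mul_large T.hk (by rw [M.degree_rD, hdx]; omega)
        (by rw [M.degree_rD, hdx]; omega), ← M.rD_add]
      have h := T.hk.eq (M.rD (D12 p)) (by rw [M.degree_rD, hd12]; omega)
      rw [M.degree_rD, hd12] at h
      simp only [ell] at h
      show _ ≤ Module.finrank k ↥(riemannRochSpace (M.rD (D12 p)))
      omega
  -- the line
  set DZ : X × X → Divisor K F := fun p => G3 - T.E p.1 - T.E p.2 with hDZ
  have hZE : ∀ p, T.E (T.third p.1 p.2) - DZ p ∈ Divisor.principal (K := K) (F := F) := fun p => by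
    have h := T.rel p.1 p.2
    rw [flip_ident₁] at h
    exact h
  have hellZ : ∀ p, ell (DZ p) = 1 := fun p => (ell_eq_of_principal (hZE p)).symm.trans (T.ell_E _)
  have hellZk : ∀ p, ell (M.rD (DZ p)) = 1 := fun p =>
    (ell_eq_of_principal (M.rD_sub_principal (hZE p))).symm.trans (T.ell_rE _)
  have hdB : Divisor.degree (G1 + G1 - G3) = 2 * ((T.n : ℤ) * T.g) - 3 * T.g := by
    rw [map_sub, map_add, hd1, hd3]; ring
  have hredB : redW M (riemannRochSpace (G1 + G1 - G3)) =
      riemannRochSpace (M.rD (G1 + G1 - G3)) :=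
    M.redW_space_eq (le_of_eq (M.ell_rD_eq T.hK T.hk (by rw [hdB]; omega) (by rw [hdB]; omega)))
  have hadd : ∀ p, DZ p + (G1 + G1 - G3) = D12 p := fun p => flip_ident₂ _ _ G3 G1
  have hZle : ∀ p, DZ p ≤ G3 := fun p => by
    show G3 - T.E p.1 - T.E p.2 ≤ G3
    rw [sub_sub]
    exact sub_le_self _ (add_nonneg (T.E_nonneg _) (T.E_nonneg _))
  have hZ : IsFam R O3 fun p : X × X => riemannRochSpace (DZ p) := by
    refine IsFam.colon R (O' := OB) (isFam_const R OB) hU12 (fun x hx y hy => ?_)
      (fun p => space_mono (hZle p)) (fun p x hx y hy => ?_) (r := 1) (fun p => (hellZ p).ge)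
      fun p Y hY hmul => ?_
    · have := mul_mem_space hx hy
      rwa [add_sub_cancel] at this
    · have := mul_mem_space hx hy
      rwa [hadd] at this
    · refine le_trans (Submodule.finrank_mono fun y hy => ?_) (hellZk p).le
      refine (T.hk.mem_space_iff_mul (B := M.rD (G1 + G1 - G3))
        (by rw [M.degree_rD, hdB]; omega)).mpr fun b hb => ?_
      rw [← hredB] at hb
      rw [← M.rD_add, hadd, ← hred12]
      exact hmul y hy b hb
  -- the line times a space
  have hdC : Divisor.degree (G1 + G1 + G1 - G3) = 3 * ((T.n : ℤ) * T.g) - 3 * T.g := by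
    rw [map_sub, map_add, map_add, hd1, hd3]; ring
  have hline : ∀ p, ∃ s : M.V, M.ρ s ≠ 0 ∧ (s : F) ∈ riemannRochSpace (DZ p) ∧
      divOf K (s : F) + DZ p = T.E (T.third p.1 p.2) ∧
      riemannRochSpace (DZ p) ≤ K ∙ (s : F) := fun p => by
    obtain ⟨f, hf, hf0⟩ := exists_ne_zero_of_ell_pos (D := DZ p) (by rw [hellZ]; exact one_pos)
    obtain ⟨s, hs, hsm⟩ := exists_primitive_mem M hf hf0
    have hs0 : (s : F) ≠ 0 := fun e => hs (by rw [show s = 0 from Subtype.ext e, map_zero])
    refine ⟨s, hs, hsm, divOf_add_eq (hellZ p) (T.E_nonneg _) (hZE p) hsm hs0, ?_⟩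
    refine (Submodule.eq_of_le_of_finrank_le ((Submodule.span_singleton_le_iff_mem _ _).mpr hsm)
      ?_).ge
    rw [finrank_span_singleton hs0]
    exact (hellZ p).le
  have hS : IsFam R O4 fun p : X × X =>
      riemannRochSpace (DZ p) * riemannRochSpace (G1 + G1 + G1 - G3) := by
    refine hZ.mul R (isFam_const R OC) (fun x hx y hy => ?_) (fun p => ?_) (fun p => le_rfl)
      (r := ell (G1 + G1 + G1 - G3)) (fun p => ?_) fun p => ?_
    · have := mul_mem_space hx hy
      rwa [add_sub_cancel] at this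
    · refine Submodule.mul_le.mpr fun x hx y hy => ?_
      have := mul_mem_space (space_mono (hZle p) hx) hy
      rwa [add_sub_cancel] at this
    · obtain ⟨s, -, -, -, hle⟩ := hline p
      refine (Submodule.finrank_mono (Submodule.mul_le.mpr fun x hx y hy => ?_)).trans
        (Submodule.finrank_map_le (LinearMap.mulLeft K (s : F)) _)
      obtain ⟨a, rfl⟩ := Submodule.mem_span_singleton.mp (hle hx)
      exact ⟨a • y, Submodule.smul_mem _ _ hy, by simp⟩
    · obtain ⟨s, hs, hsm, -, -⟩ := hline p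
      haveI : Module.Finite k ↥(redW M (riemannRochSpace (DZ p)) *
          redW M (riemannRochSpace (G1 + G1 + G1 - G3)) : Submodule k F') :=
        Submodule.finiteDimensional_of_le (le_trans (Submodule.mul_le.mpr fun x hx y hy =>
          mul_mem_space (M.redW_le _ hx) (M.redW_le _ hy)) le_rfl)
      refine le_trans (le_of_eq ?_) (Submodule.finrank_mono
        (s := (redW M (riemannRochSpace (G1 + G1 + G1 - G3))).map (LinearMap.mulLeft k (M.ρ s))) ?_)
      · rw [← (Submodule.equivMapOfInjective _ (mul_right_injective₀ hs) _).finrank_eq,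
          M.finrank_redW_eq]
      · rintro _ ⟨y, hy, rfl⟩
        exact Submodule.mul_mem_mul (Submodule.subset_span ⟨s, hsm, rfl⟩) hy
  -- the third space
  have hW : IsFam R O1 fun p : X × X => riemannRochSpace (G1 - T.E (T.third p.1 p.2)) := by
    refine IsFam.colon R hU12 hS (fun x hx y hy => ?_) (fun p => T.space_le _)
      (fun p f hf h hh => ?_) (r := T.r) (fun p => (T.ell_space _).ge) fun p Y hY hmul => ?_
    · have := mul_mem_space hx hy
      rwa [← add_assoc] at this
    · obtain ⟨s, hs, hsm, hdiv, -⟩ := hline p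
      have hs0 : (s : F) ≠ 0 := fun e => hs (by rw [show s = 0 from Subtype.ext e, map_zero])
      rw [show f * h = (s : F) * (f * h / s) from (mul_div_cancel₀ _ hs0).symm]
      refine Submodule.mul_mem_mul hsm ?_
      have := div_mem_space (mul_mem_space hf hh) hs0
      rwa [show G1 - T.E (T.third p.1 p.2) + D12 p + divOf K (s : F) = G1 + G1 + G1 - G3 by
        rw [← hdiv]; exact flip_ident₃ _ _ G3 G1 _] at this
    · set D' := G1 - T.E (T.third p.1 p.2) + D12 p with hD'
      have hle : riemannRochSpace (DZ p) * riemannRochSpace (G1 + G1 + G1 - G3) ≤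
          riemannRochSpace D' := by
        obtain ⟨s, hs, hsm, hdiv, hsle⟩ := hline p
        have hs0 : (s : F) ≠ 0 := fun e => hs (by rw [show s = 0 from Subtype.ext e, map_zero])
        have hs' : (s : F) ∈ riemannRochSpace (DZ p - T.E (T.third p.1 p.2)) := by
          rw [mem_space_iff_of_ne hs0, ← hdiv,
            show DZ p - (divOf K (s : F) + DZ p) + divOf K (s : F) = 0 by abel]
        refine Submodule.mul_le.mpr fun x hx y hy => ?_
        obtain ⟨a, rfl⟩ := Submodule.mem_span_singleton.mp (hsle hx)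
        have := mul_mem_space (Submodule.smul_mem _ a hs') hy
        rwa [show DZ p - T.E (T.third p.1 p.2) + (G1 + G1 + G1 - G3) = D' from
          (flip_ident₄ _ _ _ G3 G1).trans hD'.symm] at this
      refine le_trans (Submodule.finrank_mono fun y hy => ?_) (le_of_eq ((M.ell_rD_eq T.hK T.hk
        (D := G1 - T.E (T.third p.1 p.2)) (by rw [hdx]; omega) (by rw [hdx]; omega)).trans
          (T.ell_space _)))
      refine (T.hk.mem_space_iff_mul (B := M.rD (D12 p))
        (by rw [M.degree_rD, hd12]; omega)).mpr fun b hb => ?_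
      rw [← hred12] at hb
      rw [← M.rD_add, ← hD']
      exact M.redW_le _ (redW_mono M hle (hmul y hy b hb))
  -- the section
  refine Exists.elim (hW.exists_section R ((valMat M T.Q T.nG_fib O1).submatrix T.j₀ id)
    (fun p => T.ell_space _) (fun p v hv hv0 => ?_) fun p => by
      rw [M.finrank_redW_eq]; exact (T.ell_space _).ge) fun Ψ hΨ => ?_
  · choose w hw using fun i => M.π_surjective (v i)
    obtain rfl : (fun i => M.π (w i)) = v := funext hw
    have hu : ((⟨_, O1.elem_mem w⟩ : M.V) : F) ∈ riemannRochSpace G1 := O1.range_elem.le ⟨_, rfl⟩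
    have h0 : M.ρ ⟨_, O1.elem_mem w⟩ = 0 := by
      refine T.ρ_eq_zero_of_first (x := T.third p.1 p.2) hu ?_ fun a => ?_
      · rw [O1.ρ_elem]
        exact M.redW_le _ hv
      · refine (ValuationSubring.coe_mem_nonunits_iff
          (a := (⟨_, val_mem_A M T.Q T.nG_fib hu (T.j₀ a)⟩ : A))).mpr ((M.π_eq_zero _).mp ?_)
        rw [← valMat_red]
        exact congrFun hv0 a
    rw [O1.ρ_elem] at h0
    exact O1.li.fintypeLinearCombination_injective (h0.trans (map_zero _).symm)
  set Vm := valMat M T.Q T.nG_fib O1 with hVm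
  have key : (fun p : X × X => T.phi i (T.third p.1 p.2)) =
      ((∑ l, algebraMap A R (Vm i.1 l) * Ψ l i.2 : R) : X × X → A) := by
    funext p
    obtain ⟨v, hv⟩ := O1.exists_coord (u := ⟨_, T.psi_integral (T.third p.1 p.2) i.2⟩)
      (T.psi (T.third p.1 p.2) i.2).2
    have hval : ∀ j, ((Vm.map A.subtype).mulVec fun l => (v l : K)) j =
        T.ev j (T.psi (T.third p.1 p.2) i.2) := fun j =>
      (valMat_mulVec M T.Q T.nG_fib O1 _ (O1.range_elem.le ⟨_, rfl⟩) j).trans
        (congrArg (T.ev j) (Subtype.ext hv))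
    have h := hΨ p (fun l => (v l : K)) (by rw [hv]; exact T.psi_mem _ _)
    rw [show (((Vm.submatrix T.j₀ id).map A.subtype).mulVec fun l => (v l : K)) =
      Pi.single i.2 1 from funext fun b => by
        refine (hval (T.j₀ b)).trans ((T.ev_psi _ i.2 b).trans ?_)
        rw [Pi.single_apply], Matrix.mulVec_single_one] at h
    refine Subtype.ext ?_
    show T.ev i.1 (T.psi (T.third p.1 p.2) i.2) = evK R p (∑ l, algebraMap A R (Vm i.1 l) * Ψ l i.2)
    rw [← hval, map_sum, Matrix.mulVec, dotProduct]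
    refine Finset.sum_congr rfl fun l _ => ?_
    rw [map_mul, congrFun h l]
    rfl
  rw [key]
  exact SetLike.coe_mem _

end RigData

end Fermat.Agent.MCurve.Flat
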