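import Fermat.Agent.MCurve.Flat.Flip
import Fermat.Agent.MCurve.RiemannRoch.Curve

/-!
Integral coordinates on the torsion of `J₀(N)` from a good model: the values at good points of the
echelon bases of the spaces cut out by the rigidified classes.
-/

set_option autoImplicit false
set_option linter.unusedSectionVars false

noncomputable section

namespace Fermat.Agent.MCurve.Flat

open AlgebraicCurve IsLocalRing ModularCurve
open Fermat.Agent.MCurve.RR
open Fermat.Agent.Galois (GQ)

/-- The Galois action on the torsion of `J₀(N)`. -/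
instance instTorsionByGalois (N : ℕ) (n : ℤ) :
    DistribMulAction GQ ↥(Submodule.torsionBy ℤ (JZero N) n) where
  smul σ x := ⟨σ • (x : JZero N), by
    rw [Submodule.mem_torsionBy_iff]
    refine ((DistribSMul.toAddMonoidHom (JZero N) σ).map_zsmul _ _).symm.trans ?_
    rw [(Submodule.mem_torsionBy_iff _ _).1 x.2]
    exact smul_zero σ⟩
  one_smul x := Subtype.ext (one_smul GQ (x : JZero N))
  mul_smul σ τ x := Subtype.ext (mul_smul σ τ (x : JZero N))
  smul_zero σ := Subtype.ext (smul_zero (A := JZero N) σ)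
  smul_add σ x y := Subtype.ext (smul_add σ (x : JZero N) y)

theorem coe_torsionBy_galois_smul {N : ℕ} {n : ℤ} (σ : GQ)
    (x : ↥(Submodule.torsionBy ℤ (JZero N) n)) :
    ((σ • x : ↥(Submodule.torsionBy ℤ (JZero N) n)) : JZero N) = σ • (x : JZero N) := rfl

section Semilinear

variable {K F : Type} [Field K] [Field F] [Algebra K F] (gg : SemilinearAut K F)

theorem divisor_smul_nonneg {D : Divisor K F} (h : 0 ≤ D) : 0 ≤ gg • D :=
  Finsupp.le_def.mpr fun w => by
    rw [SemilinearAut.divisor_smul_apply]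
    exact Finsupp.le_def.mp h _

theorem smul_mem_space {D : Divisor K F} {f : F} (hf : f ∈ riemannRochSpace D) :
    gg • f ∈ riemannRochSpace (gg • D) := by
  rcases eq_or_ne f 0 with rfl | h0
  · rw [smul_zero]; exact zero_mem _
  refine mem_space_iff.mpr (Or.inr fun w => ?_)
  have h := ((mem_space_iff.mp hf).resolve_left h0) (gg⁻¹ • w)
  have e := SemilinearAut.ord_smul gg (gg⁻¹ • w) f
  rw [smul_inv_smul] at e
  rw [SemilinearAut.divisor_smul_apply, e]
  exact h

variable [IsAlgClosed K] [∀ v : Place K F, v.FiniteResidue]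

/-- Values are transported by semilinear automorphisms fixing the point and the divisor. -/
theorem evalAtPlace_smul {D : Divisor K F} {P : Place K F} (hP : D P ≤ 0)
    (f f' : riemannRochSpace D) (hPfix : gg • P = P) (hf' : (f' : F) = gg • (f : F)) :
    evalAtPlace D P hP f' = SemilinearAut.baseAut gg (evalAtPlace D P hP f) := by
  set a := evalAtPlace D P hP f
  set b := SemilinearAut.baseAut gg a
  have h1 : (f' : F) - algebraMap K F b = 0 ∨ 0 < P.ord ((f' : F) - algebraMap K F b) := by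
    have e : (f' : F) - algebraMap K F b = gg • ((f : F) - algebraMap K F a) := by
      rw [smul_sub, hf', SemilinearAut.smul_algebraMap]
    rw [e]
    rcases ord_sub_evalAtPlace hP f with h | h
    · left; rw [h, smul_zero]
    · right
      rw [← hPfix, SemilinearAut.ord_smul]
      exact h
  have h2 := ord_sub_evalAtPlace hP f'
  set c := evalAtPlace D P hP f'
  by_contra hne
  have hcb : algebraMap K F c - algebraMap K F b ≠ 0 := by
    rw [← map_sub]; exact (map_ne_zero _).mpr (sub_ne_zero.mpr hne)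
  have hd : algebraMap K F c - algebraMap K F b =
      ((f' : F) - algebraMap K F b) + -((f' : F) - algebraMap K F c) := by ring
  have h0 : P.ord (algebraMap K F c - algebraMap K F b) = 0 := by
    rw [← map_sub, ord_algebraMap]
  rcases eq_or_ne ((f' : F) - algebraMap K F b) 0 with hb | hb
  · rw [hb, zero_add] at hd
    rw [hd, ord_neg] at h0
    rcases h2 with h | h
    · exact hcb (by rw [hd, h, neg_zero])
    · omega
  rcases eq_or_ne ((f' : F) - algebraMap K F c) 0 with hc | hc
  · rw [hc, neg_zero, add_zero] at hd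
    rw [hd] at h0
    have := h1.resolve_left hb
    omega
  have := ord_add_le P hb (neg_ne_zero.mpr hc) (hd ▸ hcb)
  rw [← hd, h0, ord_neg] at this
  have := h1.resolve_left hb
  have := h2.resolve_left hc
  omega

end Semilinear

theorem smul_place_def {N : ℕ} (σ : GQ)
    (P : Place (AlgebraicClosure ℚ) (modularFunctionFieldBar N)) :
    σ • P = arithmeticGalois (modularFunctionFieldFull N) σ • P := rfl

theorem pic0Mk_eq_iff {K F : Type} [Field K] [Field F] [Algebra K F]
    (D E : Divisor.degZero (K := K) (F := F)) :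
    Pic0.mk D = Pic0.mk E ↔ (D : Divisor K F) - E ∈ Divisor.principal (K := K) (F := F) := by
  show (QuotientAddGroup.mk D : Pic0 K F) = QuotientAddGroup.mk E ↔ _
  rw [eq_comm, QuotientAddGroup.eq]
  rw [AddSubgroup.mem_addSubgroupOf]
  push_cast
  rw [neg_add_eq_sub]

section Rig

variable {K F k F' : Type} [Field K] [Field F] [Algebra K F] [Field k] [Field F'] [Algebra k F']
  {A : ValuationSubring K} [IsAlgClosed K] [IsAlgClosed k] [∀ v : Place K F, v.FiniteResidue]
  [∀ v : Place k F', v.FiniteResidue] [HasPrincipalDivisors K F] [HasPrincipalDivisors k F']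
  [Nonempty (Place K F)] [Nonempty (Place k F')] {M : RedModel K F k F' A} {X : Type}
  (T : RigData M X)

/-- The coordinates determine the divisor. -/
theorem RigData.E_eq_of_phi_eq {x y : X} (h : ∀ i, T.phi i x = T.phi i y) : T.E x = T.E y := by
  have hpsi : ∀ b, T.psi x b = T.psi y b := fun b =>
    M.evalPts_injective T.Q_inj (fun j => T.nG_fib j _ rfl) T.kill_all
      (funext fun j => congrArg Subtype.val (h (j, b)))
  have key : ∀ u v : X, (∀ b, T.psi u b = T.psi v b) → T.E v ≤ T.E u := fun u v huv =>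
    Finsupp.le_def.mpr fun w => by
      have hd : (T.c : ℤ) + 1 ≤ Divisor.degree (T.n • T.G - T.E u) := by
        rw [T.deg_space]; have := T.hn; omega
      obtain ⟨f, hf, hf0, hfw⟩ := T.hK.exists_ord_eq hd w
      have hf' : f ∈ riemannRochSpace (T.n • T.G - T.E v) := by
        rw [show f = _ from congrArg Subtype.val (T.sum_ev_psi ⟨f, T.space_le u hf⟩ hf),
          Submodule.coe_sum]
        exact Submodule.sum_mem _ fun b _ => Submodule.smul_mem _ _ (huv b ▸ T.psi_mem v b)
      have := ((mem_space_iff.mp hf').resolve_left hf0) w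
      rw [Finsupp.sub_apply] at this hfw
      omega
  exact le_antisymm (key y x fun b => (hpsi b).symm) (key x y hpsi)

/-- The coordinates are transported by semilinear automorphisms fixing the rigidification. -/
theorem RigData.phi_smul (gg : SemilinearAut K F) (hG : gg • T.G = T.G)
    (hQ : ∀ j, gg • T.Q j = T.Q j) {x y : X} (hE : gg • T.E x = T.E y) (i : Fin T.m × Fin T.r) :
    (T.phi i y : K) = SemilinearAut.baseAut gg (T.phi i x) := by
  obtain ⟨j, b⟩ := i
  have hnG : gg • (T.n • T.G) = T.n • T.G := by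
    rw [← DistribSMul.toAddMonoidHom_apply, map_nsmul, DistribSMul.toAddMonoidHom_apply, hG]
  have hmem : gg • (T.psi x b : F) ∈ riemannRochSpace (T.n • T.G - T.E y) := by
    have := smul_mem_space gg (T.psi_mem x b)
    rwa [smul_sub, hnG, hE] at this
  have hval : ∀ l, T.ev l ⟨_, T.space_le _ hmem⟩ =
      SemilinearAut.baseAut gg (T.ev l (T.psi x b)) := fun l =>
    evalAtPlace_smul gg _ (T.psi x b) ⟨_, T.space_le _ hmem⟩ (hQ l) rfl
  have hpsi : T.psi y b = ⟨_, T.space_le _ hmem⟩ := by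
    refine sub_eq_zero.mp (T.eq_zero_of_first (x := y) _
      (sub_mem (T.psi_mem _ _) hmem) fun l => ?_)
    rw [map_sub, hval, T.ev_psi, T.ev_psi]
    split_ifs <;> simp
  show T.ev j (T.psi y b) = SemilinearAut.baseAut gg (T.ev j (T.psi x b))
  rw [hpsi, hval]

theorem pic0_eq_zero_of_genus_zero {c : ℕ} (hK : IsRiemann K F 0 c) (x : Pic0 K F) : x = 0 := by
  obtain ⟨D, rfl⟩ := Pic0.mk_surjective x
  rw [← Pic0.mk_zero, pic0Mk_eq_iff]
  have hd := Divisor.mem_degZero.mp D.2
  have h1 := hK.of_genus_zero.eq (D : Divisor K F) (by rw [hd, Nat.cast_zero])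
  rw [hd] at h1
  obtain ⟨E, hE0, hE⟩ := exists_effective (D := (D : Divisor K F)) (by omega)
  have hdE : Divisor.degree E = 0 := (degree_eq_of_principal hE).trans hd
  have hE' : E = 0 := (eq_of_le_of_degree hE0 (by rw [hdE, map_zero])).symm
  rw [hE', zero_sub] at hE
  simpa using neg_mem hE

theorem principal_rel {G : Divisor K F} {D₁ D₂ D₃ E₁ E₂ E₃ : Divisor K F}
    (h₁ : E₁ - (D₁ + G) ∈ Divisor.principal (K := K) (F := F))
    (h₂ : E₂ - (D₂ + G) ∈ Divisor.principal (K := K) (F := F))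
    (h₃ : E₃ - (D₃ + G) ∈ Divisor.principal (K := K) (F := F))
    (h : D₁ + D₂ + D₃ ∈ Divisor.principal (K := K) (F := F)) :
    E₁ + E₂ + E₃ - 3 • G ∈ Divisor.principal (K := K) (F := F) := by
  rw [show E₁ + E₂ + E₃ - 3 • G =
    (E₁ - (D₁ + G)) + (E₂ - (D₂ + G)) + (E₃ - (D₃ + G)) + (D₁ + D₂ + D₃) by abel]
  exact add_mem (add_mem (add_mem h₁ h₂) h₃) h

theorem principal_smul_rel (gg : SemilinearAut K F) {G D D' E E' : Divisor K F}
    (hG : gg • G = G) (hE : E - (D + G) ∈ Divisor.principal (K := K) (F := F))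
    (hE' : E' - (D' + G) ∈ Divisor.principal (K := K) (F := F))
    (hD : gg • D - D' ∈ Divisor.principal (K := K) (F := F))
    (hE0 : 0 ≤ E) (hE'0 : 0 ≤ E') (hell : ell (D' + G) = 1) : gg • E = E' := by
  refine effective_unique hell (divisor_smul_nonneg gg hE0) hE'0 ?_ hE'
  have h := add_mem (SemilinearAut.smul_mem_principal gg hE) hD
  rw [smul_sub, smul_add, hG] at h
  rw [show gg • E - (D' + G) = gg • E - (gg • D + G) + (gg • D - D') by abel]
  exact h

end Rig

section Abstract

variable {F k F' : Type} [Field F] [Algebra (AlgebraicClosure ℚ) F] [Field k] [Field F']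
  [Algebra k F'] [IsAlgClosed k] {A : ValuationSubring (AlgebraicClosure ℚ)}
  [∀ v : Place (AlgebraicClosure ℚ) F, v.FiniteResidue] [∀ v : Place k F', v.FiniteResidue]
  [HasPrincipalDivisors (AlgebraicClosure ℚ) F] [HasPrincipalDivisors k F']
  [Nonempty (Place (AlgebraicClosure ℚ) F)] [Nonempty (Place k F')]
  {X : Type} [AddCommGroup X] [Finite X] (M : RedModel (AlgebraicClosure ℚ) F k F' A)

/-- A rigidified family carrying the classes of `X`. -/
theorem exists_rigData {g c : ℕ} (hg : 0 < g) (hK : IsRiemann (AlgebraicClosure ℚ) F g c)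
    (hk : IsRiemann k F' g c) {good : Place (AlgebraicClosure ℚ) F → Prop}
    (hgood : ∀ s : Finset (Place k F'), ∃ P, good P ∧ M.r P ∉ s)
    (D : X → Divisor.degZero (K := AlgebraicClosure ℚ) (F := F)) (cls : X →+ Pic0 (AlgebraicClosure ℚ) F)
    (hD : ∀ x, Pic0.mk (D x) = cls x) :
    ∃ (T : RigData M X) (P₀ : Place (AlgebraicClosure ℚ) F) (a : ℤ)
      (S : Finset (Place (AlgebraicClosure ℚ) F)),
      T.G = Finsupp.single P₀ a - ∑ P ∈ S, Finsupp.single P 1 ∧ good P₀ ∧ (∀ P ∈ S, good P) ∧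
      (∀ j, good (T.Q j)) ∧ (∀ x y, T.third x y = -(x + y)) ∧
      (∀ x, ell ((D x : Divisor _ _) + T.G) = 1) ∧
      ∀ x, T.E x - ((D x : Divisor _ _) + T.G) ∈ Divisor.principal := by
  classical
  set n := 2 * c + 1 + g + 3 * g with hn
  have hng : (n : ℤ) ≤ n * g := le_mul_of_one_le_right (Int.natCast_nonneg n) (by exact_mod_cast hg)
  have hnZ : (n : ℤ) = 2 * c + 1 + g + 3 * g := by rw [hn]; push_cast; ring
  obtain ⟨P₀, hP₀, -⟩ := hgood ∅
  obtain ⟨G, m, Q, ⟨a, S, hS, hG⟩, hdG, hm, hgm, hell, hQgood, hQinj, hGfib, hEav, hkE, hkall⟩ :=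
    M.exists_rigid hK hk hgood P₀ (fun x : X => (D x : Divisor (AlgebraicClosure ℚ) F))
      (fun x => Divisor.mem_degZero.mp (D x).2) (n := n) (by omega) (by omega)
  choose E hE0 hE using fun x : X => exists_effective
    (D := (D x : Divisor (AlgebraicClosure ℚ) F) + G) (by rw [(hell x).1]; exact one_pos)
  exact ⟨
    { g := g, c := c, hK := hK, hk := hk, G := G, deg_G := hdG, n := n
      hn := by omega
      hn3 := by omega
      E := E, E_nonneg := hE0
      deg_E := fun x => by
        rw [degree_eq_of_principal (hE x), map_add, hdG, Divisor.mem_degZero.mp (D x).2, zero_add]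
      ell_E := fun x => (ell_eq_of_principal (hE x)).trans (hell x).1
      ell_rE := fun x =>
        (ell_eq_of_principal (M.rD_sub_principal (hE x))).trans (hell x).2
      third := fun x y => -(x + y)
      rel := fun x y => principal_rel (hE x) (hE y) (hE _) (by
        have h : Pic0.mk (D x + D y + D (-(x + y))) = Pic0.mk 0 := by
          rw [Pic0.mk_add, Pic0.mk_add, hD, hD, hD, Pic0.mk_zero, ← map_add, ← map_add,
            add_neg_cancel, map_zero]
        simpa using (pic0Mk_eq_iff _ _).mp h)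
      m := m, m_eq := hm, Q := Q, Q_inj := hQinj, G_fib := hGfib
      E_avoid := fun x j => hEav x j _ (M.rD_nonneg (hE0 x)) (M.rD_sub_principal (hE x))
      kill_all := hkall
      kill_E := fun x => by
        rw [M.rD_sub, M.rD_nsmul]
        exact hkE x _ (M.rD_sub_principal (hE x)) },
    P₀, a, S, hG, hP₀, hS, hQgood, fun _ _ => rfl, fun x => (hell x).1, hE⟩

variable [DistribMulAction GQ X] [MulAction GQ (Place (AlgebraicClosure ℚ) F)]

/-- The coordinates of a rigidified family. -/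
theorem nonempty_intCoords_of_rigData (Φ : GQ → SemilinearAut (AlgebraicClosure ℚ) F)
    (hΦ : ∀ σ a, SemilinearAut.baseAut (Φ σ) a = σ a)
    (hact : ∀ (σ : GQ) (P : Place (AlgebraicClosure ℚ) F), σ • P = Φ σ • P) {ℓ : ℕ}
    (D : X → Divisor.degZero (K := AlgebraicClosure ℚ) (F := F)) (cls : X →+ Pic0 (AlgebraicClosure ℚ) F)
    (hinj : Function.Injective cls) (hD : ∀ x, Pic0.mk (D x) = cls x)
    (hcls : ∀ σ x, cls (σ • x) = Φ σ • cls x) (T : RigData M X)
    {P₀ : Place (AlgebraicClosure ℚ) F} {a : ℤ} {S : Finset (Place (AlgebraicClosure ℚ) F)}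
    (hG : T.G = Finsupp.single P₀ a - ∑ P ∈ S, Finsupp.single P 1)
    (hP₀ : ∃ f, 0 < f ∧ IsUnramPlace A ℓ f P₀) (hS : ∀ P ∈ S, ∃ f, 0 < f ∧ IsUnramPlace A ℓ f P)
    (hQgood : ∀ j, ∃ f, 0 < f ∧ IsUnramPlace A ℓ f (T.Q j))
    (hthird : ∀ x y, T.third x y = -(x + y))
    (hell : ∀ x, ell ((D x : Divisor _ _) + T.G) = 1)
    (hE : ∀ x, T.E x - ((D x : Divisor _ _) + T.G) ∈ Divisor.principal) :
    Nonempty (IntCoords X A ℓ) := by
  classical
  -- separation
  have hsep : Function.Injective fun x i => T.phi i x := fun x y h => by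
    have hxy : T.E x = T.E y := T.E_eq_of_phi_eq fun i => congrFun h i
    refine hinj ?_
    rw [← hD x, ← hD y, pic0Mk_eq_iff]
    have := sub_mem (hE y) (hE x)
    rwa [hxy, sub_sub_sub_cancel_left, add_sub_add_right_eq_sub] at this
  -- equivariance
  have hequiv : ∀ σ : GQ, σ • P₀ = P₀ → (∀ P ∈ S, σ • P = P) → (∀ j, σ • T.Q j = T.Q j) →
      ∀ i x, (T.phi i (σ • x) : AlgebraicClosure ℚ) = σ (T.phi i x) := by
    intro σ h0 hS' hQ' i x
    simp only [hact] at h0 hS' hQ'
    have hgG : Φ σ • T.G = T.G := by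
      rw [hG, smul_sub, SemilinearAut.smul_single, Finset.smul_sum, h0]
      exact congrArg _ (Finset.sum_congr rfl fun P hP => by
        rw [SemilinearAut.smul_single, hS' P hP])
    rw [← hΦ]
    refine T.phi_smul (Φ σ) hgG hQ' (principal_smul_rel (Φ σ) hgG (hE x) (hE _) ?_ (T.E_nonneg x)
      (T.E_nonneg _) (hell _)) i
    refine (pic0Mk_eq_iff (SemilinearAut.degZeroSMulHom (Φ σ) (D x)) _).mp ?_
    rw [hD, ← SemilinearAut.pic0_smul_mk, hD, hcls]
  -- fields of definition
  choose f hf hfu using hQgood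
  choose fS hfS hfSu using hS
  obtain ⟨f₀, hf₀, hfu₀⟩ := hP₀
  set ff := f₀ * (∏ j, f j) * ∏ P : S, fS P.1 P.2 with hff
  have hff0 : 0 < ff := Nat.mul_pos (Nat.mul_pos hf₀ (Finset.prod_pos fun j _ => hf j))
    (Finset.prod_pos fun P _ => hfS P.1 P.2)
  obtain ⟨L₀, hL₀, hL₀'⟩ := hfu₀.1
  choose LQ hLQ hLQ' using fun j => (hfu j).1
  choose LS hLS hLS' using fun P : S => (hfSu P.1 P.2).1
  set V : Set (AlgebraicClosure ℚ) :=
    Set.range fun q : (Fin T.m × Fin T.r) × X => (T.phi q.1 q.2 : AlgebraicClosure ℚ)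
  haveI : FiniteDimensional ℚ (IntermediateField.adjoin ℚ V) := by
    haveI : Finite V := Set.finite_range _ |>.to_subtype
    exact IntermediateField.finiteDimensional_adjoin fun v _ =>
      (Algebra.IsAlgebraic.isAlgebraic v).isIntegral
  haveI := hLQ
  haveI := hLS
  set L := L₀ ⊔ (⨆ j, LQ j) ⊔ (⨆ P, LS P) ⊔ IntermediateField.adjoin ℚ V with hL
  have hfix : ∀ σ : GQ, (∀ z ∈ L, σ z = z) → ∀ x : X, σ • x = x := fun σ hσ x => by
    refine hsep (funext fun i => Subtype.ext ?_)
    show (T.phi i (σ • x) : AlgebraicClosure ℚ) = T.phi i x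
    rw [hequiv σ (hL₀' σ fun z hz => hσ z ?_)
      (fun P hP => hLS' ⟨P, hP⟩ σ fun z hz => hσ z ?_)
      (fun j => hLQ' j σ fun z hz => hσ z ?_)]
    · refine hσ _ (SetLike.le_def.mp (hL ▸ le_sup_right) ?_)
      exact IntermediateField.subset_adjoin ℚ V ⟨(i, x), rfl⟩
    · exact SetLike.le_def.mp (hL ▸ le_trans le_sup_left (le_trans le_sup_left le_sup_left)) hz
    · exact SetLike.le_def.mp (hL ▸ le_trans (le_iSup LS ⟨P, hP⟩) (le_trans le_sup_right le_sup_left)) hz
    · exact SetLike.le_def.mp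
        (hL ▸ le_trans (le_iSup LQ j) (le_trans le_sup_right (le_trans le_sup_left le_sup_left))) hz
  refine ⟨{ ι := Fin T.m × Fin T.r, fintype_ι := inferInstance, φ := T.phi, sep := hsep,
            f := ff, f_pos := hff0, equiv := fun σ hσ hζ => ?_,
            isOpen_stab := ⟨L, inferInstance, hfix⟩, flip := fun i => ?_ }⟩
  swap
  · simpa only [hthird] using T.phi_third_mem i
  have hdvd : ∀ f', f' ∣ ff → ∀ ζ : AlgebraicClosure ℚ, ζ ^ (ℓ ^ f' - 1) = 1 → σ ζ = ζ :=
    fun f' hd ζ hz => hζ ζ (by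
      obtain ⟨d, hd⟩ := Nat.pow_sub_one_dvd_pow_sub_one ℓ hd
      rw [hd, pow_mul, hz, one_pow])
  exact hequiv σ (hfu₀.2 σ hσ (hdvd _ ((dvd_mul_right _ _).mul_right _)))
    (fun P hP => (hfSu P hP).2 σ hσ (hdvd _ (dvd_mul_of_dvd_right
      (Finset.dvd_prod_of_mem (fun P : S => fS P.1 P.2) (Finset.mem_univ ⟨P, hP⟩)) _)))
    fun j => (hfu j).2 σ hσ (hdvd _ ((dvd_mul_of_dvd_right
      (Finset.dvd_prod_of_mem f (Finset.mem_univ j)) _).mul_right _))

end Abstract

/-- The integral coordinates of the torsion. -/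
theorem nonempty_intCoords {N ℓ : ℕ} [NeZero N] {A : ValuationSubring (AlgebraicClosure ℚ)}
    {k F' : Type} [Field k] [Field F'] [Algebra k F'] [IsAlgClosed k] (M : GoodModel N ℓ A k F')
    {x₀ : modularFunctionFieldBar N} (hfinK : IsFinOver (AlgebraicClosure ℚ) x₀)
    (n₀ : ℤ) [Finite ↥(Submodule.torsionBy ℤ (JZero N) n₀)] :
    Nonempty (IntCoords ↥(Submodule.torsionBy ℤ (JZero N) n₀) A ℓ) := by
  classical
  obtain ⟨hpK, hrK, hneK⟩ := curve_props hfinK
  obtain ⟨xk, hxk⟩ := M.exists_finOver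
  obtain ⟨hpk, hrk, hnek⟩ := curve_props hxk
  obtain ⟨g, cK, hK₀⟩ := exists_isRiemann hfinK
  obtain ⟨g', ck, hk₀⟩ := exists_isRiemann hxk
  obtain rfl : g = g' := M.genus_eq _ _ _ _ hK₀ hk₀
  rcases Nat.eq_zero_or_pos g with rfl | hg
  · haveI : Subsingleton ↥(Submodule.torsionBy ℤ (JZero N) n₀) := ⟨fun x y => Subtype.ext
      ((pic0_eq_zero_of_genus_zero hK₀ _).trans (pic0_eq_zero_of_genus_zero hK₀ _).symm)⟩
    exact ⟨{ ι := Empty, fintype_ι := inferInstance, φ := fun i => i.elim,
             sep := fun x y _ => Subsingleton.elim x y, f := 1, f_pos := one_pos,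
             equiv := fun _ _ _ i => i.elim,
             isOpen_stab := ⟨⊥, inferInstance, fun _ _ x => Subsingleton.elim _ _⟩,
             flip := fun i => i.elim }⟩
  choose D hD using fun x : ↥(Submodule.torsionBy ℤ (JZero N) n₀) =>
    Pic0.mk_surjective (x : JZero N)
  obtain ⟨T, P₀, a, S, hG, hP₀, hS, hQ, hth, hell, hE⟩ := exists_rigData M.toRedModel hg
    (isRiemann_mono hK₀ (le_max_left cK ck)) (isRiemann_mono hk₀ (le_max_right cK ck))
    (good := fun P => ∃ f : ℕ, 0 < f ∧ IsUnramPlace A ℓ f P)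
    (fun s => by
      obtain ⟨P, f, hf, hs, hP⟩ := M.exists_unram s
      exact ⟨P, ⟨f, hf, hP⟩, hs⟩)
    D (Submodule.torsionBy ℤ (JZero N) n₀).toAddSubgroup.subtype hD
  exact nonempty_intCoords_of_rigData M.toRedModel
    (fun σ => arithmeticGalois (modularFunctionFieldFull N) σ) (fun _ _ => rfl) smul_place_def D
    (Submodule.torsionBy ℤ (JZero N) n₀).toAddSubgroup.subtype
    (AddSubgroup.subtype_injective _) hD (fun _ _ => rfl) T hG hP₀ hS hQ hth hell hE

end Fermat.Agent.MCurve.Flat
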