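/-
Places of `X₀(N)` above values of `j` at roots of unity: for all but finitely many residues they are
fixed by the decomposition elements which fix enough roots of unity, so a reduction of places has
unramified preimages outside every finite set.
-/
import Fermat.Agent.MCurve.Flat.Series
import Fermat.Agent.MCurve.PlaceFibre
import Fermat.Agent.MCurve.Spec.GaloisRed
import Fermat.Agent.MCurve.Spec.Reduction
import Fermat.Agent.MCurve.RiemannRoch.Riemann
import Fermat.Prelude.Thm_ModularCurve_coeff_jqModC_neg_one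

set_option autoImplicit false
set_option linter.style.haveILetI false
set_option linter.unusedSectionVars false
set_option synthInstance.maxHeartbeats 400000
set_option maxHeartbeats 1000000

noncomputable section

namespace Fermat.Agent.MCurve.Flat

open AlgebraicCurve ModularCurve IsLocalRing IntermediateField CongruenceSubgroup Polynomial
open Fermat.Agent.Galois (GQ)
open Fermat.Agent.MCurve.SpecialDifferential (GenData ev1 ev2 etaL)

local notation "Q̄" => AlgebraicClosure ℚ

/-! ## Places over a simple point of a plane model -/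

section SimplePoint

variable {K F : Type*} [Field K] [Field F] [Algebra K F] {x y : F} {P : K[X][X]} {a b : K}

theorem C_dvd_sub_eval_coeff (a : K) (H : K[X][X]) :
    C (X - C a) ∣ H - (H.map (evalRingHom a)).map C := by
  refine C_dvd_iff_dvd_coeff _ _ |>.mpr fun i => ?_
  rw [coeff_sub, coeff_map, coeff_map, coe_evalRingHom]
  exact X_sub_C_dvd_sub_C_eval

/-- A place over a simple point sees every polynomial function as a power of `x - a`. -/
theorem exists_ord_eq_mul (hP : P.eval₂ (aeval x).toRingHom y = 0)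
    (hb : (P.map (evalRingHom a)).eval b = 0)
    (hd : (derivative (P.map (evalRingHom a))).eval b ≠ 0) (v w : Place K F)
    (hvx : 0 < v.ord (x - algebraMap K F a)) (hvy : 0 < v.ord (y - algebraMap K F b))
    (hwx : 0 < w.ord (x - algebraMap K F a)) (hwy : 0 < w.ord (y - algebraMap K F b))
    (H : K[X][X]) (hH : H.eval₂ (aeval x).toRingHom y ≠ 0) :
    ∃ n : ℕ, v.ord (H.eval₂ (aeval x).toRingHom y) = n * v.ord (x - algebraMap K F a) ∧
      w.ord (H.eval₂ (aeval x).toRingHom y) = n * w.ord (x - algebraMap K F a) := by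
  classical
  let ev : K[X][X] →+* F := eval₂RingHom (aeval x).toRingHom y
  have hmap : ∀ h : K[X], ev (h.map C) = aeval y h := fun h => by
    simp only [ev, coe_eval₂RingHom, eval₂_map, aeval_def]
    congr 1
    exact RingHom.ext fun c => aeval_C x c
  have ht : ev (C (X - C a)) = x - algebraMap K F a := by
    simp [ev]
  set t := x - algebraMap K F a with ht_def
  have ht0 : t ≠ 0 := fun h => by rw [h, v.ord_zero] at hvx; exact lt_irrefl 0 hvx
  -- the ring lies in the valuation rings
  have hmem : ∀ (u : Place K F), 0 < u.ord t → 0 < u.ord (y - algebraMap K F b) → ∀ G : K[X][X],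
      ev G ∈ u.toValuationSubring := by
    intro u hux huy G
    have hmem' : ∀ {z : F} {c : K}, 0 < u.ord (z - algebraMap K F c) → z ∈ u.toValuationSubring := by
      intro z c hz
      have h0 : z - algebraMap K F c ≠ 0 := fun h => by rw [h, u.ord_zero] at hz; exact lt_irrefl 0 hz
      simpa using add_mem ((mem_iff_ord_nonneg u h0).mpr hz.le) (u.algebraMap_mem' c)
    induction G using Polynomial.induction_on' with
    | add p q hp hq => rw [map_add]; exact add_mem hp hq
    | monomial n c =>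
      simp only [ev, coe_eval₂RingHom, eval₂_monomial]
      refine mul_mem ?_ (pow_mem (hmem' huy) _)
      show aeval x c ∈ _
      induction c using Polynomial.induction_on' with
      | add p q hp hq => rw [map_add]; exact add_mem hp hq
      | monomial k r =>
        rw [aeval_monomial]
        exact mul_mem (u.algebraMap_mem' r) (pow_mem (hmem' hux) _)
  -- units
  have hunit : ∀ (u : Place K F), 0 < u.ord t → 0 < u.ord (y - algebraMap K F b) → ∀ G : K[X][X],
      (G.map (evalRingHom a)).eval b ≠ 0 → ev G ≠ 0 ∧ u.ord (ev G) = 0 := by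
    intro u hux huy G hG
    obtain ⟨U, hU⟩ := C_dvd_sub_eval_coeff a G
    have e : ev G = aeval y (G.map (evalRingHom a)) + t * ev U := by
      rw [← ht, ← map_mul, ← hU, ← hmap, map_sub]; ring
    have hne : G.map (evalRingHom a) ≠ 0 := fun h => hG (by rw [h, eval_zero])
    obtain ⟨h1, h2⟩ := ord_aeval_of_pos u huy hne
    rw [rootMultiplicity_eq_zero hG, Nat.cast_zero, zero_mul] at h2
    rcases eq_or_ne (ev U) 0 with hU0 | hU0
    · rw [e, hU0, mul_zero, add_zero]; exact ⟨h1, h2⟩
    · have hlt : u.ord (aeval y (G.map (evalRingHom a))) < u.ord (t * ev U) := by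
        rw [h2, u.ord_mul ht0 hU0]
        have := ord_nonneg_of_mem' u (hmem u hux huy U)
        omega
      refine ⟨fun h => ?_, ?_⟩
      · rw [e, add_eq_zero_iff_eq_neg] at h
        rw [h, ord_neg] at hlt
        exact lt_irrefl _ hlt
      · rw [e, ord_add_eq u h1 (mul_ne_zero ht0 hU0) hlt, h2]
  -- the cofactor of the simple root
  obtain ⟨g, hg⟩ := dvd_iff_isRoot.mpr (show (P.map (evalRingHom a)).IsRoot b from hb)
  have hgb : g.eval b ≠ 0 := by
    rw [hg, derivative_mul, derivative_sub, derivative_X, derivative_C, sub_zero, one_mul, eval_add,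
      eval_mul, eval_sub, eval_X, eval_C, sub_self, zero_mul, add_zero] at hd
    exact hd
  obtain ⟨V, hV⟩ := C_dvd_sub_eval_coeff a P
  have hG0 : ((g.map C : K[X][X]).map (evalRingHom a)).eval b ≠ 0 := by
    rw [Polynomial.map_map, show (evalRingHom a).comp C = RingHom.id K from
      RingHom.ext fun c => eval_C, Polynomial.map_id]
    exact hgb
  suffices key : ∀ (k : ℕ) (G : K[X][X]), ev G ≠ 0 → v.ord (ev G) ≤ k →
      ∃ n : ℕ, v.ord (ev G) = n * v.ord t ∧ w.ord (ev G) = n * w.ord t from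
    key (v.ord (ev H)).toNat H hH (Int.self_le_toNat _)
  intro k
  induction k with
  | zero =>
    intro G hG hle
    by_cases h0 : (G.map (evalRingHom a)).eval b = 0
    · exfalso
      obtain ⟨h, hh⟩ := dvd_iff_isRoot.mpr (show (G.map (evalRingHom a)).IsRoot b from h0)
      obtain ⟨U, hU⟩ := C_dvd_sub_eval_coeff a G
      have e : ev (g.map C) * ev G = t * ev (g.map C * U - h.map C * V) := by
        rw [← ht, ← map_mul, ← map_mul]
        have e2 : g.map C * G = h.map C * P + C (X - C a) * (g.map C * U - h.map C * V) := by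
          rw [hh, Polynomial.map_mul] at hU
          rw [hg, Polynomial.map_mul] at hV
          linear_combination (g.map C) * hU - (h.map C) * hV
        rw [e2, map_add, map_mul, show ev P = 0 from hP, mul_zero, zero_add]
      obtain ⟨hg0, hgo⟩ := hunit v hvx hvy _ hG0
      have h1 := congrArg v.ord e
      have hne : ev (g.map C * U - h.map C * V) ≠ 0 := fun h0' => by
        rw [h0', mul_zero, mul_eq_zero] at e
        exact e.elim hg0 hG
      rw [v.ord_mul hg0 hG, v.ord_mul ht0 hne, hgo] at h1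
      have := ord_nonneg_of_mem' v (hmem v hvx hvy (g.map C * U - h.map C * V))
      omega
    · exact ⟨0, by simp [(hunit v hvx hvy G h0).2], by simp [(hunit w hwx hwy G h0).2]⟩
  | succ k ih =>
    intro G hG hle
    by_cases h0 : (G.map (evalRingHom a)).eval b = 0
    · obtain ⟨h, hh⟩ := dvd_iff_isRoot.mpr (show (G.map (evalRingHom a)).IsRoot b from h0)
      obtain ⟨U, hU⟩ := C_dvd_sub_eval_coeff a G
      have e : ev (g.map C) * ev G = t * ev (g.map C * U - h.map C * V) := by
        rw [← ht, ← map_mul, ← map_mul]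
        have e2 : g.map C * G = h.map C * P + C (X - C a) * (g.map C * U - h.map C * V) := by
          rw [hh, Polynomial.map_mul] at hU
          rw [hg, Polynomial.map_mul] at hV
          linear_combination (g.map C) * hU - (h.map C) * hV
        rw [e2, map_add, map_mul, show ev P = 0 from hP, mul_zero, zero_add]
      obtain ⟨hg0, hgo⟩ := hunit v hvx hvy _ hG0
      obtain ⟨-, hgw⟩ := hunit w hwx hwy _ hG0
      have hne : ev (g.map C * U - h.map C * V) ≠ 0 := fun h0' => by
        rw [h0', mul_zero, mul_eq_zero] at e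
        exact e.elim hg0 hG
      have h1 := congrArg v.ord e
      have h2 := congrArg w.ord e
      rw [v.ord_mul hg0 hG, v.ord_mul ht0 hne, hgo] at h1
      rw [w.ord_mul hg0 hG, w.ord_mul ht0 hne, hgw] at h2
      obtain ⟨n, hn, hn'⟩ := ih _ hne (by push_cast at hle; omega)
      exact ⟨n + 1, by push_cast; linear_combination h1 + hn, by
        push_cast; linear_combination h2 + hn'⟩
    · exact ⟨0, by simp [(hunit v hvx hvy G h0).2], by simp [(hunit w hwx hwy G h0).2]⟩

/-- There is one place over a simple point. -/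
theorem place_eq_of_simple (hP : P.eval₂ (aeval x).toRingHom y = 0)
    (hb : (P.map (evalRingHom a)).eval b = 0)
    (hd : (derivative (P.map (evalRingHom a))).eval b ≠ 0)
    (hgen : ∀ z : F, ∃ (D : K[X]) (H : K[X][X]), aeval x D ≠ 0 ∧
      z * aeval x D = H.eval₂ (aeval x).toRingHom y)
    (v w : Place K F) (hvx : 0 < v.ord (x - algebraMap K F a))
    (hvy : 0 < v.ord (y - algebraMap K F b)) (hwx : 0 < w.ord (x - algebraMap K F a))
    (hwy : 0 < w.ord (y - algebraMap K F b)) : v = w := by
  have key := exists_ord_eq_mul hP hb hd v w hvx hvy hwx hwy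
  have hz : ∀ z : F, z ≠ 0 → ∃ n : ℤ, v.ord z = n * v.ord (x - algebraMap K F a) ∧
      w.ord z = n * w.ord (x - algebraMap K F a) := by
    intro z hz
    obtain ⟨D, H, hD, hzH⟩ := hgen z
    obtain ⟨n, hn, hn'⟩ := key H (by rw [← hzH]; exact mul_ne_zero hz hD)
    obtain ⟨m, hm, hm'⟩ := key (C D) (by rw [eval₂_C]; exact hD)
    rw [eval₂_C, AlgHom.toRingHom_eq_coe, RingHom.coe_coe] at hm hm'
    rw [← hzH, v.ord_mul hz hD] at hn
    rw [← hzH, w.ord_mul hz hD] at hn'
    exact ⟨(n : ℤ) - m, by rw [sub_mul]; omega, by rw [sub_mul]; omega⟩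
  have h1 : ∀ u : Place K F, 0 < u.ord (x - algebraMap K F a) →
      (∀ z : F, z ≠ 0 → ∃ n : ℤ, u.ord z = n * u.ord (x - algebraMap K F a)) →
      u.ord (x - algebraMap K F a) = 1 := fun u hu h => by
    obtain ⟨π, hπ0, hπ⟩ := exists_ord_eq_one u
    obtain ⟨n, hn⟩ := h π hπ0
    rw [hπ, mul_comm] at hn
    exact Int.eq_one_of_mul_eq_one_right hu.le hn.symm
  have hv1 := h1 v hvx fun z h => (hz z h).imp fun _ h => h.1
  have hw1 := h1 w hwx fun z h => (hz z h).imp fun _ h => h.2
  ext1
  refine SetLike.ext fun z => ?_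
  rcases eq_or_ne z 0 with rfl | hz0
  · simp [zero_mem]
  obtain ⟨n, hn, hn'⟩ := hz z hz0
  rw [mem_iff_ord_nonneg v hz0, mem_iff_ord_nonneg w hz0, hn, hn', hv1, hw1]

end SimplePoint

/-- A function takes at most one value at a place. -/
theorem setOf_ord_sub_pos_subsingleton {K F : Type*} [Field K] [Field F] [Algebra K F]
    (v : Place K F) (x : F) : {a : K | 0 < v.ord (x - algebraMap K F a)}.Subsingleton := by
  intro a ha a' ha'
  simp only [Set.mem_setOf_eq] at ha ha'
  by_contra hne
  have h0 : ∀ c : K, 0 < v.ord (x - algebraMap K F c) → x - algebraMap K F c ≠ 0 :=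
    fun c hc h => by rw [h, v.ord_zero] at hc; exact lt_irrefl 0 hc
  have h1 : algebraMap K F (a' - a) ≠ 0 :=
    fun h => hne (sub_eq_zero.mp (map_eq_zero _ |>.mp h)).symm
  have h2 := ord_algebraMap (K := K) v (a' - a)
  rw [show algebraMap K F (a' - a) = (x - algebraMap K F a) + -(x - algebraMap K F a') by
    rw [map_sub]; ring] at h1 h2
  have h3 := ord_add_le v (h0 a ha) (neg_ne_zero.mpr (h0 a' ha')) h1
  rw [ord_neg, h2] at h3
  omega

/-- A coordinate takes every value. -/
theorem exists_place_sub_pos {K F : Type*} [Field K] [IsAlgClosed K] [Field F] [Algebra K F]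
    {x : F} (h : IsFinOver K x) (a : K) :
    x - algebraMap K F a ≠ 0 ∧ ∃ Q : Place K F, 0 < Q.ord (x - algebraMap K F a) := by
  have htr : Transcendental K (x - algebraMap K F a) := fun h' =>
    h.transcendental (by simpa using h'.add (isAlgebraic_algebraMap a))
  refine ⟨fun h0 => htr (h0 ▸ isAlgebraic_zero), ?_⟩
  obtain ⟨Q, hQ⟩ := RR.exists_pole_of_isFinOver h
    (f := (x - algebraMap K F a)⁻¹) fun h' => htr (by simpa using h'.inv)
  rw [Q.ord_inv, neg_lt_zero] at hQ
  exact ⟨Q, hQ⟩

/-! ## Simple roots modulo a place -/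

/-- Roots with the same simple reduced root coincide. -/
theorem root_eq_of_residue_eq {A : ValuationSubring Q̄} {q : Polynomial A} {b b' : A}
    (hb : q.eval b = 0) (hb' : q.eval b' = 0) (h : residue A b' = residue A b)
    (hs : (derivative (q.map (residue A))).eval (residue A b) ≠ 0) : b' = b := by
  obtain ⟨g, hg⟩ := dvd_iff_isRoot.mpr (show q.IsRoot b from hb)
  by_contra hne
  have hgb : g.eval b' = 0 := by
    rw [hg, eval_mul, eval_sub, eval_X, eval_C, mul_eq_zero] at hb'
    exact hb'.resolve_left (sub_ne_zero.mpr hne)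
  apply hs
  rw [hg, Polynomial.map_mul, derivative_mul, Polynomial.map_sub, map_X, map_C, derivative_sub,
    derivative_X, derivative_C, sub_zero, one_mul, eval_add, eval_mul, eval_sub, eval_X, eval_C,
    sub_self, zero_mul, add_zero, ← h, eval_map, eval₂_at_apply, hgb, map_zero]

/-- The residue field at a place over `ℓ` is algebraic over the prime field. -/
theorem exists_pow_eq_self {ℓ : ℕ} [Fact ℓ.Prime] {A : ValuationSubring Q̄} (hA : A.LiesOverPrime ℓ)
    (x : ResidueField A) : ∃ f : ℕ, 0 < f ∧ x ^ ℓ ^ f = x := by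
  haveI := GalRep.charP_residue (A := A) (Fact.out : ℓ.Prime) hA
  letI : Algebra (ZMod ℓ) (ResidueField A) := ZMod.algebra _ ℓ
  obtain ⟨b, c, hc, hx⟩ := Galois.exists_residue_eq (Fact.out : ℓ.Prime) hA x
  have halg : ∀ b : Galois.ZBar, IsIntegral (ZMod ℓ) (residue A (Galois.zbarToPlace A b)) := by
    intro b
    obtain ⟨q, hq, hq0⟩ := b.2
    refine ⟨q.map (Int.castRingHom (ZMod ℓ)), hq.map _, ?_⟩
    have h1 : q.eval₂ (algebraMap ℤ Galois.ZBar) b = 0 := by
      apply Subtype.val_injective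
      show (integralClosure ℤ Q̄).val.toRingHom _ = _
      rw [Polynomial.hom_eval₂]
      exact hq0
    have h2 := congrArg ((residue A).comp (Galois.zbarToPlace A)) h1
    rw [Polynomial.hom_eval₂, map_zero] at h2
    rw [eval₂_map]
    exact (congrArg (fun φ => eval₂ φ _ q) (RingHom.ext_int _ _)).trans h2
  have hc0 : residue A (Galois.zbarToPlace A c) ≠ 0 :=
    mt (Galois.residue_zbar_eq_zero_iff A c).mp hc
  have hxalg : IsIntegral (ZMod ℓ) x := by
    rw [eq_div_of_mul_eq hc0 hx, div_eq_mul_inv]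
    exact (halg b).mul (halg c).inv
  set L := (ZMod ℓ)⟮x⟯
  haveI : FiniteDimensional (ZMod ℓ) L := IntermediateField.adjoin.finiteDimensional hxalg
  haveI : Finite L := Module.finite_of_finite (ZMod ℓ)
  haveI : Fintype L := Fintype.ofFinite _
  refine ⟨Module.finrank (ZMod ℓ) L, Module.finrank_pos, ?_⟩
  have h := FiniteField.pow_card (⟨x, mem_adjoin_simple_self _ x⟩ : L)
  rw [Module.card_eq_pow_finrank (K := ZMod ℓ), ZMod.card] at h
  exact congrArg Subtype.val h

theorem pow_eq_self_mul {R : Type*} [Monoid R] {x : R} {q f : ℕ} (h : x ^ q ^ f = x) (g : ℕ) :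
    x ^ q ^ (f * g) = x := by
  induction g with
  | zero => simp
  | succ g ih => rw [Nat.mul_succ, pow_add, pow_mul, ih, h]

/-- Elements of the residue field with `x ^ (ℓ ^ f) = x` are residues of roots of unity or zero. -/
theorem exists_root_lift {ℓ : ℕ} [Fact ℓ.Prime] {A : ValuationSubring Q̄} (hA : A.LiesOverPrime ℓ)
    {f : ℕ} (hf : 0 < f) {x : ResidueField A} (hx : x ^ ℓ ^ f = x) :
    ∃ z : A, residue A z = x ∧ (z = 0 ∨ (z : Q̄) ^ (ℓ ^ f - 1) = 1) := by
  classical
  rcases eq_or_ne x 0 with rfl | hx0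
  · exact ⟨0, map_zero _, Or.inl rfl⟩
  haveI := GalRep.charP_residue (A := A) (Fact.out : ℓ.Prime) hA
  set n := ℓ ^ f - 1 with hn
  have hpos : 1 < ℓ ^ f := Nat.one_lt_pow hf.ne' (Fact.out : ℓ.Prime).one_lt
  have hn0 : 0 < n := by omega
  have hxn : x ^ n = 1 := by
    have h1 : x ^ n * x = x := by rw [← pow_succ, show n + 1 = ℓ ^ f by omega, hx]
    exact mul_left_eq_self₀.mp h1 |>.resolve_right hx0
  have hnk : (n : ResidueField A) ≠ 0 := by
    rw [Ne, CharP.cast_eq_zero_iff _ ℓ]
    intro h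
    obtain ⟨c, hc⟩ := dvd_pow_self ℓ hf.ne'
    obtain ⟨d, hd⟩ := h
    have h2 : ℓ * (c - d) = 1 := by rw [Nat.mul_sub, ← hc, ← hd]; omega
    exact (Fact.out : ℓ.Prime).ne_one (Nat.eq_one_of_mul_eq_one_right h2)
  haveI : NeZero n := ⟨hn0.ne'⟩
  obtain ⟨ζ₀, hζ₀⟩ := HasEnoughRootsOfUnity.exists_primitiveRoot Q̄ n
  have hmem : ∀ i : ℕ, ζ₀ ^ i ∈ A := fun i =>
    Galois.integralClosure_le A ⟨_, IsIntegral.pow (hζ₀.isIntegral hn0) i⟩
  let φ : Fin n → ResidueField A := fun i => residue A ⟨ζ₀ ^ (i : ℕ), hmem i⟩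
  have hroot : ∀ i : Fin n, φ i ^ n = 1 := fun i => by
    rw [← map_pow, ← map_one (residue A)]
    congr 1
    exact Subtype.ext (by
      show (ζ₀ ^ (i : ℕ)) ^ n = 1
      rw [← pow_mul, mul_comm, pow_mul, hζ₀.pow_eq_one, one_pow])
  have hinj : Function.Injective φ := fun i j hij => by
    have hq : ∀ i : Fin n, (X ^ n - 1 : Polynomial A).eval ⟨ζ₀ ^ (i : ℕ), hmem i⟩ = 0 := fun i => by
      rw [eval_sub, eval_pow, eval_X, eval_one, sub_eq_zero]
      exact Subtype.ext (by
        show (ζ₀ ^ (i : ℕ)) ^ n = 1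
        rw [← pow_mul, mul_comm, pow_mul, hζ₀.pow_eq_one, one_pow])
    have h1 := root_eq_of_residue_eq (hq j) (hq i) hij (by
      rw [Polynomial.map_sub, Polynomial.map_pow, map_X, Polynomial.map_one, derivative_sub,
        derivative_X_pow, derivative_one, sub_zero, eval_mul, eval_C, eval_pow, eval_X]
      refine mul_ne_zero hnk (pow_ne_zero _ fun h0 => ?_)
      have := hroot j
      rw [show φ j = 0 from h0, zero_pow hn0.ne'] at this
      exact zero_ne_one this)
    exact Fin.ext (hζ₀.pow_inj i.2 j.2 (congrArg Subtype.val h1))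
  have hsub : Finset.univ.image φ ⊆ nthRootsFinset n (1 : ResidueField A) := fun y hy => by
    obtain ⟨i, -, rfl⟩ := Finset.mem_image.mp hy
    exact (mem_nthRootsFinset hn0 _).mpr (hroot i)
  have hcard : (nthRootsFinset n (1 : ResidueField A)).card ≤ (Finset.univ.image φ).card := by
    rw [Finset.card_image_of_injective _ hinj, Finset.card_univ, Fintype.card_fin,
      nthRootsFinset_def]
    exact (Multiset.toFinset_card_le _).trans (card_nthRoots n 1)
  have hxS := Finset.eq_of_subset_of_card_le hsub hcard ▸ (mem_nthRootsFinset hn0 _).mpr hxn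
  obtain ⟨i, -, hi⟩ := Finset.mem_image.mp hxS
  refine ⟨⟨ζ₀ ^ (i : ℕ), hmem i⟩, hi, Or.inr ?_⟩
  rw [← pow_mul, mul_comm, pow_mul, hζ₀.pow_eq_one, one_pow]

/-- Finitely many bad values for a separable equation. -/
theorem exists_disc {k : Type*} [Field k] [IsAlgClosed k] {m : ℕ} [NeZero m] {P : k[X][X]}
    (g : GenData k m P) : ∃ c : k[X], c ≠ 0 ∧ ∀ a b : k, c.eval a ≠ 0 →
      (P.map (evalRingHom a)).eval b = 0 → (derivative (P.map (evalRingHom a))).eval b ≠ 0 := by
  classical
  set φ := ev1 k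
  have hη : φ.IsIntegralElem (etaL k m) := ⟨P, g.monic, g.root⟩
  have hint : ∀ Q : k[X][X], φ.IsIntegralElem (ev2 k m Q) := fun Q => by
    induction Q using Polynomial.induction_on with
    | C a => rw [SpecialDifferential.ev2_C]; exact RingHom.isIntegralElem_map _
    | add p q hp hq => rw [map_add]; exact hp.add _ hq
    | monomial n a ih =>
      rw [pow_succ, ← mul_assoc, map_mul, SpecialDifferential.ev2_X]
      exact ih.mul _ hη
  have he0 := g.derivative_ne_zero
  obtain ⟨M, hM, hMx⟩ := hint (derivative P)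
  obtain ⟨r, hMr⟩ := (X_pow_dvd_iff (f := M) (n := M.natTrailingDegree)).mpr
    (fun d hd => coeff_eq_zero_of_lt_natTrailingDegree hd)
  set n := M.natTrailingDegree
  have hr0 : r.coeff 0 ≠ 0 := by
    have hc : M.coeff n ≠ 0 := coeff_natTrailingDegree_ne_zero.mpr hM.ne_zero
    rwa [hMr, coeff_X_pow_mul', if_pos le_rfl, Nat.sub_self] at hc
  rw [hMr, eval₂_mul, eval₂_X_pow, mul_eq_zero] at hMx
  have hrx := hMx.resolve_left (pow_ne_zero _ he0)
  set R : k[X][X] := r.eval₂ C (derivative P) with hR_def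
  have hR : ev2 k m R = 0 := by
    rw [hR_def, hom_eval₂, show (ev2 k m).comp C = φ from
      RingHom.ext fun a => SpecialDifferential.ev2_C m a]
    exact hrx
  have hdvd : P ∣ R := by
    rw [← modByMonic_eq_zero_iff_dvd g.monic]
    refine SpecialDifferential.eq_zero_of_ev2 g.indep ?_ ?_
    · rw [← g.natDegree_eq]
      exact natDegree_modByMonic_lt R g.monic fun h1 => by
        have := g.natDegree_eq
        rw [h1, natDegree_one] at this
        exact (SpecialDifferential.index_pos (m := m)).ne this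
    · have h := congrArg (ev2 k m) (modByMonic_add_div R P)
      rw [map_add, map_mul, g.root, zero_mul, add_zero, hR] at h
      exact h
  refine ⟨r.coeff 0, hr0, fun a b hca hb hd => hca ?_⟩
  obtain ⟨S, hS⟩ := hdvd
  have h1 := congrArg (fun T : k[X][X] => (T.map (evalRingHom a)).eval b) hS
  simp only [Polynomial.map_mul, eval_mul, hb, zero_mul] at h1
  rw [hR_def, ← coe_mapRingHom, hom_eval₂, ← coe_evalRingHom b, hom_eval₂, coe_evalRingHom,
    coe_mapRingHom, ← derivative_map, hd] at h1
  rw [eval₂_at_zero] at h1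
  simpa using h1

/-! ## The unramified places -/

variable (A : ValuationSubring Q̄) (N : ℕ) [NeZero N] {ℓ : ℕ} [Fact ℓ.Prime]
  (hA : A.LiesOverPrime ℓ) (hℓN : ¬ ℓ ∣ N)

local notation "𝕜" => ResidueField A
local notation "𝔽" => modularFunctionFieldBar N
local notation "𝔽'" => modularFunctionFieldFullC (ResidueField A) N

/-- The second coordinate is not constant. -/
theorem jNb_sub_ne_zero (b : Q̄) : Spec.jNb N - algebraMap Q̄ 𝔽 b ≠ 0 := by
  intro h
  have h1 : qExpand Q̄ N (jqModC Q̄) = algebraMap Q̄ (LaurentSeries Q̄) b :=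
    congrArg Subtype.val (sub_eq_zero.mp h)
  have h2 := congrArg (fun z : LaurentSeries Q̄ => z.coeff ((N : ℤ) * -1)) h1
  rw [qExpand_coeff_mul, coeff_jqModC_neg_one, algebraMap_laurentSeries_eq_single,
    HahnSeries.coeff_single_of_ne (by simp [NeZero.ne N])] at h2
  exact one_ne_zero h2

theorem galA_jNb (σ : GQ) : Spec.galA σ (Spec.jNb N) = Spec.jNb N := by
  apply Subtype.ext
  rw [coe_arithmeticRingAut_apply]
  show coeffMap _ (qExpand Q̄ N (jqModC Q̄)) = qExpand Q̄ N (jqModC Q̄)
  rw [qExpand_coeffMap, MCurve.coeffMap_jqModC]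

theorem ord_galA (σ : GQ) (P : Place Q̄ 𝔽) (f : 𝔽) :
    (σ • P).ord (Spec.galA σ f) = P.ord f :=
  SemilinearAut.ord_smul (arithmeticGalois (modularFunctionFieldFull N) σ) P f

include hA hℓN in
/-- Places over simple residual values of `j` are unramified. -/
theorem exists_bad_values : ∃ B : Finset 𝕜, ∀ (ζ : A) (P : Place Q̄ 𝔽),
    residue A ζ ∉ B →
    (∃ f : ℕ, 0 < f ∧ (ζ = 0 ∨ (ζ : Q̄) ^ (ℓ ^ f - 1) = 1)) →
    0 < P.ord (jBar N Q̄ - algebraMap Q̄ 𝔽 (ζ : Q̄)) →
      ∃ f : ℕ, 0 < f ∧ IsUnramPlace A ℓ f P := by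
  classical
  obtain ⟨P₀, hP₀, -, hroot, g⟩ := exists_genData A N hA hℓN
  obtain ⟨c, hc, hdisc⟩ := exists_disc g
  refine ⟨c.roots.toFinset, fun ζ v hζ hζf hv => ?_⟩
  set Pa : (Polynomial A)[X] := P₀.map (mapRingHom (oToA A hA))
  set Pq : Q̄[X][X] := Pa.map (mapRingHom A.subtype)
  set x : 𝔽 := jBar N Q̄
  set y : 𝔽 := Spec.jNb N
  let evq : Q̄[X][X] →+* 𝔽 := eval₂RingHom (aeval x).toRingHom y
  have hser : ∀ H : Q̄[X][X], ((evq H : 𝔽) : LaurentSeries Q̄) = ev2 Q̄ N H := fun H => by
    refine RingHom.congr_fun (f := ((modularFunctionFieldBar N).val : 𝔽 →+* LaurentSeries Q̄).comp evq)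
      (g := ev2 Q̄ N) (Polynomial.ringHom_ext (fun d => ?_) ?_) H
    · simp only [RingHom.comp_apply, evq, coe_eval₂RingHom, eval₂_C, SpecialDifferential.ev2_C,
        SpecialDifferential.ev1_eq_evJq]
      exact Spec.coe_aeval_jBar d
    · simp only [RingHom.comp_apply, evq, coe_eval₂RingHom, eval₂_X, SpecialDifferential.ev2_X]
      rfl
  have hPq : evq Pq = 0 := Subtype.ext (by
    rw [hser, ZeroMemClass.coe_zero, show Pq = P₀.map (mapRingHom (A.subtype.comp (oToA A hA))) by
      simp only [Pq, Pa, Polynomial.map_map, mapRingHom_comp], ← SpecialDifferential.coeffMap_ev2,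
      hroot, map_zero])
  have hmonic : Pq.Monic := (hP₀.map _).map _
  -- the value of the second coordinate
  set q : Polynomial A := Pa.map (evalRingHom ζ)
  have hq : Pq.map (evalRingHom (ζ : Q̄)) = q.map A.subtype := by
    simp only [Pq, q, Polynomial.map_map]
    congr 1
    exact Polynomial.ringHom_ext (fun d => by simp) (by simp)
  have hqm : q.Monic := (hP₀.map _).map _
  obtain ⟨U, hU⟩ := C_dvd_sub_eval_coeff (ζ : Q̄) Pq
  set t := x - algebraMap Q̄ 𝔽 (ζ : Q̄)
  have ht0 : t ≠ 0 := fun h => by rw [h, v.ord_zero] at hv; exact lt_irrefl 0 hv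
  have hxmem : x ∈ v.toValuationSubring := by
    simpa [t] using add_mem ((mem_iff_ord_nonneg v ht0).mpr hv.le) (v.algebraMap_mem' (ζ : Q̄))
  have hev1 : ∀ d : Q̄[X], aeval x d ∈ v.toValuationSubring := fun d => by
    induction d using Polynomial.induction_on' with
    | add p q hp hq => rw [map_add]; exact add_mem hp hq
    | monomial k r => rw [aeval_monomial]; exact mul_mem (v.algebraMap_mem' r) (pow_mem hxmem _)
  have hymem : y ∈ v.toValuationSubring := by
    let φ : Q̄[X] →+* v.toValuationSubring := (aeval x).toRingHom.codRestrict _ hev1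
    have hint : IsIntegral v.toValuationSubring y :=
      ⟨Pq.map φ, hmonic.map _, by rw [eval₂_map]; exact hPq⟩
    obtain ⟨z, hz⟩ := IsIntegrallyClosed.isIntegral_iff.mp hint
    rw [← hz]; exact z.2
  have hevmem : ∀ H : Q̄[X][X], evq H ∈ v.toValuationSubring := fun H => by
    induction H using Polynomial.induction_on' with
    | add p q hp hq => rw [map_add]; exact add_mem hp hq
    | monomial k r =>
      simp only [evq, coe_eval₂RingHom, eval₂_monomial]
      exact mul_mem (hev1 r) (pow_mem hymem _)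
  have hPz : aeval y (q.map A.subtype) = - (t * evq U) := by
    have h1 : evq ((Pq.map (evalRingHom (ζ : Q̄))).map C) = aeval y (Pq.map (evalRingHom (ζ : Q̄))) := by
      simp only [evq, coe_eval₂RingHom, eval₂_map, aeval_def]
      congr 1
      exact RingHom.ext fun e => by simp
    have h2 : evq (C (X - C (ζ : Q̄))) = t := by simp [evq, t]
    rw [← hq, ← h1, ← h2, ← map_mul, ← hU, map_sub, hPq, zero_sub, neg_neg]
  obtain ⟨b, hb, hvb⟩ : ∃ b : Q̄, (q.map A.subtype).eval b = 0 ∧
      0 < v.ord (y - algebraMap Q̄ 𝔽 b) := by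
    by_contra hne
    push Not at hne
    have hprod : ∀ s : Multiset Q̄, (∀ b ∈ s, v.ord (y - algebraMap Q̄ 𝔽 b) = 0) →
        (s.map fun b => y - algebraMap Q̄ 𝔽 b).prod ≠ 0 ∧
          v.ord (s.map fun b => y - algebraMap Q̄ 𝔽 b).prod = 0 := fun s => by
      induction s using Multiset.induction_on with
      | empty => intro _; simp
      | cons a s ih =>
        intro h
        obtain ⟨i1, i2⟩ := ih fun b hb => h b (Multiset.mem_cons_of_mem hb)
        have h0 : y - algebraMap Q̄ 𝔽 a ≠ 0 := jNb_sub_ne_zero N a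
        rw [Multiset.map_cons, Multiset.prod_cons]
        exact ⟨mul_ne_zero h0 i1, by
          rw [v.ord_mul h0 i1, i2, h a (Multiset.mem_cons_self a s), add_zero]⟩
    obtain ⟨h2, h3⟩ := hprod (q.map A.subtype).roots fun b hb =>
      le_antisymm (hne b ((mem_roots (hqm.map _).ne_zero).mp hb))
        (ord_nonneg_of_mem' v (sub_mem hymem (v.algebraMap_mem' b)))
    have hsplit : aeval y (q.map A.subtype) =
        ((q.map A.subtype).roots.map fun b => y - algebraMap Q̄ 𝔽 b).prod := by
      conv_lhs => rw [(IsAlgClosed.splits (q.map A.subtype)).eq_prod_roots_of_monic (hqm.map _)]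
      rw [map_multiset_prod, Multiset.map_map]
      simp [Function.comp_def]
    rw [← hsplit] at h2 h3
    rcases eq_or_ne (evq U) 0 with h0 | h0
    · rw [hPz, h0, mul_zero, neg_zero] at h2; exact h2 rfl
    · rw [hPz, ord_neg, v.ord_mul ht0 h0] at h3
      have := ord_nonneg_of_mem' v (hevmem U)
      omega
  -- the root is integral and simple modulo the place
  have hbA : b ∈ A := by
    have hint : IsIntegral A b := ⟨q, hqm, by
      rw [show algebraMap A Q̄ = A.subtype from rfl, ← eval_map]; exact hb⟩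
    obtain ⟨z, hz⟩ := IsIntegrallyClosed.isIntegral_iff.mp hint
    exact hz ▸ z.2
  set bA : A := ⟨b, hbA⟩
  have hqb : q.eval bA = 0 := by
    apply Subtype.val_injective
    show A.subtype _ = A.subtype 0
    rw [← eval_map_apply, map_zero]
    exact hb
  have hqres : q.map (residue A) =
      (P₀.map (mapRingHom ((residue A).comp (oToA A hA)))).map (evalRingHom (residue A ζ)) := by
    simp only [q, Pa, Polynomial.map_map]
    congr 1
    exact Polynomial.ringHom_ext (fun d => by simp) (by simp)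
  have hsimple : (derivative (q.map (residue A))).eval (residue A bA) ≠ 0 := by
    rw [hqres]
    refine hdisc _ _ (fun h => hζ (Multiset.mem_toFinset.mpr ((mem_roots hc).mpr h))) ?_
    rw [← hqres, eval_map_apply, hqb, map_zero]
  have hd : (derivative (Pq.map (evalRingHom (ζ : Q̄)))).eval b ≠ 0 := by
    rw [hq, derivative_map]
    intro h
    apply hsimple
    rw [derivative_map, eval_map_apply]
    rw [show b = A.subtype bA from rfl, eval_map_apply] at h
    rw [show (derivative q).eval bA = 0 from Subtype.val_injective h, map_zero]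
  -- the residue degree
  obtain ⟨f₁, hf₁, hζ1⟩ := hζf
  obtain ⟨f₂, hf₂, hb2⟩ := exists_pow_eq_self hA (residue A bA)
  obtain ⟨μ, hμ, hμ1⟩ := exists_root_lift hA (Nat.mul_pos hf₁ hf₂) (x := residue A bA) (by
    rw [mul_comm]; exact pow_eq_self_mul hb2 f₁)
  have hfixb : ∀ σ : GQ, σ (ζ : Q̄) = ζ → σ b = b → σ • v = v := by
    intro σ hσζ hσb
    refine place_eq_of_simple (x := x) (y := y) (P := Pq) (a := (ζ : Q̄)) (b := b) hPq
      (by rw [hq]; exact hb) hd ?_ _ _ ?_ ?_ hv hvb
    · intro z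
      obtain ⟨D, R, hor, -, hzR⟩ := Spec.exists_repr hA hℓN z
      have hD : D.map A.subtype ≠ 0 := by
        intro h0
        obtain ⟨i, hi⟩ := hor.resolve_left (not_not.mpr (by
          rw [(Polynomial.map_eq_zero_iff Subtype.val_injective).mp h0, Polynomial.map_zero]))
        rw [show Spec.sQ A (aJ A D) = 0 by
          rw [Spec.sQ_aJ, show D.map (subA A) = D.map A.subtype from rfl, h0, map_zero],
          mul_zero] at hzR
        have h1 : Spec.sk A (∑ i, aJ A (R i) * Spec.bSer A N i) = 0 := by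
          rw [show (∑ i, aJ A (R i) * Spec.bSer A N i) = 0 from
            Spec.sQ_injective A (by rw [← hzR, map_zero]), map_zero]
        exact hi (Spec.red_indep hA hℓN R h1 i)
      refine ⟨D.map A.subtype, ∑ i, C ((R i).map A.subtype) * X ^ (i : ℕ), ?_, ?_⟩
      · intro h0
        apply hD
        refine evJq_injective Q̄ ?_
        rw [map_zero, ← Spec.coe_aeval_jBar (N := N), h0, ZeroMemClass.coe_zero]
      · apply Subtype.ext
        show ((z * aeval x (D.map A.subtype) : 𝔽) : LaurentSeries Q̄) = (evq _ : 𝔽)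
        rw [hser, MulMemClass.coe_mul, Spec.coe_aeval_jBar, map_sum]
        rw [Spec.sQ_aJ, map_sum] at hzR
        refine hzR.trans (Finset.sum_congr rfl fun i _ => ?_)
        rw [map_mul, map_mul, map_pow, SpecialDifferential.ev2_C, SpecialDifferential.ev2_X,
          SpecialDifferential.ev1_eq_evJq, Spec.sQ_aJ, Spec.bSer, map_pow, Spec.sQ,
          qExpand_coeffMap, MCurve.coeffMap_jqModC]
        rfl
    · have e : Spec.galA σ (x - algebraMap Q̄ 𝔽 (ζ : Q̄)) = x - algebraMap Q̄ 𝔽 (ζ : Q̄) := by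
        rw [map_sub, Spec.galA_jBar, arithmeticRingAut_algebraMap, hσζ]
      rw [← e, ord_galA]; exact hv
    · have e : Spec.galA σ (y - algebraMap Q̄ 𝔽 b) = y - algebraMap Q̄ 𝔽 b := by
        rw [map_sub, galA_jNb, arithmeticRingAut_algebraMap, hσb]
      rw [← e, ord_galA]; exact hvb
  refine ⟨f₁ * f₂, Nat.mul_pos hf₁ hf₂,
    ⟨IntermediateField.adjoin ℚ {(ζ : Q̄), b}, ?_, fun σ hσ => hfixb σ
      (hσ _ (IntermediateField.subset_adjoin ℚ _ (Or.inl rfl)))
      (hσ _ (IntermediateField.subset_adjoin ℚ _ (Or.inr rfl)))⟩, fun σ hσ hfix => ?_⟩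
  · exact IntermediateField.finiteDimensional_adjoin fun z _ =>
      (Algebra.IsAlgebraic.isAlgebraic (R := ℚ) z).isIntegral
  have hroot1 : ∀ z : A, (z = 0 ∨ (z : Q̄) ^ (ℓ ^ (f₁ * f₂) - 1) = 1) → σ (z : Q̄) = z := by
    rintro z (rfl | hz)
    · simp
    · exact hfix _ hz
  have hσζ : σ (ζ : Q̄) = ζ := hroot1 ζ (hζ1.imp id fun h => by
    obtain ⟨d, hd'⟩ := Nat.sub_one_dvd_pow_sub_one (ℓ ^ f₁) f₂
    rw [← pow_mul] at hd'
    rw [hd', pow_mul, h, one_pow])
  refine hfixb σ hσζ ?_
  have hmap : (q.map A.subtype).map (σ : Q̄ →+* Q̄) = q.map A.subtype := by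
    simp only [q, Pa, Polynomial.map_map]
    congr 1
    refine Polynomial.ringHom_ext (fun r => ?_) (by simpa using hσζ)
    simp only [RingHom.comp_apply, coe_mapRingHom, map_C, coe_evalRingHom, eval_C]
    show σ (algebraMap ℚ Q̄ _) = algebraMap ℚ Q̄ _
    exact σ.commutes _
  have hqσ : q.eval (Spec.decA A hσ bA) = 0 := by
    apply Subtype.val_injective
    show A.subtype _ = A.subtype 0
    rw [← eval_map_apply, map_zero]
    show (q.map A.subtype).eval (σ b) = 0
    rw [← hmap]
    show ((q.map A.subtype).map (σ : Q̄ →+* Q̄)).eval ((σ : Q̄ →+* Q̄) b) = 0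
    rw [eval_map_apply, hb, map_zero]
  have hres : residue A (Spec.decA A hσ bA) = residue A bA := by
    rw [Spec.residue_decA, ← hμ, ← Spec.residue_decA]
    congr 1
    exact Subtype.ext (hroot1 μ hμ1)
  exact congrArg Subtype.val (root_eq_of_residue_eq hqb hqσ hres hsimple)

include hA hℓN in
/-- A reduction of the places has unramified preimages outside every finite set. -/
theorem exists_unram (r : Place Q̄ 𝔽 → Place 𝕜 𝔽')
    (hr : ∀ u : redV A N hA hℓN, redρ A N hA hℓN u ≠ 0 → ∀ D : Divisor Q̄ 𝔽,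
      (∀ P, D P = P.ord (u : 𝔽)) →
      ∀ Q, Finsupp.mapDomain r D Q = Q.ord (redρ A N hA hℓN u))
    (s : Finset (Place 𝕜 𝔽')) :
    ∃ (P : Place Q̄ 𝔽) (f : ℕ), 0 < f ∧ r P ∉ s ∧ IsUnramPlace A ℓ f P := by
  classical
  obtain ⟨B, hB⟩ := exists_bad_values A N hA hℓN
  set jb := jFullC 𝕜 N
  have hfin : {a : 𝕜 | ∃ Q ∈ s, 0 < Q.ord (jb - algebraMap 𝕜 𝔽' a)}.Finite := by
    refine Set.Finite.subset (Set.Finite.biUnion s.finite_toSet
      (t := fun Q => {a : 𝕜 | 0 < Q.ord (jb - algebraMap 𝕜 𝔽' a)}) fun Q _ =>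
        (setOf_ord_sub_pos_subsingleton Q jb).finite)
      fun a ⟨Q, hQ, h⟩ => Set.mem_biUnion hQ h
  haveI : Infinite 𝕜 := IsAlgClosed.instInfinite
  obtain ⟨a, ha⟩ := (B.finite_toSet.union hfin).infinite_compl.nonempty
  rw [Set.mem_compl_iff, Set.mem_union, not_or, Finset.mem_coe] at ha
  obtain ⟨f, hf, hfa⟩ := exists_pow_eq_self hA a
  obtain ⟨ζ, hζ, hζ1⟩ := exists_root_lift hA hf hfa
  set u : redV A N hA hℓN :=
    ⟨jBar N Q̄, jBar_mem_redV A N hA hℓN⟩ - ⟨algebraMap Q̄ 𝔽 (ζ : Q̄), algebraMap_mem_redV A N hA hℓN ζ⟩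
  have hu : redρ A N hA hℓN u = jb - algebraMap 𝕜 𝔽' a := by
    rw [map_sub, redρ_jBar, redρ_algebraMap, hζ]
  haveI : IsAlgClosed 𝕜 := GalRep.Model.residue_isAlgClosed A
  obtain ⟨hne', Q, hQ⟩ := exists_place_sub_pos (isFinOver_red A N hA hℓN) a
  have hne : redρ A N hA hℓN u ≠ 0 := by rw [hu]; exact hne'
  haveI : HasPrincipalDivisors Q̄ 𝔽 := by
    letI : Algebra Q̄ ℂ := GalRep.qbarToC.toAlgebra
    exact RR.hasPrincipalDivisors_of_isFinOver (bar_isFinOver_and_finrank N Q̄).1
  have hmap := hr u hne (RR.divOf Q̄ (u : 𝔽)) (fun P => RR.divOf_apply _ P) Q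
  rw [hu] at hmap
  obtain ⟨P, hP, hPpos⟩ : ∃ P, r P = Q ∧ 0 < P.ord (u : 𝔽) := by
    by_contra hcon
    push Not at hcon
    have h1 : Finsupp.mapDomain r (RR.divOf Q̄ (u : 𝔽)) Q ≤ 0 := by
      rw [Finsupp.mapDomain, Finsupp.sum_apply]
      refine Finset.sum_nonpos fun P _ => ?_
      simp only [Finsupp.single_apply]
      split_ifs with h
      · rw [RR.divOf_apply]; exact hcon P h
      · exact le_rfl
    exact absurd hQ (not_lt.mpr (hmap.ge.trans h1))
  obtain ⟨f', hf', hP'⟩ := hB ζ P (hζ ▸ ha.1) ⟨f, hf, hζ1⟩ hPpos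
  exact ⟨P, f', hf', fun hs => ha.2 ⟨Q, hP ▸ hs, hQ⟩, hP'⟩

end Fermat.Agent.MCurve.Flat
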