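import Fermat.Agent.MCurve.Flat.Geom
import Fermat.Agent.MCurve.Flat.Unram
import Fermat.Agent.MCurve.Flat.GenusN
import Fermat.Agent.MCurve.Flat.Order
import Fermat.Agent.MCurve.Flat.Kummer

/-!
Finite flat models of the torsion of `J₀(N)` at a prime of good reduction, from a map of places
computing the divisors of reductions.
-/

set_option autoImplicit false
set_option linter.style.haveILetI false
set_option linter.unusedSectionVars false
set_option synthInstance.maxHeartbeats 400000
set_option maxHeartbeats 1000000

noncomputable section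

namespace Fermat.Agent.MCurve.Flat

open AlgebraicCurve ModularCurve IsLocalRing
open Fermat.Agent.Galois (GQ)

local notation "Q̄" => AlgebraicClosure ℚ

variable {N ℓ : ℕ} [NeZero N] [Fact ℓ.Prime] {A : ValuationSubring Q̄}

/-- The torsion of `J₀(N)` has a finite flat model, given the map of places. -/
theorem hasFlatModel_torsion_of_places (hA : A.LiesOverPrime ℓ) (hℓN : ¬ ℓ ∣ N)
    (hex : ∃ r : Place Q̄ (modularFunctionFieldBar N) →
        Place (ResidueField A) (modularFunctionFieldFullC (ResidueField A) N),
      ∀ u : redV A N hA hℓN, redρ A N hA hℓN u ≠ 0 → ∀ D : Divisor Q̄ (modularFunctionFieldBar N),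
        (∀ P, D P = P.ord (u : modularFunctionFieldBar N)) →
        ∀ Q, Finsupp.mapDomain r D Q = Q.ord (redρ A N hA hℓN u))
    (n : ℕ) [NeZero n] :
    HasFlatModel ↥(Submodule.torsionBy ℤ (JZero N) (n : ℤ)) ℓ := by
  obtain ⟨r, hr⟩ := hex
  let G : GoodModel N ℓ A (ResidueField A) (modularFunctionFieldFullC (ResidueField A) N) :=
    { toRedModel := redModelOf A N hA hℓN r hr
      exists_finOver := exists_finOver_red A N hA hℓN
      genus_eq := genus_eq_redModel A N hA hℓN r hr
      exists_unram := exists_unram A N hA hℓN r hr }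
  haveI := finite_torsionBy N n
  obtain ⟨C⟩ := nonempty_intCoords G (bar_isFinOver N) (n : ℤ)
  exact hasFlatModel_of_intCoords hA C

end Fermat.Agent.MCurve.Flat
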